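/-
S29 / S42 (architect: helper9).  Prefix `s29_`.  Top-level definitions, `Prop`s; nothing is proved.

TARGET (S29): a normalised weight-2 eigenform `g` on `Γ₀(N)` has, for every prime `p` and every
`φ : Z̄ → k`, `char k = p`, a 2-dimensional representation `ρ` of `G_ℚ` over `k`, factoring through
a finite level, unramified outside `N p`, with `charpoly ρ(Frob_ℓ) = X² - φ(a_ℓ) X + ℓ`, `ℓ ∤ N p`.

THE CUT.
  S29  ⇐  [QM] + [FD] + [CYC]                     (file `Fin.lean`, uses [BLR-ALG] = `BlrAlg.lean`)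
  [QM]   a non-zero finite-dimensional Galois module over an algebraically closed `K ⊇ im φ` on
         which every Frobenius at `ℓ ∤ N p` satisfies `σ² - φ(a_ℓ) σ + ℓ = 0` and inertia is trivial
         (= an eigenvector of the Hecke operators in `K ⊗ J₀(N)(Q̄)[p]`, with S37 + S18);
  [FD]   Frobenius' density theorem, in the form: every `g ∈ G_ℚ` and every finite level `L` have
         a Frobenius element `σ` at some `ℓ ∉ S` with `⟨σ|L⟩ = ⟨g|L⟩`;
  [CYC]  the mod `p` cyclotomic character with values in `K`.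
-/
import Mathlib
import Fermat.Prelude.Def_GaloisRep_Residual

set_option autoImplicit false

open Polynomial

namespace Fermat.Agent.S29

/-- **[QM]** the quadratic Galois module attached to an eigenform. -/
def s29_QuadModuleStatement : Prop :=
  ∀ (N : ℕ) [NeZero N] (g : CuspForm (CongruenceSubgroup.Gamma0 N) 2), g.IsNormalizedEigenform →
    ∀ (p : ℕ), p.Prime → ∀ (K : Type) [Field K] [CharP K p] [IsAlgClosed K]
      (φ : integralClosure ℤ ℂ →+* K),
      ∃ (W : Type) (_ : AddCommGroup W) (_ : Module K W) (_ : FiniteDimensional K W)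
        (_ : Nontrivial W)
        (r : (AlgebraicClosure ℚ ≃ₐ[ℚ] AlgebraicClosure ℚ) →* Module.End K W),
        GaloisFactorsThroughFiniteLevel r ∧
        (∀ ℓ : ℕ, ℓ.Prime → ¬ ℓ ∣ N * p →
          ∀ A : ValuationSubring (AlgebraicClosure ℚ), A.LiesOverPrime ℓ →
            ∀ σ ∈ A.inertiaSubgroupIn ℚ, r σ = 1) ∧
        (∀ ℓ : ℕ, ℓ.Prime → ¬ ℓ ∣ N * p →
          ∀ A : ValuationSubring (AlgebraicClosure ℚ), A.LiesOverPrime ℓ →
            ∀ σ : AlgebraicClosure ℚ ≃ₐ[ℚ] AlgebraicClosure ℚ, A.IsFrobeniusAt σ ℓ →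
              ∃ a : integralClosure ℤ ℂ, (a : ℂ) = ModularFormClass.qCoeff g ℓ ∧
                r σ * r σ - φ a • r σ + (ℓ : K) • (1 : Module.End K W) = 0)

/-- **[FD]** Frobenius' density theorem (existence form): for a finite level `L`, an element
`g` of the Galois group and a finite set `S` of primes there is a Frobenius element `σ` at a prime
`ℓ ∉ S` which generates, on `L`, the same cyclic group as `g`. -/
def s29_FDStatement : Prop :=
  ∀ L : IntermediateField ℚ (AlgebraicClosure ℚ), FiniteDimensional ℚ L →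
    ∀ (g : AlgebraicClosure ℚ ≃ₐ[ℚ] AlgebraicClosure ℚ) (S : Finset ℕ),
      ∃ ℓ : ℕ, ℓ.Prime ∧ ℓ ∉ S ∧
        ∃ A : ValuationSubring (AlgebraicClosure ℚ), A.LiesOverPrime ℓ ∧
          ∃ σ : AlgebraicClosure ℚ ≃ₐ[ℚ] AlgebraicClosure ℚ, A.IsFrobeniusAt σ ℓ ∧
            ∃ m m' : ℕ, (∀ x ∈ L, σ x = (g ^ m) x) ∧ (∀ x ∈ L, (σ ^ m') x = g x)

/-- **[CYC]** the mod `p` cyclotomic character, with values in a field of characteristic `p`. -/
def s29_CycStatement : Prop :=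
  ∀ (p : ℕ), p.Prime → ∀ (K : Type) [Field K] [CharP K p],
    ∃ χ : (AlgebraicClosure ℚ ≃ₐ[ℚ] AlgebraicClosure ℚ) →* K,
      GaloisFactorsThroughFiniteLevel χ ∧
      (∀ ℓ : ℕ, ℓ.Prime → ℓ ≠ p →
        ∀ A : ValuationSubring (AlgebraicClosure ℚ), A.LiesOverPrime ℓ →
          ∀ σ ∈ A.inertiaSubgroupIn ℚ, χ σ = 1) ∧
      (∀ ℓ : ℕ, ℓ.Prime → ℓ ≠ p →
        ∀ A : ValuationSubring (AlgebraicClosure ℚ), A.LiesOverPrime ℓ →
          ∀ σ : AlgebraicClosure ℚ ≃ₐ[ℚ] AlgebraicClosure ℚ, A.IsFrobeniusAt σ ℓ →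
            χ σ = (ℓ : K))

/-- **[CORE]** the 2-dimensional representation over an algebraically closed field. -/
def s29_CoreStatement : Prop :=
  ∀ (N : ℕ) [NeZero N] (g : CuspForm (CongruenceSubgroup.Gamma0 N) 2), g.IsNormalizedEigenform →
    ∀ (p : ℕ), p.Prime → ∀ (K : Type) [Field K] [CharP K p] [IsAlgClosed K]
      (φ : integralClosure ℤ ℂ →+* K),
      ∃ ρ : ResidualGaloisRep K, ρ.IsAttachedTo g φ ∧
        (∀ ℓ : ℕ, ℓ.Prime → ¬ ℓ ∣ N * p → ρ.IsUnramifiedAt ℓ) ∧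
        (∀ ℓ : ℕ, ℓ.Prime → ¬ ℓ ∣ N * p →
          ∀ A : ValuationSubring (AlgebraicClosure ℚ), A.LiesOverPrime ℓ →
            ∀ σ : AlgebraicClosure ℚ ≃ₐ[ℚ] AlgebraicClosure ℚ, A.IsFrobeniusAt σ ℓ →
              LinearMap.det (ρ.ρ σ) = (ℓ : K))

/-- The statement S29, verbatim. -/
def s29_Goal : Prop :=
  ∀ {N : ℕ} {g : CuspForm (CongruenceSubgroup.Gamma0 N) 2} (_ : g.IsNormalizedEigenform)
    {p : ℕ} (_ : p.Prime) {k : Type} [Field k] [CharP k p]
    (φ : integralClosure ℤ ℂ →+* k),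
    ∃ ρ : ResidualGaloisRep k, ρ.IsAttachedTo g φ ∧
      ∀ ℓ : ℕ, ℓ.Prime → ¬ ℓ ∣ N * p → ρ.IsUnramifiedAt ℓ

end Fermat.Agent.S29
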