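/-
S29 / S42, leaf **[CYC]** (helper10).  Prefix `s29cy_`.

`s29cy_main : s29_CycStatement` - the mod `p` cyclotomic character with values in an arbitrary
field `K` of characteristic `p`:  `χ σ = ((m : ℕ) : K)` where `σ ζ = ζ ^ m` for a primitive `p`-th
root of unity `ζ ∈ Q̄`.  It factors through the finite level `ℚ(ζ)`, is trivial on the inertia
groups at all `ℓ ≠ p`, and `χ σ = ℓ` for every Frobenius element `σ` at `ℓ ≠ p`.

The local input (`s29cy_pow_congr`): for a valuation subring `A` over `ℓ ≠ p` the `p`-th roots of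
unity are distinct modulo the maximal ideal of `A` (`1 + z + ⋯ + z^(p-1) = 0` cannot hold at
`z = 1` because `p ≠ 0` in the residue field).
-/
import Mathlib
import Fermat.Agent.S29.Defs

set_option autoImplicit false

noncomputable section

namespace Fermat.Agent.S29

/-! ### Roots of unity modulo the maximal ideal of a valuation subring -/

section Local

variable {L : Type*} [Field L] (A : ValuationSubring L)

/-- A root of unity lies in every valuation subring. -/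
theorem s29cy_mem {ζ : L} {n : ℕ} (hn : 0 < n) (h : ζ ^ n = 1) : ζ ∈ A := by
  rcases A.mem_or_inv_mem ζ with h1 | h1
  · exact h1
  · have h3 : ζ ^ (n - 1) * ζ = 1 := by rw [← pow_succ, Nat.sub_add_cancel hn, h]
    have h2 : ζ = (ζ⁻¹) ^ (n - 1) := by
      rw [inv_pow, eq_inv_of_mul_eq_one_left h3, inv_inv]
    rw [h2]
    exact pow_mem h1 _

/-- `ℓ = 0` in the residue field of a valuation subring over `ℓ`. -/
theorem s29cy_natCast_residue {ℓ : ℕ} (hA : A.LiesOverPrime ℓ) :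
    ((ℓ : ℕ) : IsLocalRing.ResidueField A) = 0 := by
  have h3 : (ℓ : L) ∈ A.nonunits := hA
  rw [ValuationSubring.mem_nonunits_iff_exists_mem_maximalIdeal] at h3
  obtain ⟨hmem, h4⟩ := h3
  have h5 : (⟨(ℓ : L), hmem⟩ : A) = (ℓ : A) := Subtype.ext (by simp)
  rw [h5] at h4
  rw [← map_natCast (IsLocalRing.residue A)]
  exact (IsLocalRing.residue_eq_zero_iff _).2 h4

/-- `p ≠ 0` in the residue field of a valuation subring over `ℓ ≠ p`. -/
theorem s29cy_natCast_ne {ℓ p : ℕ} (hℓ : ℓ.Prime) (hp : p.Prime) (hne : ℓ ≠ p)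
    (hA : A.LiesOverPrime ℓ) : ((p : ℕ) : IsLocalRing.ResidueField A) ≠ 0 := by
  intro h0
  have hl := s29cy_natCast_residue A hA
  have hcop : Nat.Coprime p ℓ := (Nat.coprime_primes hp hℓ).2 (Ne.symm hne)
  obtain ⟨a, b, hab⟩ := Nat.Coprime.isCoprime hcop
  have h1 : ((a * (p : ℤ) + b * (ℓ : ℤ) : ℤ) : IsLocalRing.ResidueField A) = 1 := by
    rw [hab]; simp
  push_cast at h1
  rw [h0, hl] at h1
  simp at h1

/-- The `p`-th roots of unity are distinct modulo the maximal ideal of a valuation subring over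
`ℓ ≠ p`. -/
theorem s29cy_pow_congr {ℓ p : ℕ} (hℓ : ℓ.Prime) (hp : p.Prime) (hne : ℓ ≠ p)
    (hA : A.LiesOverPrime ℓ) {ζ : L} (hζ : IsPrimitiveRoot ζ p) (hζA : ζ ∈ A) (a b : ℕ)
    (h : IsLocalRing.residue A ((⟨ζ, hζA⟩ : A) ^ a) =
      IsLocalRing.residue A ((⟨ζ, hζA⟩ : A) ^ b)) :
    (a : ZMod p) = (b : ZMod p) := by
  haveI : Fact p.Prime := ⟨hp⟩
  set z : IsLocalRing.ResidueField A := IsLocalRing.residue A ⟨ζ, hζA⟩ with hz
  have hzp : z ^ p = 1 := by
    rw [hz, ← map_pow]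
    have h1 : (⟨ζ, hζA⟩ : A) ^ p = 1 := Subtype.ext (by simpa using hζ.pow_eq_one)
    rw [h1, map_one]
  have hz1 : z ≠ 1 := by
    intro h1
    have hsum : ∑ i ∈ Finset.range p, (⟨ζ, hζA⟩ : A) ^ i = 0 := by
      apply Subtype.ext
      have h2 := hζ.geom_sum_eq_zero hp.one_lt
      simpa using h2
    have h3 := congrArg (IsLocalRing.residue A) hsum
    rw [map_sum, map_zero] at h3
    simp only [map_pow, ← hz, h1, one_pow, Finset.sum_const, Finset.card_range, nsmul_eq_mul,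
      mul_one] at h3
    exact s29cy_natCast_ne A hℓ hp hne hA h3
  have hz0 : z ≠ 0 := by
    intro h0
    rw [h0, zero_pow hp.ne_zero] at hzp
    exact zero_ne_one hzp
  have hord : orderOf (Units.mk0 z hz0) = p := by
    apply orderOf_eq_prime
    · ext; simpa using hzp
    · intro h2
      apply hz1
      have h3 := congrArg Units.val h2
      simpa using h3
  have hpow : (Units.mk0 z hz0) ^ a = (Units.mk0 z hz0) ^ b := by
    ext
    simp only [Units.val_pow_eq_pow_val, Units.val_mk0]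
    rw [hz, ← map_pow, ← map_pow]
    exact h
  rw [pow_eq_pow_iff_modEq, hord] at hpow
  exact (ZMod.natCast_eq_natCast_iff a b p).2 hpow

end Local

/-! ### The character -/

section Char

variable (p : ℕ) [hp : Fact p.Prime] (K : Type) [Field K] [CharP K p]

/-- The mod `p` cyclotomic character attached to a primitive `p`-th root of unity, with values in
a field `K` of characteristic `p`. -/
def s29cy_chi {ζ : AlgebraicClosure ℚ} (hζ : IsPrimitiveRoot ζ p) :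
    (AlgebraicClosure ℚ ≃ₐ[ℚ] AlgebraicClosure ℚ) →* K :=
  ((ZMod.castHom (dvd_refl p) K : ZMod p →+* K) : ZMod p →* K).comp
    ((Units.coeHom (ZMod p)).comp (hζ.autToPow ℚ))

variable {p} in
/-- The exponent: `σ ζ = ζ ^ m`. -/
def s29cy_exp {ζ : AlgebraicClosure ℚ} (hζ : IsPrimitiveRoot ζ p)
    (σ : AlgebraicClosure ℚ ≃ₐ[ℚ] AlgebraicClosure ℚ) : ℕ :=
  ((hζ.autToPow ℚ σ : (ZMod p)ˣ) : ZMod p).val

variable {p} in
theorem s29cy_exp_spec {ζ : AlgebraicClosure ℚ} (hζ : IsPrimitiveRoot ζ p)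
    (σ : AlgebraicClosure ℚ ≃ₐ[ℚ] AlgebraicClosure ℚ) : σ ζ = ζ ^ s29cy_exp hζ σ :=
  (hζ.autToPow_spec ℚ σ).symm

variable {p} in
theorem s29cy_chi_eq {ζ : AlgebraicClosure ℚ} (hζ : IsPrimitiveRoot ζ p)
    (σ : AlgebraicClosure ℚ ≃ₐ[ℚ] AlgebraicClosure ℚ) :
    s29cy_chi p K hζ σ = ((s29cy_exp hζ σ : ℕ) : K) := by
  have h1 : s29cy_chi p K hζ σ =
      ZMod.castHom (dvd_refl p) K ((hζ.autToPow ℚ σ : (ZMod p)ˣ) : ZMod p) := rfl
  rw [h1, s29cy_exp]
  conv_lhs => rw [← ZMod.natCast_zmod_val ((hζ.autToPow ℚ σ : (ZMod p)ˣ) : ZMod p)]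
  rw [map_natCast]

variable {p} in
/-- If the exponent of `σ` is congruent to `n` modulo `p`, then `χ σ = n`. -/
theorem s29cy_chi_of_congr {ζ : AlgebraicClosure ℚ} (hζ : IsPrimitiveRoot ζ p)
    (σ : AlgebraicClosure ℚ ≃ₐ[ℚ] AlgebraicClosure ℚ) (n : ℕ)
    (h : ((s29cy_exp hζ σ : ℕ) : ZMod p) = (n : ZMod p)) :
    s29cy_chi p K hζ σ = (n : K) := by
  rw [s29cy_chi_eq]
  have h2 := congrArg (ZMod.castHom (dvd_refl p) K) h
  simpa using h2

end Char

/-! ### The three properties -/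

section Props

variable {p : ℕ} [hp : Fact p.Prime] (K : Type) [Field K] [CharP K p]
  {ζ : AlgebraicClosure ℚ} (hζ : IsPrimitiveRoot ζ p)

include hζ in
/-- The residue of `σ ζ`, for `σ` in the decomposition group. -/
theorem s29cy_residue_smul (A : ValuationSubring (AlgebraicClosure ℚ)) (hζA : ζ ∈ A)
    (σ : AlgebraicClosure ℚ ≃ₐ[ℚ] AlgebraicClosure ℚ) (hσ : σ ∈ A.decompositionSubgroup ℚ) :
    (⟨σ, hσ⟩ : A.decompositionSubgroup ℚ) • IsLocalRing.residue A ⟨ζ, hζA⟩ =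
      IsLocalRing.residue A ((⟨ζ, hζA⟩ : A) ^ s29cy_exp hζ σ) := by
  rw [← IsLocalRing.ResidueField.residue_smul]
  congr 1
  apply Subtype.ext
  have h1 : (((⟨σ, hσ⟩ : A.decompositionSubgroup ℚ) • (⟨ζ, hζA⟩ : A) : A) :
      AlgebraicClosure ℚ) = σ ζ := rfl
  rw [h1, s29cy_exp_spec hζ σ]
  simp

/-- `χ` factors through the finite level `ℚ(ζ)`. -/
theorem s29cy_finiteLevel : GaloisFactorsThroughFiniteLevel (s29cy_chi p K hζ) := by
  refine ⟨IntermediateField.adjoin ℚ {ζ}, ?_, fun σ hσ => ?_⟩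
  · exact IntermediateField.adjoin.finiteDimensional
      ((hζ.isIntegral hp.out.pos).tower_top (R := ℤ) (A := ℚ)).isAlgebraic.isIntegral
  · have h1 : σ ζ = ζ := hσ ζ (IntermediateField.mem_adjoin_simple_self ℚ ζ)
    have h2 : ζ ^ s29cy_exp hζ σ = ζ ^ 1 := by rw [← s29cy_exp_spec hζ σ, h1, pow_one]
    have h3 : s29cy_exp hζ σ = 1 :=
      hζ.pow_inj (ZMod.val_lt _) hp.out.one_lt h2
    have h4 := s29cy_chi_of_congr K hζ σ 1 (by rw [h3])
    simpa using h4

/-- `χ` is trivial on the inertia groups at `ℓ ≠ p`. -/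
theorem s29cy_inertia (ℓ : ℕ) (hℓ : ℓ.Prime) (hne : ℓ ≠ p)
    (A : ValuationSubring (AlgebraicClosure ℚ)) (hA : A.LiesOverPrime ℓ)
    (σ : AlgebraicClosure ℚ ≃ₐ[ℚ] AlgebraicClosure ℚ) (hσ : σ ∈ A.inertiaSubgroupIn ℚ) :
    s29cy_chi p K hζ σ = 1 := by
  have hζA : ζ ∈ A := s29cy_mem A hp.out.pos hζ.pow_eq_one
  obtain ⟨g, hg, rfl⟩ := hσ
  have hg1 : ∀ x : IsLocalRing.ResidueField A, g • x = x := by
    intro x
    have h1 : MulSemiringAction.toRingAut (A.decompositionSubgroup ℚ)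
        (IsLocalRing.ResidueField A) g = 1 := hg
    have h2 := congrArg (fun e : RingAut (IsLocalRing.ResidueField A) => e x) h1
    simpa using h2
  have h3 := s29cy_residue_smul hζ A hζA g.1 g.2
  have h4 : (⟨g.1, g.2⟩ : A.decompositionSubgroup ℚ) = g := rfl
  rw [h4, hg1] at h3
  have h5 : IsLocalRing.residue A ((⟨ζ, hζA⟩ : A) ^ s29cy_exp hζ g.1) =
      IsLocalRing.residue A ((⟨ζ, hζA⟩ : A) ^ 1) := by rw [← h3, pow_one]
  have h6 := s29cy_pow_congr A hℓ hp.out hne hA hζ hζA _ _ h5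
  have h7 := s29cy_chi_of_congr K hζ g.1 1 h6
  simpa using h7

/-- `χ σ = ℓ` for a Frobenius element `σ` at `ℓ ≠ p`. -/
theorem s29cy_frob (ℓ : ℕ) (hℓ : ℓ.Prime) (hne : ℓ ≠ p)
    (A : ValuationSubring (AlgebraicClosure ℚ)) (hA : A.LiesOverPrime ℓ)
    (σ : AlgebraicClosure ℚ ≃ₐ[ℚ] AlgebraicClosure ℚ) (hσ : A.IsFrobeniusAt σ ℓ) :
    s29cy_chi p K hζ σ = (ℓ : K) := by
  have hζA : ζ ∈ A := s29cy_mem A hp.out.pos hζ.pow_eq_one
  obtain ⟨hmem, hF⟩ := hσ
  have h3 := s29cy_residue_smul hζ A hζA σ hmem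
  rw [hF, ← map_pow] at h3
  exact s29cy_chi_of_congr K hζ σ ℓ (s29cy_pow_congr A hℓ hp.out hne hA hζ hζA _ _ h3.symm)

end Props

/-- **[CYC]** the mod `p` cyclotomic character, with values in a field of characteristic `p`. -/
theorem s29cy_main : s29_CycStatement := by
  intro p hp K _ _
  haveI : Fact p.Prime := ⟨hp⟩
  haveI : NeZero p := ⟨hp.ne_zero⟩
  obtain ⟨ζ, hζ⟩ := HasEnoughRootsOfUnity.exists_primitiveRoot (AlgebraicClosure ℚ) p
  exact ⟨s29cy_chi p K hζ, s29cy_finiteLevel K hζ,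
    fun ℓ hℓ hne A hA σ hσ => s29cy_inertia K hζ ℓ hℓ hne A hA σ hσ,
    fun ℓ hℓ hne A hA σ hσ => s29cy_frob K hζ ℓ hℓ hne A hA σ hσ⟩

end Fermat.Agent.S29
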