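import Mathlib
import Fermat.Agent.S29.Defs

set_option autoImplicit false

/-!
# [FD] Frobenius' density theorem: the cut (sub-architect: helper5).  Prefix `s29fd_`.

TARGET: `s29_FDStatement` of `S29/Defs.lean`.

THE CUT (every leaf is a closed `Prop`; the composition is `s29fd_main_of` in `FdAsm.lean`):

  [FD-AN]    `∑_ℓ c_K(ℓ) ℓ^(-s) = log (1/(s-1)) + O(1)` for every number field `K`, where
             `c_K(ℓ)` is the number of ideals (= primes) of norm `ℓ`.  Adapter on top of the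
             S14 library (`anLog_primeSumStatement`, `anLog_higherDegreeStatement`).
  [FD-ALG]   counting: for `L/ℚ` Galois with group `G`, `H ≤ G`, `K = L^H`, `ℓ ∤ disc L`:
             `|H| · c_K(ℓ) = ∑_{𝔓 ∣ ℓ, D(𝔓) ≤ H} |D(𝔓)|`   (`D(𝔓)` the stabiliser of `𝔓` in `G`).
  [FD-MOB]   the abstract induction over the divisors of `n` (pure analysis).
  [FD-CORE]  ([FD-AN] + [FD-ALG] + [FD-MOB] ⟹) every cyclic subgroup `⟨g⟩` of `G` is the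
             decomposition group of a prime over some `ℓ ∉ S`, `ℓ ∤ disc L`.
  [FD-CYC]   at an unramified prime `𝔓` every Frobenius element generates `D(𝔓)`.
  [FD-BR]    the bridge to valuation subrings of `ℚ̄` ([FD-CORE] + [FD-CYC] ⟹ [FD]).
-/

namespace Fermat.Agent.S29

open NumberField
open scoped Pointwise

/-- The number of ideals of norm `n` (the `n`-th coefficient of the Dedekind zeta function). -/
noncomputable def s29fd_c (K : Type) [Field K] [NumberField K] (n : ℕ) : ℕ :=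
  Nat.card {I : Ideal (𝓞 K) // Ideal.absNorm I = n}

/-- The number of primes `𝔓` of `L` over `ℓ` whose decomposition group is exactly `D`. -/
noncomputable def s29fd_v (L : Type) [Field L] [NumberField L] (D : Subgroup (L ≃ₐ[ℚ] L))
    (ℓ : ℕ) : ℕ :=
  Nat.card {𝔓 : Ideal (𝓞 L) // 𝔓.IsPrime ∧ ((ℓ : ℕ) : 𝓞 L) ∈ 𝔓 ∧
    MulAction.stabilizer (L ≃ₐ[ℚ] L) 𝔓 = D}

/-- **[FD-AN]** `∑_ℓ c_K(ℓ) ℓ^(-s) = log (1/(s-1)) + O(1)` on `(1, 2]`, for every number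
field `K`. -/
def s29fd_AnStatement : Prop :=
  ∀ (K : Type) [Field K] [NumberField K], ∃ C : ℝ, ∀ s : ℝ, 1 < s → s ≤ 2 →
    Summable (fun ℓ : Nat.Primes => (s29fd_c K (ℓ : ℕ) : ℝ) * ((ℓ : ℕ) : ℝ) ^ (-s)) ∧
    |(∑' ℓ : Nat.Primes, (s29fd_c K (ℓ : ℕ) : ℝ) * ((ℓ : ℕ) : ℝ) ^ (-s)) -
      Real.log (1 / (s - 1))| ≤ C

/-- **[FD-ALG]** counting primes of degree one of a fixed field. -/
def s29fd_AlgStatement : Prop :=
  ∀ (L : Type) [Field L] [NumberField L] [IsGalois ℚ L] (H : Subgroup (L ≃ₐ[ℚ] L)) (ℓ : ℕ),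
    ℓ.Prime → ¬ ((ℓ : ℤ) ∣ NumberField.discr L) →
    Nat.card H * s29fd_c (IntermediateField.fixedField H) ℓ =
      ∑ᶠ D : {D : Subgroup (L ≃ₐ[ℚ] L) // D ≤ H}, Nat.card D.1 * s29fd_v L D.1 ℓ

/-- **[FD-MOB]** the abstract induction: if `d · c_d(ℓ) = ∑_{d' ∣ d} d' · v_{d'}(ℓ)` for the
divisors `d` of `n` and the primes `ℓ ∉ B`, and every `c_d` has prime sum
`log (1/(s-1)) + O(1)`, then `v_n(ℓ) ≠ 0` for some `ℓ` outside any finite set. -/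
def s29fd_MobStatement : Prop :=
  ∀ (n : ℕ), 0 < n → ∀ (c v : ℕ → ℕ → ℕ) (B : Finset ℕ),
    (∀ d ∈ n.divisors, ∃ C : ℝ, ∀ s : ℝ, 1 < s → s ≤ 2 →
      Summable (fun ℓ : Nat.Primes => (c d (ℓ : ℕ) : ℝ) * ((ℓ : ℕ) : ℝ) ^ (-s)) ∧
      |(∑' ℓ : Nat.Primes, (c d (ℓ : ℕ) : ℝ) * ((ℓ : ℕ) : ℝ) ^ (-s)) -
        Real.log (1 / (s - 1))| ≤ C) →
    (∀ d ∈ n.divisors, ∀ ℓ : ℕ, ℓ.Prime → ℓ ∉ B →
      d * c d ℓ = ∑ d' ∈ d.divisors, d' * v d' ℓ) →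
    ∀ S : Finset ℕ, ∃ ℓ : ℕ, ℓ.Prime ∧ ℓ ∉ S ∧ ℓ ∉ B ∧ v n ℓ ≠ 0

/-- **[FD-CORE]** in a finite Galois extension `L/ℚ`, every cyclic subgroup `⟨g⟩` is the
decomposition group of a prime of `L` over a rational prime `ℓ ∉ S`, `ℓ ∤ disc L`. -/
def s29fd_CoreStatement : Prop :=
  ∀ (L : Type) [Field L] [NumberField L] [IsGalois ℚ L] (g : L ≃ₐ[ℚ] L) (S : Finset ℕ),
    ∃ ℓ : ℕ, ℓ.Prime ∧ ℓ ∉ S ∧ ¬ ((ℓ : ℤ) ∣ NumberField.discr L) ∧
      ∃ 𝔓 : Ideal (𝓞 L), 𝔓.IsPrime ∧ ((ℓ : ℕ) : 𝓞 L) ∈ 𝔓 ∧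
        MulAction.stabilizer (L ≃ₐ[ℚ] L) 𝔓 = Subgroup.zpowers g

/-- **[FD-CYC]** at a prime `𝔓` over `ℓ ∤ disc L`, every Frobenius element generates the
decomposition group. -/
def s29fd_CycStatement : Prop :=
  ∀ (L : Type) [Field L] [NumberField L] [IsGalois ℚ L] (ℓ : ℕ),
    ℓ.Prime → ¬ ((ℓ : ℤ) ∣ NumberField.discr L) →
    ∀ 𝔓 : Ideal (𝓞 L), 𝔓.IsPrime → ((ℓ : ℕ) : 𝓞 L) ∈ 𝔓 →
      ∀ φ : L ≃ₐ[ℚ] L, (∀ x : 𝓞 L, φ • x - x ^ ℓ ∈ 𝔓) →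
        Subgroup.zpowers φ = MulAction.stabilizer (L ≃ₐ[ℚ] L) 𝔓

/-- **[FD-BR]** the bridge from primes of number fields to valuation subrings of `ℚ̄`. -/
def s29fd_BridgeStatement : Prop :=
  s29fd_CoreStatement → s29fd_CycStatement → s29_FDStatement

/-- **[FD-CORE-OF]** the assembly of the core. -/
def s29fd_CoreOfStatement : Prop :=
  s29fd_AnStatement → s29fd_AlgStatement → s29fd_MobStatement → s29fd_CoreStatement

/-- The composition. -/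
theorem s29fd_main_of (hAn : s29fd_AnStatement) (hAlg : s29fd_AlgStatement)
    (hMob : s29fd_MobStatement) (hCoreOf : s29fd_CoreOfStatement) (hCyc : s29fd_CycStatement)
    (hBr : s29fd_BridgeStatement) : s29_FDStatement :=
  hBr (hCoreOf hAn hAlg hMob) hCyc

end Fermat.Agent.S29
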