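import Mathlib
import Fermat.Agent.S29.FdDefs
import Fermat.Agent.S14.EulerLogFinal

set_option autoImplicit false
set_option linter.style.haveILetI false
set_option linter.unusedVariables false
set_option linter.unusedSectionVars false

/-!
# S29, [FD-AN]: the prime sum of the coefficients of the Dedekind zeta function

`s29fd_an_main : s29fd_AnStatement`: for every number field `K`,
`∑_ℓ c_K(ℓ) ℓ^(-s) = log (1/(s-1)) + O(1)` on `(1, 2]`, where `c_K(ℓ)` is the number of ideals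
of norm `ℓ`.  This is an adapter on top of the S14 library (`anLog_primeSumStatement`,
`anLog_higherDegreeStatement`): the primes of prime norm are regrouped by their norm, and an
ideal of prime norm is a prime ideal.  Prefix `s29fda_`.
-/

namespace Fermat.Agent.S29

open NumberField IsDedekindDomain

section Fibre

variable (K : Type) [Field K] [NumberField K]

/-- The primes of norm `ℓ` are the ideals of norm `ℓ`. -/
noncomputable def s29fda_fibEquiv (ℓ : Nat.Primes) :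
    {P : HeightOneSpectrum (𝓞 K) // Ideal.absNorm P.asIdeal = (ℓ : ℕ)} ≃
      {I : Ideal (𝓞 K) // Ideal.absNorm I = (ℓ : ℕ)} where
  toFun P := ⟨P.1.asIdeal, P.2⟩
  invFun I :=
    ⟨⟨I.1, Ideal.isPrime_of_irreducible_absNorm (by
        rw [I.2]
        exact Nat.Prime.prime ℓ.2 |>.irreducible), by
        intro h
        have h2 := I.2
        rw [h, Ideal.absNorm_bot] at h2
        exact ℓ.2.ne_zero h2.symm⟩, I.2⟩
  left_inv P := by
    apply Subtype.ext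
    rfl
  right_inv I := by
    apply Subtype.ext
    rfl

lemma s29fda_card_fib (ℓ : Nat.Primes) :
    Nat.card {P : HeightOneSpectrum (𝓞 K) // Ideal.absNorm P.asIdeal = (ℓ : ℕ)} =
      s29fd_c K (ℓ : ℕ) :=
  Nat.card_congr (s29fda_fibEquiv K ℓ)

/-- The primes of prime norm, sorted by their norm. -/
noncomputable def s29fda_sigmaEquiv :
    (Σ ℓ : Nat.Primes, {P : HeightOneSpectrum (𝓞 K) // Ideal.absNorm P.asIdeal = (ℓ : ℕ)}) ≃
      ({P : HeightOneSpectrum (𝓞 K) | (Ideal.absNorm P.asIdeal).Prime} : Set _) where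
  toFun x := ⟨x.2.1, by
    show (Ideal.absNorm x.2.1.asIdeal).Prime
    rw [x.2.2]
    exact x.1.2⟩
  invFun P := ⟨⟨Ideal.absNorm P.1.asIdeal, P.2⟩, ⟨P.1, rfl⟩⟩
  left_inv x := by
    obtain ⟨ℓ, P, hP⟩ := x
    obtain ⟨ℓ, hℓ⟩ := ℓ
    simp only at hP
    subst hP
    rfl
  right_inv P := by
    apply Subtype.ext
    rfl

lemma s29fda_sigmaEquiv_coe
    (x : Σ ℓ : Nat.Primes, {P : HeightOneSpectrum (𝓞 K) // Ideal.absNorm P.asIdeal = (ℓ : ℕ)}) :
    (Ideal.absNorm ((s29fda_sigmaEquiv K x : HeightOneSpectrum (𝓞 K))).asIdeal : ℝ) =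
      ((x.1 : ℕ) : ℝ) := by
  have h : Ideal.absNorm ((s29fda_sigmaEquiv K x : HeightOneSpectrum (𝓞 K))).asIdeal =
      (x.1 : ℕ) := x.2.2
  rw [h]

end Fibre

section Regroup

variable (K : Type) [Field K] [NumberField K]

/-- Regrouping the sum over the primes of prime norm by the norm. -/
lemma s29fda_regroup (s : ℝ)
    (hS : Summable (fun P : HeightOneSpectrum (𝓞 K) =>
      (Ideal.absNorm P.asIdeal : ℝ) ^ (-s))) :
    Summable (fun ℓ : Nat.Primes => (s29fd_c K (ℓ : ℕ) : ℝ) * ((ℓ : ℕ) : ℝ) ^ (-s)) ∧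
    ∑' ℓ : Nat.Primes, (s29fd_c K (ℓ : ℕ) : ℝ) * ((ℓ : ℕ) : ℝ) ^ (-s) =
      ∑' P : ({P : HeightOneSpectrum (𝓞 K) | (Ideal.absNorm P.asIdeal).Prime} : Set _),
        (Ideal.absNorm P.1.asIdeal : ℝ) ^ (-s) := by
  -- the summand on the sigma type
  set g : (Σ ℓ : Nat.Primes,
      {P : HeightOneSpectrum (𝓞 K) // Ideal.absNorm P.asIdeal = (ℓ : ℕ)}) → ℝ :=
    fun x => ((x.1 : ℕ) : ℝ) ^ (-s) with hg
  have hsub : Summable (fun P : ({P : HeightOneSpectrum (𝓞 K) |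
      (Ideal.absNorm P.asIdeal).Prime} : Set _) => (Ideal.absNorm P.1.asIdeal : ℝ) ^ (-s)) :=
    hS.subtype _
  have hgeq : g = (fun P : ({P : HeightOneSpectrum (𝓞 K) |
      (Ideal.absNorm P.asIdeal).Prime} : Set _) => (Ideal.absNorm P.1.asIdeal : ℝ) ^ (-s)) ∘
      (s29fda_sigmaEquiv K) := by
    funext x
    simp only [Function.comp_apply, hg]
    rw [s29fda_sigmaEquiv_coe]
  have hgs : Summable g := by
    rw [hgeq]
    exact (Equiv.summable_iff (s29fda_sigmaEquiv K)).mpr hsub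
  have hg0 : ∀ x, 0 ≤ g x := fun x => Real.rpow_nonneg (Nat.cast_nonneg _) _
  have hsig := (summable_sigma_of_nonneg hg0).mp hgs
  have hinner : ∀ ℓ : Nat.Primes,
      ∑' P : {P : HeightOneSpectrum (𝓞 K) // Ideal.absNorm P.asIdeal = (ℓ : ℕ)},
        g ⟨ℓ, P⟩ = (s29fd_c K (ℓ : ℕ) : ℝ) * ((ℓ : ℕ) : ℝ) ^ (-s) := by
    intro ℓ
    simp only [hg]
    rw [tsum_const, s29fda_card_fib, nsmul_eq_mul]
  have htsum : ∑' x, g x = ∑' ℓ : Nat.Primes,
      ∑' P : {P : HeightOneSpectrum (𝓞 K) // Ideal.absNorm P.asIdeal = (ℓ : ℕ)}, g ⟨ℓ, P⟩ :=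
    Summable.tsum_sigma' hsig.1 hgs
  refine ⟨?_, ?_⟩
  · have := hsig.2
    refine this.congr (fun ℓ => ?_)
    exact hinner ℓ
  · calc ∑' ℓ : Nat.Primes, (s29fd_c K (ℓ : ℕ) : ℝ) * ((ℓ : ℕ) : ℝ) ^ (-s)
        = ∑' ℓ : Nat.Primes,
            ∑' P : {P : HeightOneSpectrum (𝓞 K) // Ideal.absNorm P.asIdeal = (ℓ : ℕ)},
              g ⟨ℓ, P⟩ := by
          refine tsum_congr (fun ℓ => ?_)
          exact (hinner ℓ).symm
      _ = ∑' x, g x := htsum.symm
      _ = ∑' P : ({P : HeightOneSpectrum (𝓞 K) | (Ideal.absNorm P.asIdeal).Prime} : Set _),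
            (Ideal.absNorm P.1.asIdeal : ℝ) ^ (-s) := by
          rw [hgeq]
          exact (s29fda_sigmaEquiv K).tsum_eq (fun P : ({P : HeightOneSpectrum (𝓞 K) |
            (Ideal.absNorm P.asIdeal).Prime} : Set _) => (Ideal.absNorm P.1.asIdeal : ℝ) ^ (-s))

end Regroup

/-- **[FD-AN]** `∑_ℓ c_K(ℓ) ℓ^(-s) = log (1/(s-1)) + O(1)` on `(1, 2]`. -/
theorem s29fd_an_main : s29fd_AnStatement := by
  intro K _ _
  obtain ⟨c1, hc1⟩ := Fermat.Agent.S14.anLog_primeSumStatement K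
  obtain ⟨c2, hc2⟩ := Fermat.Agent.S14.anLog_higherDegreeStatement K
  refine ⟨c1 + c2, fun s hs hs2 => ?_⟩
  obtain ⟨hS, hb⟩ := hc1 s hs hs2
  have hS' : Summable (fun P : HeightOneSpectrum (𝓞 K) =>
      (Ideal.absNorm P.asIdeal : ℝ) ^ (-s)) := hS
  obtain ⟨hsum, heq⟩ := s29fda_regroup K s hS'
  refine ⟨hsum, ?_⟩
  rw [heq]
  have hsplit := hS'.tsum_subtype_add_tsum_subtype_compl
    {P : HeightOneSpectrum (𝓞 K) | (Ideal.absNorm P.asIdeal).Prime}
  have hcompl : ∑' P : ({P : HeightOneSpectrum (𝓞 K) |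
      (Ideal.absNorm P.asIdeal).Prime}ᶜ : Set _), (Ideal.absNorm P.1.asIdeal : ℝ) ^ (-s) ≤ c2 :=
    hc2 s hs hs2
  have hcompl0 : 0 ≤ ∑' P : ({P : HeightOneSpectrum (𝓞 K) |
      (Ideal.absNorm P.asIdeal).Prime}ᶜ : Set _), (Ideal.absNorm P.1.asIdeal : ℝ) ^ (-s) :=
    tsum_nonneg (fun P : ({P : HeightOneSpectrum (𝓞 K) |
      (Ideal.absNorm P.asIdeal).Prime}ᶜ : Set _) =>
      Real.rpow_nonneg (Nat.cast_nonneg (Ideal.absNorm P.1.asIdeal)) (-s))
  have hb' : |∑' P : HeightOneSpectrum (𝓞 K), (Ideal.absNorm P.asIdeal : ℝ) ^ (-s) -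
      Real.log (1 / (s - 1))| ≤ c1 := hb
  rw [abs_le] at hb' ⊢
  constructor
  · linarith [hb'.1]
  · linarith [hb'.2]

end Fermat.Agent.S29
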