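import Mathlib
import Fermat.Agent.S29.FdDefs
import Fermat.Agent.S54.FrobInt
import Fermat.Agent.S54.FrobVal

set_option autoImplicit false
set_option linter.style.haveILetI false

/-!
# [FD-BR] the bridge from primes of number fields to valuation subrings of `ℚ̄`
(helper6; prefix `s29fdb_`).

`s29fd_bridge_main : s29fd_BridgeStatement`, i.e. [FD-CORE] + [FD-CYC] ⟹ [FD].

Route: `L ⊆ L₁ :=` the normal closure of `L` in `ℚ̄`, `g₁ := g|L₁`; [FD-CORE] gives a prime `𝔓`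
of `𝓞 L₁` over `ℓ ∉ S`, `ℓ ∤ disc`, whose stabiliser is `⟨g₁⟩`; choose a maximal ideal `Q` of the
ring `Z̄` of all algebraic integers over `𝔓` and a Frobenius element `σ` at `Q`; then `σ|L₁` is a
Frobenius element at `𝔓`, so `⟨σ|L₁⟩ = ⟨g₁⟩` by [FD-CYC].
-/

namespace Fermat.Agent.S29

open NumberField
open scoped Pointwise

/-- A Frobenius element at a GIVEN maximal ideal of the ring of all algebraic integers. -/
theorem s29fdb_exists_frob (ℓ : ℕ) (hℓ : ℓ.Prime)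
    (Q : Ideal (integralClosure ℤ (AlgebraicClosure ℚ))) (hQ : Q.IsMaximal)
    (hℓQ : ((ℓ : ℤ) : integralClosure ℤ (AlgebraicClosure ℚ)) ∈ Q) :
    ∃ σ : AlgebraicClosure ℚ ≃ₐ[ℚ] AlgebraicClosure ℚ,
      ∀ b : integralClosure ℤ (AlgebraicClosure ℚ),
        ∃ c : integralClosure ℤ (AlgebraicClosure ℚ),
          (c : AlgebraicClosure ℚ) = σ (b : AlgebraicClosure ℚ) ∧ c - b ^ ℓ ∈ Q := by
  classical
  have halg : Algebra.IsAlgebraic ℚ (AlgebraicClosure ℚ) := AlgebraicClosure.isAlgebraic ℚ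
  have hclos : IsAlgClosure ℚ (AlgebraicClosure ℚ) := AlgebraicClosure.instIsAlgClosure ℚ
  have hgal : IsGalois ℚ (AlgebraicClosure ℚ) := inferInstance
  have hinv := Fermat.Agent.S54.isInvariant_integralClosure
  have hQp : Q.IsPrime := hQ.isPrime
  letI : TopologicalSpace (integralClosure ℤ (AlgebraicClosure ℚ)) := ⊥
  have hdisc : DiscreteTopology (integralClosure ℤ (AlgebraicClosure ℚ)) := ⟨rfl⟩
  have hcont : ContinuousSMul (AlgebraicClosure ℚ ≃ₐ[ℚ] AlgebraicClosure ℚ)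
      (integralClosure ℤ (AlgebraicClosure ℚ)) := by
    rw [continuousSMul_iff_stabilizer_isOpen]
    intro x
    have := stabilizer_isOpen_of_isIntegral (K := ℚ) (L := AlgebraicClosure ℚ)
      (x : AlgebraicClosure ℚ)
    convert this using 1
    ext g
    simp only [SetLike.mem_coe, MulAction.mem_stabilizer_iff]
    constructor
    · intro h
      exact congrArg (fun z : integralClosure ℤ (AlgebraicClosure ℚ) =>
        (z : AlgebraicClosure ℚ)) h
    · intro h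
      exact Subtype.ext h
  -- the Frobenius automorphism of the residue field
  letI : Field (integralClosure ℤ (AlgebraicClosure ℚ) ⧸ Q) := Ideal.Quotient.field Q
  have hchar : CharP (integralClosure ℤ (AlgebraicClosure ℚ) ⧸ Q) ℓ := by
    haveI : Fact ℓ.Prime := ⟨hℓ⟩
    refine (CharP.charP_iff_prime_eq_zero hℓ).mpr ?_
    have : Ideal.Quotient.mk Q ((ℓ : ℤ) : integralClosure ℤ (AlgebraicClosure ℚ)) = 0 :=
      Ideal.Quotient.eq_zero_iff_mem.mpr hℓQ
    simpa using this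
  haveI hexp : ExpChar (integralClosure ℤ (AlgebraicClosure ℚ) ⧸ Q) ℓ := ExpChar.prime hℓ
  have hsurj : Function.Surjective
      (frobenius (integralClosure ℤ (AlgebraicClosure ℚ) ⧸ Q) ℓ) := by
    intro x
    obtain ⟨b, rfl⟩ := Ideal.Quotient.mk_surjective x
    obtain ⟨y, hy⟩ := IsAlgClosed.exists_pow_nat_eq (b : AlgebraicClosure ℚ) hℓ.pos
    have hyint : y ∈ integralClosure ℤ (AlgebraicClosure ℚ) := by
      have : IsIntegral ℤ (y ^ ℓ) := by rw [hy]; exact b.2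
      exact IsIntegral.of_pow hℓ.pos this
    refine ⟨Ideal.Quotient.mk Q ⟨y, hyint⟩, ?_⟩
    rw [frobenius_def, ← map_pow]
    congr 1
    exact Subtype.ext hy
  have hinj : Function.Injective
      (frobenius (integralClosure ℤ (AlgebraicClosure ℚ) ⧸ Q) ℓ) :=
    frobenius_inj _ ℓ
  let P : Ideal ℤ := Q.under ℤ
  let frobRing : (integralClosure ℤ (AlgebraicClosure ℚ) ⧸ Q) ≃+*
      (integralClosure ℤ (AlgebraicClosure ℚ) ⧸ Q) :=
    RingEquiv.ofBijective (frobenius (integralClosure ℤ (AlgebraicClosure ℚ) ⧸ Q) ℓ)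
      ⟨hinj, hsurj⟩
  let frobAlg : (integralClosure ℤ (AlgebraicClosure ℚ) ⧸ Q) ≃ₐ[ℤ ⧸ P]
      (integralClosure ℤ (AlgebraicClosure ℚ) ⧸ Q) :=
    AlgEquiv.ofRingEquiv (f := frobRing) (by
      intro x
      obtain ⟨n, rfl⟩ := Ideal.Quotient.mk_surjective x
      show frobenius _ ℓ (algebraMap (ℤ ⧸ P) _ (Ideal.Quotient.mk P n)) =
        algebraMap (ℤ ⧸ P) _ (Ideal.Quotient.mk P n)
      have h1 : algebraMap (ℤ ⧸ P) (integralClosure ℤ (AlgebraicClosure ℚ) ⧸ Q)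
          (Ideal.Quotient.mk P n) = ((n : ℤ) : integralClosure ℤ (AlgebraicClosure ℚ) ⧸ Q) := by
        rw [Ideal.Quotient.algebraMap_mk_of_liesOver]
        simp
      rw [h1, frobenius_def]
      haveI : Fact ℓ.Prime := ⟨hℓ⟩
      have h := ZMod.pow_card ((n : ZMod ℓ))
      have h2 := congrArg
        (ZMod.castHom (dvd_refl ℓ) (integralClosure ℤ (AlgebraicClosure ℚ) ⧸ Q)) h
      rw [map_pow, map_intCast] at h2
      exact h2)
  obtain ⟨σ, hσ⟩ := Ideal.Quotient.stabilizerHom_surjective_of_profinite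
    (G := AlgebraicClosure ℚ ≃ₐ[ℚ] AlgebraicClosure ℚ) P Q frobAlg
  refine ⟨σ.1, fun b => ⟨σ.1 • b, rfl, ?_⟩⟩
  have h1 := DFunLike.congr_fun hσ (Ideal.Quotient.mk Q b)
  rw [Ideal.Quotient.stabilizerHom_apply] at h1
  have h2 : frobAlg (Ideal.Quotient.mk Q b) = Ideal.Quotient.mk Q (b ^ ℓ) := by
    show frobenius _ ℓ (Ideal.Quotient.mk Q b) = _
    rw [frobenius_def, map_pow]
  rw [h2] at h1
  exact Ideal.Quotient.eq.mp h1


/-- The inclusion of the ring of integers of a finite level into the ring of all algebraic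
integers. -/
noncomputable def s29fdb_incl (L₁ : IntermediateField ℚ (AlgebraicClosure ℚ))
    [FiniteDimensional ℚ L₁] [NumberField L₁] :
    𝓞 L₁ →+* integralClosure ℤ (AlgebraicClosure ℚ) :=
  RingHom.codRestrict
    ((algebraMap L₁ (AlgebraicClosure ℚ)).comp (algebraMap (𝓞 L₁) L₁))
    (integralClosure ℤ (AlgebraicClosure ℚ))
    (fun x => by
      have hx : IsIntegral ℤ ((x : 𝓞 L₁) : L₁) := RingOfIntegers.isIntegral_coe x
      exact IsIntegral.map (algebraMap L₁ (AlgebraicClosure ℚ)).toIntAlgHom hx)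

theorem s29fdb_incl_coe (L₁ : IntermediateField ℚ (AlgebraicClosure ℚ))
    [FiniteDimensional ℚ L₁] [NumberField L₁] (x : 𝓞 L₁) :
    ((s29fdb_incl L₁ x : integralClosure ℤ (AlgebraicClosure ℚ)) : AlgebraicClosure ℚ) =
      (((x : 𝓞 L₁) : L₁) : AlgebraicClosure ℚ) := rfl

theorem s29fdb_incl_injective (L₁ : IntermediateField ℚ (AlgebraicClosure ℚ))
    [FiniteDimensional ℚ L₁] [NumberField L₁] : Function.Injective (s29fdb_incl L₁) := by
  intro x y h
  have h1 := congrArg (fun z : integralClosure ℤ (AlgebraicClosure ℚ) =>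
    (z : AlgebraicClosure ℚ)) h
  simp only [s29fdb_incl_coe] at h1
  exact RingOfIntegers.ext (Subtype.ext h1)

/-- Lying over: a maximal ideal of the ring of all algebraic integers over a non-zero prime of
the ring of integers of a finite level. -/
theorem s29fdb_exists_over (L₁ : IntermediateField ℚ (AlgebraicClosure ℚ))
    [FiniteDimensional ℚ L₁] [NumberField L₁] (𝔓 : Ideal (𝓞 L₁)) (h𝔓 : 𝔓.IsPrime)
    (h0 : 𝔓 ≠ ⊥) :
    ∃ Q : Ideal (integralClosure ℤ (AlgebraicClosure ℚ)), Q.IsMaximal ∧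
      Q.comap (s29fdb_incl L₁) = 𝔓 := by
  letI : Algebra (𝓞 L₁) (integralClosure ℤ (AlgebraicClosure ℚ)) := (s29fdb_incl L₁).toAlgebra
  haveI : Algebra.IsIntegral (𝓞 L₁) (integralClosure ℤ (AlgebraicClosure ℚ)) := by
    refine ⟨fun z => ?_⟩
    have hz : IsIntegral ℤ z := Algebra.IsIntegral.isIntegral z
    exact hz.tower_top
  haveI : 𝔓.IsMaximal := h𝔓.isMaximal h0
  have hker : RingHom.ker (algebraMap (𝓞 L₁) (integralClosure ℤ (AlgebraicClosure ℚ))) ≤ 𝔓 := by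
    intro x hx
    have hx0 : s29fdb_incl L₁ x = 0 := hx
    have : x = 0 := s29fdb_incl_injective L₁ (by rw [hx0, map_zero])
    rw [this]
    exact 𝔓.zero_mem
  obtain ⟨Q, hQ, hQ𝔓⟩ := Ideal.exists_ideal_over_maximal_of_isIntegral 𝔓 hker
  exact ⟨Q, hQ, hQ𝔓⟩

/-- Restriction to a normal finite level commutes with natural powers. -/
theorem s29fdb_restrict_pow (L₁ : IntermediateField ℚ (AlgebraicClosure ℚ)) [Normal ℚ L₁]
    (g : AlgebraicClosure ℚ ≃ₐ[ℚ] AlgebraicClosure ℚ) (m : ℕ) (x : AlgebraicClosure ℚ)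
    (hx : x ∈ L₁) :
    (((g.restrictNormal L₁) ^ m) ⟨x, hx⟩ : AlgebraicClosure ℚ) = (g ^ m) x := by
  have h1 : (g.restrictNormal L₁) ^ m = (g ^ m).restrictNormal L₁ := by
    have := map_pow (AlgEquiv.restrictNormalHom (F := ℚ) (K₁ := AlgebraicClosure ℚ) L₁) g m
    exact this.symm
  rw [h1]
  exact AlgEquiv.restrictNormal_commutes (g ^ m) L₁ ⟨x, hx⟩

/-- **[FD]** for a finite Galois level. -/
theorem s29fdb_galois (hCore : s29fd_CoreStatement) (hCyc : s29fd_CycStatement)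
    (L₁ : IntermediateField ℚ (AlgebraicClosure ℚ)) [FiniteDimensional ℚ L₁] [Normal ℚ L₁]
    (g : AlgebraicClosure ℚ ≃ₐ[ℚ] AlgebraicClosure ℚ) (S : Finset ℕ) :
    ∃ ℓ : ℕ, ℓ.Prime ∧ ℓ ∉ S ∧
        ∃ A : ValuationSubring (AlgebraicClosure ℚ), A.LiesOverPrime ℓ ∧
          ∃ σ : AlgebraicClosure ℚ ≃ₐ[ℚ] AlgebraicClosure ℚ, A.IsFrobeniusAt σ ℓ ∧
            ∃ m m' : ℕ, (∀ x ∈ L₁, σ x = (g ^ m) x) ∧ (∀ x ∈ L₁, (σ ^ m') x = g x) := by
  classical
  haveI hnf : NumberField L₁ :=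
    { to_charZero := inferInstance, to_finiteDimensional := inferInstance }
  haveI hgal : IsGalois ℚ L₁ := { }
  obtain ⟨ℓ, hℓ, hℓS, hdisc, 𝔓, h𝔓, hℓ𝔓, hstab⟩ := hCore L₁ (g.restrictNormal L₁) S
  have h0 : 𝔓 ≠ ⊥ := by
    intro h
    rw [h] at hℓ𝔓
    have h1 : ((ℓ : ℕ) : 𝓞 L₁) = 0 := hℓ𝔓
    exact hℓ.ne_zero (by exact_mod_cast h1)
  obtain ⟨Q, hQ, hQ𝔓⟩ := s29fdb_exists_over L₁ 𝔓 h𝔓 h0
  have hℓQ : ((ℓ : ℤ) : integralClosure ℤ (AlgebraicClosure ℚ)) ∈ Q := by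
    have h1 : s29fdb_incl L₁ ((ℓ : ℕ) : 𝓞 L₁) ∈ Q := by
      rw [← Ideal.mem_comap, hQ𝔓]; exact hℓ𝔓
    simpa using h1
  obtain ⟨σ, hσ⟩ := s29fdb_exists_frob ℓ hℓ Q hQ hℓQ
  obtain ⟨A, hA, hAσ⟩ := Fermat.Agent.S54.isFrobeniusAt_of_integral ℓ hℓ Q σ hQ hℓQ hσ
  -- the restriction of `σ` is a Frobenius element at `𝔓`
  have hfrob : ∀ x : 𝓞 L₁, (σ.restrictNormal L₁) • x - x ^ ℓ ∈ 𝔓 := by
    intro x
    rw [← hQ𝔓, Ideal.mem_comap]
    obtain ⟨c, hc, hcQ⟩ := hσ (s29fdb_incl L₁ x)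
    have h1 : s29fdb_incl L₁ ((σ.restrictNormal L₁) • x - x ^ ℓ) =
        c - (s29fdb_incl L₁ x) ^ ℓ := by
      rw [map_sub, map_pow]
      congr 1
      apply Subtype.ext
      rw [hc, s29fdb_incl_coe, s29fdb_incl_coe]
      exact AlgEquiv.restrictNormal_commutes σ L₁ ((x : 𝓞 L₁) : L₁)
    rw [h1]
    exact hcQ
  have hz := hCyc L₁ ℓ hℓ hdisc 𝔓 h𝔓 hℓ𝔓 (σ.restrictNormal L₁) hfrob
  rw [hstab] at hz
  have h1 : σ.restrictNormal L₁ ∈ Subgroup.zpowers (g.restrictNormal L₁) := by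
    rw [← hz]; exact Subgroup.mem_zpowers _
  have h2 : g.restrictNormal L₁ ∈ Subgroup.zpowers (σ.restrictNormal L₁) := by
    rw [hz]; exact Subgroup.mem_zpowers _
  rw [← mem_powers_iff_mem_zpowers] at h1 h2
  obtain ⟨m, hm⟩ := h1
  obtain ⟨m', hm'⟩ := h2
  refine ⟨ℓ, hℓ, hℓS, A, hA, σ, hAσ, m, m', ?_, ?_⟩
  · intro x hx
    have h3 := s29fdb_restrict_pow L₁ g m x hx
    have h4 := s29fdb_restrict_pow L₁ σ 1 x hx
    rw [pow_one] at h4
    rw [pow_one] at h4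
    rw [← h4, ← h3]
    have hm2 : (g.restrictNormal L₁) ^ m = σ.restrictNormal L₁ := hm
    rw [hm2]
  · intro x hx
    have h3 := s29fdb_restrict_pow L₁ σ m' x hx
    have h4 := s29fdb_restrict_pow L₁ g 1 x hx
    rw [pow_one] at h4
    rw [pow_one] at h4
    rw [← h4, ← h3]
    have hm2 : (σ.restrictNormal L₁) ^ m' = g.restrictNormal L₁ := hm'
    rw [hm2]

/-- **[FD-BR]** the bridge: [FD-CORE] + [FD-CYC] ⟹ [FD]. -/
theorem s29fd_bridge_main : s29fd_BridgeStatement := by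
  intro hCore hCyc L hL g S
  haveI : FiniteDimensional ℚ L := hL
  have hclos : IsAlgClosure ℚ (AlgebraicClosure ℚ) := AlgebraicClosure.instIsAlgClosure ℚ
  have hnorm : Normal ℚ (AlgebraicClosure ℚ) := IsAlgClosure.normal ℚ (AlgebraicClosure ℚ)
  have hfin : FiniteDimensional ℚ (IntermediateField.normalClosure ℚ L (AlgebraicClosure ℚ)) :=
    normalClosure.is_finiteDimensional ℚ L (AlgebraicClosure ℚ)
  have hn : Normal ℚ (IntermediateField.normalClosure ℚ L (AlgebraicClosure ℚ)) :=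
    @normalClosure.normal ℚ L (AlgebraicClosure ℚ) _ _ _ _ _ hnorm
  obtain ⟨ℓ, hℓ, hℓS, A, hA, σ, hσ, m, m', h1, h2⟩ :=
    @s29fdb_galois hCore hCyc (IntermediateField.normalClosure ℚ L (AlgebraicClosure ℚ))
      hfin hn g S
  have hle : L ≤ IntermediateField.normalClosure ℚ L (AlgebraicClosure ℚ) :=
    IntermediateField.le_normalClosure L
  exact ⟨ℓ, hℓ, hℓS, A, hA, σ, hσ, m, m', fun x hx => h1 x (hle hx),
    fun x hx => h2 x (hle hx)⟩

end Fermat.Agent.S29
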