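import Mathlib
import Fermat.Agent.S29.FdDefs

/-!
# S29, [FD-CORE-OF]: the assembly of the core of Frobenius' density theorem (helper8).
Prefix `s29fdc_`.

`[FD-AN] + [FD-ALG] + [FD-MOB] ⟹ [FD-CORE]`: with `n := orderOf g` and
`H_d := ⟨g ^ (n / d)⟩` (the subgroup of order `d` of `⟨g⟩`, `d ∣ n`), the subgroups of `H_d`
are exactly the `H_{d'}`, `d' ∣ d`; so [FD-ALG] for `H_d` is the hypothesis of [FD-MOB] with
`c d := s29fd_c (L^{H_d})`, `v d := s29fd_v L H_d`.
-/

set_option autoImplicit false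
set_option linter.unusedSectionVars false

open NumberField
open scoped Pointwise

namespace Fermat.Agent.S29

/-! ### Subgroups of a finite cyclic group -/

section cyclic

variable {G : Type*} [Group G] [Finite G]

/-- The subgroup `⟨g ^ (n / d)⟩`, `n = orderOf g`: it has order `d` when `d ∣ n`. -/
noncomputable def s29fdc_H (g : G) (d : ℕ) : Subgroup G := Subgroup.zpowers (g ^ (orderOf g / d))

theorem s29fdc_H_self (g : G) : s29fdc_H g (orderOf g) = Subgroup.zpowers g := by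
  rw [s29fdc_H, Nat.div_self (orderOf_pos g), pow_one]

theorem s29fdc_card_H (g : G) {d : ℕ} (hd : d ∣ orderOf g) : Nat.card (s29fdc_H g d) = d := by
  have hn : 0 < orderOf g := orderOf_pos g
  have hd0 : 0 < d := Nat.pos_of_dvd_of_pos hd hn
  have h1 : orderOf g / d ∣ orderOf g := Nat.div_dvd_of_dvd hd
  have h2 : orderOf g / d ≠ 0 := (Nat.div_pos (Nat.le_of_dvd hn hd) hd0).ne'
  rw [s29fdc_H, Nat.card_zpowers, orderOf_pow_of_dvd h2 h1, Nat.div_div_self hd hn.ne']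

theorem s29fdc_H_le_zpowers (g : G) (d : ℕ) : s29fdc_H g d ≤ Subgroup.zpowers g :=
  Subgroup.zpowers_le_of_mem (Subgroup.npow_mem_zpowers g _)

theorem s29fdc_H_le (g : G) {d' d : ℕ} (h : d' ∣ d) (hd : d ∣ orderOf g) :
    s29fdc_H g d' ≤ s29fdc_H g d := by
  have hn : 0 < orderOf g := orderOf_pos g
  have hd0 : 0 < d := Nat.pos_of_dvd_of_pos hd hn
  have hd'0 : 0 < d' := Nat.pos_of_dvd_of_pos h hd0
  obtain ⟨a, rfl⟩ := h
  obtain ⟨b, hb⟩ := hd
  have e1 : orderOf g / (d' * a) = b := by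
    rw [hb, Nat.mul_div_cancel_left _ hd0]
  have e2 : orderOf g / d' = b * a := by
    rw [hb, mul_assoc, Nat.mul_div_cancel_left _ hd'0, mul_comm]
  refine Subgroup.zpowers_le_of_mem ?_
  rw [s29fdc_H, e1, e2, pow_mul]
  exact Subgroup.npow_mem_zpowers _ _

/-- A subgroup of `⟨g⟩` is the `H_d` of its own order. -/
theorem s29fdc_eq_H (g : G) {D : Subgroup G} (hD : D ≤ Subgroup.zpowers g) :
    Nat.card D ∣ orderOf g ∧ D = s29fdc_H g (Nat.card D) := by
  have hn : 0 < orderOf g := orderOf_pos g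
  have hdvd : Nat.card D ∣ orderOf g := by
    rw [← Nat.card_zpowers g]
    exact Subgroup.card_dvd_of_le hD
  refine ⟨hdvd, ?_⟩
  have hd0 : 0 < Nat.card D := Nat.pos_of_dvd_of_pos hdvd hn
  have hle : D ≤ s29fdc_H g (Nat.card D) := by
    intro x hx
    obtain ⟨k, hk⟩ := (mem_powers_iff_mem_zpowers).mpr (hD hx)
    have hk' : g ^ k = x := hk
    have hx1 : x ^ Nat.card D = 1 := by
      have := pow_card_eq_one' (G := D) (x := ⟨x, hx⟩)
      exact congrArg Subtype.val this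
    rw [← hk', ← pow_mul] at hx1
    have h1 : orderOf g ∣ k * Nat.card D := orderOf_dvd_of_pow_eq_one hx1
    obtain ⟨b, hb⟩ := hdvd
    have hb' : orderOf g / Nat.card D = b := by
      rw [hb, Nat.mul_div_cancel_left _ hd0]
    have h2 : b ∣ k := by
      rw [hb, mul_comm] at h1
      exact Nat.dvd_of_mul_dvd_mul_right hd0 h1
    obtain ⟨c, rfl⟩ := h2
    rw [s29fdc_H, hb', ← hk', pow_mul]
    exact Subgroup.npow_mem_zpowers _ _
  exact Subgroup.eq_of_le_of_card_ge hle (by rw [s29fdc_card_H g hdvd])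

/-- The sum over the subgroups of `H_d` is the sum over the divisors of `d`. -/
theorem s29fdc_finsum (g : G) {d : ℕ} (hd : d ∣ orderOf g) (F : Subgroup G → ℕ) :
    ∑ᶠ D : {D : Subgroup G // D ≤ s29fdc_H g d}, F D.1 =
      ∑ d' ∈ d.divisors, F (s29fdc_H g d') := by
  classical
  have hn : 0 < orderOf g := orderOf_pos g
  have hd0 : 0 < d := Nat.pos_of_dvd_of_pos hd hn
  let e : {x // x ∈ d.divisors} → {D : Subgroup G // D ≤ s29fdc_H g d} := fun x =>
    ⟨s29fdc_H g x.1, s29fdc_H_le g (Nat.dvd_of_mem_divisors x.2) hd⟩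
  have he : Function.Bijective e := by
    constructor
    · intro x y hxy
      have h1 : s29fdc_H g x.1 = s29fdc_H g y.1 := congrArg Subtype.val hxy
      have hx := s29fdc_card_H g ((Nat.dvd_of_mem_divisors x.2).trans hd)
      have hy := s29fdc_card_H g ((Nat.dvd_of_mem_divisors y.2).trans hd)
      rw [h1, hy] at hx
      exact Subtype.ext hx.symm
    · rintro ⟨D, hD⟩
      obtain ⟨h1, h2⟩ := s29fdc_eq_H g (hD.trans (s29fdc_H_le_zpowers g d))
      have h3 : Nat.card D ∣ d := by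
        have := Subgroup.card_dvd_of_le hD
        rwa [s29fdc_card_H g hd] at this
      exact ⟨⟨Nat.card D, Nat.mem_divisors.mpr ⟨h3, hd0.ne'⟩⟩, Subtype.ext h2.symm⟩
  rw [← finsum_eq_of_bijective e he (f := fun x => F (s29fdc_H g x.1)) (fun x => rfl),
    finsum_eq_sum_of_fintype]
  exact Finset.sum_coe_sort d.divisors (fun x => F (s29fdc_H g x))

end cyclic

/-! ### The assembly -/

/-- **[FD-CORE-OF]** -/
theorem s29fd_core_of : s29fd_CoreOfStatement := by
  intro hAn hAlg hMob L _ _ _ g S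
  classical
  have hn : 0 < orderOf g := orderOf_pos g
  have hdisc : (NumberField.discr L).natAbs ≠ 0 :=
    Int.natAbs_ne_zero.mpr (NumberField.discr_ne_zero L)
  have hB : ∀ ℓ : ℕ, ℓ.Prime → ℓ ∉ (NumberField.discr L).natAbs.primeFactors →
      ¬ ((ℓ : ℤ) ∣ NumberField.discr L) := by
    intro ℓ hℓ hℓB h
    apply hℓB
    rw [Nat.mem_primeFactors]
    exact ⟨hℓ, Int.natCast_dvd.mp h, hdisc⟩
  obtain ⟨ℓ, hℓ, hℓS, hℓB, hv⟩ := hMob (orderOf g) hn
    (fun d ℓ => s29fd_c (IntermediateField.fixedField (s29fdc_H g d)) ℓ)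
    (fun d ℓ => s29fd_v L (s29fdc_H g d) ℓ)
    (NumberField.discr L).natAbs.primeFactors
    (fun d _ => hAn (IntermediateField.fixedField (s29fdc_H g d)))
    (fun d hd ℓ hℓ hℓB => by
      have hdn : d ∣ orderOf g := Nat.dvd_of_mem_divisors hd
      have h := hAlg L (s29fdc_H g d) ℓ hℓ (hB ℓ hℓ hℓB)
      rw [s29fdc_card_H g hdn,
        s29fdc_finsum g hdn (fun D => Nat.card D * s29fd_v L D ℓ)] at h
      rw [h]
      refine Finset.sum_congr rfl fun d' hd' => ?_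
      rw [s29fdc_card_H g ((Nat.dvd_of_mem_divisors hd').trans hdn)])
    S
  refine ⟨ℓ, hℓ, hℓS, hB ℓ hℓ hℓB, ?_⟩
  have hv' : s29fd_v L (s29fdc_H g (orderOf g)) ℓ ≠ 0 := hv
  rw [s29fd_v] at hv'
  have hne : Nonempty {𝔓 : Ideal (𝓞 L) // 𝔓.IsPrime ∧ ((ℓ : ℕ) : 𝓞 L) ∈ 𝔓 ∧
      MulAction.stabilizer (L ≃ₐ[ℚ] L) 𝔓 = s29fdc_H g (orderOf g)} := by
    by_contra hcon
    rw [not_nonempty_iff] at hcon
    exact hv' Nat.card_of_isEmpty
  obtain ⟨⟨𝔓, h1, h2, h3⟩⟩ := hne
  exact ⟨𝔓, h1, h2, by rw [h3, s29fdc_H_self]⟩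

example : s29fd_CoreOfStatement := s29fd_core_of

end Fermat.Agent.S29
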