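import Mathlib
import Fermat.Agent.S29.FdDefs

set_option autoImplicit false

/-!
# [FD-CYC] at an unramified prime every Frobenius element generates the decomposition group

Owner: helper3.  Prefix `s29fdy_`.  Target: `s29fd_CycStatement` of `S29/FdDefs.lean`, VERBATIM.

Route.  Let `𝔓` be a prime of `𝓞 L` over `ℓ ∤ disc L` and `φ` with `φ x ≡ x ^ ℓ (mod 𝔓)`.
* `𝔓 ∩ ℤ = (ℓ)`, so `φ` is an arithmetic Frobenius at `𝔓` in Mathlib's sense and lies in the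
  stabiliser `D` of `𝔓`.
* For `σ ∈ D` the induced automorphism of the finite field `𝓞 L ⧸ 𝔓` over `ℤ ⧸ (ℓ)` is a power
  `x ↦ x ^ (ℓ ^ i)` of the Frobenius, hence `σ ≡ φ ^ i` modulo `𝔓`.
* `τ := σ (φ ^ i)⁻¹` is then trivial modulo `𝔓`, so `τ φ` is again an arithmetic Frobenius at
  `𝔓`; `𝔓` being unramified, Frobenius elements are unique: `τ φ = φ` on `𝓞 L`, hence `τ = 1`
  (the action on `𝓞 L` is faithful) and `σ = φ ^ i`.
-/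

namespace Fermat.Agent.S29

open NumberField
open scoped Pointwise

/-- A prime of `𝓞 L` containing the rational prime `ℓ` lies over `(ℓ)`. -/
theorem s29fdy_under (L : Type) [Field L] [NumberField L] (ℓ : ℕ) (hℓ : ℓ.Prime)
    (𝔓 : Ideal (𝓞 L)) (h𝔓 : 𝔓.IsPrime) (hℓ𝔓 : ((ℓ : ℕ) : 𝓞 L) ∈ 𝔓) :
    𝔓.under ℤ = Ideal.span {(ℓ : ℤ)} := by
  have : Fact ℓ.Prime := ⟨hℓ⟩
  have := h𝔓
  have hmax : (Ideal.span {(ℓ : ℤ)}).IsMaximal := Int.ideal_span_isMaximal_of_prime ℓ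
  symm
  apply hmax.eq_of_le
  · exact (Ideal.IsPrime.under ℤ 𝔓).ne_top
  · rw [Ideal.span_singleton_le_iff_mem, Ideal.under_def, Ideal.mem_comap]
    simpa using hℓ𝔓

/-- Powers of a Frobenius element act as powers of the Frobenius map modulo `𝔓`. -/
theorem s29fdy_pow (L : Type) [Field L] [NumberField L] (ℓ : ℕ)
    (𝔓 : Ideal (𝓞 L)) (φ : L ≃ₐ[ℚ] L) (hφ : ∀ x : 𝓞 L, φ • x - x ^ ℓ ∈ 𝔓) (i : ℕ) (x : 𝓞 L) :
    Ideal.Quotient.mk 𝔓 ((φ ^ i) • x) = (Ideal.Quotient.mk 𝔓 x) ^ (ℓ ^ i) := by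
  induction i generalizing x with
  | zero => simp
  | succ i ih =>
    rw [pow_succ, mul_smul, ih (φ • x), pow_succ, pow_mul']
    congr 1
    rw [← map_pow, Ideal.Quotient.eq]
    exact hφ x

theorem s29fd_cyc_main : s29fd_CycStatement := by
  intro L _ _ _ ℓ hℓ hdisc 𝔓 h𝔓 hℓ𝔓 φ hφ
  have := h𝔓
  have : Fact ℓ.Prime := ⟨hℓ⟩
  have hprime : Prime (ℓ : ℤ) := Nat.prime_iff_prime_int.mp hℓ
  have hunr : Algebra.IsUnramifiedAt ℤ 𝔓 :=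
    (NumberField.not_dvd_discr_iff_forall_mem L (𝓞 L) hprime).mp hdisc 𝔓 h𝔓
      (by simpa using hℓ𝔓)
  have hunder := s29fdy_under L ℓ hℓ 𝔓 h𝔓 hℓ𝔓
  have hcard : Nat.card (ℤ ⧸ 𝔓.under ℤ) = ℓ := by
    rw [hunder]; exact Int.card_ideal_quot ℓ
  have hF : IsArithFrobAt ℤ φ 𝔓 := by
    intro x
    rw [hcard]
    exact hφ x
  have hmem : φ ∈ MulAction.stabilizer (L ≃ₐ[ℚ] L) 𝔓 := hF.mem_stabilizer
  refine le_antisymm ((Subgroup.zpowers_le).mpr hmem) ?_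
  intro σ hσ
  -- the induced automorphism of the residue field is a power of the Frobenius
  have hover : 𝔓.LiesOver (Ideal.span {(ℓ : ℤ)}) := ⟨hunder.symm⟩
  have hmaxℓ : (Ideal.span {(ℓ : ℤ)}).IsMaximal := Int.ideal_span_isMaximal_of_prime ℓ
  have h𝔓0 : 𝔓 ≠ ⊥ := by
    rintro rfl
    have h0 : ((ℓ : ℕ) : 𝓞 L) = 0 := by simpa using hℓ𝔓
    exact hℓ.ne_zero (by exact_mod_cast h0)
  have hmax𝔓 : 𝔓.IsMaximal := h𝔓.isMaximal h𝔓0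
  let _ := Ideal.Quotient.field (Ideal.span {(ℓ : ℤ)})
  let _ := Ideal.Quotient.field 𝔓
  have hchar : CharP (ℤ ⧸ Ideal.span {(ℓ : ℤ)}) ℓ := ringChar.of_eq <| Int.ringChar_idealQuot ℓ
  have hfinℓ : Finite (ℤ ⧸ Ideal.span {(ℓ : ℤ)}) :=
    Nat.finite_of_card_ne_zero (by rw [Int.card_ideal_quot]; exact hℓ.ne_zero)
  have hfin : Finite (𝓞 L ⧸ 𝔓) := Ring.HasFiniteQuotients.finiteQuotient h𝔓0
  obtain ⟨i, hi⟩ := FiniteField.exists_forall_apply_eq_pow (ℤ ⧸ Ideal.span {(ℓ : ℤ)}) ℓ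
    (𝓞 L ⧸ 𝔓) (Ideal.Quotient.stabilizerHom 𝔓 (Ideal.span {(ℓ : ℤ)}) (L ≃ₐ[ℚ] L) ⟨σ, hσ⟩)
  have hσφ : ∀ x : 𝓞 L, σ • x - (φ ^ i) • x ∈ 𝔓 := by
    intro x
    rw [← Ideal.Quotient.eq, s29fdy_pow L ℓ 𝔓 φ hφ i x]
    have := hi (Ideal.Quotient.mk 𝔓 x)
    rw [Int.card_ideal_quot] at this
    rw [← this]
    rfl
  -- `τ := σ (φ ^ i)⁻¹` is trivial modulo `𝔓`
  have hτ : ∀ y : 𝓞 L, (σ * (φ ^ i)⁻¹) • y - y ∈ 𝔓 := by
    intro y
    have := hσφ ((φ ^ i)⁻¹ • y)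
    rwa [smul_inv_smul, ← mul_smul] at this
  -- hence `τ φ` is again an arithmetic Frobenius at `𝔓`
  have hF' : IsArithFrobAt ℤ (σ * (φ ^ i)⁻¹ * φ) 𝔓 := by
    intro x
    have h1 := hτ (φ • x)
    have h2 := hF x
    have h3 := 𝔓.add_mem h1 h2
    have e : (MulSemiringAction.toAlgHom ℤ (𝓞 L) (σ * (φ ^ i)⁻¹ * φ)) x
        - x ^ Nat.card (ℤ ⧸ 𝔓.under ℤ)
        = ((σ * (φ ^ i)⁻¹) • φ • x - φ • x) +
          ((MulSemiringAction.toAlgHom ℤ (𝓞 L) φ) x - x ^ Nat.card (ℤ ⧸ 𝔓.under ℤ)) := by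
      simp only [MulSemiringAction.toAlgHom_apply, mul_smul]
      ring
    rw [e]
    exact h3
  -- uniqueness of the Frobenius at an unramified prime
  have hle : 𝔓.primeCompl ≤ nonZeroDivisors (𝓞 L) := by
    intro x hx
    refine mem_nonZeroDivisors_of_ne_zero ?_
    rintro rfl
    exact hx 𝔓.zero_mem
  have heq := AlgHom.IsArithFrobAt.eq_of_isUnramifiedAt hF' hF hle
  have hfaith : FaithfulSMul (L ≃ₐ[ℚ] L) (𝓞 L) :=
    (inferInstance : IsGaloisGroup (L ≃ₐ[ℚ] L) ℤ (𝓞 L)).faithful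
  have hτφ : σ * (φ ^ i)⁻¹ * φ = φ := by
    apply hfaith.eq_of_smul_eq_smul
    intro x
    exact DFunLike.congr_fun heq x
  have hσ_eq : σ = φ ^ i := by
    have h1 : σ * (φ ^ i)⁻¹ = 1 := mul_right_cancel (b := φ) (by rw [hτφ, one_mul])
    exact mul_inv_eq_one.mp h1
  rw [hσ_eq]
  exact Subgroup.pow_mem _ (Subgroup.mem_zpowers φ) i

example : s29fd_CycStatement := s29fd_cyc_main

end Fermat.Agent.S29
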