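/-
S29 / [FD] Frobenius' density theorem, leaf [FD-MOB] (helper25).  Prefix `s29fdm_`.

  `s29fd_mob_main : s29fd_MobStatement`

the abstract induction over the divisors of `n`.  With `T := S ∪ B` and
`A_d (s) := ∑_{ℓ ∉ T} d · v_d (ℓ) ℓ^(-s)` the hypotheses give
`∑_{d' ∣ d} A_{d'} (s) = d · log (1 / (s - 1)) + O(1)`, hence by strong induction
(`∑_{d' ∣ d} φ(d') = d`) `A_d (s) = φ(d) · log (1 / (s - 1)) + O(1)`; for `d = n` the left side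
would vanish identically if `v_n (ℓ) = 0` for all `ℓ ∉ T`, which is absurd at
`s = 1 + exp (-M)`, `M` large.
-/
import Mathlib
import Fermat.Agent.S29.FdDefs

set_option autoImplicit false

namespace Fermat.Agent.S29

open Finset

/-- the weight `ℓ ^ (-s)`. -/
noncomputable def s29fdm_w (s : ℝ) (ℓ : Nat.Primes) : ℝ := ((ℓ : ℕ) : ℝ) ^ (-s)

theorem s29fdm_w_nonneg (s : ℝ) (ℓ : Nat.Primes) : 0 ≤ s29fdm_w s ℓ :=
  Real.rpow_nonneg (Nat.cast_nonneg _) _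

theorem s29fdm_w_le_one {s : ℝ} (hs : 0 ≤ s) (ℓ : Nat.Primes) : s29fdm_w s ℓ ≤ 1 := by
  unfold s29fdm_w
  have h1 : (1 : ℝ) ≤ ((ℓ : ℕ) : ℝ) := by exact_mod_cast ℓ.2.one_lt.le
  exact Real.rpow_le_one_of_one_le_of_nonpos h1 (by linarith)

/-- the truncated term: `0` at the primes of `T`. -/
noncomputable def s29fdm_t (T : Finset ℕ) (u : ℕ → ℕ) (s : ℝ) (ℓ : Nat.Primes) : ℝ :=
  if (ℓ : ℕ) ∈ T then 0 else (u (ℓ : ℕ) : ℝ) * s29fdm_w s ℓ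

theorem s29fdm_t_nonneg (T : Finset ℕ) (u : ℕ → ℕ) (s : ℝ) (ℓ : Nat.Primes) :
    0 ≤ s29fdm_t T u s ℓ := by
  unfold s29fdm_t
  split_ifs
  · exact le_rfl
  · exact mul_nonneg (Nat.cast_nonneg _) (s29fdm_w_nonneg s ℓ)

theorem s29fdm_t_le (T : Finset ℕ) (u : ℕ → ℕ) (s : ℝ) (ℓ : Nat.Primes) :
    s29fdm_t T u s ℓ ≤ (u (ℓ : ℕ) : ℝ) * s29fdm_w s ℓ := by
  unfold s29fdm_t
  split_ifs
  · exact mul_nonneg (Nat.cast_nonneg _) (s29fdm_w_nonneg s ℓ)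
  · exact le_rfl

theorem s29fdm_t_mono (T : Finset ℕ) {u u' : ℕ → ℕ} (s : ℝ) (ℓ : Nat.Primes)
    (h : (ℓ : ℕ) ∉ T → u (ℓ : ℕ) ≤ u' (ℓ : ℕ)) : s29fdm_t T u s ℓ ≤ s29fdm_t T u' s ℓ := by
  unfold s29fdm_t
  split_ifs with hT
  · exact le_rfl
  · exact mul_le_mul_of_nonneg_right (by exact_mod_cast h hT) (s29fdm_w_nonneg s ℓ)

theorem s29fdm_t_summable (T : Finset ℕ) (u : ℕ → ℕ) (s : ℝ)
    (h : Summable (fun ℓ : Nat.Primes => (u (ℓ : ℕ) : ℝ) * ((ℓ : ℕ) : ℝ) ^ (-s))) :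
    Summable (s29fdm_t T u s) :=
  Summable.of_nonneg_of_le (s29fdm_t_nonneg T u s) (s29fdm_t_le T u s) h

/-- the primes of `T` cost at most `∑_{m ∈ T} u m`. -/
theorem s29fdm_t_diff (T : Finset ℕ) (u : ℕ → ℕ) {s : ℝ} (hs : 0 ≤ s)
    (h : Summable (fun ℓ : Nat.Primes => (u (ℓ : ℕ) : ℝ) * ((ℓ : ℕ) : ℝ) ^ (-s))) :
    |(∑' ℓ, s29fdm_t T u s ℓ) - ∑' ℓ : Nat.Primes, (u (ℓ : ℕ) : ℝ) * ((ℓ : ℕ) : ℝ) ^ (-s)| ≤
      ∑ m ∈ T, (u m : ℝ) := by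
  have hsum := s29fdm_t_summable T u s h
  have hr : Summable (fun ℓ : Nat.Primes =>
      (u (ℓ : ℕ) : ℝ) * ((ℓ : ℕ) : ℝ) ^ (-s) - s29fdm_t T u s ℓ) := h.sub hsum
  have hr0 : ∀ ℓ : Nat.Primes,
      0 ≤ (u (ℓ : ℕ) : ℝ) * ((ℓ : ℕ) : ℝ) ^ (-s) - s29fdm_t T u s ℓ :=
    fun ℓ => sub_nonneg.2 (s29fdm_t_le T u s ℓ)
  have hle : ∑' ℓ : Nat.Primes, ((u (ℓ : ℕ) : ℝ) * ((ℓ : ℕ) : ℝ) ^ (-s) - s29fdm_t T u s ℓ) ≤
      ∑ m ∈ T, (u m : ℝ) := by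
    apply Real.tsum_le_of_sum_le hr0
    intro F
    classical
    calc ∑ ℓ ∈ F, ((u (ℓ : ℕ) : ℝ) * ((ℓ : ℕ) : ℝ) ^ (-s) - s29fdm_t T u s ℓ)
        ≤ ∑ ℓ ∈ F, (if (ℓ : ℕ) ∈ T then (u (ℓ : ℕ) : ℝ) else 0) := by
          apply Finset.sum_le_sum
          intro ℓ _
          by_cases hT : (ℓ : ℕ) ∈ T
          · have e : s29fdm_t T u s ℓ = 0 := if_pos hT
            rw [e, sub_zero, if_pos hT]
            calc (u (ℓ : ℕ) : ℝ) * ((ℓ : ℕ) : ℝ) ^ (-s) ≤ (u (ℓ : ℕ) : ℝ) * 1 :=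
                  mul_le_mul_of_nonneg_left (s29fdm_w_le_one hs ℓ) (Nat.cast_nonneg _)
              _ = (u (ℓ : ℕ) : ℝ) := mul_one _
          · have e : s29fdm_t T u s ℓ = (u (ℓ : ℕ) : ℝ) * ((ℓ : ℕ) : ℝ) ^ (-s) := if_neg hT
            rw [e, sub_self, if_neg hT]
      _ = ∑ ℓ ∈ F.filter (fun ℓ : Nat.Primes => (ℓ : ℕ) ∈ T), (u (ℓ : ℕ) : ℝ) := by
          rw [Finset.sum_filter]
      _ = ∑ m ∈ (F.filter (fun ℓ : Nat.Primes => (ℓ : ℕ) ∈ T)).image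
            (fun ℓ : Nat.Primes => (ℓ : ℕ)), (u m : ℝ) := by
          rw [Finset.sum_image]
          intro x _ y _ hxy
          exact Subtype.ext hxy
      _ ≤ ∑ m ∈ T, (u m : ℝ) := by
          apply Finset.sum_le_sum_of_subset_of_nonneg
          · intro m hm
            rw [Finset.mem_image] at hm
            obtain ⟨ℓ, hℓ, rfl⟩ := hm
            exact (Finset.mem_filter.1 hℓ).2
          · intro m _ _
            exact Nat.cast_nonneg _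
  have h0 : 0 ≤ ∑' ℓ : Nat.Primes,
      ((u (ℓ : ℕ) : ℝ) * ((ℓ : ℕ) : ℝ) ^ (-s) - s29fdm_t T u s ℓ) := tsum_nonneg hr0
  rw [h.tsum_sub hsum] at hle h0
  rw [abs_le]
  constructor <;> linarith

/-- a uniform constant for finitely many bounds. -/
theorem s29fdm_uniform {α : Type*} (Dset : Finset α) (P : α → ℝ → Prop)
    (hmono : ∀ a K K', P a K → K ≤ K' → P a K') (h : ∀ a ∈ Dset, ∃ K, P a K) :
    ∃ K, 0 ≤ K ∧ ∀ a ∈ Dset, P a K := by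
  classical
  induction Dset using Finset.induction_on with
  | empty => exact ⟨0, le_rfl, fun a ha => absurd ha (Finset.notMem_empty a)⟩
  | insert a s ha ih =>
    obtain ⟨K₁, hK₁, h₁⟩ := ih (fun b hb => h b (Finset.mem_insert_of_mem hb))
    obtain ⟨K₂, h₂⟩ := h a (Finset.mem_insert_self a s)
    refine ⟨max K₁ K₂, le_max_of_le_left hK₁, fun b hb => ?_⟩
    rcases Finset.mem_insert.1 hb with rfl | hb
    · exact hmono _ _ _ h₂ (le_max_right _ _)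
    · exact hmono _ _ _ (h₁ b hb) (le_max_left _ _)

/-- `D (s) = log (1 / (s - 1))`. -/
noncomputable def s29fdm_D (s : ℝ) : ℝ := Real.log (1 / (s - 1))

theorem s29fdm_D_exp (M : ℝ) : s29fdm_D (1 + Real.exp (-M)) = M := by
  unfold s29fdm_D
  rw [add_sub_cancel_left, one_div, ← Real.exp_neg, neg_neg, Real.log_exp]

/-- `A_d (s) = ∑_{ℓ ∉ T} d · v_d (ℓ) ℓ^(-s)`. -/
noncomputable def s29fdm_A (v : ℕ → ℕ → ℕ) (T : Finset ℕ) (d : ℕ) (s : ℝ) : ℝ :=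
  ∑' ℓ : Nat.Primes, s29fdm_t T (fun m => d * v d m) s ℓ

/-- `E_d (s) = ∑_{ℓ ∉ T} d · c_d (ℓ) ℓ^(-s)`. -/
noncomputable def s29fdm_E (c : ℕ → ℕ → ℕ) (T : Finset ℕ) (d : ℕ) (s : ℝ) : ℝ :=
  ∑' ℓ : Nat.Primes, s29fdm_t T (fun m => d * c d m) s ℓ

section Main

variable {n : ℕ} {c v : ℕ → ℕ → ℕ} {B T : Finset ℕ}

theorem s29fdm_summable_dc {d : ℕ} {s : ℝ}
    (h : Summable (fun ℓ : Nat.Primes => (c d (ℓ : ℕ) : ℝ) * ((ℓ : ℕ) : ℝ) ^ (-s))) :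
    Summable (fun ℓ : Nat.Primes =>
      (((fun m => d * c d m) (ℓ : ℕ) : ℕ) : ℝ) * ((ℓ : ℕ) : ℝ) ^ (-s)) := by
  have := h.mul_left (d : ℝ)
  refine this.congr fun ℓ => ?_
  push_cast
  ring

theorem s29fdm_tsum_dc {d : ℕ} {s : ℝ} :
    (∑' ℓ : Nat.Primes, (((fun m => d * c d m) (ℓ : ℕ) : ℕ) : ℝ) * ((ℓ : ℕ) : ℝ) ^ (-s)) =
      d * ∑' ℓ : Nat.Primes, (c d (ℓ : ℕ) : ℝ) * ((ℓ : ℕ) : ℝ) ^ (-s) := by
  rw [← tsum_mul_left]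
  refine tsum_congr fun ℓ => ?_
  push_cast
  ring

/-- the bound for `E_d`. -/
theorem s29fdm_E_bound (T : Finset ℕ) {d : ℕ} {C : ℝ}
    (h : ∀ s : ℝ, 1 < s → s ≤ 2 →
      Summable (fun ℓ : Nat.Primes => (c d (ℓ : ℕ) : ℝ) * ((ℓ : ℕ) : ℝ) ^ (-s)) ∧
      |(∑' ℓ : Nat.Primes, (c d (ℓ : ℕ) : ℝ) * ((ℓ : ℕ) : ℝ) ^ (-s)) -
        Real.log (1 / (s - 1))| ≤ C) (s : ℝ) (hs1 : 1 < s) (hs2 : s ≤ 2) :
    |s29fdm_E c T d s - d * s29fdm_D s| ≤ d * C + ∑ m ∈ T, ((d * c d m : ℕ) : ℝ) := by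
  obtain ⟨hsum, hC⟩ := h s hs1 hs2
  have h1 := s29fdm_t_diff T (fun m => d * c d m) (s := s) (by linarith)
    (s29fdm_summable_dc hsum)
  rw [s29fdm_tsum_dc] at h1
  have h2 : |(d : ℝ) * (∑' ℓ : Nat.Primes, (c d (ℓ : ℕ) : ℝ) * ((ℓ : ℕ) : ℝ) ^ (-s)) -
      d * s29fdm_D s| ≤ d * C := by
    rw [← mul_sub, abs_mul, abs_of_nonneg (Nat.cast_nonneg d)]
    exact mul_le_mul_of_nonneg_left hC (Nat.cast_nonneg d)
  unfold s29fdm_E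
  calc |(∑' ℓ, s29fdm_t T (fun m => d * c d m) s ℓ) - d * s29fdm_D s|
      = |((∑' ℓ, s29fdm_t T (fun m => d * c d m) s ℓ) -
          d * ∑' ℓ : Nat.Primes, (c d (ℓ : ℕ) : ℝ) * ((ℓ : ℕ) : ℝ) ^ (-s)) +
          (d * (∑' ℓ : Nat.Primes, (c d (ℓ : ℕ) : ℝ) * ((ℓ : ℕ) : ℝ) ^ (-s)) -
            d * s29fdm_D s)| := by
        congr 1
        ring
    _ ≤ _ := (abs_add_le _ _).trans (by linarith)

/-- the pointwise identity `d c_d = ∑_{d' ∣ d} d' v_{d'}` on truncated terms. -/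
theorem s29fdm_t_sum (hBT : B ⊆ T)
    (h2 : ∀ d ∈ n.divisors, ∀ ℓ : ℕ, ℓ.Prime → ℓ ∉ B →
      d * c d ℓ = ∑ d' ∈ d.divisors, d' * v d' ℓ)
    {d : ℕ} (hd : d ∈ n.divisors) (s : ℝ) (ℓ : Nat.Primes) :
    s29fdm_t T (fun m => d * c d m) s ℓ =
      ∑ d' ∈ d.divisors, s29fdm_t T (fun m => d' * v d' m) s ℓ := by
  by_cases hT : (ℓ : ℕ) ∈ T
  · have e : ∀ u : ℕ → ℕ, s29fdm_t T u s ℓ = 0 := fun u => if_pos hT
    rw [e, Finset.sum_eq_zero]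
    intro d' _
    exact e _
  · have e : ∀ u : ℕ → ℕ, s29fdm_t T u s ℓ = (u (ℓ : ℕ) : ℝ) * s29fdm_w s ℓ :=
      fun u => if_neg hT
    rw [e]
    simp only [e]
    rw [← Finset.sum_mul]
    congr 1
    have := h2 d hd (ℓ : ℕ) ℓ.2 (fun hB => hT (hBT hB))
    show ((d * c d (ℓ : ℕ) : ℕ) : ℝ) = ∑ d' ∈ d.divisors, ((d' * v d' (ℓ : ℕ) : ℕ) : ℝ)
    rw [this]
    push_cast
    rfl

theorem s29fdm_summable_E
    (h1 : ∀ d ∈ n.divisors, ∃ C : ℝ, ∀ s : ℝ, 1 < s → s ≤ 2 →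
      Summable (fun ℓ : Nat.Primes => (c d (ℓ : ℕ) : ℝ) * ((ℓ : ℕ) : ℝ) ^ (-s)) ∧
      |(∑' ℓ : Nat.Primes, (c d (ℓ : ℕ) : ℝ) * ((ℓ : ℕ) : ℝ) ^ (-s)) -
        Real.log (1 / (s - 1))| ≤ C)
    {d : ℕ} (hd : d ∈ n.divisors) {s : ℝ} (hs1 : 1 < s) (hs2 : s ≤ 2) :
    Summable (s29fdm_t T (fun m => d * c d m) s) := by
  obtain ⟨C, hC⟩ := h1 d hd
  exact s29fdm_t_summable T _ s (s29fdm_summable_dc (hC s hs1 hs2).1)

theorem s29fdm_summable_A (hBT : B ⊆ T)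
    (h1 : ∀ d ∈ n.divisors, ∃ C : ℝ, ∀ s : ℝ, 1 < s → s ≤ 2 →
      Summable (fun ℓ : Nat.Primes => (c d (ℓ : ℕ) : ℝ) * ((ℓ : ℕ) : ℝ) ^ (-s)) ∧
      |(∑' ℓ : Nat.Primes, (c d (ℓ : ℕ) : ℝ) * ((ℓ : ℕ) : ℝ) ^ (-s)) -
        Real.log (1 / (s - 1))| ≤ C)
    (h2 : ∀ d ∈ n.divisors, ∀ ℓ : ℕ, ℓ.Prime → ℓ ∉ B →
      d * c d ℓ = ∑ d' ∈ d.divisors, d' * v d' ℓ)
    {d : ℕ} (hd : d ∈ n.divisors) {s : ℝ} (hs1 : 1 < s) (hs2 : s ≤ 2) :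
    Summable (s29fdm_t T (fun m => d * v d m) s) := by
  refine Summable.of_nonneg_of_le (s29fdm_t_nonneg T _ s) (fun ℓ => ?_)
    (s29fdm_summable_E (T := T) h1 hd hs1 hs2)
  apply s29fdm_t_mono
  intro hT
  have := h2 d hd (ℓ : ℕ) ℓ.2 (fun hB => hT (hBT hB))
  show d * v d (ℓ : ℕ) ≤ d * c d (ℓ : ℕ)
  rw [this]
  exact Finset.single_le_sum (f := fun d' => d' * v d' (ℓ : ℕ)) (fun _ _ => Nat.zero_le _)
    (Nat.mem_divisors_self d (Nat.pos_of_mem_divisors hd).ne')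

/-- the recursion `E_d = A_d + ∑_{d' ∣ d, d' < d} A_{d'}`. -/
theorem s29fdm_rec (hBT : B ⊆ T)
    (h1 : ∀ d ∈ n.divisors, ∃ C : ℝ, ∀ s : ℝ, 1 < s → s ≤ 2 →
      Summable (fun ℓ : Nat.Primes => (c d (ℓ : ℕ) : ℝ) * ((ℓ : ℕ) : ℝ) ^ (-s)) ∧
      |(∑' ℓ : Nat.Primes, (c d (ℓ : ℕ) : ℝ) * ((ℓ : ℕ) : ℝ) ^ (-s)) -
        Real.log (1 / (s - 1))| ≤ C)
    (h2 : ∀ d ∈ n.divisors, ∀ ℓ : ℕ, ℓ.Prime → ℓ ∉ B →
      d * c d ℓ = ∑ d' ∈ d.divisors, d' * v d' ℓ)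
    {d : ℕ} (hd : d ∈ n.divisors) {s : ℝ} (hs1 : 1 < s) (hs2 : s ≤ 2) :
    s29fdm_E c T d s = s29fdm_A v T d s + ∑ d' ∈ d.properDivisors, s29fdm_A v T d' s := by
  have hdn : d ∣ n := Nat.dvd_of_mem_divisors hd
  have hn0 : n ≠ 0 := (Nat.mem_divisors.1 hd).2
  have hsub : ∀ d' ∈ d.divisors, d' ∈ n.divisors := fun d' hd' =>
    Nat.mem_divisors.2 ⟨(Nat.dvd_of_mem_divisors hd').trans hdn, hn0⟩
  unfold s29fdm_E s29fdm_A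
  rw [tsum_congr (s29fdm_t_sum hBT h2 hd s),
    Summable.tsum_finsetSum (fun d' hd' => s29fdm_summable_A hBT h1 h2 (hsub d' hd') hs1 hs2),
    ← Nat.insert_self_properDivisors (Nat.pos_of_mem_divisors hd).ne',
    Finset.sum_insert Nat.self_notMem_properDivisors]

/-- `∑_{d' ∣ d, d' < d} φ(d') + φ(d) = d`. -/
theorem s29fdm_totient (d : ℕ) (hd : d ≠ 0) :
    ((d.totient : ℝ) + ∑ d' ∈ d.properDivisors, (d'.totient : ℝ)) = d := by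
  have h := Nat.sum_totient d
  rw [← Nat.insert_self_properDivisors hd, Finset.sum_insert Nat.self_notMem_properDivisors] at h
  have h' : ((d.totient + ∑ d' ∈ d.properDivisors, d'.totient : ℕ) : ℝ) = d := by
    rw [h]
  push_cast at h'
  exact h'

/-- `∑_{d' ∣ d, d' < d} 2 ^ d' ≤ 2 ^ d - 1`. -/
theorem s29fdm_geom (d : ℕ) :
    (1 : ℝ) + ∑ d' ∈ d.properDivisors, (2 : ℝ) ^ d' ≤ 2 ^ d := by
  have h : ∑ d' ∈ d.properDivisors, 2 ^ d' < 2 ^ d :=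
    Nat.geomSum_lt (le_refl 2) (fun k hk => (Nat.mem_properDivisors.1 hk).2)
  have h' : (1 + ∑ d' ∈ d.properDivisors, 2 ^ d' : ℕ) ≤ 2 ^ d := by omega
  have h'' : ((1 + ∑ d' ∈ d.properDivisors, 2 ^ d' : ℕ) : ℝ) ≤ ((2 ^ d : ℕ) : ℝ) :=
    Nat.cast_le.2 h'
  push_cast at h''
  exact h''

/-- the induction: `A_d = φ(d) · D + O(1)`. -/
theorem s29fdm_ind (hBT : B ⊆ T)
    (h1 : ∀ d ∈ n.divisors, ∃ C : ℝ, ∀ s : ℝ, 1 < s → s ≤ 2 →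
      Summable (fun ℓ : Nat.Primes => (c d (ℓ : ℕ) : ℝ) * ((ℓ : ℕ) : ℝ) ^ (-s)) ∧
      |(∑' ℓ : Nat.Primes, (c d (ℓ : ℕ) : ℝ) * ((ℓ : ℕ) : ℝ) ^ (-s)) -
        Real.log (1 / (s - 1))| ≤ C)
    (h2 : ∀ d ∈ n.divisors, ∀ ℓ : ℕ, ℓ.Prime → ℓ ∉ B →
      d * c d ℓ = ∑ d' ∈ d.divisors, d' * v d' ℓ)
    {K : ℝ} (hK0 : 0 ≤ K)
    (hK : ∀ d ∈ n.divisors, ∀ s : ℝ, 1 < s → s ≤ 2 → |s29fdm_E c T d s - d * s29fdm_D s| ≤ K)
    {s : ℝ} (hs1 : 1 < s) (hs2 : s ≤ 2) :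
    ∀ d : ℕ, d ∈ n.divisors → |s29fdm_A v T d s - d.totient * s29fdm_D s| ≤ K * 2 ^ d := by
  intro d
  induction d using Nat.strong_induction_on with
  | _ d ih =>
    intro hd
    have hdn : d ∣ n := Nat.dvd_of_mem_divisors hd
    have hn0 : n ≠ 0 := (Nat.mem_divisors.1 hd).2
    have hd0 : d ≠ 0 := (Nat.pos_of_mem_divisors hd).ne'
    have hsub : ∀ d' ∈ d.properDivisors, d' ∈ n.divisors := fun d' hd' =>
      Nat.mem_divisors.2 ⟨((Nat.mem_properDivisors.1 hd').1).trans hdn, hn0⟩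
    have hrec := s29fdm_rec (v := v) hBT h1 h2 hd hs1 hs2
    have htot := s29fdm_totient d hd0
    have hE := hK d hd s hs1 hs2
    have hsum : |∑ d' ∈ d.properDivisors,
        (s29fdm_A v T d' s - d'.totient * s29fdm_D s)| ≤
        ∑ d' ∈ d.properDivisors, K * 2 ^ d' :=
      (Finset.abs_sum_le_sum_abs _ _).trans
        (Finset.sum_le_sum fun d' hd' =>
          ih d' (Nat.mem_properDivisors.1 hd').2 (hsub d' hd'))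
    have hgeom := s29fdm_geom d
    have key : s29fdm_A v T d s - d.totient * s29fdm_D s =
        (s29fdm_E c T d s - d * s29fdm_D s) -
          ∑ d' ∈ d.properDivisors, (s29fdm_A v T d' s - d'.totient * s29fdm_D s) := by
      rw [Finset.sum_sub_distrib, ← Finset.sum_mul, hrec, ← htot]
      ring
    rw [key]
    calc |(s29fdm_E c T d s - d * s29fdm_D s) -
          ∑ d' ∈ d.properDivisors, (s29fdm_A v T d' s - d'.totient * s29fdm_D s)|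
        ≤ |s29fdm_E c T d s - d * s29fdm_D s| +
          |∑ d' ∈ d.properDivisors, (s29fdm_A v T d' s - d'.totient * s29fdm_D s)| :=
          abs_sub _ _
      _ ≤ K + ∑ d' ∈ d.properDivisors, K * 2 ^ d' := add_le_add hE hsum
      _ = K * (1 + ∑ d' ∈ d.properDivisors, (2 : ℝ) ^ d') := by
          rw [← Finset.mul_sum]
          ring
      _ ≤ K * 2 ^ d := mul_le_mul_of_nonneg_left hgeom hK0

/-- a uniform bound for the `E_d`. -/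
theorem s29fdm_K (T : Finset ℕ)
    (h1 : ∀ d ∈ n.divisors, ∃ C : ℝ, ∀ s : ℝ, 1 < s → s ≤ 2 →
      Summable (fun ℓ : Nat.Primes => (c d (ℓ : ℕ) : ℝ) * ((ℓ : ℕ) : ℝ) ^ (-s)) ∧
      |(∑' ℓ : Nat.Primes, (c d (ℓ : ℕ) : ℝ) * ((ℓ : ℕ) : ℝ) ^ (-s)) -
        Real.log (1 / (s - 1))| ≤ C) :
    ∃ K : ℝ, 0 ≤ K ∧ ∀ d ∈ n.divisors, ∀ s : ℝ, 1 < s → s ≤ 2 →
      |s29fdm_E c T d s - d * s29fdm_D s| ≤ K := by
  refine s29fdm_uniform n.divisors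
    (fun d K => ∀ s : ℝ, 1 < s → s ≤ 2 → |s29fdm_E c T d s - d * s29fdm_D s| ≤ K)
    (fun d K K' h hKK' s hs1 hs2 => (h s hs1 hs2).trans hKK') (fun d hd => ?_)
  obtain ⟨C, hC⟩ := h1 d hd
  exact ⟨d * C + ∑ m ∈ T, ((d * c d m : ℕ) : ℝ), fun s hs1 hs2 =>
    s29fdm_E_bound T hC s hs1 hs2⟩

end Main

/-- **[FD-MOB]** the abstract induction over the divisors of `n`. -/
theorem s29fd_mob_main : s29fd_MobStatement := by
  intro n hn c v B h1 h2 S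
  classical
  by_contra hcon
  have hv : ∀ ℓ : ℕ, ℓ.Prime → ℓ ∉ S → ℓ ∉ B → v n ℓ = 0 := by
    intro ℓ hℓ hS hB
    by_contra h0
    exact hcon ⟨ℓ, hℓ, hS, hB, h0⟩
  have hBT : B ⊆ S ∪ B := Finset.subset_union_right
  obtain ⟨K, hK0, hK⟩ := s29fdm_K (c := c) (n := n) (S ∪ B) h1
  have hnd : n ∈ n.divisors := Nat.mem_divisors_self n hn.ne'
  have hA : ∀ s : ℝ, s29fdm_A v (S ∪ B) n s = 0 := by
    intro s
    unfold s29fdm_A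
    have : ∀ ℓ : Nat.Primes, s29fdm_t (S ∪ B) (fun m => n * v n m) s ℓ = 0 := by
      intro ℓ
      by_cases hT : (ℓ : ℕ) ∈ S ∪ B
      · exact if_pos hT
      · have e : s29fdm_t (S ∪ B) (fun m => n * v n m) s ℓ =
            (((fun m => n * v n m) (ℓ : ℕ) : ℕ) : ℝ) * s29fdm_w s ℓ := if_neg hT
        rw [e]
        have hS : (ℓ : ℕ) ∉ S := fun h => hT (Finset.mem_union_left _ h)
        have hB : (ℓ : ℕ) ∉ B := fun h => hT (Finset.mem_union_right _ h)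
        have h0 := hv (ℓ : ℕ) ℓ.2 hS hB
        show ((n * v n (ℓ : ℕ) : ℕ) : ℝ) * s29fdm_w s ℓ = 0
        rw [h0, Nat.mul_zero, Nat.cast_zero, zero_mul]
    rw [tsum_congr this, tsum_zero]
  have hφ : (1 : ℝ) ≤ (n.totient : ℝ) := by
    exact_mod_cast Nat.totient_pos.2 hn
  -- the contradiction at `s = 1 + exp (-M)`
  set M : ℝ := K * 2 ^ n + 1 with hM
  have hM0 : 0 ≤ M := by
    have : 0 ≤ K * 2 ^ n := mul_nonneg hK0 (by positivity)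
    linarith
  have hs1 : (1 : ℝ) < 1 + Real.exp (-M) := by
    have := Real.exp_pos (-M)
    linarith
  have hs2 : 1 + Real.exp (-M) ≤ 2 := by
    have : Real.exp (-M) ≤ 1 := Real.exp_le_one_iff.2 (by linarith)
    linarith
  have hind := s29fdm_ind (v := v) hBT h1 h2 hK0 hK hs1 hs2 n hnd
  rw [hA, s29fdm_D_exp, zero_sub, abs_neg, abs_of_nonneg (mul_nonneg (by linarith) hM0)] at hind
  have : M ≤ (n.totient : ℝ) * M := by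
    calc M = 1 * M := (one_mul M).symm
      _ ≤ (n.totient : ℝ) * M := mul_le_mul_of_nonneg_right hφ hM0
  linarith

example : s29fd_MobStatement := s29fd_mob_main

end Fermat.Agent.S29
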