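/-
S29, package [BLR-ALG] (helper9).  Prefix `s29a_`.  Pure algebra.

Let `k` be an algebraically closed field, `V` a finite-dimensional `k`-vector space, `G` a group
acting irreducibly on `V` through `ρ`, `χ : G → k` a multiplicative function with non-zero values
and `t : G → k` such that every `g` satisfies `ρ(g)² - t(g) ρ(g) + χ(g) = 0`.  Then `dim V ≤ 2`.

* `s29a_schur`       : an endomorphism commuting with `ρ(G)` is a scalar;
* `s29a_burnside`    : the span of `ρ(G)` is `End_k(V)`;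
* `s29a_anticomm`    : `a b + b a ∈ span {1, a, b}` for all `a, b ∈ End_k(V)`;
* `s29a_finrank_le_two` : `dim V ≤ 2`.
-/
import Mathlib

set_option autoImplicit false
set_option linter.unusedSectionVars false
set_option linter.style.haveILetI false

open Module

namespace Fermat.Agent.S29

section Schur

variable {k V G : Type*} [Field k] [IsAlgClosed k] [AddCommGroup V] [Module k V]
  [FiniteDimensional k V] [Group G]

/-- Schur's lemma over an algebraically closed field. -/
theorem s29a_schur (ρ : G →* Module.End k V) [Nontrivial V]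
    (hirr : ∀ W : Submodule k V, (∀ g, ∀ x ∈ W, ρ g x ∈ W) → W = ⊥ ∨ W = ⊤)
    (φ : Module.End k V) (hφ : ∀ g, φ * ρ g = ρ g * φ) :
    ∃ c : k, φ = c • (1 : Module.End k V) := by
  obtain ⟨c, hc⟩ := Module.End.exists_eigenvalue φ
  refine ⟨c, ?_⟩
  have hE := hirr (Module.End.eigenspace φ c) (fun g x hx => by
    rw [Module.End.mem_eigenspace_iff] at hx ⊢
    have h1 : φ (ρ g x) = ρ g (φ x) := by
      have := congrArg (fun f : Module.End k V => f x) (hφ g)
      simpa using this
    rw [h1, hx, map_smul])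
  rcases hE with hE | hE
  · exact absurd hE (Module.End.hasEigenvalue_iff.mp hc)
  · ext x
    have hx : x ∈ Module.End.eigenspace φ c := by rw [hE]; trivial
    rw [Module.End.mem_eigenspace_iff] at hx
    simpa using hx

end Schur

section Burnside

variable {k V G : Type*} [Field k] [IsAlgClosed k] [AddCommGroup V] [Module k V]
  [FiniteDimensional k V] [Group G]

/-- The subalgebra generated by `ρ(G)`. -/
abbrev s29a_alg (ρ : G →* Module.End k V) : Subalgebra k (Module.End k V) :=
  Algebra.adjoin k (Set.range ρ)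

theorem s29a_alg_eq_span (ρ : G →* Module.End k V) :
    Subalgebra.toSubmodule (s29a_alg ρ) = Submodule.span k (Set.range ρ) := by
  rw [s29a_alg, Algebra.adjoin_eq_span]
  congr 1
  have : Submonoid.closure (Set.range ρ) = MonoidHom.mrange ρ := by
    rw [← MonoidHom.coe_mrange, Submonoid.closure_eq]
  rw [this, MonoidHom.coe_mrange]

theorem s29a_isSimpleModule (ρ : G →* Module.End k V) [Nontrivial V]
    (hirr : ∀ W : Submodule k V, (∀ g, ∀ x ∈ W, ρ g x ∈ W) → W = ⊥ ∨ W = ⊤) :
    IsSimpleModule (s29a_alg ρ) V := by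
  rw [isSimpleModule_iff]
  refine { exists_pair_ne := ⟨⊥, ⊤, bot_ne_top⟩, eq_bot_or_eq_top := fun W' => ?_ }
  have h := hirr (W'.restrictScalars k) (fun g x hx => by
    have hg : ρ g ∈ s29a_alg ρ := Algebra.subset_adjoin ⟨g, rfl⟩
    have := W'.smul_mem (⟨ρ g, hg⟩ : s29a_alg ρ) hx
    exact this)
  rcases h with h | h
  · left
    ext x
    have := congrArg (fun W : Submodule k V => x ∈ W) h
    simpa using this
  · right
    ext x
    have := congrArg (fun W : Submodule k V => x ∈ W) h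
    simpa using this

/-- **Burnside's theorem**: the span of `ρ(G)` is the whole endomorphism algebra. -/
theorem s29a_burnside (ρ : G →* Module.End k V) [Nontrivial V]
    (hirr : ∀ W : Submodule k V, (∀ g, ∀ x ∈ W, ρ g x ∈ W) → W = ⊥ ∨ W = ⊤) :
    Submodule.span k (Set.range ρ) = ⊤ := by
  haveI := s29a_isSimpleModule ρ hirr
  rw [eq_top_iff]
  intro a _
  rw [← s29a_alg_eq_span]
  -- `a` commutes with the commutant
  have hcomm : ∀ φ : Module.End (s29a_alg ρ) V, ∀ v : V, a (φ v) = φ (a v) := by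
    intro φ v
    obtain ⟨c, hc⟩ := s29a_schur ρ hirr (φ.restrictScalars k) (fun g => by
      ext x
      have hg : ρ g ∈ s29a_alg ρ := Algebra.subset_adjoin ⟨g, rfl⟩
      have := φ.map_smul (⟨ρ g, hg⟩ : s29a_alg ρ) x
      exact this.symm ▸ rfl)
    have h1 : ∀ w : V, φ w = c • w := fun w => by
      have := congrArg (fun f : Module.End k V => f w) hc
      simpa using this
    rw [h1, h1, map_smul]
  let f : Module.End (Module.End (s29a_alg ρ) V) V :=
    { toFun := a
      map_add' := a.map_add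
      map_smul' := fun φ v => hcomm φ v }
  obtain ⟨s, hs⟩ := Module.Finite.fg_top (R := k) (M := V)
  obtain ⟨r, hr⟩ := jacobson_density f s
  have : a = (r : Module.End k V) := by
    apply LinearMap.ext_on hs
    intro m hm
    exact hr m hm
  rw [this]
  exact r.2

end Burnside


section Quadratic

variable {k V G : Type*} [Field k] [AddCommGroup V] [Module k V] [Group G]

/-- The pairs `(ρ(x), ρ(x*))`, `x` in the group algebra, `g* = χ(g) g⁻¹`. -/
def s29a_pairs (ρ : G →* Module.End k V) (χ : G → k) :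
    Submodule k (Module.End k V × Module.End k V) :=
  Submodule.span k (Set.range fun g : G => (ρ g, χ g • ρ g⁻¹))

theorem s29a_gen_mem (ρ : G →* Module.End k V) (χ : G → k) (g : G) :
    (ρ g, χ g • ρ g⁻¹) ∈ s29a_pairs ρ χ :=
  Submodule.subset_span ⟨g, rfl⟩

theorem s29a_rho_mul_inv (ρ : G →* Module.End k V) (g : G) : ρ g * ρ g⁻¹ = 1 := by
  rw [← map_mul, mul_inv_cancel, map_one]

/-- `ρ(g) + χ(g) ρ(g)⁻¹ = t(g)`. -/
theorem s29a_gen_add (ρ : G →* Module.End k V) (χ t : G → k)
    (hq : ∀ g, ρ g * ρ g - t g • ρ g + χ g • (1 : Module.End k V) = 0) (g : G) :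
    ρ g + χ g • ρ g⁻¹ = t g • (1 : Module.End k V) := by
  have h := congrArg (fun x : Module.End k V => x * ρ g⁻¹) (hq g)
  simp only [zero_mul, add_mul, sub_mul, mul_assoc, s29a_rho_mul_inv, mul_one, smul_mul_assoc,
    one_mul] at h
  rw [← sub_eq_zero]
  rw [← h]
  abel

theorem s29a_pairs_add (ρ : G →* Module.End k V) (χ t : G → k)
    (hq : ∀ g, ρ g * ρ g - t g • ρ g + χ g • (1 : Module.End k V) = 0) :
    ∀ p ∈ s29a_pairs ρ χ, ∃ c : k, p.1 + p.2 = c • (1 : Module.End k V) := by
  intro p hp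
  induction hp using Submodule.span_induction with
  | mem p hp =>
    obtain ⟨g, rfl⟩ := hp
    exact ⟨t g, s29a_gen_add ρ χ t hq g⟩
  | zero => exact ⟨0, by simp⟩
  | add p q _ _ hp hq' =>
    obtain ⟨c, hc⟩ := hp
    obtain ⟨d, hd⟩ := hq'
    refine ⟨c + d, ?_⟩
    rw [add_smul, ← hc, ← hd, Prod.fst_add, Prod.snd_add]
    abel
  | smul r p _ hp =>
    obtain ⟨c, hc⟩ := hp
    refine ⟨r * c, ?_⟩
    rw [mul_smul, ← hc, Prod.smul_fst, Prod.smul_snd, smul_add]

theorem s29a_pairs_mul (ρ : G →* Module.End k V) (χ : G → k)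
    (hχ : ∀ g h, χ (g * h) = χ g * χ h) :
    ∀ p ∈ s29a_pairs ρ χ, ∀ q ∈ s29a_pairs ρ χ, (p.1 * q.1, q.2 * p.2) ∈ s29a_pairs ρ χ := by
  intro p hp
  induction hp using Submodule.span_induction with
  | mem p hp =>
    obtain ⟨g, rfl⟩ := hp
    intro q hq
    induction hq using Submodule.span_induction with
    | mem q hq =>
      obtain ⟨h, rfl⟩ := hq
      have := s29a_gen_mem ρ χ (g * h)
      have e : (ρ (g * h), χ (g * h) • ρ (g * h)⁻¹) =
          ((ρ g, χ g • ρ g⁻¹).1 * (ρ h, χ h • ρ h⁻¹).1,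
            (ρ h, χ h • ρ h⁻¹).2 * (ρ g, χ g • ρ g⁻¹).2) := by
        simp only [map_mul, mul_inv_rev, hχ, smul_mul_assoc, mul_smul_comm, smul_smul]
      rw [← e]
      exact this
    | zero =>
      simp only [Prod.fst_zero, mul_zero, Prod.snd_zero, zero_mul]
      exact Submodule.zero_mem _
    | add q q' _ _ hq hq' =>
      have : ((ρ g, χ g • ρ g⁻¹).1 * (q + q').1, (q + q').2 * (ρ g, χ g • ρ g⁻¹).2) =
          ((ρ g, χ g • ρ g⁻¹).1 * q.1, q.2 * (ρ g, χ g • ρ g⁻¹).2) +
            ((ρ g, χ g • ρ g⁻¹).1 * q'.1, q'.2 * (ρ g, χ g • ρ g⁻¹).2) := by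
        simp only [Prod.fst_add, Prod.snd_add, mul_add, add_mul, Prod.mk_add_mk]
      rw [this]
      exact Submodule.add_mem _ hq hq'
    | smul r q _ hq =>
      have : ((ρ g, χ g • ρ g⁻¹).1 * (r • q).1, (r • q).2 * (ρ g, χ g • ρ g⁻¹).2) =
          r • ((ρ g, χ g • ρ g⁻¹).1 * q.1, q.2 * (ρ g, χ g • ρ g⁻¹).2) := by
        simp only [Prod.smul_fst, Prod.smul_snd, mul_smul_comm, smul_mul_assoc, Prod.smul_mk]
        rw [smul_comm r (χ g)]
      rw [this]
      exact Submodule.smul_mem _ _ hq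
  | zero =>
    intro q _
    simp only [Prod.fst_zero, zero_mul, Prod.snd_zero, mul_zero]
    exact Submodule.zero_mem _
  | add p p' _ _ hp hp' =>
    intro q hq
    have : ((p + p').1 * q.1, q.2 * (p + p').2) =
        (p.1 * q.1, q.2 * p.2) + (p'.1 * q.1, q.2 * p'.2) := by
      simp only [Prod.fst_add, Prod.snd_add, mul_add, add_mul, Prod.mk_add_mk]
    rw [this]
    exact Submodule.add_mem _ (hp q hq) (hp' q hq)
  | smul r p _ hp =>
    intro q hq
    have : ((r • p).1 * q.1, q.2 * (r • p).2) = r • (p.1 * q.1, q.2 * p.2) := by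
      simp only [Prod.smul_fst, Prod.smul_snd, mul_smul_comm, smul_mul_assoc, Prod.smul_mk]
    rw [this]
    exact Submodule.smul_mem _ _ (hp q hq)

theorem s29a_pairs_fst (ρ : G →* Module.End k V) (χ : G → k) (a : Module.End k V)
    (ha : a ∈ Submodule.span k (Set.range ρ)) : ∃ p ∈ s29a_pairs ρ χ, p.1 = a := by
  induction ha using Submodule.span_induction with
  | mem a ha =>
    obtain ⟨g, rfl⟩ := ha
    exact ⟨_, s29a_gen_mem ρ χ g, rfl⟩
  | zero => exact ⟨0, Submodule.zero_mem _, rfl⟩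
  | add a b _ _ ha hb =>
    obtain ⟨p, hp, rfl⟩ := ha
    obtain ⟨q, hq, rfl⟩ := hb
    exact ⟨p + q, Submodule.add_mem _ hp hq, rfl⟩
  | smul r a _ ha =>
    obtain ⟨p, hp, rfl⟩ := ha
    exact ⟨r • p, Submodule.smul_mem _ _ hp, rfl⟩

/-- `a b + b a ∈ span {a, b, 1}` for all `a, b` in the span of `ρ(G)`. -/
theorem s29a_anticomm (ρ : G →* Module.End k V) (χ t : G → k)
    (hχ : ∀ g h, χ (g * h) = χ g * χ h)
    (hq : ∀ g, ρ g * ρ g - t g • ρ g + χ g • (1 : Module.End k V) = 0)
    (a b : Module.End k V) (ha : a ∈ Submodule.span k (Set.range ρ))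
    (hb : b ∈ Submodule.span k (Set.range ρ)) :
    ∃ α β γ : k, a * b + b * a = α • a + β • b + γ • (1 : Module.End k V) := by
  obtain ⟨p, hp, rfl⟩ := s29a_pairs_fst ρ χ a ha
  obtain ⟨q, hq', rfl⟩ := s29a_pairs_fst ρ χ b hb
  obtain ⟨c, hc⟩ := s29a_pairs_add ρ χ t hq p hp
  obtain ⟨d, hd⟩ := s29a_pairs_add ρ χ t hq q hq'
  obtain ⟨s, hs⟩ := s29a_pairs_add ρ χ t hq _ (s29a_pairs_mul ρ χ hχ p hp q hq')
  have hp2 : p.2 = c • (1 : Module.End k V) - p.1 := by rw [← hc]; abel
  have hq2 : q.2 = d • (1 : Module.End k V) - q.1 := by rw [← hd]; abel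
  simp only [hp2, hq2] at hs
  refine ⟨d, c, s - c * d, ?_⟩
  have e : (d • (1 : Module.End k V) - q.1) * (c • (1 : Module.End k V) - p.1) =
      (c * d) • (1 : Module.End k V) - d • p.1 - c • q.1 + q.1 * p.1 := by
    simp only [sub_mul, mul_sub, smul_mul_assoc, mul_smul_comm, one_mul, mul_one, smul_smul,
      smul_sub]
    abel
  rw [e] at hs
  rw [sub_smul]
  rw [← hs]
  abel

end Quadratic

section Main

variable {k V G : Type*} [Field k] [IsAlgClosed k] [AddCommGroup V] [Module k V]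
  [FiniteDimensional k V] [Group G]

/-- **[BLR-ALG]** an irreducible representation in which every `g` satisfies
`g² - t(g) g + χ(g) = 0`, `χ` multiplicative, has dimension at most `2`. -/
theorem s29a_finrank_le_two (ρ : G →* Module.End k V) [Nontrivial V]
    (hirr : ∀ W : Submodule k V, (∀ g, ∀ x ∈ W, ρ g x ∈ W) → W = ⊥ ∨ W = ⊤)
    (χ t : G → k) (hχ : ∀ g h, χ (g * h) = χ g * χ h)
    (hq : ∀ g, ρ g * ρ g - t g • ρ g + χ g • (1 : Module.End k V) = 0) :
    Module.finrank k V ≤ 2 := by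
  by_contra hlt
  rw [not_le] at hlt
  have hB := s29a_burnside ρ hirr
  let b := Module.finBasis k V
  let i₁ : Fin (Module.finrank k V) := ⟨0, by omega⟩
  let i₂ : Fin (Module.finrank k V) := ⟨1, by omega⟩
  let i₃ : Fin (Module.finrank k V) := ⟨2, by omega⟩
  have h12 : i₁ ≠ i₂ := by simp [i₁, i₂, Fin.ext_iff]
  have h13 : i₁ ≠ i₃ := by simp [i₁, i₃, Fin.ext_iff]
  have h23 : i₂ ≠ i₃ := by simp [i₂, i₃, Fin.ext_iff]
  let a : Module.End k V := (b.coord i₂).smulRight (b i₁)
  let c : Module.End k V := (b.coord i₃).smulRight (b i₂)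
  obtain ⟨α, β, γ, h⟩ := s29a_anticomm ρ χ t hχ hq a c (by rw [hB]; trivial) (by rw [hB]; trivial)
  have ha : ∀ x, a x = b.coord i₂ x • b i₁ := fun x => rfl
  have hc : ∀ x, c x = b.coord i₃ x • b i₂ := fun x => rfl
  have e1 := congrArg (fun f : Module.End k V => f (b i₁)) h
  have e3 := congrArg (fun f : Module.End k V => f (b i₃)) h
  simp only [LinearMap.add_apply, Module.End.mul_apply, LinearMap.smul_apply,
    Module.End.one_apply, ha, hc, Module.Basis.coord_apply, Module.Basis.repr_self,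
    Finsupp.single_apply, map_smul, smul_eq_mul] at e1 e3
  simp only [h12, h13, h23, h12.symm, h13.symm, h23.symm, if_false, if_true, zero_smul, one_smul,
    smul_zero, add_zero, zero_add, mul_zero, mul_one, Module.Basis.repr_self,
    Finsupp.single_apply] at e1 e3
  -- e1 : 0 = γ • b i₁ ;  e3 : b i₁ = β • b i₂ + γ • b i₃
  have hγ : γ = 0 := by
    have := congrArg (fun v => b.repr v i₁) e1
    simpa [Finsupp.single_apply] using this.symm
  rw [hγ] at e3
  have := congrArg (fun v => b.repr v i₁) e3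
  simp [Finsupp.single_apply, h12, h12.symm, h13, h13.symm] at this

end Main

end Fermat.Agent.S29
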