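import Mathlib
import Fermat.Agent.S29.Defs
import Fermat.Agent.S29.BlrAlg

/-!
# S29, (K5) [FIN-A]: the 2-dimensional representation over an algebraically closed field
(helper8).  Prefix `s29fc_`.

`s29fc_core_of : s29_QuadModuleStatement → s29_FDStatement → s29_CycStatement →
  s29_CoreStatement`.

* `s29fc_pow`      : `x² - a x + c = 0 ⟹ (x^m)² - t x^m + c^m = 0` for some scalar `t`;
* `s29fc_minimal`  : a minimal non-zero stable subspace;
* `s29fc_charpoly_of_quad` : in dimension 2 a monic quadratic annihilating a non-scalar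
  endomorphism is its characteristic polynomial;
* `s29fc_det`      : in dimension 2, `det ρ(g) = χ(g)`.
-/

set_option autoImplicit false
set_option linter.unusedSectionVars false
set_option linter.style.haveILetI false

open Polynomial

noncomputable section

namespace Fermat.Agent.S29

/-! ### The power lemma -/

section power

variable {K : Type*} [Field K]

/-- In `K[X]`: with `P = X² - a X + c` and `Y = a - X`, the power sums `X^m + Y^m` are scalars
modulo `P`. -/
theorem s29fc_powsum (a c : K) (m : ℕ) :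
    (∃ t : K, (X * X - C a * X + C c : K[X]) ∣ X ^ m + (C a - X) ^ m - C t) ∧
      ∃ t : K, (X * X - C a * X + C c : K[X]) ∣ X ^ (m + 1) + (C a - X) ^ (m + 1) - C t := by
  induction m with
  | zero =>
    refine ⟨⟨1 + 1, ?_⟩, ⟨a, ?_⟩⟩
    · have : (X ^ 0 + (C a - X) ^ 0 - C (1 + 1 : K) : K[X]) = 0 := by
        rw [pow_zero, pow_zero, C_add, C_1]
        ring
      rw [this]
      exact dvd_zero _
    · have : (X ^ (0 + 1) + (C a - X) ^ (0 + 1) - C a : K[X]) = 0 := by ring
      rw [this]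
      exact dvd_zero _
  | succ m ih =>
    obtain ⟨⟨t, u, hu⟩, ⟨t', u', hu'⟩⟩ := ih
    refine ⟨⟨t', u', hu'⟩, ⟨a * t' - c * t, C a * u' - C c * u + (X ^ m + (C a - X) ^ m), ?_⟩⟩
    have e : (X ^ (m + 1 + 1) + (C a - X) ^ (m + 1 + 1) - C (a * t' - c * t) : K[X]) =
        C a * (X ^ (m + 1) + (C a - X) ^ (m + 1) - C t') -
          C c * (X ^ m + (C a - X) ^ m - C t) +
          (X * X - C a * X + C c) * (X ^ m + (C a - X) ^ m) := by
      rw [C_sub, C_mul, C_mul]
      ring
    rw [e, hu, hu']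
    ring

/-- In `K[X]`: `P = X² - a X + c` divides `X^{2m} - t X^m + c^m` for some `t`. -/
theorem s29fc_pow_poly (a c : K) (m : ℕ) :
    ∃ t : K, (X * X - C a * X + C c : K[X]) ∣ X ^ m * X ^ m - C t * X ^ m + C (c ^ m) := by
  obtain ⟨⟨t, u, hu⟩, -⟩ := s29fc_powsum a c m
  obtain ⟨w, hw⟩ := sub_dvd_pow_sub_pow (X * (C a - X) : K[X]) (C c) m
  rw [mul_pow] at hw
  refine ⟨t, X ^ m * u + w, ?_⟩
  have e : (X ^ m * X ^ m - C t * X ^ m + C (c ^ m) : K[X]) =
      X ^ m * (X ^ m + (C a - X) ^ m - C t) - (X ^ m * (C a - X) ^ m - C c ^ m) := by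
    rw [C_pow]
    ring
  have e2 : (X * (C a - X) - C c : K[X]) = -(X * X - C a * X + C c) := by ring
  rw [e, hu, hw, e2]
  ring

variable {E : Type*} [Ring E] [Algebra K E]

/-- **The power lemma**: if `x² - a x + c = 0` then `(x^m)² - t x^m + c^m = 0` for some `t`. -/
theorem s29fc_pow (x : E) (a c : K) (h : x * x - a • x + c • (1 : E) = 0) (m : ℕ) :
    ∃ t : K, x ^ m * x ^ m - t • x ^ m + c ^ m • (1 : E) = 0 := by
  obtain ⟨t, u, hu⟩ := s29fc_pow_poly a c m
  refine ⟨t, ?_⟩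
  have h0 : aeval x (X * X - C a * X + C c : K[X]) = 0 := by
    simp only [map_add, map_sub, map_mul, aeval_X, aeval_C, ← Algebra.smul_def]
    rw [Algebra.algebraMap_eq_smul_one]
    exact h
  have h1 := congrArg (aeval x) hu
  rw [map_mul, h0, zero_mul] at h1
  simp only [map_add, map_sub, map_mul, map_pow, aeval_X, aeval_C, ← Algebra.smul_def] at h1
  rw [Algebra.algebraMap_eq_smul_one, _root_.smul_pow, one_pow] at h1
  exact h1

end power

/-! ### A minimal stable subspace -/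

section minimal

variable {K W G : Type*} [Field K] [AddCommGroup W] [Module K W] [FiniteDimensional K W]
  [Nontrivial W] [Monoid G]

theorem s29fc_minimal (r : G →* Module.End K W) :
    ∃ W0 : Submodule K W, W0 ≠ ⊥ ∧ (∀ g, ∀ x ∈ W0, r g x ∈ W0) ∧
      ∀ W' : Submodule K W, W' ≤ W0 → (∀ g, ∀ x ∈ W', r g x ∈ W') → W' = ⊥ ∨ W' = W0 := by
  obtain ⟨W0, ⟨h1, h2⟩, hmin⟩ := IsArtinian.set_has_minimal
    {W' : Submodule K W | W' ≠ ⊥ ∧ ∀ g, ∀ x ∈ W', r g x ∈ W'}
    ⟨⊤, top_ne_bot, fun _ _ _ => Submodule.mem_top⟩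
  refine ⟨W0, h1, h2, fun W' hle hst => ?_⟩
  by_cases hb : W' = ⊥
  · exact Or.inl hb
  · right
    by_contra hne
    exact hmin W' ⟨hb, hst⟩ (lt_of_le_of_ne hle hne)

end minimal

/-! ### Dimension two -/

section dim2

variable {K V : Type*} [Field K] [AddCommGroup V] [Module K V] [FiniteDimensional K V]

/-- In dimension 2, a monic quadratic annihilating a non-scalar endomorphism is its
characteristic polynomial. -/
theorem s29fc_charpoly_of_quad (hV : Module.finrank K V = 2) (f : Module.End K V) (t c : K)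
    (hq : f * f - t • f + c • (1 : Module.End K V) = 0)
    (hns : ∀ α : K, f ≠ α • (1 : Module.End K V)) :
    LinearMap.charpoly f = X ^ 2 - C t * X + C c := by
  haveI : Nontrivial V := Module.nontrivial_of_finrank_pos (R := K) (by rw [hV]; norm_num)
  have hform : (X ^ 2 - C t * X + C c : K[X]) = C 1 * X ^ 2 + C (-t) * X + C c := by
    rw [C_neg, C_1]; ring
  have hP : (X ^ 2 - C t * X + C c : K[X]).Monic := by
    rw [hform, Polynomial.Monic, Polynomial.leadingCoeff_quadratic one_ne_zero]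
  have hPdeg : (X ^ 2 - C t * X + C c : K[X]).natDegree = 2 := by
    rw [hform, Polynomial.natDegree_quadratic one_ne_zero]
  have h0 : aeval f (X ^ 2 - C t * X + C c : K[X]) = 0 := by
    simp only [map_add, map_sub, map_mul, map_pow, aeval_X, aeval_C, ← Algebra.smul_def]
    rw [Algebra.algebraMap_eq_smul_one, pow_two]
    exact hq
  have hint : IsIntegral K f := ⟨_, hP, h0⟩
  have hmdvd : minpoly K f ∣ (X ^ 2 - C t * X + C c : K[X]) := minpoly.dvd K f h0
  have hmmon : (minpoly K f).Monic := minpoly.monic hint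
  have hmdeg : 2 ≤ (minpoly K f).natDegree := by
    by_contra hlt
    rw [not_le] at hlt
    have hpos : 0 < (minpoly K f).natDegree := minpoly.natDegree_pos hint
    have h1 : (minpoly K f).natDegree = 1 := by omega
    obtain ⟨α, hα⟩ := (minpoly.natDegree_eq_one_iff).mp h1
    apply hns α
    rw [← hα, Algebra.algebraMap_eq_smul_one]
  have e1 : (X ^ 2 - C t * X + C c : K[X]) = minpoly K f :=
    Polynomial.eq_of_monic_of_dvd_of_natDegree_le hmmon hP hmdvd (by rw [hPdeg]; exact hmdeg)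
  have hcdeg : (LinearMap.charpoly f).natDegree = 2 := by
    rw [LinearMap.charpoly_natDegree, hV]
  have e2 : LinearMap.charpoly f = minpoly K f :=
    Polynomial.eq_of_monic_of_dvd_of_natDegree_le hmmon (LinearMap.charpoly_monic f)
      (LinearMap.minpoly_dvd_charpoly f) (by rw [hcdeg]; exact hmdeg)
  rw [e2, ← e1]

/-- The characteristic polynomial of a scalar in dimension 2. -/
theorem s29fc_charpoly_scalar (hV : Module.finrank K V = 2) (α : K) :
    LinearMap.charpoly (α • (1 : Module.End K V)) = X ^ 2 - C (2 * α) * X + C (α * α) := by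
  let b := Module.finBasisOfFinrankEq K V hV
  rw [← LinearMap.charpoly_toMatrix (α • (1 : Module.End K V)) b, Matrix.charpoly_fin_two]
  have e : LinearMap.toMatrix b b (α • (1 : Module.End K V)) = α • (1 : Matrix (Fin 2) (Fin 2) K) := by
    rw [map_smul]
    congr 1
    exact LinearMap.toMatrix_one b
  rw [e, Matrix.trace_smul, Matrix.trace_one, Matrix.det_smul, Matrix.det_one]
  simp only [Fintype.card_fin, smul_eq_mul, mul_one]
  congr 2
  · congr 2
    push_cast
    ring
  · ring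

/-- The determinant in dimension 2 is the constant coefficient of the characteristic
polynomial. -/
theorem s29fc_det_eq_coeff (hV : Module.finrank K V = 2) (f : Module.End K V) :
    LinearMap.det f = (LinearMap.charpoly f).coeff 0 := by
  rw [LinearMap.det_eq_sign_charpoly_coeff, hV]
  norm_num

theorem s29fc_coeff_zero (t c : K) : (X ^ 2 - C t * X + C c : K[X]).coeff 0 = c := by
  simp [Polynomial.coeff_X_pow]

end dim2

/-! ### Representations of dimension two with quadratic relations -/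

section rep2

variable {K V G : Type*} [Field K] [AddCommGroup V] [Module K V] [FiniteDimensional K V]
  [Group G]

theorem s29fc_scalar_ne_zero [Nontrivial V] (ρ : G →* Module.End K V) (g : G) (α : K)
    (h : ρ g = α • (1 : Module.End K V)) : α ≠ 0 := by
  rintro rfl
  rw [zero_smul] at h
  have h1 : ρ g * ρ g⁻¹ = 1 := by rw [← map_mul, mul_inv_cancel, map_one]
  rw [h, zero_mul] at h1
  exact zero_ne_one h1

theorem s29fc_chi_ne_zero (χ : G →* K) (g : G) : χ g ≠ 0 := by
  intro h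
  have h1 : χ g * χ g⁻¹ = 1 := by rw [← map_mul, mul_inv_cancel, map_one]
  rw [h, zero_mul] at h1
  exact zero_ne_one h1

/-- An irreducible representation of dimension 2 has a non-scalar element. -/
theorem s29fc_exists_nonscalar (hV : Module.finrank K V = 2) (ρ : G →* Module.End K V)
    (hirr : ∀ W : Submodule K V, (∀ g, ∀ x ∈ W, ρ g x ∈ W) → W = ⊥ ∨ W = ⊤) :
    ∃ h : G, ∀ β : K, ρ h ≠ β • (1 : Module.End K V) := by
  haveI : Nontrivial V := Module.nontrivial_of_finrank_pos (R := K) (by rw [hV]; norm_num)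
  by_contra hcon
  simp only [not_exists, not_forall, not_not] at hcon
  obtain ⟨v, hv⟩ := exists_ne (0 : V)
  have hst : ∀ g, ∀ x ∈ Submodule.span K ({v} : Set V), ρ g x ∈ Submodule.span K ({v} : Set V) := by
    intro g x hx
    obtain ⟨β, hβ⟩ := hcon g
    rw [hβ, LinearMap.smul_apply, Module.End.one_apply]
    exact Submodule.smul_mem _ _ hx
  rcases hirr _ hst with h | h
  · rw [Submodule.span_singleton_eq_bot] at h
    exact hv h
  · have h1 : Module.finrank K (Submodule.span K ({v} : Set V)) = 1 :=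
      finrank_span_singleton hv
    rw [h, finrank_top, hV] at h1
    norm_num at h1

/-- In an irreducible representation of dimension 2 in which every `g` satisfies a quadratic
equation with constant term `χ(g)`, that quadratic is the characteristic polynomial. -/
theorem s29fc_charpoly (hV : Module.finrank K V = 2) (ρ : G →* Module.End K V)
    (hirr : ∀ W : Submodule K V, (∀ g, ∀ x ∈ W, ρ g x ∈ W) → W = ⊥ ∨ W = ⊤)
    (χ : G →* K) (hq : ∀ g, ∃ t : K, ρ g * ρ g - t • ρ g + χ g • (1 : Module.End K V) = 0)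
    (g : G) (t : K) (hg : ρ g * ρ g - t • ρ g + χ g • (1 : Module.End K V) = 0) :
    LinearMap.charpoly (ρ g) = X ^ 2 - C t * X + C (χ g) := by
  haveI : Nontrivial V := Module.nontrivial_of_finrank_pos (R := K) (by rw [hV]; norm_num)
  by_cases hs : ∃ α : K, ρ g = α • (1 : Module.End K V)
  · obtain ⟨α, hα⟩ := hs
    have hα0 : α ≠ 0 := s29fc_scalar_ne_zero ρ g α hα
    obtain ⟨h, hh⟩ := s29fc_exists_nonscalar hV ρ hirr
    obtain ⟨t1, h1⟩ := hq h
    obtain ⟨t2, h2⟩ := hq (g * h)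
    have c1 := s29fc_charpoly_of_quad hV (ρ h) t1 (χ h) h1 hh
    have hgh : ρ (g * h) = α • ρ h := by
      rw [map_mul, hα, smul_mul_assoc, one_mul]
    have hns : ∀ β : K, ρ (g * h) ≠ β • (1 : Module.End K V) := by
      intro β hβ
      apply hh (α⁻¹ * β)
      rw [hgh] at hβ
      rw [mul_smul, ← hβ, smul_smul, inv_mul_cancel₀ hα0, one_smul]
    have c2 := s29fc_charpoly_of_quad hV (ρ (g * h)) t2 (χ (g * h)) h2 hns
    have d1 : LinearMap.det (ρ h) = χ h := by
      rw [s29fc_det_eq_coeff hV, c1, s29fc_coeff_zero]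
    have d2 : LinearMap.det (ρ (g * h)) = χ (g * h) := by
      rw [s29fc_det_eq_coeff hV, c2, s29fc_coeff_zero]
    have d3 : LinearMap.det (ρ (g * h)) = α ^ 2 * χ h := by
      rw [hgh, LinearMap.det_smul, hV, d1]
    have hαχ : α * α = χ g := by
      have : α ^ 2 * χ h = χ g * χ h := by rw [← d3, d2, map_mul]
      have := mul_right_cancel₀ (s29fc_chi_ne_zero χ h) this
      rw [← this, pow_two]
    have ht : t = 2 * α := by
      rw [hα] at hg
      have e : (α • (1 : Module.End K V)) * (α • (1 : Module.End K V)) -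
          t • (α • (1 : Module.End K V)) + χ g • (1 : Module.End K V) =
          (α * α - t * α + χ g) • (1 : Module.End K V) := by
        rw [smul_mul_smul_comm, one_mul, smul_smul, add_smul, sub_smul]
      rw [e] at hg
      have h0 : α * α - t * α + χ g = 0 := by
        by_contra hne
        have := smul_eq_zero.mp hg
        rcases this with h | h
        · exact hne h
        · exact one_ne_zero h
      rw [← hαχ] at h0
      have : (2 * α - t) * α = 0 := by linear_combination h0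
      rcases mul_eq_zero.mp this with h | h
      · exact (sub_eq_zero.mp h).symm
      · exact absurd h hα0
    rw [hα, s29fc_charpoly_scalar hV, ht, hαχ]
  · simp only [not_exists] at hs
    exact s29fc_charpoly_of_quad hV (ρ g) t (χ g) hg hs

theorem s29fc_det (hV : Module.finrank K V = 2) (ρ : G →* Module.End K V)
    (hirr : ∀ W : Submodule K V, (∀ g, ∀ x ∈ W, ρ g x ∈ W) → W = ⊥ ∨ W = ⊤)
    (χ : G →* K) (hq : ∀ g, ∃ t : K, ρ g * ρ g - t • ρ g + χ g • (1 : Module.End K V) = 0)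
    (g : G) : LinearMap.det (ρ g) = χ g := by
  obtain ⟨t, ht⟩ := hq g
  rw [s29fc_det_eq_coeff hV, s29fc_charpoly hV ρ hirr χ hq g t ht, s29fc_coeff_zero]

end rep2

/-! ### Dimension one -/

section dim1

variable {K V : Type*} [Field K] [AddCommGroup V] [Module K V] [FiniteDimensional K V]

theorem s29fc_eq_det_smul (hV : Module.finrank K V = 1) (f : Module.End K V) :
    f = LinearMap.det f • (1 : Module.End K V) := by
  haveI : Nontrivial V := Module.nontrivial_of_finrank_pos (R := K) (by rw [hV]; norm_num)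
  obtain ⟨v, hv⟩ := exists_ne (0 : V)
  have hspan := (finrank_eq_one_iff_of_nonzero' v hv).mp hV
  obtain ⟨c, hc⟩ := hspan (f v)
  have hf : f = c • (1 : Module.End K V) := by
    ext w
    obtain ⟨d, rfl⟩ := hspan w
    rw [map_smul, ← hc, LinearMap.smul_apply, Module.End.one_apply, smul_comm]
  have hdet : LinearMap.det f = c := by
    rw [hf, LinearMap.det_smul, hV, pow_one, map_one, mul_one]
  rw [hdet]
  exact hf

end dim1

/-! ### The sum of two characters -/

section twochar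

variable {K : Type*} [Field K]

/-- `diag(a, b)` on `K × K`. -/
def s29fc_diag (a b : K) : Module.End K (K × K) :=
  LinearMap.prodMap (a • (LinearMap.id : K →ₗ[K] K)) (b • (LinearMap.id : K →ₗ[K] K))

theorem s29fc_diag_apply (a b : K) (x : K × K) : s29fc_diag a b x = (a * x.1, b * x.2) := rfl

theorem s29fc_diag_one : s29fc_diag (1 : K) 1 = 1 := by
  ext <;> simp [s29fc_diag_apply]

theorem s29fc_diag_mul (a b a' b' : K) :
    s29fc_diag (a * a') (b * b') = s29fc_diag a b * s29fc_diag a' b' := by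
  ext <;> simp [s29fc_diag_apply]

theorem s29fc_finrank_prod : Module.finrank K (K × K) = 2 := by
  rw [Module.finrank_prod, Module.finrank_self]

theorem s29fc_diag_charpoly (a b : K) :
    LinearMap.charpoly (s29fc_diag a b) = X ^ 2 - C (a + b) * X + C (a * b) := by
  have hrel : s29fc_diag a b * s29fc_diag a b - (a + b) • s29fc_diag a b +
      (a * b) • (1 : Module.End K (K × K)) = 0 := by
    ext <;> simp [s29fc_diag_apply] <;> ring
  by_cases hab : a = b
  · subst hab
    have hs : s29fc_diag a a = a • (1 : Module.End K (K × K)) := by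
      ext <;> simp [s29fc_diag_apply]
    rw [hs, s29fc_charpoly_scalar s29fc_finrank_prod, two_mul]
  · refine s29fc_charpoly_of_quad s29fc_finrank_prod _ _ _ hrel fun α hα => hab ?_
    have h1 := congrArg (fun f : Module.End K (K × K) => (f (1, 0)).1) hα
    have h2 := congrArg (fun f : Module.End K (K × K) => (f (0, 1)).2) hα
    simp [s29fc_diag_apply] at h1 h2
    rw [h1, h2]

end twochar

/-! ### Finite levels -/

section level

open IntermediateField

/-- Two elements of the Galois group which agree on a finite level have the same image. -/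
theorem s29fc_agree {M : Type*} [Monoid M]
    (r : (AlgebraicClosure ℚ ≃ₐ[ℚ] AlgebraicClosure ℚ) →* M)
    (L : IntermediateField ℚ (AlgebraicClosure ℚ))
    (hL : ∀ σ : AlgebraicClosure ℚ ≃ₐ[ℚ] AlgebraicClosure ℚ, (∀ x ∈ L, σ x = x) → r σ = 1)
    (σ τ : AlgebraicClosure ℚ ≃ₐ[ℚ] AlgebraicClosure ℚ) (h : ∀ x ∈ L, σ x = τ x) :
    r σ = r τ := by
  have h1 : r (τ⁻¹ * σ) = 1 := by
    refine hL _ fun x hx => ?_
    rw [AlgEquiv.mul_apply, h x hx]
    exact τ.symm_apply_apply x
  have h2 : σ = τ * (τ⁻¹ * σ) := by rw [mul_inv_cancel_left]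
  rw [h2, map_mul, h1, mul_one]

end level

/-! ### The assembly -/

/-- **(K5) [FIN-A]** the 2-dimensional representation over an algebraically closed field. -/
theorem s29fc_core_of (hQM : s29_QuadModuleStatement) (hFD : s29_FDStatement)
    (hCyc : s29_CycStatement) : s29_CoreStatement := by
  intro N _ g hg p hp K _ _ _ φ
  obtain ⟨W, iA, iM, iF, iN, r, ⟨L1, hL1fd, hL1⟩, hinert, hfrob⟩ := hQM N g hg p hp K φ
  obtain ⟨χ, ⟨L2, hL2fd, hL2⟩, hχinert, hχfrob⟩ := hCyc p hp K
  have hN0 : N ≠ 0 := NeZero.ne N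
  -- the joint level
  haveI := hL1fd
  haveI := hL2fd
  have hLfd : FiniteDimensional ℚ ↥(L1 ⊔ L2) := IntermediateField.finiteDimensional_sup L1 L2
  have hrL : ∀ σ : AlgebraicClosure ℚ ≃ₐ[ℚ] AlgebraicClosure ℚ,
      (∀ x ∈ L1 ⊔ L2, σ x = x) → r σ = 1 := fun σ h =>
    hL1 σ fun x hx => h x ((le_sup_left : L1 ≤ L1 ⊔ L2) hx)
  have hχL : ∀ σ : AlgebraicClosure ℚ ≃ₐ[ℚ] AlgebraicClosure ℚ,
      (∀ x ∈ L1 ⊔ L2, σ x = x) → χ σ = 1 := fun σ h =>
    hL2 σ fun x hx => h x ((le_sup_right : L2 ≤ L1 ⊔ L2) hx)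
  have hnotdvd : ∀ ℓ : ℕ, ℓ.Prime → ¬ ℓ ∣ N * p → ℓ ≠ p := by
    rintro ℓ _ h rfl
    exact h (dvd_mul_left _ _)
  -- the quadratic relation for every element of the Galois group
  have hquad : ∀ γ : AlgebraicClosure ℚ ≃ₐ[ℚ] AlgebraicClosure ℚ,
      ∃ t : K, r γ * r γ - t • r γ + χ γ • (1 : Module.End K W) = 0 := by
    intro γ
    obtain ⟨ℓ, hℓ, hℓS, A, hA, σ, hσ, m, m', -, h2⟩ := hFD (L1 ⊔ L2) hLfd γ (N * p).primeFactors
    have hℓNp : ¬ ℓ ∣ N * p := fun h =>
      hℓS (Nat.mem_primeFactors.mpr ⟨hℓ, h, mul_ne_zero hN0 hp.ne_zero⟩)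
    obtain ⟨a, -, hrel⟩ := hfrob ℓ hℓ hℓNp A hA σ hσ
    obtain ⟨t, ht⟩ := s29fc_pow (r σ) (φ a) (ℓ : K) hrel m'
    refine ⟨t, ?_⟩
    rw [← s29fc_agree r (L1 ⊔ L2) hrL (σ ^ m') γ h2, ← s29fc_agree χ (L1 ⊔ L2) hχL (σ ^ m') γ h2,
      map_pow, map_pow, hχfrob ℓ hℓ (hnotdvd ℓ hℓ hℓNp) A hA σ hσ]
    exact ht
  -- a minimal stable subspace
  obtain ⟨W0, hW0, hst, hmin⟩ := s29fc_minimal r
  haveI : Nontrivial ↥W0 := Submodule.nontrivial_iff_ne_bot.mpr hW0
  let ρ0 : (AlgebraicClosure ℚ ≃ₐ[ℚ] AlgebraicClosure ℚ) →* Module.End K ↥W0 :=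
    { toFun := fun γ => (r γ).restrict (hst γ)
      map_one' := by
        ext x
        simp
      map_mul' := fun γ δ => by
        ext x
        simp }
  have hρ0 : ∀ γ (x : ↥W0), ((ρ0 γ x : ↥W0) : W) = r γ (x : W) := fun γ x => rfl
  have hρ0_one : ∀ γ, r γ = 1 → ρ0 γ = 1 := by
    intro γ h
    ext x
    rw [hρ0, h]
    rfl
  have hirr : ∀ W' : Submodule K ↥W0, (∀ γ, ∀ x ∈ W', ρ0 γ x ∈ W') → W' = ⊥ ∨ W' = ⊤ := by
    intro W' hW'
    have h1 := hmin (W'.map W0.subtype) (Submodule.map_subtype_le W0 W') (by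
      rintro γ x ⟨y, hy, rfl⟩
      exact ⟨ρ0 γ y, hW' γ y hy, rfl⟩)
    rcases h1 with h | h
    · left
      apply Submodule.map_injective_of_injective W0.injective_subtype
      rw [h, Submodule.map_bot]
    · right
      apply Submodule.map_injective_of_injective W0.injective_subtype
      rw [h, Submodule.map_subtype_top]
  have hq0 : ∀ γ, ∃ t : K, ρ0 γ * ρ0 γ - t • ρ0 γ + χ γ • (1 : Module.End K ↥W0) = 0 := by
    intro γ
    obtain ⟨t, ht⟩ := hquad γ
    refine ⟨t, ?_⟩
    ext x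
    have := congrArg (fun f : Module.End K W => f (x : W)) ht
    simpa [hρ0] using this
  have hq0' : ∀ γ (t : K), r γ * r γ - t • r γ + χ γ • (1 : Module.End K W) = 0 →
      ρ0 γ * ρ0 γ - t • ρ0 γ + χ γ • (1 : Module.End K ↥W0) = 0 := by
    intro γ t ht
    ext x
    have := congrArg (fun f : Module.End K W => f (x : W)) ht
    simpa [hρ0] using this
  have hle : Module.finrank K ↥W0 ≤ 2 :=
    s29a_finrank_le_two ρ0 hirr (fun γ => χ γ) (fun γ => (hq0 γ).choose)
      (fun γ δ => map_mul χ γ δ) (fun γ => (hq0 γ).choose_spec)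
  have hpos : 0 < Module.finrank K ↥W0 := Module.finrank_pos
  have hℓK : ∀ ℓ : ℕ, ℓ.Prime → ¬ ℓ ∣ N → ((ℓ : ℕ) : K) ≠ 0 → ¬ ℓ ∣ N * p := by
    intro ℓ hℓ hℓN hne h
    rcases (Nat.Prime.dvd_mul hℓ).mp h with h | h
    · exact hℓN h
    · have : ℓ = p := (Nat.prime_dvd_prime_iff_eq hℓ hp).mp h
      subst this
      exact hne (CharP.cast_eq_zero K ℓ)
  have hfrob0 : ∀ ℓ : ℕ, ℓ.Prime → ¬ ℓ ∣ N * p →
      ∀ A : ValuationSubring (AlgebraicClosure ℚ), A.LiesOverPrime ℓ →
        ∀ σ : AlgebraicClosure ℚ ≃ₐ[ℚ] AlgebraicClosure ℚ, A.IsFrobeniusAt σ ℓ →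
          ∃ a : integralClosure ℤ ℂ, (a : ℂ) = ModularFormClass.qCoeff g ℓ ∧
            ρ0 σ * ρ0 σ - φ a • ρ0 σ + χ σ • (1 : Module.End K ↥W0) = 0 ∧ χ σ = (ℓ : K) := by
    intro ℓ hℓ hℓNp A hA σ hσ
    obtain ⟨a, ha, hrel⟩ := hfrob ℓ hℓ hℓNp A hA σ hσ
    have hχ := hχfrob ℓ hℓ (hnotdvd ℓ hℓ hℓNp) A hA σ hσ
    refine ⟨a, ha, hq0' σ (φ a) ?_, hχ⟩
    rw [hχ]
    exact hrel
  have hcases : Module.finrank K ↥W0 = 2 ∨ Module.finrank K ↥W0 = 1 := by omega
  rcases hcases with h2 | h1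
  · -- dimension two
    refine ⟨{ V := ↥W0
              finrank_eq := h2
              ρ := ρ0
              factorsThroughFiniteLevel := ⟨L1, hL1fd, fun σ hσ => hρ0_one σ (hL1 σ hσ)⟩ },
      ?_, ?_, ?_⟩
    · intro ℓ hℓ hℓN hne A hA σ hσ
      obtain ⟨a, ha, hrel, hχ⟩ := hfrob0 ℓ hℓ (hℓK ℓ hℓ hℓN hne) A hA σ hσ
      refine ⟨a, ha, ?_⟩
      show LinearMap.charpoly (ρ0 σ) = _
      rw [s29fc_charpoly h2 ρ0 hirr χ hq0 σ (φ a) hrel, hχ]
    · intro ℓ hℓ hℓNp A hA σ hσ
      exact hρ0_one σ (hinert ℓ hℓ hℓNp A hA σ hσ)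
    · intro ℓ hℓ hℓNp A hA σ hσ
      show LinearMap.det (ρ0 σ) = _
      rw [s29fc_det h2 ρ0 hirr χ hq0 σ, hχfrob ℓ hℓ (hnotdvd ℓ hℓ hℓNp) A hA σ hσ]
  · -- dimension one
    have hsc : ∀ γ, ρ0 γ = LinearMap.det (ρ0 γ) • (1 : Module.End K ↥W0) := fun γ =>
      s29fc_eq_det_smul h1 (ρ0 γ)
    let χ1 : (AlgebraicClosure ℚ ≃ₐ[ℚ] AlgebraicClosure ℚ) →* K :=
      (LinearMap.det : Module.End K ↥W0 →* K).comp ρ0
    have hχ1 : ∀ γ, χ1 γ = LinearMap.det (ρ0 γ) := fun γ => rfl
    have hχ1_ne : ∀ γ, χ1 γ ≠ 0 := fun γ => s29fc_chi_ne_zero χ1 γ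
    have hχ1_one : ∀ γ, r γ = 1 → χ1 γ = 1 := by
      intro γ h
      rw [hχ1, hρ0_one γ h, map_one]
    let ρ1 : (AlgebraicClosure ℚ ≃ₐ[ℚ] AlgebraicClosure ℚ) →* Module.End K (K × K) :=
      { toFun := fun γ => s29fc_diag (χ1 γ) (χ γ * (χ1 γ)⁻¹)
        map_one' := by
          rw [map_one, map_one, inv_one, mul_one]
          exact s29fc_diag_one
        map_mul' := fun γ δ => by
          rw [← s29fc_diag_mul, map_mul, map_mul, mul_inv]
          congr 1
          ring }
    have hρ1 : ∀ γ, ρ1 γ = s29fc_diag (χ1 γ) (χ γ * (χ1 γ)⁻¹) := fun γ => rfl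
    have hρ1_one : ∀ γ, r γ = 1 → χ γ = 1 → ρ1 γ = 1 := by
      intro γ h h'
      rw [hρ1, hχ1_one γ h, h', inv_one, mul_one]
      exact s29fc_diag_one
    have hchar : ∀ ℓ : ℕ, ℓ.Prime → ¬ ℓ ∣ N * p →
        ∀ A : ValuationSubring (AlgebraicClosure ℚ), A.LiesOverPrime ℓ →
          ∀ σ : AlgebraicClosure ℚ ≃ₐ[ℚ] AlgebraicClosure ℚ, A.IsFrobeniusAt σ ℓ →
            ∃ a : integralClosure ℤ ℂ, (a : ℂ) = ModularFormClass.qCoeff g ℓ ∧
              LinearMap.charpoly (ρ1 σ) = X ^ 2 - C (φ a) * X + C ((ℓ : ℕ) : K) := by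
      intro ℓ hℓ hℓNp A hA σ hσ
      obtain ⟨a, ha, hrel, hχ⟩ := hfrob0 ℓ hℓ hℓNp A hA σ hσ
      refine ⟨a, ha, ?_⟩
      have hα := hχ1_ne σ
      -- the scalar relation
      have hsrel : χ1 σ * χ1 σ - φ a * χ1 σ + χ σ = 0 := by
        rw [hsc σ, ← hχ1] at hrel
        have e : (χ1 σ • (1 : Module.End K ↥W0)) * (χ1 σ • (1 : Module.End K ↥W0)) -
            φ a • (χ1 σ • (1 : Module.End K ↥W0)) + χ σ • (1 : Module.End K ↥W0) =
            (χ1 σ * χ1 σ - φ a * χ1 σ + χ σ) • (1 : Module.End K ↥W0) := by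
          rw [smul_mul_smul_comm, one_mul, smul_smul, add_smul, sub_smul]
        rw [e] at hrel
        rcases smul_eq_zero.mp hrel with h | h
        · exact h
        · exact absurd h one_ne_zero
      rw [hρ1, s29fc_diag_charpoly]
      have e1 : χ1 σ + χ σ * (χ1 σ)⁻¹ = φ a := by
        field_simp
        linear_combination hsrel
      have e2 : χ1 σ * (χ σ * (χ1 σ)⁻¹) = (ℓ : K) := by
        rw [← hχ]
        field_simp
      rw [e1, e2]
    refine ⟨{ V := K × K
              finrank_eq := s29fc_finrank_prod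
              ρ := ρ1
              factorsThroughFiniteLevel := ⟨L1 ⊔ L2, hLfd, fun σ hσ =>
                hρ1_one σ (hrL σ hσ) (hχL σ hσ)⟩ },
      ?_, ?_, ?_⟩
    · intro ℓ hℓ hℓN hne A hA σ hσ
      exact hchar ℓ hℓ (hℓK ℓ hℓ hℓN hne) A hA σ hσ
    · intro ℓ hℓ hℓNp A hA σ hσ
      exact hρ1_one σ (hinert ℓ hℓ hℓNp A hA σ hσ)
        (hχinert ℓ hℓ (hnotdvd ℓ hℓ hℓNp) A hA σ hσ)
    · intro ℓ hℓ hℓNp A hA σ hσ
      obtain ⟨a, -, hc⟩ := hchar ℓ hℓ hℓNp A hA σ hσ
      show LinearMap.det (ρ1 σ) = _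
      rw [s29fc_det_eq_coeff s29fc_finrank_prod, hc, s29fc_coeff_zero]

example (hQM : s29_QuadModuleStatement) (hFD : s29_FDStatement) (hCyc : s29_CycStatement) :
    s29_CoreStatement := s29fc_core_of hQM hFD hCyc

end Fermat.Agent.S29
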