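import Mathlib
import Fermat.Agent.S29.Defs

/-!
# S29, (K5) [FIN-B]: the statement S29 from the representation over an algebraically closed
field (helper8).  Prefix `s29fg_`.

`s29fg_goal_of_core : s29_CoreStatement → s29_Goal`.

* `N = 0`: both clauses of the goal are vacuous (`ℓ ∣ 0`); the trivial representation works.
* `N ≠ 0`: `K := Z̄ ⧸ ker φ` is an algebraically closed field of characteristic `p`
  (`Z̄ = integralClosure ℤ ℂ`), `φ` factors as `Z̄ → K → k`; take the representation over `K`
  and extend scalars to `k`.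
-/

set_option autoImplicit false
set_option linter.unusedSectionVars false
set_option linter.style.haveILetI false

open Polynomial

noncomputable section

namespace Fermat.Agent.S29

/-! ### The trivial representation -/

/-- The trivial representation on `k²`. -/
def s29fg_trivial (k : Type) [Field k] : ResidualGaloisRep k where
  V := Fin 2 → k
  finrank_eq := by rw [Module.finrank_fin_fun]
  ρ := 1
  factorsThroughFiniteLevel := ⟨⊥, inferInstance, fun _ _ => rfl⟩

/-! ### The residue field of `Z̄` at `ker φ` -/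

section residue

variable {k : Type} [Field k] (φ : integralClosure ℤ ℂ →+* k)

theorem s29fg_ker_isMaximal {p : ℕ} (hp : p.Prime) [CharP k p] : (RingHom.ker φ).IsMaximal := by
  haveI : (RingHom.ker φ).IsPrime := RingHom.ker_isPrime φ
  refine Ideal.isMaximal_of_isIntegral_of_isMaximal_comap (R := ℤ) (RingHom.ker φ) ?_
  haveI : ((RingHom.ker φ).comap (algebraMap ℤ (integralClosure ℤ ℂ))).IsPrime :=
    Ideal.comap_isPrime _ _
  refine Ideal.IsPrime.isMaximal inferInstance ?_
  intro h
  have hmem : (p : ℤ) ∈ (RingHom.ker φ).comap (algebraMap ℤ (integralClosure ℤ ℂ)) := by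
    rw [Ideal.mem_comap, RingHom.mem_ker]
    simp
  rw [h, Ideal.mem_bot] at hmem
  exact hp.ne_zero (by exact_mod_cast hmem)

/-- Monic polynomials over `Z̄` of positive degree have a root in `Z̄`. -/
theorem s29fg_exists_root (q : (integralClosure ℤ ℂ)[X]) (hq : q.Monic) (hdeg : q.degree ≠ 0) :
    ∃ z : integralClosure ℤ ℂ, q.eval z = 0 := by
  have hdeg' : (q.map (algebraMap (integralClosure ℤ ℂ) ℂ)).degree ≠ 0 := by
    rw [hq.degree_map]
    exact hdeg
  obtain ⟨z, hz⟩ := IsAlgClosed.exists_root _ hdeg'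
  have hz' : IsIntegral (integralClosure ℤ ℂ) z := by
    refine ⟨q, hq, ?_⟩
    rw [← Polynomial.eval_map]
    exact hz
  have hz'' : IsIntegral ℤ z := isIntegral_trans z hz'
  refine ⟨⟨z, hz''⟩, ?_⟩
  apply Subtype.ext
  have h1 : ((q.eval (⟨z, hz''⟩ : integralClosure ℤ ℂ) : integralClosure ℤ ℂ) : ℂ) =
      (q.map (algebraMap (integralClosure ℤ ℂ) ℂ)).eval z := by
    rw [Polynomial.eval_map]
    exact (Polynomial.eval₂_at_apply (algebraMap (integralClosure ℤ ℂ) ℂ) _).symm
  rw [h1, hz]
  rfl

end residue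

/-! ### The goal -/

/-- **(K5) [FIN-B]** the statement S29 from the representation over algebraically closed
fields. -/
theorem s29fg_goal_of_core (hCore : s29_CoreStatement) : s29_Goal := by
  intro N g hg p hp k _ _ φ
  by_cases hN : N = 0
  · subst hN
    refine ⟨s29fg_trivial k, ?_, ?_⟩
    · intro ℓ _ hℓ
      exact absurd (dvd_zero ℓ) hℓ
    · intro ℓ _ hℓ
      rw [zero_mul] at hℓ
      exact absurd (dvd_zero ℓ) hℓ
  · haveI : NeZero N := ⟨hN⟩
    haveI hmax : (RingHom.ker φ).IsMaximal := s29fg_ker_isMaximal φ hp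
    letI : Field (integralClosure ℤ ℂ ⧸ RingHom.ker φ) := Ideal.Quotient.field _
    have hinj : Function.Injective (RingHom.kerLift φ) := RingHom.kerLift_injective φ
    haveI : CharP (integralClosure ℤ ℂ ⧸ RingHom.ker φ) p :=
      (RingHom.kerLift φ).charP hinj p
    haveI : IsAlgClosed (integralClosure ℤ ℂ ⧸ RingHom.ker φ) := by
      refine IsAlgClosed.of_exists_root _ fun f hf hirr => ?_
      obtain ⟨q, hqf, hqd, hqm⟩ := Polynomial.lifts_and_degree_eq_and_monic
        ((Polynomial.mem_lifts f).mpr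
          (Polynomial.map_surjective _ Ideal.Quotient.mk_surjective f)) hf
      have hdeg : q.degree ≠ 0 := by
        rw [hqd]
        exact (Polynomial.degree_pos_of_irreducible hirr).ne'
      obtain ⟨z, hz⟩ := s29fg_exists_root q hqm hdeg
      refine ⟨Ideal.Quotient.mk (RingHom.ker φ) z, ?_⟩
      rw [← hqf, Polynomial.eval_map, Polynomial.eval₂_at_apply, hz, map_zero]
    obtain ⟨ρ, hatt, hunr, -⟩ := hCore N g hg p hp (integralClosure ℤ ℂ ⧸ RingHom.ker φ)
      (Ideal.Quotient.mk (RingHom.ker φ))
    letI : Algebra (integralClosure ℤ ℂ ⧸ RingHom.ker φ) k := (RingHom.kerLift φ).toAlgebra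
    have halg : ∀ x, algebraMap (integralClosure ℤ ℂ ⧸ RingHom.ker φ) k x =
        RingHom.kerLift φ x := fun _ => rfl
    refine ⟨ρ.baseChange k, ?_, ?_⟩
    · intro ℓ hℓ hℓN hℓk A hA σ hσ
      have hℓK : ((ℓ : ℕ) : integralClosure ℤ ℂ ⧸ RingHom.ker φ) ≠ 0 := by
        intro h
        apply hℓk
        have := congrArg (RingHom.kerLift φ) h
        simpa using this
      obtain ⟨a, ha, hchar⟩ := hatt ℓ hℓ hℓN hℓK A hA σ hσ
      refine ⟨a, ha, ?_⟩
      show LinearMap.charpoly ((ρ.ρ σ).baseChange k) = _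
      rw [LinearMap.charpoly_baseChange, hchar]
      simp only [Polynomial.map_add, Polynomial.map_sub, Polynomial.map_mul, Polynomial.map_pow,
        Polynomial.map_X, Polynomial.map_C, Polynomial.map_natCast, halg, RingHom.kerLift_mk,
        map_natCast]
    · intro ℓ hℓ hℓNp A hA σ hσ
      show (ρ.ρ σ).baseChange k = 1
      rw [hunr ℓ hℓ hℓNp A hA σ hσ]
      exact LinearMap.baseChange_one _ _

example (hCore : s29_CoreStatement) : s29_Goal := s29fg_goal_of_core hCore

end Fermat.Agent.S29
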