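/-
S29 / S42, tools for the outer wrappers of (K5) (helper10).  Prefix `s29w_`.

* `s29w_exists_root`      : a monic non-constant polynomial over `Z̄` has a root in `Z̄`.
* `s29w_isAlgClosed_of_surjective` : a field which is a quotient of `Z̄` is algebraically closed.
* `s29w_ker_isMaximal`    : the kernel of a ring homomorphism from `Z̄` to a field of
  characteristic `p > 0` is a maximal ideal.
* `s29w_charP_of_mem`     : a field quotient of `Z̄` by a homomorphism killing `p` has
  characteristic `p`.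
* `s29w_trivial`          : the trivial 2-dimensional representation.
* `s29w_baseChange_*`     : the Prelude's `ResidualGaloisRep.baseChange` preserves
  `IsAttachedTo` and `IsUnramifiedAt`.
-/
import Mathlib
import Fermat.Agent.S29.Defs

set_option autoImplicit false

open Polynomial

noncomputable section

namespace Fermat.Agent.S29

/-! ### `Z̄` and its residue fields -/

section Zbar

/-- A monic non-constant polynomial over `Z̄` has a root in `Z̄`. -/
theorem s29w_exists_root (Q : (integralClosure ℤ ℂ)[X]) (hQ : Q.Monic) (hd : Q.degree ≠ 0) :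
    ∃ a : integralClosure ℤ ℂ, Q.eval a = 0 := by
  have hdc : (Q.map (algebraMap (integralClosure ℤ ℂ) ℂ)).degree ≠ 0 := by
    rw [hQ.degree_map]; exact hd
  obtain ⟨α, hα⟩ := IsAlgClosed.exists_root (Q.map (algebraMap (integralClosure ℤ ℂ) ℂ)) hdc
  have hint : IsIntegral (integralClosure ℤ ℂ) α :=
    ⟨Q, hQ, by rw [eval₂_eq_eval_map]; exact hα⟩
  have hintZ : IsIntegral ℤ α := isIntegral_trans α hint
  refine ⟨⟨α, hintZ⟩, ?_⟩
  have h1 : algebraMap (integralClosure ℤ ℂ) ℂ (Q.eval (⟨α, hintZ⟩ : integralClosure ℤ ℂ)) =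
      (Q.map (algebraMap (integralClosure ℤ ℂ) ℂ)).eval α := by
    rw [eval_map]
    exact (Polynomial.eval₂_at_apply (algebraMap (integralClosure ℤ ℂ) ℂ)
      (⟨α, hintZ⟩ : integralClosure ℤ ℂ)).symm
  have h2 : algebraMap (integralClosure ℤ ℂ) ℂ (Q.eval (⟨α, hintZ⟩ : integralClosure ℤ ℂ)) = 0 := by
    rw [h1]; exact hα
  exact Subtype.ext h2

/-- A field which is a quotient of `Z̄` is algebraically closed. -/
theorem s29w_isAlgClosed_of_surjective {K : Type*} [Field K] (ψ : integralClosure ℤ ℂ →+* K)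
    (hψ : Function.Surjective ψ) : IsAlgClosed K := by
  refine IsAlgClosed.of_exists_root _ (fun q hq hirr => ?_)
  have hl : q ∈ Polynomial.lifts ψ :=
    (Polynomial.mem_lifts q).2 (Polynomial.map_surjective _ hψ q)
  obtain ⟨Q, hQ1, hQ2, hQ3⟩ := Polynomial.lifts_and_degree_eq_and_monic hl hq
  have hd : Q.degree ≠ 0 := by
    rw [hQ2]
    exact (Polynomial.degree_pos_of_irreducible hirr).ne'
  obtain ⟨a, ha⟩ := s29w_exists_root Q hQ3 hd
  refine ⟨ψ a, ?_⟩
  rw [← hQ1, Polynomial.eval_map, Polynomial.eval₂_at_apply, ha, map_zero]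

/-- The kernel of a ring homomorphism from `Z̄` to a field of positive characteristic is a maximal
ideal. -/
theorem s29w_ker_isMaximal {k : Type*} [Field k] {p : ℕ} (hp : p.Prime) [CharP k p]
    (φ : integralClosure ℤ ℂ →+* k) : (RingHom.ker φ).IsMaximal := by
  haveI : (RingHom.ker φ).IsPrime := RingHom.ker_isPrime φ
  apply Ideal.isMaximal_of_isIntegral_of_isMaximal_comap (R := ℤ) (RingHom.ker φ)
  have hprime : ((RingHom.ker φ).comap (algebraMap ℤ (integralClosure ℤ ℂ))).IsPrime :=
    Ideal.comap_isPrime _ _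
  apply hprime.isMaximal
  intro hbot
  have hmem : (p : ℤ) ∈ (RingHom.ker φ).comap (algebraMap ℤ (integralClosure ℤ ℂ)) := by
    rw [Ideal.mem_comap, RingHom.mem_ker]
    simp
  rw [hbot, Ideal.mem_bot] at hmem
  exact hp.ne_zero (by exact_mod_cast hmem)

/-- A surjective image of `Z̄` in which `p = 0` has characteristic `p`. -/
theorem s29w_charP_of_natCast {K : Type*} [Field K] {p : ℕ} (hp : p.Prime)
    (h : ((p : ℕ) : K) = 0) : CharP K p := by
  haveI : Fact p.Prime := ⟨hp⟩
  exact (CharP.charP_iff_prime_eq_zero hp).2 h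

end Zbar

/-! ### The trivial representation and base change -/

section Rep

/-- The trivial 2-dimensional representation. -/
def s29w_trivial (k : Type) [Field k] : ResidualGaloisRep k where
  V := Fin 2 → k
  finrank_eq := by simp
  ρ := 1
  factorsThroughFiniteLevel := ⟨⊥, inferInstance, fun _ _ => rfl⟩

variable {K0 k : Type} [Field K0] [Field k] [Algebra K0 k]

theorem s29w_baseChange_rho (ρ : ResidualGaloisRep K0)
    (σ : AlgebraicClosure ℚ ≃ₐ[ℚ] AlgebraicClosure ℚ) :
    (ρ.baseChange k).ρ σ = (ρ.ρ σ).baseChange k := rfl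

/-- Base change preserves `IsUnramifiedAt`. -/
theorem s29w_baseChange_unramified (ρ : ResidualGaloisRep K0) (ℓ : ℕ)
    (h : ρ.IsUnramifiedAt ℓ) : (ρ.baseChange k).IsUnramifiedAt ℓ := by
  intro A hA σ hσ
  rw [s29w_baseChange_rho, h A hA σ hσ, LinearMap.baseChange_one]

/-- Base change preserves `IsAttachedTo`. -/
theorem s29w_baseChange_attached (ρ : ResidualGaloisRep K0) {N : ℕ}
    (g : CuspForm (CongruenceSubgroup.Gamma0 N) 2) (φ0 : integralClosure ℤ ℂ →+* K0)
    (φ : integralClosure ℤ ℂ →+* k) (hφ : ∀ a, algebraMap K0 k (φ0 a) = φ a)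
    (h : ρ.IsAttachedTo g φ0) : (ρ.baseChange k).IsAttachedTo g φ := by
  intro ℓ hℓ hℓN hℓk A hA σ hσ
  have hℓ0 : ((ℓ : ℕ) : K0) ≠ 0 := by
    intro h0
    apply hℓk
    rw [← map_natCast (algebraMap K0 k), h0, map_zero]
  obtain ⟨a, ha, hchar⟩ := h ℓ hℓ hℓN hℓ0 A hA σ hσ
  refine ⟨a, ha, ?_⟩
  rw [s29w_baseChange_rho, LinearMap.charpoly_baseChange, hchar]
  simp [hφ]

end Rep

end Fermat.Agent.S29
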