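/-
S42, outer wrapper (W2) of (K5) (helper10).  Prefix `s29w_`.

`s29w_s42_of_core : s29_CoreStatement → ∀ P M, 0 < M → P.EigenformResidualAttachmentAt M`
- the statement S42 VERBATIM from the core statement of S29 over algebraically closed fields:

* `K := Z̄ ⧸ 𝔪` (algebraically closed of characteristic `p`), `ψ := Ideal.Quotient.mk 𝔪`;
* `ρ` from the core statement; trace and determinant at Frobenius elements are read off the
  characteristic polynomial `X² - ψ(a_ℓ) X + ℓ` and the determinant clause;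
* `F` := the normal closure of `L₁ ⊔ L₂`, `L₁` a finite level of `ρ`, `L₂` the field generated by
  the coordinates of the `p`-torsion points of the Frey curve (finitely many: `S13.card`).
-/
import Mathlib
import Fermat.Prelude.Def_FreyPackage_EigenformResidualAttachment
import Fermat.Agent.S29.Defs
import Fermat.Agent.S29.WrapTools
import Fermat.Agent.S13.Card

set_option autoImplicit false

open Polynomial WeierstrassCurve WeierstrassCurve.Affine WeierstrassCurve.Affine.Point

noncomputable section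

namespace Fermat.Agent.S29

/-! ### Trace from the characteristic polynomial -/

/-- In dimension two the trace is minus the linear coefficient of the characteristic
polynomial. -/
theorem s29w_trace_of_charpoly {K V : Type*} [Field K] [AddCommGroup V] [Module K V]
    [Module.Finite K V] (h2 : Module.finrank K V = 2) (f : Module.End K V) (t d : K)
    (h : f.charpoly = X ^ 2 - C t * X + C d) : LinearMap.trace K V f = t := by
  let b : Module.Basis (Fin 2) K V := Module.finBasisOfFinrankEq K V h2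
  rw [LinearMap.trace_eq_matrix_trace K b f, Matrix.trace_eq_neg_charpoly_coeff,
    LinearMap.charpoly_toMatrix f b, h]
  simp [coeff_C]

/-! ### The finite level of the torsion of a Weierstrass curve -/

section FiniteLevel

variable [DecidableEq (AlgebraicClosure ℚ)]

/-- The `x`-coordinate of a point (`0` at the point at infinity). -/
def s29w_xc {W : Affine (AlgebraicClosure ℚ)} : W.Point → AlgebraicClosure ℚ
  | .zero => 0
  | .some x _ _ => x

/-- The `y`-coordinate of a point (`0` at the point at infinity). -/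
def s29w_yc {W : Affine (AlgebraicClosure ℚ)} : W.Point → AlgebraicClosure ℚ
  | .zero => 0
  | .some _ y _ => y

/-- An automorphism fixing the coordinates of a point fixes the point. -/
theorem s29w_smul_point (W' : Affine ℚ) (σ : AlgebraicClosure ℚ ≃ₐ[ℚ] AlgebraicClosure ℚ)
    (P : (W'⁄(AlgebraicClosure ℚ)).Point) (hx : σ (s29w_xc P) = s29w_xc P)
    (hy : σ (s29w_yc P) = s29w_yc P) : σ • P = P := by
  rw [algEquiv_smul_def]
  cases P with
  | zero => rfl
  | some x y h =>
    have hx' : σ x = x := hx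
    have hy' : σ y = y := hy
    have key : ∀ (x' y' : AlgebraicClosure ℚ)
        (h' : (W'⁄(AlgebraicClosure ℚ)).Nonsingular x' y'), x' = x → y' = y →
        Point.some x' y' h' = Point.some x y h := by
      intro x' y' h' e1 e2
      subst e1 e2
      rfl
    rw [Point.map_some]
    exact key _ _ _ hx' hy'

/-- The Galois representation on a FINITE torsion module of a Weierstrass curve over `ℚ` factors
through a finite level. -/
theorem s29w_torsion_finiteLevel (W' : Affine ℚ) (n : ℕ)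
    (hfin : Finite (Submodule.torsionBy ℤ (W'⁄(AlgebraicClosure ℚ)).Point n)) :
    GaloisFactorsThroughFiniteLevel
      (galoisRepModuleEnd (S := ℚ) (K := AlgebraicClosure ℚ) W' n) := by
  let xc : Submodule.torsionBy ℤ (W'⁄(AlgebraicClosure ℚ)).Point n → AlgebraicClosure ℚ :=
    fun t => s29w_xc (t : (W'⁄(AlgebraicClosure ℚ)).Point)
  let yc : Submodule.torsionBy ℤ (W'⁄(AlgebraicClosure ℚ)).Point n → AlgebraicClosure ℚ :=
    fun t => s29w_yc (t : (W'⁄(AlgebraicClosure ℚ)).Point)
  have hC : (Set.range xc ∪ Set.range yc).Finite :=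
    (Set.finite_range xc).union (Set.finite_range yc)
  refine ⟨IntermediateField.adjoin ℚ (Set.range xc ∪ Set.range yc), ?_, fun σ hσ => ?_⟩
  · haveI : Finite ↥(Set.range xc ∪ Set.range yc) := hC.to_subtype
    exact IntermediateField.finiteDimensional_adjoin
      (fun x _ => ((AlgebraicClosure.isAlgebraic ℚ).isAlgebraic x).isIntegral)
  · apply LinearMap.ext
    intro t
    rw [galoisRepModuleEnd_apply]
    apply Subtype.ext
    show σ • (t : (W'⁄(AlgebraicClosure ℚ)).Point) = t
    apply s29w_smul_point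
    · exact hσ _ (IntermediateField.subset_adjoin ℚ _ (Or.inl ⟨t, rfl⟩))
    · exact hσ _ (IntermediateField.subset_adjoin ℚ _ (Or.inr ⟨t, rfl⟩))

end FiniteLevel

/-! ### The Galois number field -/

/-- A finite level can be enlarged to a finite Galois extension of `ℚ` inside `Q̄`, presented as in
the statement S42 (with the canonical `ℚ`-algebra structure of a field of characteristic zero). -/
theorem s29w_galois_field (L : IntermediateField ℚ (AlgebraicClosure ℚ))
    [FiniteDimensional ℚ L] :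
    ∃ (F : Type) (_ : Field F) (_ : NumberField F) (_ : IsGalois ℚ F)
      (_ : Algebra F (AlgebraicClosure ℚ)) (_ : IsScalarTower ℚ F (AlgebraicClosure ℚ)),
      ∀ σ : AlgebraicClosure ℚ ≃ₐ[ℚ] AlgebraicClosure ℚ,
        σ ∈ (AlgEquiv.restrictNormalHom (F := ℚ) (K₁ := AlgebraicClosure ℚ) F).ker →
          ∀ x ∈ L, σ x = x := by
  have hclos : IsAlgClosure ℚ (AlgebraicClosure ℚ) := AlgebraicClosure.instIsAlgClosure ℚ
  have hn : Normal ℚ (AlgebraicClosure ℚ) := IsAlgClosure.normal ℚ (AlgebraicClosure ℚ)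
  have h2 : Normal ℚ ↥(IntermediateField.normalClosure ℚ ↥L (AlgebraicClosure ℚ)) :=
    normalClosure.normal ℚ ↥L (AlgebraicClosure ℚ)
  have hfd : FiniteDimensional ℚ ↥(IntermediateField.normalClosure ℚ ↥L (AlgebraicClosure ℚ)) :=
    inferInstance
  have hgal : IsGalois ℚ ↥(IntermediateField.normalClosure ℚ ↥L (AlgebraicClosure ℚ)) :=
    { to_isSeparable := inferInstance, to_normal := h2 }
  refine ⟨↥(IntermediateField.normalClosure ℚ ↥L (AlgebraicClosure ℚ)), inferInstance,
    ⟨⟩, hgal, inferInstance, inferInstance, fun σ hσ x hx => ?_⟩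
  have hx' : x ∈ IntermediateField.normalClosure ℚ ↥L (AlgebraicClosure ℚ) :=
    IntermediateField.le_normalClosure L hx
  have h1 : AlgEquiv.restrictNormalHom (F := ℚ) (K₁ := AlgebraicClosure ℚ)
      ↥(IntermediateField.normalClosure ℚ ↥L (AlgebraicClosure ℚ)) σ = 1 := hσ
  have h3 := AlgEquiv.restrictNormal_commutes σ
    ↥(IntermediateField.normalClosure ℚ ↥L (AlgebraicClosure ℚ)) ⟨x, hx'⟩
  have h4 : σ.restrictNormal ↥(IntermediateField.normalClosure ℚ ↥L (AlgebraicClosure ℚ)) = 1 :=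
    h1
  rw [h4] at h3
  exact h3.symm

/-! ### The wrapper -/

/-- **(W2)** S42 from the core statement of S29. -/
theorem s29w_s42_of_core (hCore : s29_CoreStatement) (P : FreyPackage) (M : ℕ) (hM : 0 < M) :
    P.EigenformResidualAttachmentAt M := by
  intro g hg 𝔪 h𝔪 hp𝔪
  haveI : NeZero M := ⟨hM.ne'⟩
  haveI : 𝔪.IsMaximal := h𝔪
  letI : Field (integralClosure ℤ ℂ ⧸ 𝔪) := Ideal.Quotient.field 𝔪
  haveI : CharP (integralClosure ℤ ℂ ⧸ 𝔪) P.p := s29w_charP_of_natCast P.pp (by
    rw [← map_natCast (Ideal.Quotient.mk 𝔪), Ideal.Quotient.eq_zero_iff_mem]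
    exact hp𝔪)
  haveI : IsAlgClosed (integralClosure ℤ ℂ ⧸ 𝔪) :=
    s29w_isAlgClosed_of_surjective (Ideal.Quotient.mk 𝔪) Ideal.Quotient.mk_surjective
  obtain ⟨ρ0, h1, -, h3⟩ := hCore M g hg P.p P.pp (integralClosure ℤ ℂ ⧸ 𝔪) (Ideal.Quotient.mk 𝔪)
  obtain ⟨L1, hL1, hρ⟩ := ρ0.factorsThroughFiniteLevel
  obtain ⟨L2, hL2, hE⟩ := s29w_torsion_finiteLevel P.freyCurve.toAffine P.p
    (Fermat.Agent.S13.card P).1
  haveI := hL1
  haveI := hL2
  obtain ⟨F, iF, iNF, iGal, iAlg, iST, hF⟩ := s29w_galois_field (L1 ⊔ L2)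
  have hne : ∀ ℓ : ℕ, ℓ.Prime → ℓ ≠ P.p → ((ℓ : ℕ) : integralClosure ℤ ℂ ⧸ 𝔪) ≠ 0 := by
    intro ℓ hℓ hℓp h0
    have hdvd : P.p ∣ ℓ := (CharP.cast_eq_zero_iff (integralClosure ℤ ℂ ⧸ 𝔪) P.p ℓ).1 h0
    exact hℓp ((Nat.prime_dvd_prime_iff_eq P.pp hℓ).1 hdvd).symm
  refine ⟨integralClosure ℤ ℂ ⧸ 𝔪, inferInstance, ZMod.algebra _ P.p, ρ0.V, inferInstance,
    inferInstance, ρ0.ρ, Ideal.Quotient.mk 𝔪, F, iF, iNF, iGal, iAlg, iST, ?_, ρ0.finrank_eq, ?_,
    ?_, ?_⟩
  · rw [Ideal.mk_ker]
  · intro σ hσ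
    have hfix := hF σ hσ
    refine ⟨?_, ?_⟩
    · exact hE σ (fun x hx => hfix x ((le_sup_right : L2 ≤ L1 ⊔ L2) hx))
    · exact hρ σ (fun x hx => hfix x ((le_sup_left : L1 ≤ L1 ⊔ L2) hx))
  · intro ℓ hℓ hℓM hℓp A hA τ hτ
    obtain ⟨a, ha, hchar⟩ := h1 ℓ hℓ hℓM (hne ℓ hℓ hℓp) A hA τ hτ
    exact ⟨a, ha, s29w_trace_of_charpoly ρ0.finrank_eq (ρ0.ρ τ) _ _ hchar⟩
  · intro ℓ hℓ hℓM hℓp A hA τ hτ
    refine h3 ℓ hℓ ?_ A hA τ hτ
    intro hdvd
    rcases (Nat.Prime.dvd_mul hℓ).1 hdvd with h | h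
    · exact hℓM h
    · exact hℓp ((Nat.prime_dvd_prime_iff_eq hℓ P.pp).1 h)

end Fermat.Agent.S29
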