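/-
S29 / S42 (architect: helper9).  Prefix `s29_`.  THE TOP-LEVEL COMPOSITION.

  S29  =  `s29_goal_of_qm hQM`        S42  =  `s29_s42_of_qm hQM`
  with the single open input **[QM]** `hQM : s29_QuadModuleStatement` (S29/Defs.lean);
  [FD] (helper5's package: helper2, helper5, helper25, helper8, helper3, helper6), [CYC] (helper10),
  [FIN-A] / [FIN-B] (helper8), (W2) (helper10) and [BLR-ALG] (helper9) are plugged.
-/
import Fermat.Agent.S29.Defs
import Fermat.Agent.S29.FdDefs
import Fermat.Agent.S29.FdAn
import Fermat.Agent.S29.FdAlg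
import Fermat.Agent.S29.FdMob
import Fermat.Agent.S29.FdCore
import Fermat.Agent.S29.FdCyc
import Fermat.Agent.S29.FdBridge
import Fermat.Agent.S29.Cyc
import Fermat.Agent.S29.FinCore
import Fermat.Agent.S29.FinGoal
import Fermat.Agent.S29.WrapS42

set_option autoImplicit false

namespace Fermat.Agent.S29

/-- **[FD]** closed: Frobenius' density theorem in the existence form. -/
theorem s29_fd_asm : s29_FDStatement :=
  s29fd_main_of s29fd_an_main s29fd_alg_main s29fd_mob_main s29fd_core_of s29fd_cyc_main
    s29fd_bridge_main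

/-- **[CORE]** from **[QM]**. -/
theorem s29_core_of_qm (hQM : s29_QuadModuleStatement) : s29_CoreStatement :=
  s29fc_core_of hQM s29_fd_asm s29cy_main

/-- S29 from **[QM]**. -/
theorem s29_goal_of_qm (hQM : s29_QuadModuleStatement) : s29_Goal :=
  s29fg_goal_of_core (s29_core_of_qm hQM)

/-- S42 from **[QM]**. -/
theorem s29_s42_of_qm (hQM : s29_QuadModuleStatement) (P : FreyPackage) (M : ℕ) (hM : 0 < M) :
    P.EigenformResidualAttachmentAt M :=
  s29w_s42_of_core (s29_core_of_qm hQM) P M hM

end Fermat.Agent.S29
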