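import Mathlib

set_option autoImplicit false

/-!
# [EIG-ABS] the pure-algebra core of [EIG-OF]

Owner: helper3.  Prefix `s29eab_`.  Mathlib only.

`p` a prime, `K` a field of characteristic `p`.

* `s29eab_injective`: if `D : Λ → M` is a homomorphism of abelian groups, `M` is killed by `p`
  and `ker D ⊆ p Λ`, then `K ⊗ Λ → K ⊗ M` is injective.
* `s29eab_main`: an additive map `D : Λ → J` with values in the `p`-torsion and kernel inside
  `p Λ`, intertwining endomorphisms `t i` of `Λ` and `T i` of `J[p]`, carries a non-zero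
  simultaneous eigenvector of the `t i` in `K ⊗ Λ` to a non-zero simultaneous eigenvector of the
  `T i` in `K ⊗ J[p]`, with the same eigenvalues.
-/

namespace Fermat.Agent.S29

open scoped TensorProduct

section Injective

variable (p : ℕ) [Fact p.Prime] (K : Type*) [Field K] [CharP K p]

omit [Fact p.Prime] in
/-- `p` kills `K ⊗ Λ`. -/
theorem s29eab_nsmul_eq_zero {Λ : Type*} [AddCommGroup Λ] (x : K ⊗[ℤ] Λ) : p • x = 0 := by
  have h : (p : K) • x = 0 := by rw [CharP.cast_eq_zero K p, zero_smul]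
  rwa [Nat.cast_smul_eq_nsmul] at h

omit [Fact p.Prime] in
/-- `K ⊗ Λ → K ⊗ (Λ / p Λ)` is injective. -/
theorem s29eab_mkQ_injective {Λ : Type*} [AddCommGroup Λ] :
    Function.Injective (LinearMap.lTensor K
      (LinearMap.range ((p : ℤ) • (LinearMap.id : Λ →ₗ[ℤ] Λ))).mkQ) := by
  have hex := lTensor_exact K
    (LinearMap.exact_map_mkQ_range ((p : ℤ) • (LinearMap.id : Λ →ₗ[ℤ] Λ)))
    (Submodule.mkQ_surjective _)
  have hzero : LinearMap.lTensor K ((p : ℤ) • (LinearMap.id : Λ →ₗ[ℤ] Λ)) = 0 := by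
    rw [LinearMap.lTensor_smul, LinearMap.lTensor_id]
    refine LinearMap.ext fun x => ?_
    rw [LinearMap.smul_apply, LinearMap.id_apply, LinearMap.zero_apply, Nat.cast_smul_eq_nsmul]
    exact s29eab_nsmul_eq_zero p K x
  rw [injective_iff_map_eq_zero]
  intro x hx
  obtain ⟨y, hy⟩ := (hex x).mp hx
  rw [← hy, hzero, LinearMap.zero_apply]

/-- An injective homomorphism of abelian groups killed by `p` has a retraction. -/
theorem s29eab_retract {Q M : Type*} [AddCommGroup Q] [AddCommGroup M]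
    (hQ : ∀ x : Q, p • x = 0) (hM : ∀ x : M, p • x = 0) (f : Q →ₗ[ℤ] M)
    (hf : Function.Injective f) : ∃ g : M →+ Q, ∀ x, g (f x) = x := by
  let i1 : Module (ZMod p) Q := AddCommGroup.zmodModule hQ
  let i2 : Module (ZMod p) M := AddCommGroup.zmodModule hM
  let F : Q →ₗ[ZMod p] M := AddMonoidHom.toZModLinearMap p f.toAddMonoidHom
  obtain ⟨g, hg⟩ := LinearMap.exists_leftInverse_of_injective F (LinearMap.ker_eq_bot.mpr hf)
  exact ⟨g.toAddMonoidHom, fun x => LinearMap.congr_fun hg x⟩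

omit [CharP K p] in
/-- A homomorphism of abelian groups killed by `p` which is injective stays injective after
`K ⊗ -`. -/
theorem s29eab_split {Q M : Type*} [AddCommGroup Q] [AddCommGroup M] (hQ : ∀ x : Q, p • x = 0)
    (hM : ∀ x : M, p • x = 0) (f : Q →ₗ[ℤ] M) (hf : Function.Injective f) :
    Function.Injective (LinearMap.lTensor K f) := by
  obtain ⟨g, hg⟩ := s29eab_retract p hQ hM f hf
  have hcomp : (g.toIntLinearMap).comp f = LinearMap.id := LinearMap.ext fun x => hg x
  have h1 : (LinearMap.lTensor K g.toIntLinearMap).comp (LinearMap.lTensor K f)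
      = LinearMap.id := by
    rw [← LinearMap.lTensor_comp, hcomp, LinearMap.lTensor_id]
  exact Function.LeftInverse.injective (g := LinearMap.lTensor K g.toIntLinearMap)
    (fun x => LinearMap.congr_fun h1 x)

/-- **(A1)** `K ⊗ Λ → K ⊗ M` is injective when `M` is killed by `p` and `ker D ⊆ p Λ`. -/
theorem s29eab_injective {Λ M : Type*} [AddCommGroup Λ] [AddCommGroup M] (D : Λ →ₗ[ℤ] M)
    (hM : ∀ x : M, p • x = 0) (hker : ∀ c, D c = 0 → ∃ c', c = p • c') :
    Function.Injective (LinearMap.baseChange K D) := by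
  have hle : LinearMap.range ((p : ℤ) • (LinearMap.id : Λ →ₗ[ℤ] Λ)) ≤ LinearMap.ker D := by
    rintro _ ⟨c, rfl⟩
    rw [LinearMap.mem_ker, LinearMap.smul_apply, LinearMap.id_apply, Nat.cast_smul_eq_nsmul,
      map_nsmul]
    exact hM _
  have hle' : LinearMap.ker D ≤ LinearMap.range ((p : ℤ) • (LinearMap.id : Λ →ₗ[ℤ] Λ)) := by
    intro c hc
    obtain ⟨c', rfl⟩ := hker c (LinearMap.mem_ker.mp hc)
    exact ⟨c', by simp⟩
  have hQ : ∀ x : Λ ⧸ LinearMap.range ((p : ℤ) • (LinearMap.id : Λ →ₗ[ℤ] Λ)), p • x = 0 := by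
    intro x
    obtain ⟨c, rfl⟩ := Submodule.mkQ_surjective _ x
    rw [← map_nsmul, Submodule.mkQ_apply, Submodule.Quotient.mk_eq_zero]
    exact ⟨c, by simp⟩
  have hinj : Function.Injective
      ((LinearMap.range ((p : ℤ) • (LinearMap.id : Λ →ₗ[ℤ] Λ))).liftQ D hle) := by
    rw [← LinearMap.ker_eq_bot]
    exact Submodule.ker_liftQ_eq_bot _ _ _ hle'
  have hfac : D = ((LinearMap.range ((p : ℤ) • (LinearMap.id : Λ →ₗ[ℤ] Λ))).liftQ D hle).comp
      (LinearMap.range ((p : ℤ) • (LinearMap.id : Λ →ₗ[ℤ] Λ))).mkQ := by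
    ext c
    simp
  have h1 : Function.Injective (LinearMap.lTensor K D) := by
    rw [hfac, LinearMap.lTensor_comp]
    exact (s29eab_split p K hQ hM _ hinj).comp (s29eab_mkQ_injective p K)
  intro x y hxy
  apply h1
  rwa [← LinearMap.baseChange_eq_ltensor]

end Injective

section Main

variable (p : ℕ) {Λ J : Type*} [AddCommGroup Λ] [AddCommGroup J]

/-- An additive map with values in the `p`-torsion, as a linear map to the torsion submodule. -/
def s29eab_res (D : Λ →+ J) (hD : ∀ c, p • D c = 0) :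
    Λ →ₗ[ℤ] ↥(Submodule.torsionBy ℤ J (p : ℤ)) :=
  LinearMap.codRestrict (Submodule.torsionBy ℤ J (p : ℤ)) D.toIntLinearMap (fun c => by
    rw [Submodule.mem_torsionBy_iff, Nat.cast_smul_eq_nsmul]
    exact hD c)

@[simp]
theorem s29eab_res_coe (D : Λ →+ J) (hD : ∀ c, p • D c = 0) (c : Λ) :
    ((s29eab_res p D hD c : ↥(Submodule.torsionBy ℤ J (p : ℤ))) : J) = D c := rfl

/-- The `p`-torsion submodule is killed by `p`. -/
theorem s29eab_torsion_nsmul (x : ↥(Submodule.torsionBy ℤ J (p : ℤ))) : p • x = 0 := by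
  have h := Submodule.smul_torsionBy (R := ℤ) (M := J) (a := (p : ℤ)) x
  rwa [Nat.cast_smul_eq_nsmul] at h

/-- The restriction of an additive endomorphism of `J` to the `p`-torsion. -/
def s29eab_tors (T : J →+ J) : Module.End ℤ ↥(Submodule.torsionBy ℤ J (p : ℤ)) :=
  LinearMap.restrict T.toIntLinearMap (p := Submodule.torsionBy ℤ J (p : ℤ))
    (q := Submodule.torsionBy ℤ J (p : ℤ)) (fun x hx => by
      rw [Submodule.mem_torsionBy_iff] at hx ⊢
      rw [← map_smul, hx, map_zero])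

@[simp]
theorem s29eab_tors_coe (T : J →+ J) (x : ↥(Submodule.torsionBy ℤ J (p : ℤ))) :
    ((s29eab_tors p T x : ↥(Submodule.torsionBy ℤ J (p : ℤ))) : J) = T (x : J) := rfl

variable [Fact p.Prime] (K : Type*) [Field K] [CharP K p]

/-- **(A2)** the transport of a simultaneous eigenvector along a Kummer-type map. -/
theorem s29eab_main (D : Λ →+ J) (hD : ∀ c, p • D c = 0)
    (hker : ∀ c, D c = 0 → ∃ c', c = p • c') {ι : Type*} (t : ι → Module.End ℤ Λ)
    (T : ι → Module.End ℤ ↥(Submodule.torsionBy ℤ J (p : ℤ)))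
    (hcomm : ∀ i c, T i (s29eab_res p D hD c) = s29eab_res p D hD (t i c)) (a : ι → K)
    (w₀ : K ⊗[ℤ] Λ) (hw₀ : w₀ ≠ 0) (hw : ∀ i, (t i).baseChange K w₀ = a i • w₀) :
    ∃ w : K ⊗[ℤ] ↥(Submodule.torsionBy ℤ J (p : ℤ)), w ≠ 0 ∧
      ∀ i, (T i).baseChange K w = a i • w := by
  have hinj : Function.Injective (LinearMap.baseChange K (s29eab_res p D hD)) :=
    s29eab_injective p K (s29eab_res p D hD) (s29eab_torsion_nsmul p) (fun c hc => by
      apply hker c
      have h := congrArg (Subtype.val) hc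
      simpa using h)
  refine ⟨LinearMap.baseChange K (s29eab_res p D hD) w₀, fun h0 => hw₀ (hinj ?_), fun i => ?_⟩
  · rw [h0, map_zero]
  · have h1 : (T i).comp (s29eab_res p D hD) = (s29eab_res p D hD).comp (t i) :=
      LinearMap.ext fun c => hcomm i c
    have h2 : (T i).baseChange K (LinearMap.baseChange K (s29eab_res p D hD) w₀) =
        LinearMap.baseChange K ((T i).comp (s29eab_res p D hD)) w₀ := by
      rw [LinearMap.baseChange_comp]; rfl
    rw [h2, h1, LinearMap.baseChange_comp, LinearMap.comp_apply, hw i, map_smul]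

/-- **(A2')** the same for additive endomorphisms `T i` of `J`, restricted to the `p`-torsion
by `s29eab_tors`. -/
theorem s29eab_main' (D : Λ →+ J) (hD : ∀ c, p • D c = 0)
    (hker : ∀ c, D c = 0 → ∃ c', c = p • c') {ι : Type*} (t : ι → Module.End ℤ Λ)
    (T : ι → J →+ J) (hcomm : ∀ i c, T i (D c) = D (t i c)) (a : ι → K)
    (w₀ : K ⊗[ℤ] Λ) (hw₀ : w₀ ≠ 0) (hw : ∀ i, (t i).baseChange K w₀ = a i • w₀) :
    ∃ w : K ⊗[ℤ] ↥(Submodule.torsionBy ℤ J (p : ℤ)), w ≠ 0 ∧
      ∀ i, (s29eab_tors p (T i)).baseChange K w = a i • w :=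
  s29eab_main p K D hD hker t (fun i => s29eab_tors p (T i))
    (fun i c => Subtype.ext (by simp [hcomm i c])) a w₀ hw₀ hw

end Main

end Fermat.Agent.S29
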