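import Mathlib
import Fermat.Prelude.Def_ModularCurve_PeriodHomPair
import Fermat.Prelude.Def_CuspForm_HeckeAlgebra
import Fermat.Prelude.Def_GaloisRep_Residual
import Fermat.Prelude.Sol.S_ModularForm_heckeT_slash_eq_self_of_mem_Gamma0

set_option autoImplicit false
set_option linter.style.haveILetI false
set_option linter.unusedVariables false
set_option linter.unusedSectionVars false

/-!
# S29, (K4) [LAT]: the lattice of parabolic homomorphisms and its Hecke operators.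
Sub-architect: helper2.  Prefix `s29lat_`.

`Λ := parabolicHoms ℤ Γ₀(N) ℤ` (Prelude).  For a prime `ℓ ∤ N`, `x ∈ ℙ¹(𝔽_ℓ) = OnePoint (ZMod ℓ)`
and `γ ∈ Γ₀(N)`, the element `s29lat_gam γ x ∈ Γ₀(N)` is defined by

    heckeRep ℓ x * γ = (s29lat_gam γ x) * heckeRep ℓ (redMatrix ℓ γ • x)        (`s29lat_gam_spec`)

(`heckeRep`, `redMatrix`: the coset representatives of the Prelude's `heckeT`), and the Hecke
operator on homomorphisms `ψ : Γ₀(N) → A` is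

    (T_ℓ ψ)(γ) := ∑ₓ ψ (s29lat_gam γ x)                                         (`s29lat_heckeFun`).

The multiplicative version of the same formula, `(T_ℓ χ)(γ) = ∏ₓ χ (s29lat_gam γ x)`, is what
`h ↦ ∏ₓ h ∘ heckeRep ℓ x` produces on a function `h` with `h ∘ γ = χ(γ) h`.

THE CUT.
  [LAT]  ⇐  [LAT-HOM] + [LAT-PER] + [LAT-EIG] + [LAT-FREE] + [LAT-DS]
  [LAT-HOM]   `T_ℓ` is an endomorphism of `Λ` (cocycle identity + parabolic elements);
  [LAT-PER]   `periodMap (T_ℓ g) = T_ℓ (periodMap g)` for cusp forms `g` of weight 2;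
  [LAT-EIG]   a normalised eigenform satisfies `T_ℓ g = a_ℓ g`, `ℓ ∤ N`;
  [LAT-FREE]  `Λ` is a finite free `ℤ`-module and `ℂ ⊗ Λ = parabolicHoms ℂ Γ₀(N) ℂ`;
  [LAT-DS]    the Deligne-Serre reduction of an eigenvector (pure algebra);
  [LAT]       a non-zero vector of `K ⊗ Λ` on which `T_ℓ` acts as `φ(a_ℓ)`, `ℓ ∤ N`.
-/

namespace Fermat.Agent.S29

open CongruenceSubgroup ModularCurve ModularCurve.Period Matrix.SpecialLinearGroup
open scoped MatrixGroups TensorProduct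
open P2MW.S_ModularForm_heckeT_slash_eq_self_of_mem_Gamma0.ModularForm.HeckeSlashInvariance

section Coset

variable (N ℓ : ℕ) [Fact ℓ.Prime]

theorem s29lat_dvd (γ : Gamma0 N) : (N : ℤ) ∣ (γ : SL(2, ℤ)) 1 0 :=
  (ZMod.intCast_zmod_eq_zero_iff_dvd _ _).mp (Gamma0_mem.mp γ.2)

/-- The coset cocycle: `heckeRep ℓ x * γ = (s29lat_gam γ x) * heckeRep ℓ (redMatrix ℓ γ • x)`. -/
noncomputable def s29lat_gam (hℓN : ¬ ℓ ∣ N) (γ : Gamma0 N) (x : OnePoint (ZMod ℓ)) :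
    Gamma0 N :=
  ⟨Classical.choose (heckeRep_mul hℓN (γ : SL(2, ℤ)) (s29lat_dvd N γ) x),
    Gamma0_mem.mpr ((ZMod.intCast_zmod_eq_zero_iff_dvd _ _).mpr
      (Classical.choose_spec (heckeRep_mul hℓN (γ : SL(2, ℤ)) (s29lat_dvd N γ) x)).1)⟩

theorem s29lat_gam_spec (hℓN : ¬ ℓ ∣ N) (γ : Gamma0 N) (x : OnePoint (ZMod ℓ)) :
    heckeRep ℓ x * mapGL ℝ (γ : SL(2, ℤ)) =
      mapGL ℝ ((s29lat_gam N ℓ hℓN γ x : Gamma0 N) : SL(2, ℤ)) *
        heckeRep ℓ (redMatrix ℓ (γ : SL(2, ℤ)) • x) :=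
  (Classical.choose_spec (heckeRep_mul hℓN (γ : SL(2, ℤ)) (s29lat_dvd N γ) x)).2

/-- The Hecke operator `T_ℓ` on homomorphisms `Γ₀(N) → A`, as a function. -/
noncomputable def s29lat_heckeFun {A : Type*} [AddCommMonoid A] (hℓN : ¬ ℓ ∣ N)
    (ψ : Additive (Gamma0 N) →+ A) (γ : Gamma0 N) : A :=
  ∑ x : OnePoint (ZMod ℓ), ψ (Additive.ofMul (s29lat_gam N ℓ hℓN γ x))

open Classical in
/-- The Hecke operator `T_ℓ` on the lattice `Λ = parabolicHoms ℤ Γ₀(N) ℤ`.  (Total definition;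
it is the operator `ψ ↦ s29lat_heckeFun ψ` by [LAT-HOM].) -/
noncomputable def s29lat_T (hℓN : ¬ ℓ ∣ N) : Module.End ℤ (parabolicHoms ℤ (Gamma0 N) ℤ) :=
  if h : ∃ T : Module.End ℤ (parabolicHoms ℤ (Gamma0 N) ℤ),
      ∀ (ψ : parabolicHoms ℤ (Gamma0 N) ℤ) (γ : Gamma0 N),
        (T ψ : Additive (Gamma0 N) →+ ℤ) (Additive.ofMul γ) =
          s29lat_heckeFun N ℓ hℓN (ψ : Additive (Gamma0 N) →+ ℤ) γ
  then h.choose else 0

end Coset

/-- **[LAT-HOM]** `ψ ↦ (γ ↦ ∑ₓ ψ (s29lat_gam γ x))` is an endomorphism of `Λ`. -/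
def s29lat_HomStatement : Prop :=
  ∀ (N ℓ : ℕ) [Fact ℓ.Prime] (hℓN : ¬ ℓ ∣ N),
    ∃ T : Module.End ℤ (parabolicHoms ℤ (Gamma0 N) ℤ),
      ∀ (ψ : parabolicHoms ℤ (Gamma0 N) ℤ) (γ : Gamma0 N),
        (T ψ : Additive (Gamma0 N) →+ ℤ) (Additive.ofMul γ) =
          s29lat_heckeFun N ℓ hℓN (ψ : Additive (Gamma0 N) →+ ℤ) γ

/-- **[LAT-PER]** the period map is Hecke equivariant. -/
def s29lat_PerStatement : Prop :=
  ∀ (N : ℕ) [NeZero N] (ℓ : ℕ) [Fact ℓ.Prime] (hℓN : ¬ ℓ ∣ N)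
    (g : CuspForm (Gamma0 N) 2) (γ : Gamma0 N),
    periodMap N (CuspForm.heckeTLin 2 (Fact.out : ℓ.Prime) hℓN g) (Additive.ofMul γ) =
      s29lat_heckeFun N ℓ hℓN (periodMap N g) γ

/-- **[LAT-EIG]** a normalised eigenform is an eigenvector of `T_ℓ`, `ℓ ∤ N`, with eigenvalue
its `ℓ`-th `q`-coefficient. -/
def s29lat_EigStatement : Prop :=
  ∀ (N : ℕ) [NeZero N] (g : CuspForm (Gamma0 N) 2), g.IsNormalizedEigenform →
    ∀ (ℓ : ℕ) (hℓ : ℓ.Prime) (hℓN : ¬ ℓ ∣ N),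
      CuspForm.heckeTLin 2 hℓ hℓN g = ModularFormClass.qCoeff g ℓ • g

/-- **[LAT-FREE]** `Λ` is a finite free `ℤ`-module, its elements are `ℂ`-linearly independent
as soon as they are `ℤ`-linearly independent, and they span the parabolic homomorphisms with
complex values. -/
def s29lat_FreeStatement : Prop :=
  ∀ (N : ℕ) [NeZero N],
    Module.Finite ℤ (parabolicHoms ℤ (Gamma0 N) ℤ) ∧
    Module.Free ℤ (parabolicHoms ℤ (Gamma0 N) ℤ) ∧
    (∀ (n : ℕ) (lam : Fin n → parabolicHoms ℤ (Gamma0 N) ℤ), LinearIndependent ℤ lam →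
      ∀ c : Fin n → ℂ, (∀ γ : Gamma0 N,
        ∑ i, c i * (((lam i : Additive (Gamma0 N) →+ ℤ) (Additive.ofMul γ) : ℤ) : ℂ) = 0) →
        c = 0) ∧
    (∀ ψ ∈ parabolicHoms ℂ (Gamma0 N) ℂ,
      ∃ (n : ℕ) (lam : Fin n → parabolicHoms ℤ (Gamma0 N) ℤ) (c : Fin n → ℂ),
        ∀ γ : Gamma0 N, ψ (Additive.ofMul γ) =
          ∑ i, c i * (((lam i : Additive (Gamma0 N) →+ ℤ) (Additive.ofMul γ) : ℤ) : ℂ))

/-- **[LAT-DS]** the Deligne-Serre reduction lemma (pure algebra): a simultaneous eigenvector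
with complex coefficients of a family of endomorphisms of a finite free `ℤ`-module has integral
eigenvalues, and reduces to a simultaneous eigenvector over any field `K` along any
`φ : Z̄ → K`. -/
def s29lat_DSStatement : Prop :=
  ∀ (L : Type) [AddCommGroup L] [Module.Finite ℤ L] [Module.Free ℤ L]
    (ι : Type) (T : ι → Module.End ℤ L) (a : ι → ℂ) (v : ℂ ⊗[ℤ] L), v ≠ 0 →
    (∀ i, LinearMap.baseChange ℂ (T i) v = a i • v) →
    (∀ i, IsIntegral ℤ (a i)) ∧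
    ∀ (K : Type) [Field K] (φ : integralClosure ℤ ℂ →+* K),
      ∃ w : K ⊗[ℤ] L, w ≠ 0 ∧
        ∀ (i : ι) (b : integralClosure ℤ ℂ), (b : ℂ) = a i →
          LinearMap.baseChange K (T i) w = φ b • w

/-- **[LAT]** the export: the eigenvalues `a_ℓ` (`ℓ ∤ N`) of a normalised eigenform are
integral, and for every `φ : Z̄ → K` there is a non-zero vector of `K ⊗ Λ` on which every `T_ℓ`
acts as `φ(a_ℓ)`. -/
def s29lat_Statement : Prop :=
  ∀ (N : ℕ) [NeZero N] (g : CuspForm (Gamma0 N) 2), g.IsNormalizedEigenform →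
    (∀ ℓ : ℕ, ℓ.Prime → ¬ ℓ ∣ N → IsIntegral ℤ (ModularFormClass.qCoeff g ℓ)) ∧
    ∀ (K : Type) [Field K] (φ : integralClosure ℤ ℂ →+* K),
      ∃ w : K ⊗[ℤ] (parabolicHoms ℤ (Gamma0 N) ℤ), w ≠ 0 ∧
        ∀ (ℓ : ℕ) [Fact ℓ.Prime] (hℓN : ¬ ℓ ∣ N) (b : integralClosure ℤ ℂ),
          (b : ℂ) = ModularFormClass.qCoeff g ℓ →
            LinearMap.baseChange K (s29lat_T N ℓ hℓN) w = φ b • w

/-- The composition (proved in `LatAsm.lean`). -/
def s29lat_AsmStatement : Prop :=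
  s29lat_HomStatement → s29lat_PerStatement → s29lat_EigStatement → s29lat_FreeStatement →
    s29lat_DSStatement → s29lat_Statement

end Fermat.Agent.S29
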