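/-
S29, package [EIG], THE KUMMER SIDE (sub-architect: helper26).  Prefix `s29k_`.  INTERFACE FILE:
definitions and `Prop`s; nothing is proved here.

`Λ := parabolicHoms ℤ Γ₀(N) ℤ`, `F_ℂ := laurentBaseChange ℂ (modularFunctionFieldFull N)`,
`T_ℓ := s29lat_T` (helper2's `LatDefs.lean`).

EVERYTHING IS STATED FOR AN ARBITRARY INTEGER `n > 0` (lead's request; `n = p` for S29 / S42,
`n = p^k` for S30).

TARGET ([KUM], what `LatDefs.lean` asks of "the Kummer side"): an additive map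
`D : Λ → J₀(N)(Q̄)` with values in the `n`-torsion, kernel `n Λ`, and `D ∘ T_ℓ = T_ℓ ∘ D`, `ℓ ∤ N n`.

THE CUT - "ROOT CLASSES".  For a character `χ : Γ₀(N) → ℂˣ` with `χ^n = 1`, a class
`x ∈ Pic⁰(F_ℂ)` is a *root class of `χ`* if `x = [D]`, `n D = div y`, where `y ∈ F_ℂ` is the ratio
of the `q`-expansions of `f^n` and `g^n`, for a form `f` of character `χ` and a form `g` of
trivial character and the same weight (`s29k_IsRoot`).

  [K-DIV]    `n ∣ ord_P y` for every place `P` of `F_ℂ`, `y = series (f^n) / series (g^n)`,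
             `χ` trivial on the parabolic and elliptic elements (the dictionary, helper22's [DICT]);
  [K-EX]     `χ_c = ζ^c`, `c ∈ Λ`, has a root class            ([EIS] + [KAN] + [K-DIV]);
  [K-UNIQ]   two root classes of the same character are equal  ([KAN]);
  [K-MUL]    root classes of `χ`, `χ'` add up to a root class of `χ χ'`;
  [K-TRIV]   if `0` is a root class of `χ` then `χ = 1`;
  [K-HECKE]  `T_ℓ` maps a root class of `χ` to a root class of `T_ℓ χ = γ ↦ ∏ₓ χ (s29lat_gam γ x)`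
                                                               ([HECKE-κ], D-route);
  [K-C]      the Kummer map over `ℂ`        ⇐  [K-EX], [K-UNIQ], [K-MUL], [K-TRIV], [K-HECKE],
                                               [LAT-HOM];
  [K-BC]     the base change `J₀(N)(Q̄) → Pic⁰(F_ℂ)`: injective, onto the `n`-torsion,
             Hecke equivariant                                 ([DESC] + [ROOT-FIN] + [DESC-HECKE]);
  [KUM]      ⇐  [K-C] + [K-BC].
-/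
import Mathlib
import Fermat.Prelude.Def_ModularCurve_HeckeModule
import Fermat.Agent.S29.LatDefs

set_option autoImplicit false
set_option linter.style.haveILetI false
set_option linter.unusedVariables false

noncomputable section

namespace Fermat.Agent.S29

open UpperHalfPlane CongruenceSubgroup ModularCurve ModularCurve.Period AlgebraicCurve
open ModularForm ModularFormClass
open scoped MatrixGroups ModularForm Manifold

/-! ### Vocabulary -/

/-- `f` is a holomorphic form of weight `k` and character `χ` on `Γ₀(N)`, all of whose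
`SL(2,ℤ)`-translates are bounded at `i∞` (the shape of helper15's `s29e_main`). -/
def s29k_IsForm (N : ℕ) (k : ℤ) (χ : ↥(Gamma0 N) →* ℂˣ) (f : ℍ → ℂ) : Prop :=
  MDiff f ∧ (∀ γ : ↥(Gamma0 N), f ∣[k] (γ : SL(2, ℤ)) = ((χ γ : ℂˣ) : ℂ) • f) ∧
    ∀ α : SL(2, ℤ), IsBoundedAtImInfty (f ∣[k] α)

/-- The `q`-expansion at `i∞` as a Laurent series (the spelling of helper4's `Kan.lean`). -/
def s29k_ser (f : ℍ → ℂ) : LaurentSeries ℂ :=
  HahnSeries.ofPowerSeries ℤ ℂ (qExpansion 1 f)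

/-- `x` is a **root class** (of order `n`) of the character `χ`: `x = [D]` with `n D = div y`,
`y = series (f^n) / series (g^n)`, `f` a form of character `χ`, `g` a form of trivial character
of the same weight. -/
def s29k_IsRoot (N n : ℕ) (χ : ↥(Gamma0 N) →* ℂˣ)
    (x : Pic0 ℂ ↥(laurentBaseChange ℂ (modularFunctionFieldFull N))) : Prop :=
  ∃ (k : ℕ) (f g : ℍ → ℂ), s29k_IsForm N k χ f ∧ s29k_IsForm N k 1 g ∧ f ≠ 0 ∧ g ≠ 0 ∧
    ∃ (D : Divisor.degZero (K := ℂ) (F := ↥(laurentBaseChange ℂ (modularFunctionFieldFull N))))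
      (y : ↥(laurentBaseChange ℂ (modularFunctionFieldFull N))),
      x = Pic0.mk D ∧ (y : LaurentSeries ℂ) = s29k_ser (f ^ n) / s29k_ser (g ^ n) ∧
      ∀ P : Place ℂ ↥(laurentBaseChange ℂ (modularFunctionFieldFull N)),
        (n : ℤ) * (D : Divisor ℂ ↥(laurentBaseChange ℂ (modularFunctionFieldFull N))) P = P.ord y

/-- The character `γ ↦ ζ ^ c(γ)` of a homomorphism `c : Γ₀(N) → ℤ`. -/
def s29k_chi {N : ℕ} (ζ : ℂˣ) (c : Additive ↥(Gamma0 N) →+ ℤ) : ↥(Gamma0 N) →* ℂˣ where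
  toFun γ := ζ ^ c (Additive.ofMul γ)
  map_one' := by rw [ofMul_one, map_zero, zpow_zero]
  map_mul' γ δ := by rw [ofMul_mul, map_add, zpow_add]

/-- `χ` is trivial on the parabolic elements, on the elliptic elements and on `± 1`, i.e. on
all elements `γ` with `(tr γ)² ≤ 4`.  (For `χ = ζ^c`, `c` a parabolic homomorphism with values in
`ℤ`: `c` kills the parabolic elements by definition and the elements of finite order because `ℤ`
is torsion-free.)  Without the elliptic elements [K-DIV] is FALSE for `n ∈ {2, 3}`. -/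
def s29k_IsPar {N : ℕ} (χ : ↥(Gamma0 N) →* ℂˣ) : Prop :=
  ∀ γ : ↥(Gamma0 N), ((γ : SL(2, ℤ)) : Matrix (Fin 2) (Fin 2) ℤ).trace ^ 2 ≤ 4 → χ γ = 1

/-! ### The leaves -/

/-- **[K-DIV]** (the dictionary): the orders of `y = series (f^n) / series (g^n)` are divisible
by `n` at every place of `F_ℂ`, when the character of `f` is trivial on the parabolic and
elliptic elements. -/
def s29k_DivStatement : Prop :=
  ∀ (N : ℕ) [NeZero N] (n : ℕ), 0 < n → ∀ χ : ↥(Gamma0 N) →* ℂˣ, (∀ γ, χ γ ^ n = 1) →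
    s29k_IsPar χ → ∀ (k : ℕ) (f g : ℍ → ℂ), s29k_IsForm N k χ f → s29k_IsForm N k 1 g →
      f ≠ 0 → g ≠ 0 → ∀ y : ↥(laurentBaseChange ℂ (modularFunctionFieldFull N)),
        (y : LaurentSeries ℂ) = s29k_ser (f ^ n) / s29k_ser (g ^ n) →
        ∀ P : Place ℂ ↥(laurentBaseChange ℂ (modularFunctionFieldFull N)), (n : ℤ) ∣ P.ord y

/-- **[K-EX]** the character `ζ^c` of a parabolic homomorphism `c` has a root class. -/
def s29k_ExStatement : Prop :=
  ∀ (N : ℕ) [NeZero N] (n : ℕ), 0 < n → ∀ ζ : ℂˣ, ζ ^ n = 1 →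
    ∀ c ∈ parabolicHoms ℤ (Gamma0 N) ℤ, ∃ x, s29k_IsRoot N n (s29k_chi ζ c) x

/-- **[K-UNIQ]** two root classes of the same character are equal. -/
def s29k_UniqStatement : Prop :=
  ∀ (N : ℕ) [NeZero N] (n : ℕ), 0 < n → ∀ χ : ↥(Gamma0 N) →* ℂˣ, (∀ γ, χ γ ^ n = 1) →
    ∀ x x', s29k_IsRoot N n χ x → s29k_IsRoot N n χ x' → x = x'

/-- **[K-MUL]** root classes add up. -/
def s29k_MulStatement : Prop :=
  ∀ (N : ℕ) [NeZero N] (n : ℕ), 0 < n → ∀ χ χ' : ↥(Gamma0 N) →* ℂˣ, (∀ γ, χ γ ^ n = 1) →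
    (∀ γ, χ' γ ^ n = 1) → ∀ x x', s29k_IsRoot N n χ x → s29k_IsRoot N n χ' x' →
      s29k_IsRoot N n (χ * χ') (x + x')

/-- **[K-TRIV]** if `0` is a root class of `χ` then `χ = 1`. -/
def s29k_TrivStatement : Prop :=
  ∀ (N : ℕ) [NeZero N] (n : ℕ), 0 < n → ∀ χ : ↥(Gamma0 N) →* ℂˣ, (∀ γ, χ γ ^ n = 1) →
    s29k_IsRoot N n χ 0 → χ = 1

/-- **[K-HECKE]** the Hecke operator `T_ℓ` maps a root class of `χ` to a root class of
`T_ℓ χ = γ ↦ ∏ₓ χ (s29lat_gam γ x)`. -/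
def s29k_HeckeStatement : Prop :=
  ∀ (N : ℕ) [NeZero N] (n : ℕ), 0 < n → ∀ (ℓ : ℕ) [Fact ℓ.Prime] (hℓN : ¬ ℓ ∣ N), ¬ ℓ ∣ n →
    ∀ χ χ' : ↥(Gamma0 N) →* ℂˣ, (∀ γ, χ γ ^ n = 1) → s29k_IsPar χ →
      (∀ γ, χ' γ = ∏ x : OnePoint (ZMod ℓ), χ (s29lat_gam N ℓ hℓN γ x)) →
      ∀ x, s29k_IsRoot N n χ x →
        s29k_IsRoot N n χ'
          (haveI : NeZero ℓ := ⟨(Fact.out : ℓ.Prime).ne_zero⟩; heckeOperatorAlong ℂ N ℓ x)

/-! ### The compositions -/

/-- **[K-C]** the Kummer map over `ℂ`: for a primitive `n`-th root of unity `ζ`, `D c` is THE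
root class of `ζ^c`; `D` is additive, has values in the `n`-torsion, kernel `n Λ`, and commutes
with the Hecke operators. -/
def s29k_CStatement : Prop :=
  ∀ (N : ℕ) [NeZero N] (n : ℕ), 0 < n → ∀ ζ : ℂˣ, IsPrimitiveRoot ζ n →
    ∃ D : ↥(parabolicHoms ℤ (Gamma0 N) ℤ) →+
        Pic0 ℂ ↥(laurentBaseChange ℂ (modularFunctionFieldFull N)),
      (∀ c : ↥(parabolicHoms ℤ (Gamma0 N) ℤ),
        s29k_IsRoot N n (s29k_chi ζ (c : Additive ↥(Gamma0 N) →+ ℤ)) (D c)) ∧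
      (∀ c, n • D c = 0) ∧ (∀ c, D c = 0 → ∃ c', c = n • c') ∧
      ∀ (ℓ : ℕ) [Fact ℓ.Prime] (hℓN : ¬ ℓ ∣ N), ¬ ℓ ∣ n → ∀ c,
        D (s29lat_T N ℓ hℓN c) =
          (haveI : NeZero ℓ := ⟨(Fact.out : ℓ.Prime).ne_zero⟩; heckeOperatorAlong ℂ N ℓ (D c))

/-- **[K-BC]** the base change map `J₀(N)(Q̄) → Pic⁰(F_ℂ)`: injective, onto the `n`-torsion,
Hecke equivariant. -/
def s29k_BCStatement : Prop :=
  ∀ (N : ℕ) [NeZero N] (n : ℕ), 0 < n →
    ∃ bc : JZero N →+ Pic0 ℂ ↥(laurentBaseChange ℂ (modularFunctionFieldFull N)),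
      Function.Injective bc ∧ (∀ x, n • x = 0 → ∃ y, bc y = x) ∧
      ∀ (ℓ : ℕ) [Fact ℓ.Prime] (hℓN : ¬ ℓ ∣ N), ¬ ℓ ∣ n → ∀ y,
        bc (heckeOperatorBar N ⟨ℓ, Fact.out⟩ y) =
          (haveI : NeZero ℓ := ⟨(Fact.out : ℓ.Prime).ne_zero⟩; heckeOperatorAlong ℂ N ℓ (bc y))

/-- **[KUM]** the Kummer map: an additive map `Λ → J₀(N)(Q̄)[n]` with kernel `n Λ` which
commutes with the Hecke operators `T_ℓ`, `ℓ ∤ N n`. -/
def s29k_Statement : Prop :=
  ∀ (N : ℕ) [NeZero N] (n : ℕ), 0 < n →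
    ∃ D : ↥(parabolicHoms ℤ (Gamma0 N) ℤ) →+ JZero N,
      (∀ c, n • D c = 0) ∧ (∀ c, D c = 0 → ∃ c', c = n • c') ∧
      ∀ (ℓ : ℕ) [Fact ℓ.Prime] (hℓN : ¬ ℓ ∣ N), ¬ ℓ ∣ n → ∀ c,
        D (s29lat_T N ℓ hℓN c) = heckeOperatorBar N ⟨ℓ, Fact.out⟩ (D c)

end Fermat.Agent.S29

end
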