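/-
S29 (K3)/(K4) INTERFACE (helper18).  Prefix `s29q_` (+ the Prop `s29_EigStatement`).
Definitions and one `Prop`; nothing is proved beyond the evaluation lemmas.

* `s29q_tors N n`        the `n`-torsion of `J₀(N)(Q̄)` as a `ℤ`-submodule of `JZero N`;
* `s29q_heckeTors N n ℓ` the Hecke operator `T_ℓ` (Prelude: `heckeOperatorBar`) restricted to it;
* `s29_EigStatement`     **[EIG]**: for a normalised eigenform `g` of level `N`, a prime `p` and
  `φ : Z̄ → K`, `char K = p`, `K` algebraically closed, there is a NON-ZERO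
  `w ∈ K ⊗[ℤ] J₀(N)(Q̄)[p]` with `(1 ⊗ T_ℓ) w = φ(a_ℓ) w` for all primes `ℓ ∤ N p`.

(`K ⊗[ℤ] J₀(N)(Q̄)` itself would be `0`, the group being divisible: the torsion is essential.)
The cut:  [QM] (`s29_QuadModuleStatement`)  ⇐  [EIG] + S37 (`s37_RhoStatement`)   (file `QuadMod.lean`).
-/
import Mathlib
import Fermat.Prelude.Def_ModularCurve_HeckeModule
import Fermat.Prelude.Def_GaloisRep_Residual

set_option autoImplicit false

open ModularCurve AlgebraicCurve

open scoped TensorProduct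

noncomputable section

namespace Fermat.Agent.S29

/-- The `n`-torsion of `J₀(N)(Q̄)`, as a `ℤ`-submodule. -/
abbrev s29q_tors (N n : ℕ) : Submodule ℤ (JZero N) :=
  Submodule.torsionBy ℤ (JZero N) (n : ℤ)

theorem s29q_mem_tors {N n : ℕ} {x : JZero N} : x ∈ s29q_tors N n ↔ n • x = 0 := by
  rw [Submodule.mem_torsionBy_iff, natCast_zsmul]

/-- The Hecke operators preserve the torsion. -/
theorem s29q_hecke_mem_tors (N n : ℕ) [NeZero N] (ℓ : Nat.Primes) {x : JZero N}
    (hx : x ∈ s29q_tors N n) : heckeOperatorBar N ℓ x ∈ s29q_tors N n := by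
  rw [Submodule.mem_torsionBy_iff] at hx ⊢
  rw [← map_zsmul, hx, map_zero]

/-- The Hecke operator `T_ℓ` restricted to the `n`-torsion of `J₀(N)(Q̄)`. -/
def s29q_heckeTors (N n : ℕ) [NeZero N] (ℓ : Nat.Primes) : Module.End ℤ (s29q_tors N n) :=
  (heckeOperatorBar N ℓ).restrict (p := s29q_tors N n) (q := s29q_tors N n)
    (fun _ hx => s29q_hecke_mem_tors N n ℓ hx)

@[simp]
theorem s29q_coe_heckeTors (N n : ℕ) [NeZero N] (ℓ : Nat.Primes) (x : s29q_tors N n) :
    ((s29q_heckeTors N n ℓ x : s29q_tors N n) : JZero N) = heckeOperatorBar N ℓ (x : JZero N) :=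
  rfl

/-- **[EIG]** the Hecke eigenvector attached to an eigenform in `K ⊗ J₀(N)(Q̄)[p]`. -/
def s29_EigStatement : Prop :=
  ∀ (N : ℕ) [NeZero N] (g : CuspForm (CongruenceSubgroup.Gamma0 N) 2), g.IsNormalizedEigenform →
    ∀ (p : ℕ), p.Prime → ∀ (K : Type) [Field K] [CharP K p] [IsAlgClosed K]
      (φ : integralClosure ℤ ℂ →+* K),
      ∃ w : K ⊗[ℤ] (s29q_tors N p), w ≠ 0 ∧
        ∀ (ℓ : ℕ) (hℓ : ℓ.Prime), ¬ ℓ ∣ N * p →
          ∃ a : integralClosure ℤ ℂ, (a : ℂ) = ModularFormClass.qCoeff g ℓ ∧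
            LinearMap.baseChange K (s29q_heckeTors N p ⟨ℓ, hℓ⟩) w = φ a • w

end Fermat.Agent.S29
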