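/-
S29, package [EIG]: **[EIG-OF]** (helper2).  Prefix `s29eo_`.

`s29eo_main : s29lat_Statement → s29k_Statement → s29_EigStatement`:
the lattice side ([LAT]: a non-zero Hecke eigenvector `w₀` of `K ⊗ Λ`,
`Λ = parabolicHoms ℤ Γ₀(N) ℤ`) and the Kummer side ([KUM]: an additive Hecke equivariant map
`D : Λ → J₀(N)(Q̄)[p]` with kernel `p Λ`) give a Hecke eigenvector of `K ⊗ J₀(N)(Q̄)[p]`,
which is non-zero because `1 ⊗ D` is injective in characteristic `p`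
(the pure algebra is helper3's `s29eab_main`, `EigAbs.lean`).
-/
import Mathlib
import Fermat.Agent.S29.LatDefs
import Fermat.Agent.S29.KumDefs
import Fermat.Agent.S29.QuadDefs
import Fermat.Agent.S29.EigAbs

set_option autoImplicit false
set_option linter.style.haveILetI false

noncomputable section

namespace Fermat.Agent.S29

open CongruenceSubgroup ModularCurve ModularCurve.Period AlgebraicCurve
open scoped TensorProduct

/-- **[EIG-OF]**: [LAT] + [KUM] ⟹ [EIG]. -/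
theorem s29eo_main : s29lat_Statement → s29k_Statement → s29_EigStatement := by
  intro hLat hKum N _ g hg p hp K _ _ _ φ
  have hLat' := hLat N g hg
  have hint := hLat'.1
  refine Exists.elim (hLat'.2 K φ) (fun w₀ hw₀' => ?_)
  have hw₀ := hw₀'.1
  have heig := hw₀'.2
  refine Exists.elim (hKum N p hp.pos) (fun D hD' => ?_)
  have hD := hD'.1
  have hker := hD'.2.1
  have hcomm := hD'.2.2
  haveI : Fact p.Prime := ⟨hp⟩
  -- the index set: the primes `ℓ ∤ N p`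
  have hN : ∀ i : {ℓ : ℕ // ℓ.Prime ∧ ¬ ℓ ∣ N * p}, ¬ (i : ℕ) ∣ N :=
    fun i h => i.2.2 (h.mul_right p)
  have hp' : ∀ i : {ℓ : ℕ // ℓ.Prime ∧ ¬ ℓ ∣ N * p}, ¬ (i : ℕ) ∣ p :=
    fun i h => i.2.2 (h.mul_left N)
  refine Exists.elim (s29eab_main p K D hD hker
    (ι := {ℓ : ℕ // ℓ.Prime ∧ ¬ ℓ ∣ N * p})
    (fun i => haveI : Fact (i : ℕ).Prime := ⟨i.2.1⟩; s29lat_T N (i : ℕ) (hN i))
    (fun i => s29q_heckeTors N p (⟨(i : ℕ), i.2.1⟩ : Nat.Primes)) ?_
    (fun i => φ ⟨ModularFormClass.qCoeff g (i : ℕ), hint (i : ℕ) i.2.1 (hN i)⟩) w₀ hw₀ ?_)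
    (fun w hw' => ?_)
  · -- equivariance
    intro i c
    haveI : Fact (i : ℕ).Prime := ⟨i.2.1⟩
    apply Subtype.ext
    have h7 := hcomm (i : ℕ) (hN i) (hp' i) c
    have h8 : ((s29q_heckeTors N p (⟨(i : ℕ), i.2.1⟩ : Nat.Primes) (s29eab_res p D hD c) :
        ↥(s29q_tors N p)) : JZero N) =
        heckeOperatorBar N ⟨(i : ℕ), i.2.1⟩ ((s29eab_res p D hD c : ↥(s29q_tors N p)) : JZero N) :=
      rfl
    refine h8.trans ?_
    rw [s29eab_res_coe, s29eab_res_coe]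
    exact h7.symm
  · -- the eigenvector of the lattice side
    intro i
    haveI : Fact (i : ℕ).Prime := ⟨i.2.1⟩
    exact heig (i : ℕ) (hN i) ⟨ModularFormClass.qCoeff g (i : ℕ), hint (i : ℕ) i.2.1 (hN i)⟩ rfl
  · refine ⟨w, hw'.1, ?_⟩
    intro ℓ hℓ hℓNp
    exact ⟨⟨ModularFormClass.qCoeff g ℓ, hint ℓ hℓ (fun h => hℓNp (h.mul_right p))⟩, rfl,
      hw'.2 ⟨ℓ, hℓ, hℓNp⟩⟩

end Fermat.Agent.S29
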