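import Mathlib
import Fermat.Agent.S29.LatDefs

set_option autoImplicit false
set_option linter.style.haveILetI false
set_option linter.unusedVariables false
set_option linter.unusedSectionVars false

/-!
# S29, [LAT-HOM]: the Hecke operator on homomorphisms `Γ₀(N) → A`

* `s29lat_red_mul`: `redMatrix ℓ` is an anti-homomorphism;
* `s29lat_gam_mul`: the cocycle identity
  `s29lat_gam (γ * δ) x = s29lat_gam γ x * s29lat_gam δ (redMatrix ℓ γ • x)`;
* `s29lat_heckeHom`: `ψ ↦ (γ ↦ ∑ₓ ψ (s29lat_gam γ x))` as an endomorphism of `Additive Γ →+ A`;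
* `s29lat_heckeChar`: the multiplicative version for characters;
* `s29lat_hom_main : s29lat_HomStatement`, `s29lat_T_apply`.
-/

namespace Fermat.Agent.S29

open CongruenceSubgroup ModularCurve ModularCurve.Period Matrix.SpecialLinearGroup
open scoped MatrixGroups TensorProduct
open P2MW.S_ModularForm_heckeT_slash_eq_self_of_mem_Gamma0.ModularForm.HeckeSlashInvariance

section Red

variable (ℓ : ℕ) [Fact ℓ.Prime]

/-- `redMatrix ℓ` is an anti-homomorphism. -/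
theorem s29lat_red_mul (g h : SL(2, ℤ)) :
    redMatrix ℓ (g * h) = redMatrix ℓ h * redMatrix ℓ g := by
  apply Matrix.GeneralLinearGroup.ext
  intro i j
  rw [Matrix.GeneralLinearGroup.coe_mul, Matrix.mul_apply, Fin.sum_univ_two]
  fin_cases i <;> fin_cases j <;>
    simp only [Fin.zero_eta, Fin.mk_one, Fin.isValue, redMatrix_apply_zero_zero,
      redMatrix_apply_zero_one, redMatrix_apply_one_zero, redMatrix_apply_one_one,
      Matrix.SpecialLinearGroup.coe_mul, Matrix.mul_apply, Fin.sum_univ_two] <;>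
    push_cast <;> ring

theorem s29lat_red_one : redMatrix ℓ (1 : SL(2, ℤ)) = 1 := by
  apply Matrix.GeneralLinearGroup.ext
  intro i j
  fin_cases i <;> fin_cases j <;>
    simp [redMatrix_apply_zero_zero, redMatrix_apply_zero_one, redMatrix_apply_one_zero,
      redMatrix_apply_one_one]

theorem s29lat_red_pow (g : SL(2, ℤ)) (n : ℕ) : redMatrix ℓ (g ^ n) = redMatrix ℓ g ^ n := by
  induction n with
  | zero => rw [pow_zero, pow_zero, s29lat_red_one]
  | succ n ih => rw [pow_succ, s29lat_red_mul, ih, pow_succ']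

theorem s29lat_red_smul_mul (g h : SL(2, ℤ)) (x : OnePoint (ZMod ℓ)) :
    redMatrix ℓ (g * h) • x = redMatrix ℓ h • (redMatrix ℓ g • x) := by
  rw [s29lat_red_mul, mul_smul]

end Red

section Cocycle

variable (N ℓ : ℕ) [Fact ℓ.Prime] (hℓN : ¬ ℓ ∣ N)

/-- Uniqueness of the cocycle. -/
theorem s29lat_gam_unique (γ : Gamma0 N) (x : OnePoint (ZMod ℓ)) (g : SL(2, ℤ))
    (hg : heckeRep ℓ x * mapGL ℝ (γ : SL(2, ℤ)) =
      mapGL ℝ g * heckeRep ℓ (redMatrix ℓ (γ : SL(2, ℤ)) • x)) :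
    ((s29lat_gam N ℓ hℓN γ x : Gamma0 N) : SL(2, ℤ)) = g := by
  have h := s29lat_gam_spec N ℓ hℓN γ x
  rw [hg] at h
  have h2 := mul_right_cancel h
  exact (mapGL_injective h2).symm

/-- **The cocycle identity.** -/
theorem s29lat_gam_mul (γ δ : Gamma0 N) (x : OnePoint (ZMod ℓ)) :
    s29lat_gam N ℓ hℓN (γ * δ) x =
      s29lat_gam N ℓ hℓN γ x * s29lat_gam N ℓ hℓN δ (redMatrix ℓ (γ : SL(2, ℤ)) • x) := by
  apply Subtype.ext
  apply s29lat_gam_unique
  rw [Subgroup.coe_mul, Subgroup.coe_mul, map_mul, map_mul, ← mul_assoc,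
    s29lat_gam_spec N ℓ hℓN γ x, mul_assoc, s29lat_gam_spec N ℓ hℓN δ, ← mul_assoc,
    s29lat_red_smul_mul]

theorem s29lat_gam_one (x : OnePoint (ZMod ℓ)) : s29lat_gam N ℓ hℓN 1 x = 1 := by
  apply Subtype.ext
  apply s29lat_gam_unique
  rw [OneMemClass.coe_one, map_one, mul_one, one_mul, s29lat_red_one, one_smul]

end Cocycle

section Hom

variable (N ℓ : ℕ) [Fact ℓ.Prime] (hℓN : ¬ ℓ ∣ N) {A : Type*} [AddCommMonoid A]

/-- The Hecke operator `T_ℓ` on homomorphisms `Γ₀(N) → A`. -/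
noncomputable def s29lat_heckeHom (ψ : Additive (Gamma0 N) →+ A) : Additive (Gamma0 N) →+ A where
  toFun γ := s29lat_heckeFun N ℓ hℓN ψ (Additive.toMul γ)
  map_zero' := by
    show s29lat_heckeFun N ℓ hℓN ψ 1 = 0
    unfold s29lat_heckeFun
    simp only [s29lat_gam_one, ofMul_one, map_zero, Finset.sum_const_zero]
  map_add' γ δ := by
    show s29lat_heckeFun N ℓ hℓN ψ (Additive.toMul γ * Additive.toMul δ) =
      s29lat_heckeFun N ℓ hℓN ψ (Additive.toMul γ) + s29lat_heckeFun N ℓ hℓN ψ (Additive.toMul δ)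
    unfold s29lat_heckeFun
    simp only [s29lat_gam_mul, ofMul_mul, map_add, Finset.sum_add_distrib]
    congr 1
    exact Equiv.sum_comp
      (MulAction.toPerm (redMatrix ℓ ((Additive.toMul γ : Gamma0 N) : SL(2, ℤ))))
      (fun x => ψ (Additive.ofMul (s29lat_gam N ℓ hℓN (Additive.toMul δ) x)))

@[simp] theorem s29lat_heckeHom_apply (ψ : Additive (Gamma0 N) →+ A) (γ : Gamma0 N) :
    s29lat_heckeHom N ℓ hℓN ψ (Additive.ofMul γ) = s29lat_heckeFun N ℓ hℓN ψ γ := rfl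

theorem s29lat_heckeFun_def (ψ : Additive (Gamma0 N) →+ A) (γ : Gamma0 N) :
    s29lat_heckeFun N ℓ hℓN ψ γ =
      ∑ x : OnePoint (ZMod ℓ), ψ (Additive.ofMul (s29lat_gam N ℓ hℓN γ x)) := rfl

theorem s29lat_heckeHom_add (ψ ψ' : Additive (Gamma0 N) →+ A) :
    s29lat_heckeHom N ℓ hℓN (ψ + ψ') = s29lat_heckeHom N ℓ hℓN ψ + s29lat_heckeHom N ℓ hℓN ψ' := by
  refine AddMonoidHom.ext fun γ => ?_
  show s29lat_heckeFun N ℓ hℓN (ψ + ψ') (Additive.toMul γ) =
    s29lat_heckeFun N ℓ hℓN ψ (Additive.toMul γ) + s29lat_heckeFun N ℓ hℓN ψ' (Additive.toMul γ)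
  unfold s29lat_heckeFun
  simp only [AddMonoidHom.add_apply, Finset.sum_add_distrib]

theorem s29lat_heckeHom_zero :
    s29lat_heckeHom N ℓ hℓN (0 : Additive (Gamma0 N) →+ A) = 0 := by
  refine AddMonoidHom.ext fun γ => ?_
  show s29lat_heckeFun N ℓ hℓN (0 : Additive (Gamma0 N) →+ A) (Additive.toMul γ) = 0
  unfold s29lat_heckeFun
  simp only [AddMonoidHom.zero_apply, Finset.sum_const_zero]

/-- Naturality in the coefficients. -/
theorem s29lat_heckeHom_comp {B : Type*} [AddCommMonoid B] (f : A →+ B)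
    (ψ : Additive (Gamma0 N) →+ A) :
    s29lat_heckeHom N ℓ hℓN (f.comp ψ) = f.comp (s29lat_heckeHom N ℓ hℓN ψ) := by
  refine AddMonoidHom.ext fun γ => ?_
  show s29lat_heckeFun N ℓ hℓN (f.comp ψ) (Additive.toMul γ) =
    f (s29lat_heckeFun N ℓ hℓN ψ (Additive.toMul γ))
  unfold s29lat_heckeFun
  rw [map_sum]
  rfl

end Hom

section Char

variable (N ℓ : ℕ) [Fact ℓ.Prime] (hℓN : ¬ ℓ ∣ N) {M : Type*} [CommMonoid M]

/-- The Hecke operator on characters `Γ₀(N) → M`: `(T_ℓ χ)(γ) = ∏ₓ χ (s29lat_gam γ x)`. -/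
noncomputable def s29lat_heckeChar (χ : Gamma0 N →* M) : Gamma0 N →* M where
  toFun γ := ∏ x : OnePoint (ZMod ℓ), χ (s29lat_gam N ℓ hℓN γ x)
  map_one' := by
    simp only [s29lat_gam_one, map_one, Finset.prod_const_one]
  map_mul' γ δ := by
    simp only [s29lat_gam_mul, map_mul, Finset.prod_mul_distrib]
    congr 1
    exact Equiv.prod_comp
      (MulAction.toPerm (redMatrix ℓ ((γ : Gamma0 N) : SL(2, ℤ))))
      (fun x => χ (s29lat_gam N ℓ hℓN δ x))

@[simp] theorem s29lat_heckeChar_apply (χ : Gamma0 N →* M) (γ : Gamma0 N) :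
    s29lat_heckeChar N ℓ hℓN χ γ = ∏ x : OnePoint (ZMod ℓ), χ (s29lat_gam N ℓ hℓN γ x) := rfl

end Char

section Trace

/-- Cayley-Hamilton for `SL(2, ℤ)`. -/
theorem s29lat_sq_eq (g : SL(2, ℤ)) :
    (g : Matrix (Fin 2) (Fin 2) ℤ) * (g : Matrix (Fin 2) (Fin 2) ℤ) =
      (g : Matrix (Fin 2) (Fin 2) ℤ).trace • (g : Matrix (Fin 2) (Fin 2) ℤ) - 1 := by
  have hdet := det_eq g
  ext i j
  fin_cases i <;> fin_cases j <;>
    simp only [Fin.zero_eta, Fin.mk_one, Fin.isValue, Matrix.mul_apply, Fin.sum_univ_two,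
      Matrix.trace_fin_two, Matrix.sub_apply, Matrix.smul_apply, smul_eq_mul,
      Matrix.one_apply_eq, Matrix.one_apply_ne, ne_eq, zero_ne_one, one_ne_zero,
      not_false_eq_true, sub_zero] <;>
    first
      | ring1
      | linear_combination (-1 : ℤ) * hdet

theorem s29lat_trace_pow_rec (g : SL(2, ℤ)) (n : ℕ) :
    ((g : Matrix (Fin 2) (Fin 2) ℤ) ^ (n + 2)).trace =
      (g : Matrix (Fin 2) (Fin 2) ℤ).trace * ((g : Matrix (Fin 2) (Fin 2) ℤ) ^ (n + 1)).trace -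
        ((g : Matrix (Fin 2) (Fin 2) ℤ) ^ n).trace := by
  have h : (g : Matrix (Fin 2) (Fin 2) ℤ) ^ (n + 2) =
      (g : Matrix (Fin 2) (Fin 2) ℤ).trace • (g : Matrix (Fin 2) (Fin 2) ℤ) ^ (n + 1) -
        (g : Matrix (Fin 2) (Fin 2) ℤ) ^ n := by
    rw [pow_add, pow_two, s29lat_sq_eq, mul_sub, mul_one, Matrix.mul_smul, ← pow_succ]
  rw [h, Matrix.trace_sub, Matrix.trace_smul, smul_eq_mul]

/-- Powers of an element of trace `±2` have trace `±2`. -/
theorem s29lat_trace_pow (g : SL(2, ℤ))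
    (hg : (g : Matrix (Fin 2) (Fin 2) ℤ).trace ^ 2 = 4) (n : ℕ) :
    ((g ^ n : SL(2, ℤ)) : Matrix (Fin 2) (Fin 2) ℤ).trace ^ 2 = 4 := by
  rw [Matrix.SpecialLinearGroup.coe_pow]
  set t := (g : Matrix (Fin 2) (Fin 2) ℤ).trace with ht
  have key : ∀ n : ℕ, ((g : Matrix (Fin 2) (Fin 2) ℤ) ^ n).trace ^ 2 = 4 ∧
      ((g : Matrix (Fin 2) (Fin 2) ℤ) ^ (n + 1)).trace ^ 2 = 4 ∧
      ((g : Matrix (Fin 2) (Fin 2) ℤ) ^ (n + 1)).trace * 2 =
        t * ((g : Matrix (Fin 2) (Fin 2) ℤ) ^ n).trace := by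
    intro n
    induction n with
    | zero =>
      refine ⟨?_, ?_, ?_⟩
      · rw [pow_zero, Matrix.trace_one]
        simp
      · rw [zero_add, pow_one]
        exact hg
      · rw [zero_add, pow_one, pow_zero, Matrix.trace_one]
        simp [ht, mul_comm]
    | succ n ih =>
      obtain ⟨h1, h2, h3⟩ := ih
      have hrec := s29lat_trace_pow_rec g n
      rw [← ht] at hrec
      refine ⟨h2, ?_, ?_⟩
      · rw [show n + 1 + 1 = n + 2 from rfl, hrec]
        have e1 : t * ((g : Matrix (Fin 2) (Fin 2) ℤ) ^ (n + 1)).trace * 2 =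
            4 * ((g : Matrix (Fin 2) (Fin 2) ℤ) ^ n).trace := by
          calc t * ((g : Matrix (Fin 2) (Fin 2) ℤ) ^ (n + 1)).trace * 2
              = t * (((g : Matrix (Fin 2) (Fin 2) ℤ) ^ (n + 1)).trace * 2) := by ring
            _ = t * (t * ((g : Matrix (Fin 2) (Fin 2) ℤ) ^ n).trace) := by rw [h3]
            _ = t ^ 2 * ((g : Matrix (Fin 2) (Fin 2) ℤ) ^ n).trace := by ring
            _ = 4 * ((g : Matrix (Fin 2) (Fin 2) ℤ) ^ n).trace := by rw [hg]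
        have e2 : t * ((g : Matrix (Fin 2) (Fin 2) ℤ) ^ (n + 1)).trace =
            2 * ((g : Matrix (Fin 2) (Fin 2) ℤ) ^ n).trace := by linarith
        rw [e2]
        have : 2 * ((g : Matrix (Fin 2) (Fin 2) ℤ) ^ n).trace -
            ((g : Matrix (Fin 2) (Fin 2) ℤ) ^ n).trace =
            ((g : Matrix (Fin 2) (Fin 2) ℤ) ^ n).trace := by ring
        rw [this]
        exact h1
      · rw [show n + 1 + 1 = n + 2 from rfl, hrec]
        have e1 : t * ((g : Matrix (Fin 2) (Fin 2) ℤ) ^ (n + 1)).trace * 2 =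
            4 * ((g : Matrix (Fin 2) (Fin 2) ℤ) ^ n).trace := by
          calc t * ((g : Matrix (Fin 2) (Fin 2) ℤ) ^ (n + 1)).trace * 2
              = t * (((g : Matrix (Fin 2) (Fin 2) ℤ) ^ (n + 1)).trace * 2) := by ring
            _ = t * (t * ((g : Matrix (Fin 2) (Fin 2) ℤ) ^ n).trace) := by rw [h3]
            _ = t ^ 2 * ((g : Matrix (Fin 2) (Fin 2) ℤ) ^ n).trace := by ring
            _ = 4 * ((g : Matrix (Fin 2) (Fin 2) ℤ) ^ n).trace := by rw [hg]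
        have e2 : t * ((g : Matrix (Fin 2) (Fin 2) ℤ) ^ (n + 1)).trace =
            2 * ((g : Matrix (Fin 2) (Fin 2) ℤ) ^ n).trace := by linarith
        rw [e2]
        ring
  exact (key n).1

/-- The trace of `mapGL ℝ g` is the trace of `g`. -/
theorem s29lat_trace_mapGL (g : SL(2, ℤ)) :
    ((mapGL ℝ g : GL (Fin 2) ℝ) : Matrix (Fin 2) (Fin 2) ℝ).trace =
      (((g : Matrix (Fin 2) (Fin 2) ℤ).trace : ℤ) : ℝ) := by
  rw [mapGL_coe_matrix, Matrix.trace_fin_two, Matrix.trace_fin_two]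
  simp

/-- Conjugate elements have the same trace. -/
theorem s29lat_trace_eq_of_conj (g g' : SL(2, ℤ)) (α : GL (Fin 2) ℝ)
    (h : α * mapGL ℝ g = mapGL ℝ g' * α) :
    (g' : Matrix (Fin 2) (Fin 2) ℤ).trace = (g : Matrix (Fin 2) (Fin 2) ℤ).trace := by
  have h1 : mapGL ℝ g' = α * mapGL ℝ g * α⁻¹ := by
    rw [h, mul_assoc, mul_inv_cancel, mul_one]
  have h2 : ((mapGL ℝ g' : GL (Fin 2) ℝ) : Matrix (Fin 2) (Fin 2) ℝ).trace =
      ((mapGL ℝ g : GL (Fin 2) ℝ) : Matrix (Fin 2) (Fin 2) ℝ).trace := by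
    rw [h1, Matrix.GeneralLinearGroup.coe_mul, Matrix.GeneralLinearGroup.coe_mul,
      Matrix.trace_mul_comm, ← mul_assoc, ← Matrix.GeneralLinearGroup.coe_mul, inv_mul_cancel,
      Matrix.GeneralLinearGroup.coe_one, one_mul]
  rw [s29lat_trace_mapGL, s29lat_trace_mapGL] at h2
  exact_mod_cast h2

end Trace

section Par

variable (N ℓ : ℕ) [Fact ℓ.Prime] (hℓN : ¬ ℓ ∣ N) {A : Type*} [AddCommGroup A]

/-- The iterated cocycle identity, after applying a homomorphism. -/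
theorem s29lat_gam_pow (ψ : Additive (Gamma0 N) →+ A) (γ : Gamma0 N) (x : OnePoint (ZMod ℓ))
    (n : ℕ) :
    ψ (Additive.ofMul (s29lat_gam N ℓ hℓN (γ ^ n) x)) =
      ∑ i ∈ Finset.range n,
        ψ (Additive.ofMul (s29lat_gam N ℓ hℓN γ (redMatrix ℓ (γ : SL(2, ℤ)) ^ i • x))) := by
  induction n with
  | zero =>
    rw [pow_zero, s29lat_gam_one, ofMul_one, map_zero, Finset.range_zero, Finset.sum_empty]
  | succ n ih =>
    rw [pow_succ, s29lat_gam_mul, ofMul_mul, map_add, ih, Finset.sum_range_succ]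
    congr 3
    rw [SubmonoidClass.coe_pow, s29lat_red_pow]

/-- If `redMatrix ℓ γ • x = x`, then `s29lat_gam γ x` is conjugate to `γ`, hence has the same
trace. -/
theorem s29lat_trace_gam_of_fixed (γ : Gamma0 N) (x : OnePoint (ZMod ℓ))
    (hx : redMatrix ℓ (γ : SL(2, ℤ)) • x = x) :
    (((s29lat_gam N ℓ hℓN γ x : Gamma0 N) : SL(2, ℤ)) : Matrix (Fin 2) (Fin 2) ℤ).trace =
      ((γ : SL(2, ℤ)) : Matrix (Fin 2) (Fin 2) ℤ).trace := by
  have h := s29lat_gam_spec N ℓ hℓN γ x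
  rw [hx] at h
  exact s29lat_trace_eq_of_conj _ _ (heckeRep ℓ x) h

/-- `T_ℓ` preserves the homomorphisms which vanish on the elements of trace `±2`, when the
group of values has no torsion. -/
theorem s29lat_heckeFun_par (hA : ∀ (n : ℕ) (a : A), n ≠ 0 → n • a = 0 → a = 0)
    (ψ : Additive (Gamma0 N) →+ A) (hψ : IsParabolicHom (Gamma0 N) ψ) (γ : Gamma0 N)
    (hγ : ((γ : SL(2, ℤ)) : Matrix (Fin 2) (Fin 2) ℤ).trace ^ 2 = 4) :
    s29lat_heckeFun N ℓ hℓN ψ γ = 0 := by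
  set π : GL (Fin 2) (ZMod ℓ) := redMatrix ℓ (γ : SL(2, ℤ)) with hπ
  set r : ℕ := orderOf π with hr
  have hr0 : r ≠ 0 := (orderOf_pos π).ne'
  have hπr : π ^ r = 1 := pow_orderOf_eq_one π
  -- each orbit sum vanishes
  have hx : ∀ x : OnePoint (ZMod ℓ), ∑ i ∈ Finset.range r,
      ψ (Additive.ofMul (s29lat_gam N ℓ hℓN γ (π ^ i • x))) = 0 := by
    intro x
    rw [← s29lat_gam_pow N ℓ hℓN ψ γ x r]
    apply hψ
    have hfix : redMatrix ℓ ((γ ^ r : Gamma0 N) : SL(2, ℤ)) • x = x := by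
      rw [SubmonoidClass.coe_pow, s29lat_red_pow, ← hπ, hπr, one_smul]
    rw [s29lat_trace_gam_of_fixed N ℓ hℓN (γ ^ r) x hfix, SubmonoidClass.coe_pow]
    exact s29lat_trace_pow _ hγ r
  have hsum : ∑ x : OnePoint (ZMod ℓ), ∑ i ∈ Finset.range r,
      ψ (Additive.ofMul (s29lat_gam N ℓ hℓN γ (π ^ i • x))) = 0 :=
    Finset.sum_eq_zero (fun x _ => hx x)
  rw [Finset.sum_comm] at hsum
  have hi : ∀ i ∈ Finset.range r, ∑ x : OnePoint (ZMod ℓ),
      ψ (Additive.ofMul (s29lat_gam N ℓ hℓN γ (π ^ i • x))) = s29lat_heckeFun N ℓ hℓN ψ γ := by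
    intro i _
    exact Equiv.sum_comp (MulAction.toPerm (π ^ i))
      (fun x => ψ (Additive.ofMul (s29lat_gam N ℓ hℓN γ x)))
  rw [Finset.sum_congr rfl hi, Finset.sum_const, Finset.card_range] at hsum
  exact hA r _ hr0 hsum

end Par

section TheOperator

variable (N ℓ : ℕ) [Fact ℓ.Prime] (hℓN : ¬ ℓ ∣ N)

/-- The Hecke operator on `Λ = parabolicHoms ℤ Γ₀(N) ℤ` (the honest definition). -/
noncomputable def s29lat_Tpar : Module.End ℤ (parabolicHoms ℤ (Gamma0 N) ℤ) :=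
  AddMonoidHom.toIntLinearMap
    { toFun := fun ψ => ⟨s29lat_heckeHom N ℓ hℓN (ψ : Additive (Gamma0 N) →+ ℤ), fun γ hγ =>
        s29lat_heckeFun_par N ℓ hℓN (fun n a hn h => by
          rcases smul_eq_zero.mp h with h1 | h1
          · exact absurd h1 hn
          · exact h1) _ ψ.2 γ hγ⟩
      map_zero' := Subtype.ext (s29lat_heckeHom_zero N ℓ hℓN)
      map_add' := fun ψ ψ' => Subtype.ext (s29lat_heckeHom_add N ℓ hℓN _ _) }

theorem s29lat_Tpar_apply (ψ : parabolicHoms ℤ (Gamma0 N) ℤ) (γ : Gamma0 N) :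
    (s29lat_Tpar N ℓ hℓN ψ : Additive (Gamma0 N) →+ ℤ) (Additive.ofMul γ) =
      s29lat_heckeFun N ℓ hℓN (ψ : Additive (Gamma0 N) →+ ℤ) γ := rfl

end TheOperator

/-- **[LAT-HOM]** -/
theorem s29lat_hom_main : s29lat_HomStatement := by
  intro N ℓ _ hℓN
  exact ⟨s29lat_Tpar N ℓ hℓN, fun ψ γ => s29lat_Tpar_apply N ℓ hℓN ψ γ⟩

section Apply

variable (N ℓ : ℕ) [Fact ℓ.Prime] (hℓN : ¬ ℓ ∣ N)

/-- The operator `s29lat_T` of `LatDefs.lean` is given by the coset formula. -/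
theorem s29lat_T_apply (ψ : parabolicHoms ℤ (Gamma0 N) ℤ) (γ : Gamma0 N) :
    (s29lat_T N ℓ hℓN ψ : Additive (Gamma0 N) →+ ℤ) (Additive.ofMul γ) =
      s29lat_heckeFun N ℓ hℓN (ψ : Additive (Gamma0 N) →+ ℤ) γ := by
  have h := s29lat_hom_main N ℓ hℓN
  unfold s29lat_T
  rw [dif_pos h]
  exact h.choose_spec ψ γ

theorem s29lat_T_coe (ψ : parabolicHoms ℤ (Gamma0 N) ℤ) :
    (s29lat_T N ℓ hℓN ψ : Additive (Gamma0 N) →+ ℤ) =
      s29lat_heckeHom N ℓ hℓN (ψ : Additive (Gamma0 N) →+ ℤ) := by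
  refine AddMonoidHom.ext fun γ => ?_
  exact s29lat_T_apply N ℓ hℓN ψ (Additive.toMul γ)

theorem s29lat_T_eq : s29lat_T N ℓ hℓN = s29lat_Tpar N ℓ hℓN := by
  refine LinearMap.ext fun ψ => Subtype.ext ?_
  rw [s29lat_T_coe]
  rfl

end Apply

end Fermat.Agent.S29
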