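import Mathlib
import Fermat.Agent.S29.LatDefs
import Fermat.Agent.S29.LatHom
import Fermat.Prelude.Def_FLTPrelim_ModularRep
import Fermat.Agent.S21.Prim
import Fermat.Agent.S21.Lin
import Fermat.Agent.S21.Par
import Fermat.Agent.S21.Inj
import Fermat.Agent.S21.Harm

set_option autoImplicit false
set_option linter.style.haveILetI false
set_option linter.unusedVariables false
set_option linter.unusedSectionVars false

/-!
# S29, [LAT-ASM]: the assembly of [LAT]

`s29lat_asm : s29lat_AsmStatement`, i.e.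
[LAT-HOM] → [LAT-PER] → [LAT-EIG] → [LAT-FREE] → [LAT-DS] → [LAT].

The period homomorphism `ψ = periodMap N g` of a normalised eigenform is a non-zero parabolic
homomorphism (S21) with `T_ℓ ψ = a_ℓ ψ` ([LAT-PER] + [LAT-EIG]); by [LAT-FREE] it is the image of
a vector `v ∈ ℂ ⊗ Λ` under the injective evaluation map `ℂ ⊗ Λ → (Γ₀(N) → ℂ)`, which is
Hecke equivariant, so `v` is an eigenvector; [LAT-DS] reduces it.
-/

namespace Fermat.Agent.S29

open CongruenceSubgroup ModularCurve ModularCurve.Period Matrix.SpecialLinearGroup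
open scoped MatrixGroups TensorProduct
open P2MW.S_ModularForm_heckeT_slash_eq_self_of_mem_Gamma0.ModularForm.HeckeSlashInvariance

section Ev

variable (N : ℕ)

/-- The evaluation `Λ → (Γ₀(N) → ℂ)`. -/
noncomputable def s29lat_ev0 : parabolicHoms ℤ (Gamma0 N) ℤ →ₗ[ℤ] (Gamma0 N → ℂ) where
  toFun lam := fun γ => (((lam : Additive (Gamma0 N) →+ ℤ) (Additive.ofMul γ) : ℤ) : ℂ)
  map_add' a b := by
    funext γ
    simp
  map_smul' c a := by
    funext γ
    simp

/-- The evaluation `ℂ ⊗ Λ → (Γ₀(N) → ℂ)`. -/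
noncomputable def s29lat_ev : ℂ ⊗[ℤ] (parabolicHoms ℤ (Gamma0 N) ℤ) →ₗ[ℂ] (Gamma0 N → ℂ) :=
  LinearMap.liftBaseChange ℂ (s29lat_ev0 N)

theorem s29lat_ev_tmul (c : ℂ) (lam : parabolicHoms ℤ (Gamma0 N) ℤ) (γ : Gamma0 N) :
    s29lat_ev N (c ⊗ₜ[ℤ] lam) γ =
      c * (((lam : Additive (Gamma0 N) →+ ℤ) (Additive.ofMul γ) : ℤ) : ℂ) := by
  unfold s29lat_ev
  rw [LinearMap.liftBaseChange_tmul]
  rfl

end Ev

section Inj

variable (N : ℕ) [NeZero N]

theorem s29lat_ev_injective (hFree : s29lat_FreeStatement) :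
    Function.Injective (s29lat_ev N) := by
  obtain ⟨hfin, hfree, hind, -⟩ := hFree N
  haveI := hfin
  haveI := hfree
  set b := Module.finBasis ℤ (parabolicHoms ℤ (Gamma0 N) ℤ) with hb
  set B := Algebra.TensorProduct.basis ℂ b with hB
  rw [injective_iff_map_eq_zero]
  intro x hx
  have hx' : s29lat_ev N (∑ i, B.repr x i • B i) = 0 := by
    rw [B.sum_repr]
    exact hx
  have hrepr : ∀ γ : Gamma0 N, ∑ i, (B.repr x i) *
      ((((b i : parabolicHoms ℤ (Gamma0 N) ℤ) : Additive (Gamma0 N) →+ ℤ)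
        (Additive.ofMul γ) : ℤ) : ℂ) = 0 := by
    intro γ
    have h1 := congrFun hx' γ
    rw [map_sum] at h1
    simp only [map_smul, Finset.sum_apply, Pi.smul_apply, smul_eq_mul, Pi.zero_apply] at h1
    rw [← h1]
    refine Finset.sum_congr rfl fun i _ => ?_
    rw [hB, Algebra.TensorProduct.basis_apply, s29lat_ev_tmul, one_mul]
  have h0 := hind _ b b.linearIndependent (fun i => B.repr x i) hrepr
  rw [← B.sum_repr x]
  refine Finset.sum_eq_zero fun i _ => ?_
  have := congrFun h0 i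
  simp only [Pi.zero_apply] at this
  rw [this, zero_smul]

end Inj

section Equivariance

variable (N ℓ : ℕ) [Fact ℓ.Prime] (hℓN : ¬ ℓ ∣ N)

/-- The Hecke operator on functions `Γ₀(N) → ℂ`. -/
noncomputable def s29lat_funOp : (Gamma0 N → ℂ) →ₗ[ℂ] (Gamma0 N → ℂ) where
  toFun F := fun γ => ∑ x : OnePoint (ZMod ℓ), F (s29lat_gam N ℓ hℓN γ x)
  map_add' F G := by
    funext γ
    simp only [Pi.add_apply, Finset.sum_add_distrib]
  map_smul' c F := by
    funext γ
    simp only [Pi.smul_apply, smul_eq_mul, RingHom.id_apply, Finset.mul_sum]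

theorem s29lat_funOp_apply (F : Gamma0 N → ℂ) (γ : Gamma0 N) :
    s29lat_funOp N ℓ hℓN F γ = ∑ x : OnePoint (ZMod ℓ), F (s29lat_gam N ℓ hℓN γ x) := rfl

theorem s29lat_ev_T (x : ℂ ⊗[ℤ] (parabolicHoms ℤ (Gamma0 N) ℤ)) :
    s29lat_ev N (LinearMap.baseChange ℂ (s29lat_T N ℓ hℓN) x) =
      s29lat_funOp N ℓ hℓN (s29lat_ev N x) := by
  induction x using TensorProduct.induction_on with
  | zero => simp only [map_zero]
  | tmul c lam =>
    funext γ
    rw [LinearMap.baseChange_tmul, s29lat_ev_tmul, s29lat_T_apply, s29lat_heckeFun_def,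
      s29lat_funOp_apply, Int.cast_sum, Finset.mul_sum]
    refine Finset.sum_congr rfl fun y _ => ?_
    rw [s29lat_ev_tmul]
  | add x y hx hy => simp only [map_add, hx, hy]

end Equivariance

section DS

/-- [LAT-DS] for an arbitrary `ℤ`-module instance. -/
theorem s29lat_ds_gen (hDS : s29lat_DSStatement) (L : Type) [AddCommGroup L]
    [inst : Module ℤ L] [hfin : Module.Finite ℤ L] [hfree : Module.Free ℤ L]
    (ι : Type) (T : ι → Module.End ℤ L) (a : ι → ℂ) (v : ℂ ⊗[ℤ] L) (hv : v ≠ 0)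
    (h : ∀ i, LinearMap.baseChange ℂ (T i) v = a i • v) :
    (∀ i, IsIntegral ℤ (a i)) ∧
    ∀ (K : Type) [Field K] (φ : integralClosure ℤ ℂ →+* K),
      ∃ w : K ⊗[ℤ] L, w ≠ 0 ∧
        ∀ (i : ι) (b : integralClosure ℤ ℂ), (b : ℂ) = a i →
          LinearMap.baseChange K (T i) w = φ b • w := by
  have hinst : inst = AddCommGroup.toIntModule L := Subsingleton.elim _ _
  subst hinst
  exact hDS L ι T a v hv h

end DS

section Period

variable (N : ℕ) [NeZero N]

theorem s29lat_period_par (g : CuspForm (Gamma0 N) 2) :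
    periodMap N g ∈ parabolicHoms ℂ (Gamma0 N) ℂ :=
  Fermat.Agent.S21.par N (Fermat.Agent.S21.prim N) (Fermat.Agent.S21.periodEq N) g

theorem s29lat_period_ne_zero (g : CuspForm (Gamma0 N) 2) (hg : g ≠ 0) :
    periodMap N g ≠ 0 := by
  intro h
  have hinj := Fermat.Agent.S21.inj N (Fermat.Agent.S21.prim N) (Fermat.Agent.S21.periodEq N)
    (Fermat.Agent.S21.harm N)
  have := hinj g g (by rw [h]; simp)
  exact hg this.1

theorem s29lat_period_smul (a : ℂ) (g : CuspForm (Gamma0 N) 2) :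
    periodMap N (a • g) = a • periodMap N g := by
  obtain ⟨pml, hpml⟩ := Fermat.Agent.S21.lin N (Fermat.Agent.S21.prim N)
    (Fermat.Agent.S21.periodEq N)
  rw [← hpml, ← hpml, map_smul]

/-- The period homomorphism of a normalised eigenform is an eigenvector of `T_ℓ`. -/
theorem s29lat_period_eigen (hPer : s29lat_PerStatement) (hEig : s29lat_EigStatement)
    (g : CuspForm (Gamma0 N) 2) (hg : g.IsNormalizedEigenform) (ℓ : ℕ) [Fact ℓ.Prime]
    (hℓN : ¬ ℓ ∣ N) (γ : Gamma0 N) :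
    ∑ x : OnePoint (ZMod ℓ), periodMap N g (Additive.ofMul (s29lat_gam N ℓ hℓN γ x)) =
      ModularFormClass.qCoeff g ℓ * periodMap N g (Additive.ofMul γ) := by
  have h1 := hPer N ℓ hℓN g γ
  rw [hEig N g hg ℓ Fact.out hℓN, s29lat_period_smul] at h1
  rw [s29lat_heckeFun_def] at h1
  rw [← h1]
  rfl

end Period

/-- **[LAT-ASM]** -/
theorem s29lat_asm : s29lat_AsmStatement := by
  intro hHom hPer hEig hFree hDS N _ g hg
  obtain ⟨hfin, hfree, hind, hspan⟩ := hFree N
  haveI := hfin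
  haveI := hfree
  -- the period homomorphism
  set ψ : Additive (Gamma0 N) →+ ℂ := periodMap N g with hψ
  have hψpar : ψ ∈ parabolicHoms ℂ (Gamma0 N) ℂ := s29lat_period_par N g
  have hψne : ψ ≠ 0 := s29lat_period_ne_zero N g hg.ne_zero
  obtain ⟨n, lam, c, hc⟩ := hspan ψ hψpar
  -- the vector of `ℂ ⊗ Λ`
  set v : ℂ ⊗[ℤ] (parabolicHoms ℤ (Gamma0 N) ℤ) := ∑ i, c i ⊗ₜ[ℤ] lam i with hv
  have hev : s29lat_ev N v = fun γ => ψ (Additive.ofMul γ) := by
    funext γ
    rw [hv, map_sum, Finset.sum_apply, hc γ]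
    refine Finset.sum_congr rfl fun i _ => ?_
    rw [s29lat_ev_tmul]
  have hvne : v ≠ 0 := by
    intro h0
    apply hψne
    refine AddMonoidHom.ext fun γ => ?_
    have := congrFun hev (Additive.toMul γ)
    rw [h0, map_zero] at this
    exact this.symm
  have hinj := s29lat_ev_injective N hFree
  -- the index type: the primes not dividing `N`
  let ι : Type := {ℓ : ℕ // ℓ.Prime ∧ ¬ ℓ ∣ N}
  let T : ι → Module.End ℤ (parabolicHoms ℤ (Gamma0 N) ℤ) := fun i =>
    haveI : Fact i.1.Prime := ⟨i.2.1⟩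
    s29lat_T N i.1 i.2.2
  let a : ι → ℂ := fun i => ModularFormClass.qCoeff g i.1
  have heig : ∀ i : ι, LinearMap.baseChange ℂ (T i) v = a i • v := by
    intro i
    haveI : Fact i.1.Prime := ⟨i.2.1⟩
    apply hinj
    rw [show T i = s29lat_T N i.1 i.2.2 from rfl, s29lat_ev_T, map_smul, hev]
    funext γ
    rw [s29lat_funOp_apply, Pi.smul_apply, smul_eq_mul]
    exact s29lat_period_eigen N hPer hEig g hg i.1 i.2.2 γ
  obtain ⟨hint, hred⟩ := s29lat_ds_gen hDS (parabolicHoms ℤ (Gamma0 N) ℤ) ι T a v hvne heig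
  refine ⟨fun ℓ hℓ hℓN => hint ⟨ℓ, hℓ, hℓN⟩, fun K _ φ => ?_⟩
  obtain ⟨w, hw0, hw⟩ := hred K φ
  refine ⟨w, hw0, fun ℓ inst hℓN b hb => ?_⟩
  exact hw ⟨ℓ, inst.out, hℓN⟩ b hb

/-- [LAT] from the four open leaves ([LAT-HOM] is `s29lat_hom_main`). -/
theorem s29lat_main_of (hPer : s29lat_PerStatement) (hEig : s29lat_EigStatement)
    (hFree : s29lat_FreeStatement) (hDS : s29lat_DSStatement) : s29lat_Statement :=
  s29lat_asm s29lat_hom_main hPer hEig hFree hDS

end Fermat.Agent.S29
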