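import Mathlib
import Fermat.Agent.S29.LatDefs

set_option autoImplicit false

/-!
# [LAT-DS] the Deligne-Serre reduction lemma

Owner: helper3.  Prefix `s29lds_`.  Target: `s29lat_DSStatement` of `S29/LatDefs.lean`, VERBATIM.
-/

namespace Fermat.Agent.S29

open scoped TensorProduct
open Matrix

/-- Scaling a non-zero vector into a valuation subring, with one coordinate equal to `1`. -/
theorem s29lds_scale {F : Type*} [Field F] (V : ValuationSubring F) {I : Type*} [Fintype I]
    (c : I → F) (hc : c ≠ 0) :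
    ∃ (j₀ : I) (u : F) (z : I → V), u ≠ 0 ∧ z j₀ = 1 ∧ ∀ j, ((z j : V) : F) = u * c j := by
  classical
  obtain ⟨j₁, hj₁⟩ : ∃ j, c j ≠ 0 := by
    by_contra h
    push Not at h
    exact hc (funext h)
  obtain ⟨j₀, -, hj₀⟩ := Finset.exists_max_image Finset.univ (fun j => V.valuation (c j))
    ⟨j₁, Finset.mem_univ _⟩
  have hc0 : c j₀ ≠ 0 := by
    intro h
    have h1 := hj₀ j₁ (Finset.mem_univ _)
    simp only [h, map_zero] at h1
    exact hj₁ ((V.valuation).zero_iff.mp (le_antisymm h1 zero_le))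
  have hv0 : V.valuation (c j₀) ≠ 0 := (V.valuation).ne_zero_iff.mpr hc0
  have hmem : ∀ j, (c j₀)⁻¹ * c j ∈ V := by
    intro j
    rw [← V.valuation_le_one_iff, map_mul, map_inv₀, inv_mul_le_iff₀ (zero_lt_iff.mpr hv0),
      mul_one]
    exact hj₀ j (Finset.mem_univ _)
  exact ⟨j₀, (c j₀)⁻¹, fun j => ⟨(c j₀)⁻¹ * c j, hmem j⟩, inv_ne_zero hc0,
    Subtype.ext (by simp [hc0]), fun j => rfl⟩

/-- Descent of a non-zero solution of a linear system along a field extension. -/
theorem s29lds_descent {k k' : Type*} [Field k] [Field k'] (f : k →+* k') {I E : Type*}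
    [Fintype I] (r : E → I → k) (x' : I → k') (hx' : x' ≠ 0)
    (h : ∀ e, ∑ j, f (r e j) * x' j = 0) :
    ∃ x : I → k, x ≠ 0 ∧ ∀ e, ∑ j, r e j * x j = 0 := by
  let _ := f.toAlgebra
  obtain ⟨j₁, hj₁⟩ : ∃ j, x' j ≠ 0 := by
    by_contra h
    push Not at h
    exact hx' (funext h)
  obtain ⟨lam, hlam⟩ : ∃ lam : Module.Dual k k', lam (x' j₁) ≠ 0 := by
    by_contra hcon
    push Not at hcon
    exact hj₁ ((Module.forall_dual_apply_eq_zero_iff k (x' j₁)).mp hcon)
  refine ⟨fun j => lam (x' j), fun h0 => hlam (congrFun h0 j₁), fun e => ?_⟩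
  have h1 := congrArg lam (h e)
  rw [map_sum, map_zero] at h1
  rw [← h1]
  refine Finset.sum_congr rfl fun j _ => ?_
  have h2 : f (r e j) * x' j = (r e j) • x' j := by
    rw [Algebra.smul_def]; rfl
  rw [h2, map_smul, smul_eq_mul]

/-- A valuation subring of `ℂ` containing the algebraic integers whose maximal ideal meets them
in `ker φ`. -/
theorem s29lds_valuation (K : Type) [Field K] (φ : integralClosure ℤ ℂ →+* K) :
    ∃ (V : ValuationSubring ℂ) (g : integralClosure ℤ ℂ →+* V),
      (∀ b, ((g b : V) : ℂ) = (b : ℂ)) ∧ ∀ b, IsLocalRing.residue V (g b) = 0 ↔ φ b = 0 := by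
  have hPprime : (RingHom.ker φ).IsPrime := RingHom.ker_isPrime φ
  have hunit : ∀ y : (RingHom.ker φ).primeCompl,
      IsUnit (algebraMap (integralClosure ℤ ℂ) ℂ y) := by
    intro y
    apply IsUnit.mk0
    intro h0
    have h1 : (y : integralClosure ℤ ℂ) = 0 := Subtype.ext h0
    exact y.2 (h1 ▸ (RingHom.ker φ).zero_mem)
  let f : Localization.AtPrime (RingHom.ker φ) →+* ℂ :=
    IsLocalization.lift (M := (RingHom.ker φ).primeCompl) hunit
  obtain ⟨V, hV, hloc⟩ := IsLocalRing.exists_factor_valuationRing f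
  let f' : Localization.AtPrime (RingHom.ker φ) →+* V := f.codRestrict V.toSubring hV
  have hloc' : IsLocalHom f' := hloc
  refine ⟨V, f'.comp (algebraMap _ _), fun b => ?_, fun b => ?_⟩
  · change f (algebraMap _ _ b) = _
    exact IsLocalization.lift_eq hunit b
  · rw [IsLocalRing.residue_eq_zero_iff, IsLocalRing.mem_maximalIdeal, mem_nonunits_iff,
      RingHom.comp_apply, isUnit_map_iff f', ← mem_nonunits_iff, ← IsLocalRing.mem_maximalIdeal,
      IsLocalization.AtPrime.to_map_mem_maximal_iff _ (RingHom.ker φ), RingHom.mem_ker]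

/-- Two homomorphisms to fields with the same kernel factor through a common field. -/
theorem s29lds_common {A : Type} [CommRing A] {K₁ K₂ : Type*} [Field K₁] [Field K₂]
    (ψ₁ : A →+* K₁) (ψ₂ : A →+* K₂) (hker : ∀ a, ψ₁ a = 0 ↔ ψ₂ a = 0) :
    ∃ (k₀ : Type) (_ : Field k₀) (q : A →+* k₀) (ι₁ : k₀ →+* K₁) (ι₂ : k₀ →+* K₂),
      (∀ a, ι₁ (q a) = ψ₁ a) ∧ ∀ a, ι₂ (q a) = ψ₂ a := by
  have hPprime : (RingHom.ker ψ₂).IsPrime := RingHom.ker_isPrime ψ₂
  have hlift : ∀ a ∈ RingHom.ker ψ₂, ψ₁ a = 0 := fun a ha => (hker a).mpr ha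
  have hψinj : Function.Injective (Ideal.Quotient.lift (RingHom.ker ψ₂) ψ₁ hlift) := by
    rw [injective_iff_map_eq_zero]
    intro a ha
    obtain ⟨a, rfl⟩ := Ideal.Quotient.mk_surjective a
    rw [Ideal.Quotient.lift_mk] at ha
    rw [Ideal.Quotient.eq_zero_iff_mem, RingHom.mem_ker]
    exact (hker a).mp ha
  have hφinj : Function.Injective (RingHom.kerLift ψ₂) := RingHom.kerLift_injective ψ₂
  refine ⟨FractionRing (A ⧸ RingHom.ker ψ₂), inferInstance,
    (algebraMap (A ⧸ RingHom.ker ψ₂) (FractionRing (A ⧸ RingHom.ker ψ₂))).comp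
      (Ideal.Quotient.mk (RingHom.ker ψ₂)),
    IsFractionRing.lift hψinj, IsFractionRing.lift hφinj, fun a => ?_, fun a => ?_⟩
  · rw [RingHom.comp_apply, IsFractionRing.lift_algebraMap, Ideal.Quotient.lift_mk]
  · rw [RingHom.comp_apply, IsFractionRing.lift_algebraMap, RingHom.kerLift_mk]

/-- The eigen-equations as a linear system with coefficients in the ring of eigenvalues. -/
theorem s29lds_eqn_iff {I : Type*} [Fintype I] [DecidableEq I] {ι : Type*}
    (M : ι → Matrix I I ℤ) {A R : Type*} [CommRing A] [CommRing R] (α : ι → A) (ψ : A →+* R)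
    (x : I → R) :
    (∀ e : ι × I, ∑ j, ψ ((M e.1 e.2 j : A) - if e.2 = j then α e.1 else 0) * x j = 0) ↔
      ∀ i, (M i).map (Int.cast : ℤ → R) *ᵥ x = ψ (α i) • x := by
  rw [Prod.forall]
  refine forall_congr' fun i => ?_
  rw [funext_iff]
  refine forall_congr' fun k => ?_
  simp only [Matrix.mulVec, dotProduct, Matrix.map_apply, Pi.smul_apply, smul_eq_mul, map_sub,
    map_intCast, sub_mul, Finset.sum_sub_distrib, apply_ite ψ, map_zero, ite_mul, zero_mul,
    Finset.sum_ite_eq, Finset.mem_univ, if_true]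
  exact sub_eq_zero

/-- **The matrix form of the Deligne-Serre reduction.** -/
theorem s29lds_core {I : Type} [Fintype I] [DecidableEq I] {ι : Type} (M : ι → Matrix I I ℤ)
    (α : ι → integralClosure ℤ ℂ) (c : I → ℂ) (hc : c ≠ 0)
    (h : ∀ i, (M i).map (Int.cast : ℤ → ℂ) *ᵥ c = ((α i : integralClosure ℤ ℂ) : ℂ) • c)
    (K : Type) [Field K] (φ : integralClosure ℤ ℂ →+* K) :
    ∃ w : I → K, w ≠ 0 ∧ ∀ i, (M i).map (Int.cast : ℤ → K) *ᵥ w = φ (α i) • w := by
  obtain ⟨V, g, hg, hker⟩ := s29lds_valuation K φ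
  obtain ⟨j₀, u, z, hu, hz1, hz⟩ := s29lds_scale V c hc
  -- the equations over `ℂ`
  have hC := (s29lds_eqn_iff M α (algebraMap (integralClosure ℤ ℂ) ℂ) c).mpr h
  -- the equations over `V`
  have hV : ∀ e : ι × I,
      ∑ j, g ((M e.1 e.2 j : integralClosure ℤ ℂ) - if e.2 = j then α e.1 else 0) * z j = 0 := by
    intro e
    apply Subtype.ext
    have h1 := hC e
    have h2 : ((∑ j, g ((M e.1 e.2 j : integralClosure ℤ ℂ) - if e.2 = j then α e.1 else 0)
        * z j : V) : ℂ) = u * ∑ j, algebraMap (integralClosure ℤ ℂ) ℂ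
          ((M e.1 e.2 j : integralClosure ℤ ℂ) - if e.2 = j then α e.1 else 0) * c j := by
      rw [Finset.mul_sum]
      have : ((∑ j, g ((M e.1 e.2 j : integralClosure ℤ ℂ) - if e.2 = j then α e.1 else 0)
        * z j : V) : ℂ) = V.subtype (∑ j, g ((M e.1 e.2 j : integralClosure ℤ ℂ)
          - if e.2 = j then α e.1 else 0) * z j) := rfl
      rw [this, map_sum]
      refine Finset.sum_congr rfl fun j _ => ?_
      rw [map_mul]
      change ((g _ : V) : ℂ) * ((z j : V) : ℂ) = _
      rw [hg, hz]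
      have e1 : algebraMap (integralClosure ℤ ℂ) ℂ
          ((M e.1 e.2 j : integralClosure ℤ ℂ) - if e.2 = j then α e.1 else 0) =
          (((M e.1 e.2 j : integralClosure ℤ ℂ) - if e.2 = j then α e.1 else 0 :
            integralClosure ℤ ℂ) : ℂ) := rfl
      rw [e1]
      ring
    rw [h2, h1, mul_zero]
    rfl
  -- the equations over the residue field of `V`
  have hres : ∀ e : ι × I, ∑ j, ((IsLocalRing.residue V).comp g)
      ((M e.1 e.2 j : integralClosure ℤ ℂ) - if e.2 = j then α e.1 else 0)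
        * IsLocalRing.residue V (z j) = 0 := by
    intro e
    have h1 := congrArg (IsLocalRing.residue V) (hV e)
    rw [map_sum, map_zero] at h1
    rw [← h1]
    refine Finset.sum_congr rfl fun j _ => ?_
    rw [map_mul]
    rfl
  have hx'0 : (fun j => IsLocalRing.residue V (z j)) ≠ 0 := by
    intro h0
    have h1 := congrFun h0 j₀
    simp only [hz1, map_one, Pi.zero_apply] at h1
    exact one_ne_zero h1
  -- the common field of definition
  obtain ⟨k₀, _, q, ι₁, ι₂, hq1, hq2⟩ :=
    s29lds_common ((IsLocalRing.residue V).comp g) φ hker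
  obtain ⟨x, hx0, hx⟩ := s29lds_descent ι₁
    (fun (e : ι × I) j => q ((M e.1 e.2 j : integralClosure ℤ ℂ) - if e.2 = j then α e.1 else 0))
    (fun j => IsLocalRing.residue V (z j)) hx'0
    (fun e => by simp only [hq1]; exact hres e)
  refine ⟨fun j => ι₂ (x j), ?_, ?_⟩
  · intro h0
    apply hx0
    funext j
    have h1 := congrFun h0 j
    simp only [Pi.zero_apply] at h1 ⊢
    exact (map_eq_zero ι₂).mp h1
  · rw [← s29lds_eqn_iff M α φ]
    intro e
    have h1 := congrArg ι₂ (hx e)
    rw [map_sum, map_zero] at h1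
    rw [← h1]
    refine Finset.sum_congr rfl fun j _ => ?_
    rw [map_mul, hq2]

/-- Integrality of the eigenvalues. -/
theorem s29lds_integral (L : Type) [AddCommGroup L] [Module.Finite ℤ L] [Module.Free ℤ L]
    (T : Module.End ℤ L) (a : ℂ) (v : ℂ ⊗[ℤ] L) (hv : v ≠ 0)
    (hT : LinearMap.baseChange ℂ T v = a • v) : IsIntegral ℤ a := by
  refine ⟨T.charpoly, LinearMap.charpoly_monic _, ?_⟩
  have h1 : Polynomial.aeval (LinearMap.baseChange ℂ T)
      (T.charpoly.map (algebraMap ℤ ℂ)) = 0 := by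
    rw [← LinearMap.charpoly_baseChange]
    exact LinearMap.aeval_self_charpoly _
  have h2 : Module.End.HasEigenvector (LinearMap.baseChange ℂ T) a v :=
    ⟨Module.End.mem_eigenspace_iff.mpr hT, hv⟩
  have h3 := Module.End.aeval_apply_of_hasEigenvector h2
    (p := (T.charpoly.map (algebraMap ℤ ℂ)))
  rw [h1, LinearMap.zero_apply] at h3
  have h4 := (smul_eq_zero.mp h3.symm).resolve_right hv
  rwa [Polynomial.eval_map] at h4

/-- **[LAT-DS]** the Deligne-Serre reduction lemma. -/
theorem s29lds_main : s29lat_DSStatement := by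
  intro L _ _ _ ι T a v hv hT
  classical
  have hint : ∀ i, IsIntegral ℤ (a i) := fun i => s29lds_integral L (T i) (a i) v hv (hT i)
  refine ⟨hint, fun K _ φ => ?_⟩
  -- coordinates
  obtain ⟨w, hw0, hw⟩ := s29lds_core
    (fun i => LinearMap.toMatrix (Module.Free.chooseBasis ℤ L) (Module.Free.chooseBasis ℤ L)
      (T i))
    (fun i => (⟨a i, hint i⟩ : integralClosure ℤ ℂ))
    (⇑((Algebra.TensorProduct.basis ℂ (Module.Free.chooseBasis ℤ L)).repr v))
    (by
      intro h0
      apply hv
      apply (Algebra.TensorProduct.basis ℂ (Module.Free.chooseBasis ℤ L)).repr.injective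
      rw [map_zero]
      exact DFunLike.coe_injective h0)
    (by
      intro i
      have h1 := LinearMap.toMatrix_mulVec_repr
        (Algebra.TensorProduct.basis ℂ (Module.Free.chooseBasis ℤ L))
        (Algebra.TensorProduct.basis ℂ (Module.Free.chooseBasis ℤ L))
        (LinearMap.baseChange ℂ (T i)) v
      rw [LinearMap.toMatrix_baseChange, hT i, map_smul] at h1
      rw [← Finsupp.coe_smul, ← h1]
      rfl)
    K φ
  refine ⟨(Algebra.TensorProduct.basis K (Module.Free.chooseBasis ℤ L)).equivFun.symm w, ?_, ?_⟩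
  · intro h0
    apply hw0
    have h1 := congrArg (Algebra.TensorProduct.basis K (Module.Free.chooseBasis ℤ L)).equivFun h0
    rwa [LinearEquiv.apply_symm_apply, map_zero] at h1
  · intro i b hb
    have hb' : b = ⟨a i, hint i⟩ := Subtype.ext hb
    subst hb'
    apply (Algebra.TensorProduct.basis K (Module.Free.chooseBasis ℤ L)).equivFun.injective
    have h1 := LinearMap.toMatrix_mulVec_repr
      (Algebra.TensorProduct.basis K (Module.Free.chooseBasis ℤ L))
      (Algebra.TensorProduct.basis K (Module.Free.chooseBasis ℤ L))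
      (LinearMap.baseChange K (T i))
      ((Algebra.TensorProduct.basis K (Module.Free.chooseBasis ℤ L)).equivFun.symm w)
    rw [LinearMap.toMatrix_baseChange] at h1
    rw [map_smul, LinearEquiv.apply_symm_apply, Module.Basis.equivFun_apply, ← h1, ← hw i]
    congr 1
    rw [← Module.Basis.equivFun_apply, LinearEquiv.apply_symm_apply]

example : s29lat_DSStatement := s29lds_main

end Fermat.Agent.S29
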