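/-
S29 [LAT-EIG] (helper7; owner of [LAT]: helper2).  Prefix `s29le_`.

A normalised eigenform in the sense of the Prelude (`CuspForm.IsNormalizedEigenform`: relations
between the `q`-coefficients) IS an eigenvector of the Hecke operators `T_ℓ`, `ℓ ∤ N`, with
eigenvalue `a_ℓ`.
-/
import Mathlib
import Fermat.Agent.S49.QCoeff
import Fermat.Agent.S29.LatDefs

set_option autoImplicit false

namespace Fermat.Agent.S29

open CuspForm ModularFormClass CongruenceSubgroup UpperHalfPlane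

/-- The coefficient identity behind `T_ℓ g = a_ℓ g`. -/
theorem s29le_coeff {N : ℕ} {g : CuspForm (Gamma0 N) 2} (hg : g.IsNormalizedEigenform)
    {l : ℕ} (hl : l.Prime) (hlN : ¬ l ∣ N) (n : ℕ) :
    qCoeff ⇑g (n * l) + (if l ∣ n then (l : ℂ) * qCoeff ⇑g (n / l) else 0)
      = qCoeff ⇑g l * qCoeff ⇑g n := by
  rcases Nat.eq_zero_or_pos n with rfl | hn
  · have h0 : qCoeff ⇑g 0 = 0 := Fermat.Agent.S49.qCoeff_cusp_zero g
    simp [h0]
  obtain ⟨r, m, hm, rfl⟩ := Nat.exists_eq_pow_mul_and_not_dvd hn.ne' l hl.ne_one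
  have hcop : ∀ s : ℕ, (l ^ s).Coprime m := fun s =>
    Nat.Coprime.pow_left s ((Nat.Prime.coprime_iff_not_dvd hl).mpr hm)
  rcases Nat.eq_zero_or_pos r with rfl | hr
  · have hnd : ¬ l ∣ l ^ 0 * m := by simpa using hm
    rw [if_neg hnd, add_zero]
    have h1 := hg.qCoeff_mul_of_coprime m l
      ((Nat.Prime.coprime_iff_not_dvd hl).mpr hm).symm
    simp only [pow_zero, one_mul]
    rw [h1, mul_comm]
  · obtain ⟨s, rfl⟩ : ∃ s, r = s + 1 := ⟨r - 1, by omega⟩
    have hd : l ∣ l ^ (s + 1) * m := Dvd.dvd.mul_right (dvd_pow_self l (Nat.succ_ne_zero s)) m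
    rw [if_pos hd]
    have e1 : l ^ (s + 1) * m * l = l ^ (s + 2) * m := by ring
    have e2 : l ^ (s + 1) * m / l = l ^ s * m := by
      rw [show l ^ (s + 1) * m = l * (l ^ s * m) by ring]
      exact Nat.mul_div_cancel_left _ hl.pos
    rw [e1, e2, hg.qCoeff_mul_of_coprime _ _ (hcop (s + 2)),
      hg.qCoeff_mul_of_coprime _ _ (hcop s), hg.qCoeff_mul_of_coprime _ _ (hcop (s + 1)),
      hg.qCoeff_prime_pow_of_not_dvd l s hl hlN]
    ring

/-- **[LAT-EIG]** a normalised eigenform is an eigenvector of `T_ℓ`, `ℓ ∤ N`, with eigenvalue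
`a_ℓ`. -/
theorem s29le_main {N : ℕ} {g : CuspForm (Gamma0 N) 2} (hg : g.IsNormalizedEigenform)
    {l : ℕ} (hl : l.Prime) (hlN : ¬ l ∣ N) :
    CuspForm.heckeTLin 2 hl hlN g = qCoeff ⇑g l • g := by
  rw [← sub_eq_zero]
  apply Fermat.Agent.S49.eq_zero_of_qCoeff_eq_zero
  intro n
  rw [Fermat.Agent.S49.qCoeff_sub, Fermat.Agent.S49.qCoeff_smul,
    Fermat.Agent.S49.qCoeff_heckeTLin hl hlN g n, s29le_coeff hg hl hlN n, sub_self]

/-- Function form of `s29le_main`. -/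
theorem s29le_main_fun {N : ℕ} {g : CuspForm (Gamma0 N) 2} (hg : g.IsNormalizedEigenform)
    {l : ℕ} (hl : l.Prime) (hlN : ¬ l ∣ N) :
    ModularForm.heckeT 2 l (⇑g : ℍ → ℂ) = qCoeff ⇑g l • (⇑g : ℍ → ℂ) := by
  have h := congrArg (fun f : CuspForm (Gamma0 N) 2 => (⇑f : ℍ → ℂ)) (s29le_main hg hl hlN)
  simp only [CuspForm.coe_heckeTLin_apply] at h
  rw [h]
  ext z
  simp

/-- **[LAT-EIG]**, verbatim (`S29/LatDefs.lean`). -/
theorem s29le_stmt : s29lat_EigStatement :=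
  fun _ _ _ hg _ hl hlN => s29le_main hg hl hlN

/-- A normalised eigenform is not zero. -/
theorem s29le_ne_zero {N : ℕ} {g : CuspForm (Gamma0 N) 2} (hg : g.IsNormalizedEigenform) :
    g ≠ 0 := by
  rintro rfl
  have h1 := hg.qCoeff_one
  rw [Fermat.Agent.S49.qCoeff_zero] at h1
  exact zero_ne_one h1

end Fermat.Agent.S29
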