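/-
S29 / [LAT-FREE] (helper11).  Prefix `s29lf_`.

`Γ ≤ SL(2, ℤ)` of finite index, `Λ := parabolicHoms ℤ Γ ℤ` (Prelude).
* (LF1) `Γ` is finitely generated;
* (LF2) `Λ` is a finite free `ℤ`-module;
* (LF3) the comparison map `A ⊗[ℤ] Λ → parabolicHoms A Γ A` is injective for every commutative
  ring `A` and bijective for a field of characteristic zero;
* (LF4) `Λ` is saturated in `Hom(Γ, ℤ)`.
-/
import Mathlib
import Fermat.Prelude.Def_ModularCurve_PeriodMap

set_option autoImplicit false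
set_option linter.unusedSectionVars false
set_option linter.style.haveILetI false

noncomputable section

open ModularCurve.Period
open scoped MatrixGroups TensorProduct

namespace Fermat.Agent.S29

variable (Γ : Subgroup SL(2, ℤ))

/-! ### (LF1) finite generation -/

/-- **(LF1)** a subgroup of finite index of `SL(2, ℤ)` is finitely generated. -/
theorem s29lf_fg (hΓ : Γ.index ≠ 0) : Group.FG ↥Γ := by
  haveI : Group.FG SL(2, ℤ) :=
    ⟨⟨{ModularGroup.S, ModularGroup.T}, by simpa using SpecialLinearGroup.SL2Z_generators⟩⟩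
  haveI : Γ.FiniteIndex := ⟨hΓ⟩
  infer_instance

/-! ### Evaluation at a generating set -/

variable {Γ}

/-- Evaluation of a homomorphism on a finite set of elements. -/
def s29lf_ev (A : Type*) [AddCommGroup A] (S : Finset ↥Γ) :
    (Additive ↥Γ →+ A) →ₗ[ℤ] (↥S → A) where
  toFun φ s := φ (Additive.ofMul (s : ↥Γ))
  map_add' _ _ := rfl
  map_smul' _ _ := rfl

@[simp] theorem s29lf_ev_apply (A : Type*) [AddCommGroup A] (S : Finset ↥Γ)
    (φ : Additive ↥Γ →+ A) (s : ↥S) :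
    s29lf_ev A S φ s = φ (Additive.ofMul (s : ↥Γ)) := rfl

/-- A property of the values of a homomorphism which holds on generators and is stable under
sums and negation holds everywhere. -/
theorem s29lf_induction {A : Type*} [AddCommGroup A] {S : Finset ↥Γ}
    (hS : Subgroup.closure (S : Set ↥Γ) = ⊤) (φ : Additive ↥Γ →+ A) (B : AddSubgroup A)
    (h : ∀ s ∈ S, φ (Additive.ofMul s) ∈ B) (γ : ↥Γ) : φ (Additive.ofMul γ) ∈ B := by
  have hγ : γ ∈ Subgroup.closure (S : Set ↥Γ) := by rw [hS]; trivial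
  induction hγ using Subgroup.closure_induction with
  | mem x hx => exact h x hx
  | one => simp
  | mul x y _ _ hx hy =>
    have : φ (Additive.ofMul (x * y)) = φ (Additive.ofMul x) + φ (Additive.ofMul y) := by
      rw [ofMul_mul, map_add]
    rw [this]; exact B.add_mem hx hy
  | inv x _ hx =>
    have : φ (Additive.ofMul x⁻¹) = -φ (Additive.ofMul x) := by
      rw [ofMul_inv, map_neg]
    rw [this]; exact B.neg_mem hx

theorem s29lf_ev_injective (A : Type*) [AddCommGroup A] {S : Finset ↥Γ}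
    (hS : Subgroup.closure (S : Set ↥Γ) = ⊤) : Function.Injective (s29lf_ev A S) := by
  rw [← LinearMap.ker_eq_bot, LinearMap.ker_eq_bot']
  intro φ hφ
  refine AddMonoidHom.ext fun γ => ?_
  have h1 := s29lf_induction hS φ ⊥ (fun s hs => by
    have := congrFun hφ ⟨s, hs⟩
    simp at this
    simpa using this) (Additive.toMul γ)
  rw [AddSubgroup.mem_bot] at h1
  exact h1

/-! ### (LF4) saturation -/

/-- Exact division of an integer valued homomorphism. -/
theorem s29lf_exists_div (ψ : Additive ↥Γ →+ ℤ) {n : ℤ} (_hn : n ≠ 0)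
    (h : ∀ γ : ↥Γ, n ∣ ψ (Additive.ofMul γ)) : ∃ ψ' : Additive ↥Γ →+ ℤ, ψ = n • ψ' := by
  have h' : ∀ a : Additive ↥Γ, n ∣ ψ a := fun a => h (Additive.toMul a)
  refine ⟨{ toFun := fun γ => ψ γ / n, map_zero' := by simp, map_add' := ?_ }, ?_⟩
  · intro a b
    show ψ (a + b) / n = ψ a / n + ψ b / n
    rw [map_add, Int.add_ediv_of_dvd_left (h' a)]
  · refine AddMonoidHom.ext fun γ => ?_
    show ψ γ = n • (ψ γ / n)
    rw [smul_eq_mul, Int.mul_ediv_cancel' (h' γ)]

/-- **(LF4)** the lattice of parabolic homomorphisms is saturated. -/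
theorem s29lf_saturated (ψ : ↥(parabolicHoms ℤ Γ ℤ)) {n : ℤ} (hn : n ≠ 0)
    (h : ∀ γ : ↥Γ, n ∣ (ψ : Additive ↥Γ →+ ℤ) (Additive.ofMul γ)) :
    ∃ ψ' : ↥(parabolicHoms ℤ Γ ℤ), ψ = n • ψ' := by
  obtain ⟨ψ', hψ'⟩ := s29lf_exists_div (ψ : Additive ↥Γ →+ ℤ) hn h
  have hpar : ψ' ∈ parabolicHoms ℤ Γ ℤ := by
    intro γ hγ
    have h1 : (ψ : Additive ↥Γ →+ ℤ) (Additive.ofMul γ) = 0 := ψ.2 γ hγ
    rw [hψ'] at h1
    have h2 : n * ψ' (Additive.ofMul γ) = 0 := h1
    rcases mul_eq_zero.mp h2 with h3 | h3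
    · exact absurd h3 hn
    · exact h3
  exact ⟨⟨ψ', hpar⟩, Subtype.ext hψ'⟩

/-! ### (LF2) the lattice is finite and free -/

variable (Γ)

theorem s29lf_exists_gen (hΓ : Γ.index ≠ 0) :
    ∃ S : Finset ↥Γ, Subgroup.closure (S : Set ↥Γ) = ⊤ :=
  (s29lf_fg Γ hΓ).out

/-- **(LF2a)** the lattice of parabolic homomorphisms is a finite `ℤ`-module. -/
theorem s29lf_finite (hΓ : Γ.index ≠ 0) : Module.Finite ℤ ↥(parabolicHoms ℤ Γ ℤ) := by
  obtain ⟨S, hS⟩ := s29lf_exists_gen Γ hΓ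
  exact Module.Finite.of_injective ((s29lf_ev ℤ S).comp (parabolicHoms ℤ Γ ℤ).subtype)
    ((s29lf_ev_injective ℤ hS).comp Subtype.val_injective)

/-- The lattice of parabolic homomorphisms is torsion free. -/
theorem s29lf_torsionFree : Module.IsTorsionFree ℤ ↥(parabolicHoms ℤ Γ ℤ) := by
  refine Module.IsTorsionFree.of_smul_eq_zero fun n ψ h => ?_
  by_cases hn : n = 0
  · exact Or.inl hn
  right
  apply Subtype.ext
  refine AddMonoidHom.ext fun γ => ?_
  have h1 := congrArg (fun x : ↥(parabolicHoms ℤ Γ ℤ) => (x : Additive ↥Γ →+ ℤ) γ) h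
  have h2 : n * (ψ : Additive ↥Γ →+ ℤ) γ = 0 := h1
  rcases mul_eq_zero.mp h2 with h3 | h3
  · exact absurd h3 hn
  · exact h3

/-- **(LF2b)** the lattice of parabolic homomorphisms is a free `ℤ`-module. -/
theorem s29lf_free (hΓ : Γ.index ≠ 0) : Module.Free ℤ ↥(parabolicHoms ℤ Γ ℤ) := by
  haveI := s29lf_finite Γ hΓ
  haveI := s29lf_torsionFree Γ
  exact Module.free_of_finite_type_torsion_free'

/-! ### (LF3) the comparison map -/

/-- Extension of the coefficients of a parabolic homomorphism from `ℤ` to `A`. -/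
def s29lf_cast (A : Type*) [CommRing A] :
    ↥(parabolicHoms ℤ Γ ℤ) →ₗ[ℤ] ↥(parabolicHoms A Γ A) where
  toFun ψ := ⟨(Int.castAddHom A).comp (ψ : Additive ↥Γ →+ ℤ), fun γ hγ => by
    show ((ψ : Additive ↥Γ →+ ℤ) (Additive.ofMul γ) : A) = 0
    rw [ψ.2 γ hγ, Int.cast_zero]⟩
  map_add' ψ ψ' := by
    apply Subtype.ext
    refine AddMonoidHom.ext fun γ => ?_
    show (((ψ : Additive ↥Γ →+ ℤ) γ + (ψ' : Additive ↥Γ →+ ℤ) γ : ℤ) : A) = _
    rw [Int.cast_add]; rfl
  map_smul' n ψ := by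
    apply Subtype.ext
    refine AddMonoidHom.ext fun γ => ?_
    show ((n * (ψ : Additive ↥Γ →+ ℤ) γ : ℤ) : A) = n • (((ψ : Additive ↥Γ →+ ℤ) γ : ℤ) : A)
    rw [Int.cast_mul, zsmul_eq_mul]

theorem s29lf_cast_apply (A : Type*) [CommRing A] (ψ : ↥(parabolicHoms ℤ Γ ℤ))
    (γ : Additive ↥Γ) :
    ((s29lf_cast Γ A ψ : ↥(parabolicHoms A Γ A)) : Additive ↥Γ →+ A) γ =
      (((ψ : Additive ↥Γ →+ ℤ) γ : ℤ) : A) := rfl

/-- **(LF3)** the comparison map `A ⊗ Λ → parabolicHoms A Γ A`. -/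
def s29lf_ext (A : Type*) [CommRing A] :
    A ⊗[ℤ] ↥(parabolicHoms ℤ Γ ℤ) →ₗ[A] ↥(parabolicHoms A Γ A) :=
  LinearMap.liftBaseChange A (s29lf_cast Γ A)

theorem s29lf_ext_tmul (A : Type*) [CommRing A] (c : A) (ψ : ↥(parabolicHoms ℤ Γ ℤ)) :
    s29lf_ext Γ A (c ⊗ₜ[ℤ] ψ) = c • s29lf_cast Γ A ψ :=
  LinearMap.liftBaseChange_tmul A _ c ψ

theorem s29lf_ext_tmul_apply (A : Type*) [CommRing A] (c : A) (ψ : ↥(parabolicHoms ℤ Γ ℤ))
    (γ : Additive ↥Γ) :
    ((s29lf_ext Γ A (c ⊗ₜ[ℤ] ψ) : ↥(parabolicHoms A Γ A)) : Additive ↥Γ →+ A) γ =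
      c * (((ψ : Additive ↥Γ →+ ℤ) γ : ℤ) : A) := by
  rw [s29lf_ext_tmul]; rfl

/-- An injective map of `ℤ`-modules with saturated image in a finite module has a
retraction. -/
theorem s29lf_exists_retraction {L M : Type*} [AddCommGroup L] [AddCommGroup M]
    [Module.Finite ℤ M] (e : L →ₗ[ℤ] M) (he : Function.Injective e)
    (hsat : ∀ (n : ℤ) (x : M), n ≠ 0 → n • x ∈ LinearMap.range e → x ∈ LinearMap.range e) :
    ∃ r : M →ₗ[ℤ] L, r ∘ₗ e = LinearMap.id := by
  set N := LinearMap.range e with hN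
  haveI : Module.IsTorsionFree ℤ (M ⧸ N) := by
    refine Module.IsTorsionFree.of_smul_eq_zero fun n y h => ?_
    by_cases hn : n = 0
    · exact Or.inl hn
    right
    obtain ⟨x, rfl⟩ := N.mkQ_surjective y
    have h1 : n • x ∈ N := by
      rw [← Submodule.Quotient.mk_eq_zero N]
      simpa using h
    exact (Submodule.Quotient.mk_eq_zero N).mpr (hsat n x hn h1)
  haveI : Module.Free ℤ (M ⧸ N) := Module.free_of_finite_type_torsion_free'
  obtain ⟨s, hs⟩ := Module.projective_lifting_property N.mkQ LinearMap.id N.mkQ_surjective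
  have hs' : ∀ y : M ⧸ N, N.mkQ (s y) = y := fun y => LinearMap.congr_fun hs y
  set g : M →ₗ[ℤ] M := LinearMap.id - s ∘ₗ N.mkQ with hg
  have hg' : ∀ x : M, g x = x - s (N.mkQ x) := fun x => rfl
  have hmem : ∀ x : M, g x ∈ N := by
    intro x
    rw [← Submodule.Quotient.mk_eq_zero N]
    have : N.mkQ (x - s (N.mkQ x)) = 0 := by rw [map_sub, hs', sub_self]
    rw [hg']
    simpa using this
  refine ⟨(LinearEquiv.ofInjective e he).symm.toLinearMap ∘ₗ
    LinearMap.codRestrict N g hmem, ?_⟩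
  refine LinearMap.ext fun l => ?_
  have h1 : LinearMap.codRestrict N g hmem (e l) =
      LinearEquiv.ofInjective e he l := by
    apply Subtype.ext
    have h2 : N.mkQ (e l) = 0 := by
      have : e l ∈ N := LinearMap.mem_range_self e l
      simpa using (Submodule.Quotient.mk_eq_zero N).mpr this
    show e l - s (N.mkQ (e l)) = e l
    rw [h2, map_zero, sub_zero]
  show (LinearEquiv.ofInjective e he).symm
    (LinearMap.codRestrict N g hmem (e l)) = l
  rw [h1, LinearEquiv.symm_apply_apply]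

variable {Γ} in
/-- The evaluation of the lattice at a generating set has saturated image. -/
theorem s29lf_ev_saturated {S : Finset ↥Γ} (hS : Subgroup.closure (S : Set ↥Γ) = ⊤)
    (n : ℤ) (x : ↥S → ℤ) (hn : n ≠ 0)
    (h : n • x ∈ LinearMap.range ((s29lf_ev ℤ S).comp (parabolicHoms ℤ Γ ℤ).subtype)) :
    x ∈ LinearMap.range ((s29lf_ev ℤ S).comp (parabolicHoms ℤ Γ ℤ).subtype) := by
  obtain ⟨ψ, hψ⟩ := h
  have hval : ∀ s : ↥S, (ψ : Additive ↥Γ →+ ℤ) (Additive.ofMul (s : ↥Γ)) = n * x s := by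
    intro s
    have := congrFun hψ s
    simpa using this
  have hdiv : ∀ γ : ↥Γ, n ∣ (ψ : Additive ↥Γ →+ ℤ) (Additive.ofMul γ) := by
    intro γ
    have := s29lf_induction hS (ψ : Additive ↥Γ →+ ℤ) (AddSubgroup.zmultiples n)
      (fun s hs => by
        rw [Int.mem_zmultiples_iff]
        exact ⟨x ⟨s, hs⟩, hval ⟨s, hs⟩⟩) γ
    rwa [Int.mem_zmultiples_iff] at this
  obtain ⟨ψ', hψ'⟩ := s29lf_saturated ψ hn hdiv
  refine ⟨ψ', ?_⟩
  funext s
  have h1 := hval s
  rw [hψ'] at h1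
  have h2 : n * (ψ' : Additive ↥Γ →+ ℤ) (Additive.ofMul (s : ↥Γ)) = n * x s := h1
  exact mul_left_cancel₀ hn h2

/-- **(LF3a)** the comparison map is injective, for every commutative ring `A`. -/
theorem s29lf_ext_injective (hΓ : Γ.index ≠ 0) (A : Type*) [CommRing A] :
    Function.Injective (s29lf_ext Γ A) := by
  classical
  obtain ⟨S, hS⟩ := s29lf_exists_gen Γ hΓ
  set e : ↥(parabolicHoms ℤ Γ ℤ) →ₗ[ℤ] (↥S → ℤ) :=
    (s29lf_ev ℤ S).comp (parabolicHoms ℤ Γ ℤ).subtype with he_def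
  have he : Function.Injective e := (s29lf_ev_injective ℤ hS).comp Subtype.val_injective
  obtain ⟨r, hr⟩ := s29lf_exists_retraction e he
    (fun n x hn h => s29lf_ev_saturated hS n x hn h)
  have hinj : Function.Injective (LinearMap.lTensor A e) := by
    have h1 : (LinearMap.lTensor A r) ∘ₗ (LinearMap.lTensor A e) = LinearMap.id := by
      rw [← LinearMap.lTensor_comp, hr, LinearMap.lTensor_id]
    exact Function.LeftInverse.injective (g := LinearMap.lTensor A r)
      (fun t => LinearMap.congr_fun h1 t)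
  have hfac : ∀ t : A ⊗[ℤ] ↥(parabolicHoms ℤ Γ ℤ),
      (fun s : ↥S => ((s29lf_ext Γ A t : ↥(parabolicHoms A Γ A)) : Additive ↥Γ →+ A)
        (Additive.ofMul (s : ↥Γ))) =
      TensorProduct.piScalarRight ℤ ℤ A ↥S (LinearMap.lTensor A e t) := by
    intro t
    induction t using TensorProduct.induction_on with
    | zero =>
      funext s
      simp
    | tmul c ψ =>
      funext s
      rw [s29lf_ext_tmul_apply, LinearMap.lTensor_tmul, TensorProduct.piScalarRight_apply,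
        TensorProduct.piScalarRightHom_tmul]
      show c * _ = (e ψ s) • c
      rw [zsmul_eq_mul, mul_comm]
      rfl
    | add x y hx hy =>
      rw [map_add, map_add, map_add, ← hx, ← hy]
      rfl
  intro t t' htt'
  apply hinj
  apply (TensorProduct.piScalarRight ℤ ℤ A ↥S).injective
  rw [← hfac, ← hfac, htt']

/-- **(LF3b)** the comparison map is surjective, for a field of characteristic zero. -/
theorem s29lf_ext_surjective (hΓ : Γ.index ≠ 0) (A : Type*) [Field A] [CharZero A] :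
    Function.Surjective (s29lf_ext Γ A) := by
  classical
  intro φ
  haveI := s29lf_fg Γ hΓ
  set φ₀ : Additive ↥Γ →+ A := (φ : Additive ↥Γ →+ A) with hφ₀
  haveI : AddGroup.FG ↥φ₀.range :=
    AddGroup.fg_of_surjective (f := φ₀.rangeRestrict) φ₀.rangeRestrict_surjective
  haveI : Module.Finite ℤ ↥φ₀.range := Module.Finite.iff_addGroup_fg.mpr inferInstance
  haveI : Module.Free ℤ ↥φ₀.range := Module.free_of_finite_type_torsion_free'
  let b := Module.Free.chooseBasis ℤ ↥φ₀.range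
  have hpar : ∀ i, (b.coord i).toAddMonoidHom.comp φ₀.rangeRestrict ∈ parabolicHoms ℤ Γ ℤ := by
    intro i γ hγ
    have h1 : φ₀ (Additive.ofMul γ) = 0 := φ.2 γ hγ
    have h2 : φ₀.rangeRestrict (Additive.ofMul γ) = 0 := Subtype.ext h1
    show b.coord i (φ₀.rangeRestrict (Additive.ofMul γ)) = 0
    rw [h2, map_zero]
  refine ⟨∑ i, ((b i : ↥φ₀.range) : A) ⊗ₜ[ℤ]
    (⟨(b.coord i).toAddMonoidHom.comp φ₀.rangeRestrict, hpar i⟩ : ↥(parabolicHoms ℤ Γ ℤ)), ?_⟩
  apply Subtype.ext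
  refine AddMonoidHom.ext fun γ => ?_
  rw [map_sum]
  have h1 : ((∑ i, s29lf_ext Γ A (((b i : ↥φ₀.range) : A) ⊗ₜ[ℤ]
      (⟨(b.coord i).toAddMonoidHom.comp φ₀.rangeRestrict, hpar i⟩ :
        ↥(parabolicHoms ℤ Γ ℤ))) : ↥(parabolicHoms A Γ A)) : Additive ↥Γ →+ A) γ =
      ∑ i, ((b i : ↥φ₀.range) : A) * ((b.coord i (φ₀.rangeRestrict γ) : ℤ) : A) := by
    rw [Submodule.coe_sum, AddMonoidHom.finsetSum_apply]
    refine Finset.sum_congr rfl fun i _ => ?_
    rw [s29lf_ext_tmul_apply]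
    rfl
  rw [h1]
  have h2 := b.sum_repr (φ₀.rangeRestrict γ)
  have h3 := congrArg (fun x : ↥φ₀.range => (x : A)) h2
  simp only [AddSubgroup.val_finsetSum] at h3
  show _ = φ₀ γ
  have h4 : ((φ₀.rangeRestrict γ : ↥φ₀.range) : A) = φ₀ γ := rfl
  rw [← h4, ← h3]
  refine Finset.sum_congr rfl fun i _ => ?_
  rw [AddSubgroup.coe_zsmul, zsmul_eq_mul, mul_comm]
  rfl

/-- **(LF3)** for a field of characteristic zero the comparison map is bijective. -/
theorem s29lf_ext_bijective (hΓ : Γ.index ≠ 0) (A : Type*) [Field A] [CharZero A] :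
    Function.Bijective (s29lf_ext Γ A) :=
  ⟨s29lf_ext_injective Γ hΓ A, s29lf_ext_surjective Γ hΓ A⟩

end Fermat.Agent.S29
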