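/-
S29 / [LAT-FREE] (helper11): the export `s29lf_main : s29lat_FreeStatement`, VERBATIM
`S29/LatDefs.lean` (helper2).
-/
import Mathlib
import Fermat.Agent.S29.LatDefs
import Fermat.Agent.S29.LatFree

set_option autoImplicit false
set_option linter.unusedSectionVars false
set_option linter.style.haveILetI false

noncomputable section

open ModularCurve.Period CongruenceSubgroup
open scoped MatrixGroups TensorProduct

namespace Fermat.Agent.S29

theorem s29lf_index_Gamma0 (N : ℕ) [NeZero N] : (Gamma0 N).index ≠ 0 :=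
  Subgroup.FiniteIndex.index_ne_zero

/-- Evaluation of `ext (∑ cᵢ ⊗ λᵢ)`. -/
theorem s29lf_ext_sum_apply (Γ : Subgroup SL(2, ℤ)) (A : Type*) [CommRing A] {n : ℕ}
    (lam : Fin n → ↥(parabolicHoms ℤ Γ ℤ)) (c : Fin n → A) (γ : Additive ↥Γ) :
    ((∑ i, c i • s29lf_ext Γ A ((1 : A) ⊗ₜ[ℤ] lam i) : ↥(parabolicHoms A Γ A)) :
      Additive ↥Γ →+ A) γ =
      ∑ i, c i * (((lam i : Additive ↥Γ →+ ℤ) γ : ℤ) : A) := by
  rw [Submodule.coe_sum, AddMonoidHom.finsetSum_apply]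
  refine Finset.sum_congr rfl fun i _ => ?_
  rw [← map_smul, TensorProduct.smul_tmul', smul_eq_mul, mul_one, s29lf_ext_tmul_apply]

/-- **[LAT-FREE]** -/
theorem s29lf_main : s29lat_FreeStatement := by
  intro N _
  have hΓ := s29lf_index_Gamma0 N
  haveI hfin := s29lf_finite (Gamma0 N) hΓ
  haveI hfree := s29lf_free (Gamma0 N) hΓ
  refine ⟨hfin, hfree, ?_, ?_⟩
  · intro n lam hlam c hc
    have h1 : LinearIndependent ℂ (fun i => (1 : ℂ) ⊗ₜ[ℤ] lam i) :=
      Module.Flat.linearIndependent_one_tmul hlam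
    have h2 : LinearIndependent ℂ (fun i => s29lf_ext (Gamma0 N) ℂ ((1 : ℂ) ⊗ₜ[ℤ] lam i)) :=
      h1.map' (s29lf_ext (Gamma0 N) ℂ)
        (LinearMap.ker_eq_bot.mpr (s29lf_ext_injective (Gamma0 N) hΓ ℂ))
    rw [Fintype.linearIndependent_iff] at h2
    funext i
    refine h2 c ?_ i
    apply Subtype.ext
    refine AddMonoidHom.ext fun γ => ?_
    rw [s29lf_ext_sum_apply]
    exact hc (Additive.toMul γ)
  · intro ψ hψ
    obtain ⟨t, ht⟩ := s29lf_ext_surjective (Gamma0 N) hΓ ℂ ⟨ψ, hψ⟩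
    let b := Module.finBasis ℤ ↥(parabolicHoms ℤ (Gamma0 N) ℤ)
    let B := Algebra.TensorProduct.basis ℂ b
    refine ⟨_, fun i => b i, fun i => B.repr t i, fun γ => ?_⟩
    have h1 : t = ∑ i, B.repr t i • ((1 : ℂ) ⊗ₜ[ℤ] b i) := by
      conv_lhs => rw [← B.sum_repr t]
      refine Finset.sum_congr rfl fun i _ => ?_
      rw [Algebra.TensorProduct.basis_apply]
    have h2 : (⟨ψ, hψ⟩ : ↥(parabolicHoms ℂ (Gamma0 N) ℂ)) =
        ∑ i, B.repr t i • s29lf_ext (Gamma0 N) ℂ ((1 : ℂ) ⊗ₜ[ℤ] b i) := by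
      rw [← ht]
      conv_lhs => rw [h1]
      rw [map_sum]
      refine Finset.sum_congr rfl fun i _ => ?_
      rw [map_smul]
    have h3 := congrArg (fun x : ↥(parabolicHoms ℂ (Gamma0 N) ℂ) =>
      (x : Additive ↥(Gamma0 N) →+ ℂ) (Additive.ofMul γ)) h2
    simp only [] at h3
    rw [s29lf_ext_sum_apply] at h3
    exact h3

end Fermat.Agent.S29
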