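/-
S29 [LAT-PER] (helper7; owner of [LAT]: helper2).  Prefix `s29lp_`.

The period homomorphism of `T_ℓ g` (`ℓ ∤ N` prime, `g` a weight 2 cusp form on `Γ₀(N)`) is given
by the coset formula
    `P(T_ℓ g)(γ) = ∑_{x ∈ ℙ¹(𝔽_ℓ)} P(g)(γ'_x)`,   `α_x γ = γ'_x α_{γ x}`,
where `α_x = heckeRep ℓ x` are the standard representatives of the Hecke correspondence.
Consequently the period homomorphism of a normalised eigenform is a NON-ZERO parabolic
homomorphism which is an eigenvector of all these coset operators, with eigenvalues `a_ℓ`.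
-/
import Mathlib
import Fermat.Agent.S21.Prim
import Fermat.Agent.S21.Lin
import Fermat.Agent.S21.Par
import Fermat.Agent.S21.Harm
import Fermat.Agent.S21.Inj
import Fermat.Agent.S22ES.Hecke
import Fermat.Agent.S29.LatEig

set_option autoImplicit false

noncomputable section

namespace Fermat.Agent.S29

open UpperHalfPlane hiding I
open CongruenceSubgroup ModularCurve ModularCurve.Period Matrix.SpecialLinearGroup
open scoped MatrixGroups ModularForm Topology Manifold
open P2MW.S_ModularForm_heckeT_slash_eq_self_of_mem_Gamma0.ModularForm.HeckeSlashInvariance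

/-- The coset identity for `T_p`, with EXPLICIT coset data. -/
theorem s29lp_coset {p : ℕ} [Fact p.Prime] (γ : SL(2, ℤ)) (γ' : OnePoint (ZMod p) → SL(2, ℤ))
    (hmul : ∀ x : OnePoint (ZMod p),
      heckeRep p x * mapGL ℝ γ = mapGL ℝ (γ' x) * heckeRep p (redMatrix p γ • x))
    (k : ℤ) (F : ℍ → ℂ) :
    (ModularForm.heckeT k p F) ∣[k] γ - ModularForm.heckeT k p F =
      ∑ x : OnePoint (ZMod p), (F ∣[k] (γ' x) - F) ∣[k] heckeRep p (redMatrix p γ • x) := by
  have h1 : (ModularForm.heckeT k p F) ∣[k] γ =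
      ∑ x : OnePoint (ZMod p), (F ∣[k] (γ' x)) ∣[k] heckeRep p (redMatrix p γ • x) := by
    rw [heckeT_eq_sum_onePoint k F, ModularForm.SL_slash, SlashAction.sum_slash]
    refine Finset.sum_congr rfl fun x _ => ?_
    rw [← SlashAction.slash_mul]
    rw [ModularForm.SL_slash, ← SlashAction.slash_mul]
    exact congrArg (fun g => F ∣[k] g) (hmul x)
  have h2 : ModularForm.heckeT k p F =
      ∑ x : OnePoint (ZMod p), F ∣[k] heckeRep p (redMatrix p γ • x) := by
    rw [heckeT_eq_sum_onePoint k F]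
    exact (Equiv.sum_comp (MulAction.toPerm (redMatrix p γ)) (fun x => F ∣[k] heckeRep p x)).symm
  rw [h1]
  nth_rewrite 1 [h2]
  rw [← Finset.sum_sub_distrib]
  refine Finset.sum_congr rfl fun x _ => ?_
  rw [sub_eq_add_neg, sub_eq_add_neg, SlashAction.add_slash, SlashAction.neg_slash]

/-- Weight `0` slash by a standard representative. -/
theorem s29lp_slash_rep {p : ℕ} (hp : p ≠ 0) (x : OnePoint (ZMod p)) (f : ℍ → ℂ) (τ : ℍ) :
    (f ∣[(0 : ℤ)] heckeRep p x) τ = (p : ℂ)⁻¹ * f (heckeRep p x • τ) := by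
  induction x using OnePoint.rec with
  | infty =>
    rw [heckeRep_infty, ModularForm.slash_heckeDiagMatrix_apply 0 hp]
    norm_num
  | coe j =>
    rw [heckeRep_coe, ModularForm.slash_heckeMatrix_apply 0 hp]

/-- Weight `0` slash by an element of `SL(2,ℤ)` is composition. -/
theorem s29lp_slash_SL (γ : SL(2, ℤ)) (f : ℍ → ℂ) (τ : ℍ) :
    (f ∣[(0 : ℤ)] γ) τ = f (γ • τ) := by
  rw [ModularForm.SL_slash_apply]
  simp

variable {N : ℕ} [NeZero N]

/-- The canonical primitive (of the library S22ES) of a weight 2 cusp form. -/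
def s29lp_prim (g : CuspForm (Gamma0 N) 2) : ℍ → ℂ :=
  Fermat.Agent.S22ES.prim (N := N) 0 g

/-- The canonical primitive is an equivariant primitive in the sense of the Prelude. -/
theorem s29lp_prim_spec (g : CuspForm (Gamma0 N) 2) :
    HasEquivariantPrimitive N g (s29lp_prim g) := by
  obtain ⟨F, hF⟩ := Fermat.Agent.S21.prim N g
  have hmd : MDiff F := by
    rw [UpperHalfPlane.mdifferentiable_iff]
    intro w hw
    have := (hF.1 ⟨w, hw⟩).differentiableAt
    exact this.differentiableWithinAt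
  have hz : IsZeroAtImInfty F := hF.2.1
  have hd : ∀ z : ℍ, iteratedDeriv (0 + 1) (F ∘ ofComplex) z
      = (show CuspForm (Gamma0 N) (((0 : ℕ) : ℤ) + 2) from g) z := by
    intro z
    rw [zero_add, iteratedDeriv_one]
    exact (hF.1 z).deriv
  have := Fermat.Agent.S22ES.prim_unique (N := N) 0 g F hmd hz hd
  rw [s29lp_prim, ← this]
  exact hF

/-- The period map through the canonical primitive. -/
theorem s29lp_periodMap_apply (g : CuspForm (Gamma0 N) 2) (γ : Gamma0 N) (z : ℍ) :
    periodMap N g (Additive.ofMul γ)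
      = s29lp_prim g ((γ : SL(2, ℤ)) • z) - s29lp_prim g z :=
  Fermat.Agent.S21.periodEq N g _ (s29lp_prim_spec g) γ z

/-- The canonical primitive of `T_ℓ g`. -/
theorem s29lp_prim_heckeT {l : ℕ} (hl : l.Prime) (hlN : ¬ l ∣ N) (g : CuspForm (Gamma0 N) 2) :
    s29lp_prim (CuspForm.heckeTLin 2 hl hlN g)
      = (l : ℂ) • ModularForm.heckeT 0 l (s29lp_prim g) := by
  have h := Fermat.Agent.S22ES.prim_heckeT (N := N) 0 hl hlN g
  simp only [s29lp_prim]
  simpa using h

/-- **[LAT-PER], core.**  The coset formula for the periods of `T_ℓ g`. -/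
theorem s29lp_core {l : ℕ} [Fact l.Prime] (hl : l.Prime) (hlN : ¬ l ∣ N)
    (g : CuspForm (Gamma0 N) 2) (γ : Gamma0 N) (γ' : OnePoint (ZMod l) → Gamma0 N)
    (hmul : ∀ x : OnePoint (ZMod l),
      heckeRep l x * mapGL ℝ (γ : SL(2, ℤ))
        = mapGL ℝ ((γ' x : Gamma0 N) : SL(2, ℤ)) * heckeRep l (redMatrix l (γ : SL(2, ℤ)) • x)) :
    periodMap N (CuspForm.heckeTLin 2 hl hlN g) (Additive.ofMul γ)
      = ∑ x : OnePoint (ZMod l), periodMap N g (Additive.ofMul (γ' x)) := by
  have hl0 : l ≠ 0 := hl.ne_zero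
  have hlC : (l : ℂ) ≠ 0 := by exact_mod_cast hl0
  rw [s29lp_periodMap_apply _ γ UpperHalfPlane.I, s29lp_prim_heckeT hl hlN g]
  have hc := congrFun (s29lp_coset (γ : SL(2, ℤ)) (fun x => ((γ' x : Gamma0 N) : SL(2, ℤ)))
    hmul 0 (s29lp_prim g)) UpperHalfPlane.I
  simp only [Pi.sub_apply, Finset.sum_apply] at hc
  rw [s29lp_slash_SL] at hc
  simp only [Pi.smul_apply, smul_eq_mul]
  rw [← mul_sub, hc, Finset.mul_sum]
  refine Finset.sum_congr rfl fun x _ => ?_
  rw [s29lp_slash_rep hl0, ← mul_assoc, mul_inv_cancel₀ hlC, one_mul, Pi.sub_apply,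
    s29lp_slash_SL, ← s29lp_periodMap_apply]

/-- **[LAT-PER]**, verbatim (`S29/LatDefs.lean`): the period map is Hecke equivariant. -/
theorem s29lp_main : s29lat_PerStatement := by
  intro N _ l _ hlN g γ
  exact s29lp_core Fact.out hlN g γ (s29lat_gam N l hlN γ) (s29lat_gam_spec N l hlN γ)

/-- The periods of a cusp form vanish on the elements of trace `±2`. -/
theorem s29lp_mem (g : CuspForm (Gamma0 N) 2) :
    periodMap N g ∈ parabolicHoms ℂ (Gamma0 N) ℂ :=
  Fermat.Agent.S21.par N (Fermat.Agent.S21.prim N) (Fermat.Agent.S21.periodEq N) g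

/-- The period map is additive. -/
theorem s29lp_add (f g : CuspForm (Gamma0 N) 2) :
    periodMap N (f + g) = periodMap N f + periodMap N g :=
  Fermat.Agent.S21.lin_add N (Fermat.Agent.S21.prim N) (Fermat.Agent.S21.periodEq N) f g

/-- The period map is homogeneous. -/
theorem s29lp_smul (c : ℂ) (g : CuspForm (Gamma0 N) 2) :
    periodMap N (c • g) = c • periodMap N g :=
  Fermat.Agent.S21.lin_smul N (Fermat.Agent.S21.prim N) (Fermat.Agent.S21.periodEq N) c g

/-- The period homomorphism of a non-zero cusp form is not zero (Eichler-Shimura, S21). -/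
theorem s29lp_ne_zero {g : CuspForm (Gamma0 N) 2} (hg : g ≠ 0) : periodMap N g ≠ 0 := by
  intro h0
  have hinj := Fermat.Agent.S21.inj N (Fermat.Agent.S21.prim N) (Fermat.Agent.S21.periodEq N)
    (Fermat.Agent.S21.harm N)
  have := hinj g g (by rw [h0]; simp)
  exact hg this.1

/-- The period homomorphism of a normalised eigenform is an eigenvector of the coset Hecke
operators `T_ℓ`, `ℓ ∤ N`, with eigenvalue `a_ℓ`. -/
theorem s29lp_eigen {g : CuspForm (Gamma0 N) 2} (hg : g.IsNormalizedEigenform)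
    (l : ℕ) [Fact l.Prime] (hlN : ¬ l ∣ N) (γ : Gamma0 N) :
    s29lat_heckeFun N l hlN (periodMap N g) γ
      = ModularFormClass.qCoeff g l * periodMap N g (Additive.ofMul γ) := by
  rw [← s29lp_main N l hlN g γ, s29le_main hg Fact.out hlN, s29lp_smul]
  rfl

/-- Summary for [LAT-ASM]: the period homomorphism `v` of a normalised eigenform is a non-zero
parabolic homomorphism with `T_ℓ v = a_ℓ v` for all primes `ℓ ∤ N`. -/
theorem s29lp_summary {g : CuspForm (Gamma0 N) 2} (hg : g.IsNormalizedEigenform) :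
    ∃ v : Additive (Gamma0 N) →+ ℂ, v ∈ parabolicHoms ℂ (Gamma0 N) ℂ ∧ v ≠ 0 ∧
      ∀ (l : ℕ) [Fact l.Prime] (hlN : ¬ l ∣ N) (γ : Gamma0 N),
        s29lat_heckeFun N l hlN v γ = ModularFormClass.qCoeff g l * v (Additive.ofMul γ) :=
  ⟨periodMap N g, s29lp_mem g, s29lp_ne_zero (s29le_ne_zero hg),
    fun l _ hlN γ => s29lp_eigen hg l hlN γ⟩

end Fermat.Agent.S29
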