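import Mathlib
import Fermat.Agent.S29.LatAsm
import Fermat.Agent.S29.LatPer
import Fermat.Agent.S29.LatEig
import Fermat.Agent.S29.LatFreeMain
import Fermat.Agent.S29.LatDS

set_option autoImplicit false

/-!
# S29, [LAT]: the export

`s29lat_main : s29lat_Statement`, hypothesis-free: for a normalised eigenform `g` of weight 2 on
`Γ₀(N)` the eigenvalues `a_ℓ` (`ℓ ∤ N`) are integral, and for every `φ : Z̄ → K` there is a
non-zero vector `w` of `K ⊗ Λ`, `Λ = parabolicHoms ℤ Γ₀(N) ℤ`, with `T_ℓ w = φ(a_ℓ) w` for all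
primes `ℓ ∤ N`.

Leaves: [LAT-HOM] helper2 (`s29lat_hom_main`), [LAT-PER] + [LAT-EIG] helper7 (`s29lp_main`,
`s29le_stmt`), [LAT-FREE] helper11 (`s29lf_main`), [LAT-DS] helper3 (`s29lds_main`),
[LAT-ASM] helper2 (`s29lat_asm`).
-/

namespace Fermat.Agent.S29

/-- **[LAT]** -/
theorem s29lat_main : s29lat_Statement :=
  s29lat_main_of s29lp_main s29le_stmt s29lf_main s29lds_main

end Fermat.Agent.S29
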