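/-
S29, package [EIG]: [EIG-OF] with [LAT] plugged (helper2).  Prefix `s29eo_`.

`s29eo_eig_of_kum : s29k_Statement → s29_EigStatement` - after this the only open input of
[EIG] is the Kummer side [KUM] (`s29k_Statement`, `KumDefs.lean`).
-/
import Mathlib
import Fermat.Agent.S29.EigOf
import Fermat.Agent.S29.LatMain

set_option autoImplicit false

namespace Fermat.Agent.S29

/-- **[EIG]** from **[KUM]** ([LAT] is closed: `s29lat_main`). -/
theorem s29eo_eig_of_kum : s29k_Statement → s29_EigStatement :=
  s29eo_main s29lat_main

end Fermat.Agent.S29
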