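/-
S29, package [EIG], leaf [DESC] (owner: helper28).  Prefix `s29d_`.

The hypotheses `s29d_Setup` of the abstract descent theorem [DESC-ABS]:

* `F / L` is a function field all of whose places have degree one, with principal divisors of
  degree `0` and Riemann's inequality;
* `ι : F_K → F` is a subfield over the subfield of constants `φ : K → L`;
* `ext : Place K F_K → Place L F` extends places (same orders, unique), and every place of `F`
  which is not an extension is trivial on `ι F_K`;
* `H` is a group of semilinear automorphisms of `F / L` which fixes `ι F_K` pointwise, whose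
  invariants are exactly `ι F_K`, and which moves every constant `c ∉ K` to `c + 1`.

CONSUMERS (file `DescAbs.lean`, `DescInj.lean`):
* `s29d_inj_abs`: a divisor of `F_K` whose extension is principal is principal;
* `s29d_abs`: if `Pic⁰(F)[n]` is finite, every divisor `D` of degree `0` of `F` with `n D`
  principal is linearly equivalent to the extension of a divisor `D₀` of degree `0` of `F_K`
  with `n D₀` principal.
-/
import Mathlib
import Fermat.Prelude.Def_AlgebraicCurve_BaseChangeGalois

set_option autoImplicit false

open AlgebraicCurve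

namespace Fermat.Agent.S29

variable {K FK L F : Type*} [Field K] [Field FK] [Algebra K FK] [Field L] [Field F]
  [Algebra L F]

/-- The hypotheses of the abstract descent theorem. -/
structure s29d_Setup (φ : K →+* L) (ι : FK →+* F) (ext : Place K FK → Place L F)
    (H : Subgroup (SemilinearAut L F)) : Prop where
  res : ∀ (P : Place L F) (f : F), f ∈ P.toValuationSubring →
    ∃ c : L, f - algebraMap L F c ∈ P.toValuationSubring.nonunits
  princ : HasPrincipalDivisors L F
  deg_one : ∀ P : Place L F, P.deg = 1
  deg_oneK : ∀ P : Place K FK, P.deg = 1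
  riemann : ∃ c : ℤ, ∀ D : Divisor L F, c ≤ Divisor.degree D →
    ∃ f : F, f ≠ 0 ∧ ∀ v : Place L F, 0 ≤ v.ord f + D v
  iota_alg : ∀ c : K, ι (algebraMap K FK c) = algebraMap L F (φ c)
  ext_ord : ∀ (P : Place K FK) (f : FK), (ext P).ord (ι f) = P.ord f
  ext_unique : ∀ (P : Place K FK) (P' : Place L F),
    (∀ f : FK, P'.ord (ι f) = P.ord f) → P' = ext P
  ext_or : ∀ P' : Place L F, (∀ f : FK, f ≠ 0 → P'.ord (ι f) = 0) ∨ ∃ P, P' = ext P
  fix_iota : ∀ g ∈ H, ∀ f : FK, g • ι f = ι f
  trans : ∀ c : L, c ∉ Set.range φ → ∃ g ∈ H, SemilinearAut.baseAut g c = c + 1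
  fixed : ∀ f' : F, (∀ g ∈ H, g • f' = f') → ∃ f : FK, ι f = f'
  nonconst : ∃ t : FK, ∀ c : K, t ≠ algebraMap K FK c
  place : Nonempty (Place K FK)

end Fermat.Agent.S29
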