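/-
S29, package [EIG], leaf [DESC] (owner: helper28), parts (D4) + (D5).  Prefix `s29d_`.

THE ABSTRACT DESCENT THEOREM.  In the situation `s29d_Setup φ ι ext H` (file `DescSetup.lean`):

* `s29d_abs`: if `Pic⁰(F)[n]` is finite, every divisor `D` of degree `0` of `F` with `n D`
  principal is linearly equivalent to `ext_* D₀` for a divisor `D₀` of degree `0` of `F_K`.

PROOF.  Let `E ≥ 0` be the reduced divisor of `D` with respect to `P∞ = ext P₀`
(`DescRed.lean`); it is invariant under the stabiliser of the class of `D` in `H`.  If a place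
`v` of the support of `E` is not an extension, the value `c` of a non-constant `t ∈ F_K` at `v`
is not in `K`; some `g ∈ H` moves `c` to `c + 1`, a power `τ = g ^ d`, `d ≥ 1`, fixes the class
of `D` (finiteness), and the places `τ ^ k • v` of the support of `E` are pairwise distinct,
because the values of `t` at them are `c + k d`.
-/
import Mathlib
import Fermat.Prelude.Def_AlgebraicCurve_BaseChangeGalois
import Fermat.Agent.S24.PlaceBasic
import Fermat.Agent.S37.RatlGen
import Fermat.Agent.S29.DescSetup
import Fermat.Agent.S29.DescRed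

set_option autoImplicit false

open AlgebraicCurve

noncomputable section

namespace Fermat.Agent.S29

open Fermat.Agent.S24 Fermat.Agent.S37

variable {K FK L F : Type*} [Field K] [Field FK] [Algebra K FK] [Field L] [Field F]
  [Algebra L F]

/-- Two values of a function at a place agree. -/
theorem s29d_value_unique (P : Place L F) (f : F) {a b : L}
    (ha : f - algebraMap L F a ∈ P.toValuationSubring.nonunits)
    (hb : f - algebraMap L F b ∈ P.toValuationSubring.nonunits) : a = b := by
  by_contra hne
  have h1 : algebraMap L F (b - a) ∈ P.toValuationSubring.nonunits := by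
    have : algebraMap L F (b - a) = (f - algebraMap L F a) - (f - algebraMap L F b) := by
      rw [map_sub]
      ring
    rw [this]
    exact sub_mem ha hb
  exact place_algebraMap_not_mem_nonunits P (sub_ne_zero.2 (Ne.symm hne)) h1

theorem s29d_baseAut_pow (g : SemilinearAut L F) (c : L)
    (hc : SemilinearAut.baseAut g c = c + 1) (k : ℕ) :
    SemilinearAut.baseAut (g ^ k) c = c + k := by
  induction k with
  | zero =>
      show SemilinearAut.baseAut (1 : SemilinearAut L F) c = c + ((0 : ℕ) : L)
      simp [SemilinearAut.baseAut]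
  | succ k ih =>
      have h1 : SemilinearAut.baseAut (g ^ (k + 1)) c =
          SemilinearAut.baseAut (g ^ k) (SemilinearAut.baseAut g c) := by
        rw [pow_succ]
        rfl
      rw [h1, hc, map_add, map_one, ih]
      push_cast
      ring

section Setup

variable {φ : K →+* L} {ι : FK →+* F} {ext : Place K FK → Place L F}
  {H : Subgroup (SemilinearAut L F)}

theorem s29d_ext_injective (h : s29d_Setup φ ι ext H) : Function.Injective ext := by
  intro P Q hPQ
  apply place_eq_of_le
  intro f hf
  rw [place_mem_iff] at hf ⊢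
  rw [← h.ext_ord, ← hPQ, h.ext_ord]
  exact hf

theorem s29d_smul_ext (h : s29d_Setup φ ι ext H) {g : SemilinearAut L F} (hg : g ∈ H)
    (P : Place K FK) : g • ext P = ext P := by
  apply h.ext_unique
  intro f
  have h1 := SemilinearAut.ord_smul g (ext P) (ι f)
  rw [h.fix_iota g hg f] at h1
  rw [h1, h.ext_ord]

theorem s29d_degree_mapDomain (h : s29d_Setup φ ι ext H) (D₀ : Divisor K FK) :
    Divisor.degree (Finsupp.mapDomain ext D₀) = Divisor.degree D₀ := by
  induction D₀ using Finsupp.induction with
  | zero => simp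
  | single_add v n D _ _ ih =>
      rw [Finsupp.mapDomain_add, map_add, map_add, ih, Finsupp.mapDomain_single,
        Divisor.degree_single, Divisor.degree_single, h.deg_one, h.deg_oneK]

/-- **(D4)** a place which is not an extension has a transcendental value, which is moved by
`H`: its orbit under any subgroup of `H` of "finite index" is infinite.  Here: the places
`τ ^ k • v` are pairwise distinct when `τ ∈ H` moves the value `c` to `c + d`, `d ≥ 1`. -/
theorem s29d_value_not_mem (h : s29d_Setup φ ι ext H) (v : Place L F)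
    (hv : ¬ ∃ P, v = ext P) :
    ∃ (t : FK) (c : L), ι t - algebraMap L F c ∈ v.toValuationSubring.nonunits ∧
      c ∉ Set.range φ := by
  have htriv : ∀ f : FK, f ≠ 0 → v.ord (ι f) = 0 := by
    rcases h.ext_or v with h1 | h1
    · exact h1
    · exact absurd h1 hv
  obtain ⟨t, ht⟩ := h.nonconst
  have ht0 : t ≠ 0 := by
    intro h0
    apply ht 0
    rw [h0, map_zero]
  have hmem : ι t ∈ v.toValuationSubring := by
    rw [place_mem_iff, htriv t ht0]
  obtain ⟨c, hc⟩ := h.res v (ι t) hmem
  refine ⟨t, c, hc, ?_⟩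
  rintro ⟨c₀, rfl⟩
  have h1 : t - algebraMap K FK c₀ ≠ 0 := sub_ne_zero.2 (ht c₀)
  have h2 : ι (t - algebraMap K FK c₀) ≠ 0 := (map_ne_zero ι).2 h1
  have h3 : ι (t - algebraMap K FK c₀) ∈ v.toValuationSubring.nonunits := by
    rw [map_sub, h.iota_alg]
    exact hc
  rw [place_mem_nonunits_iff v h2, htriv _ h1] at h3
  exact lt_irrefl _ h3

theorem s29d_value_smul (h : s29d_Setup φ ι ext H) {g : SemilinearAut L F} (hg : g ∈ H)
    (v : Place L F) (t : FK) (c : L)
    (hc : ι t - algebraMap L F c ∈ v.toValuationSubring.nonunits) :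
    ι t - algebraMap L F (SemilinearAut.baseAut g c) ∈ (g • v).toValuationSubring.nonunits := by
  have h1 := s37rl_smul_mem_nonunits g v hc
  rwa [smul_sub, h.fix_iota g hg, SemilinearAut.smul_algebraMap] at h1

/-- The stabiliser of the class of `D` in `H` contains a power `g ^ d`, `d ≥ 1`, of every
`g`, when the `n`-torsion of `Pic⁰` is finite. -/
theorem s29d_exists_pow_fix (n : ℕ)
    (hfin : {y : Pic0 L F | (n : ℤ) • y = 0}.Finite) (x : Pic0 L F) (hx : (n : ℤ) • x = 0)
    (g : SemilinearAut L F) : ∃ d : ℕ, 0 < d ∧ g ^ d • x = x := by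
  have hmem : ∀ k : ℕ, g ^ k • x ∈ {y : Pic0 L F | (n : ℤ) • y = 0} := by
    intro k
    show (n : ℤ) • (g ^ k • x) = 0
    rw [← SemilinearAut.smul_zsmul, hx]
    exact smul_zero (M := SemilinearAut L F) (A := Pic0 L F) (g ^ k)
  obtain ⟨k, k', hkk', heq⟩ := hfin.exists_lt_map_eq_of_forall_mem hmem
  refine ⟨k' - k, Nat.sub_pos_of_lt hkk', ?_⟩
  have h1 : g ^ k' = g ^ k * g ^ (k' - k) := by
    rw [← pow_add]
    congr 1
    omega
  rw [h1, mul_smul] at heq
  exact (MulAction.injective (g ^ k) heq).symm

/-- **[DESC-ABS]** the abstract descent theorem. -/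
theorem s29d_abs [CharZero L] (h : s29d_Setup φ ι ext H) (n : ℕ)
    (hfin : {y : Pic0 L F | (n : ℤ) • y = 0}.Finite)
    (D : Divisor L F) (hD : D ∈ Divisor.degZero (K := L) (F := F))
    (hn : (n : ℤ) • D ∈ Divisor.principal (K := L) (F := F)) :
    ∃ D₀ : Divisor K FK, D₀ ∈ Divisor.degZero (K := K) (F := FK) ∧
      Finsupp.mapDomain ext D₀ - D ∈ Divisor.principal (K := L) (F := F) := by
  classical
  have hprinc : HasPrincipalDivisors L F := h.princ
  obtain ⟨P₀⟩ := h.place
  set Pinf : Place L F := ext P₀ with hPinf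
  have hD0 : Divisor.degree D = 0 := Divisor.mem_degZero.1 hD
  obtain ⟨m, ⟨f, hf⟩, hmin⟩ := s29d_exists_min h.deg_one h.riemann D Pinf
  obtain ⟨Df, hDf, hDf0⟩ := h.princ.exists_divisor f hf.1
  set E : Divisor L F := Df + s29d_shift D Pinf m with hE
  have hEv : ∀ v : Place L F, E v = v.ord f + s29d_shift D Pinf m v := by
    intro v
    rw [hE, Finsupp.add_apply, hDf v]
  -- the class of `D`
  set x : Pic0 L F := Pic0.mk ⟨D, hD⟩ with hx
  have hnx : (n : ℤ) • x = 0 := by
    rw [hx]
    show (n : ℤ) • (QuotientAddGroup.mk (⟨D, hD⟩ : Divisor.degZero (K := L) (F := F)) :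
      Pic0 L F) = 0
    rw [← QuotientAddGroup.mk_zsmul, QuotientAddGroup.eq_zero_iff,
      AddSubgroup.mem_addSubgroupOf]
    exact hn
  -- invariance of `E`
  have hstab : ∀ g ∈ H, g • x = x → g • E = E := by
    intro g hg hgx
    have hgP : g • Pinf = Pinf := s29d_smul_ext h hg P₀
    have hgD : g • D - D ∈ Divisor.principal (K := L) (F := F) := by
      rw [hx, SemilinearAut.pic0_smul_mk] at hgx
      have h1 := (QuotientAddGroup.eq (s := (Divisor.principal (K := L) (F := F)).addSubgroupOf
        (Divisor.degZero (K := L) (F := F)))).1 hgx.symm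
      rw [AddSubgroup.mem_addSubgroupOf] at h1
      have h2 : ((-(⟨D, hD⟩ : Divisor.degZero (K := L) (F := F)) +
          SemilinearAut.degZeroSMulHom g ⟨D, hD⟩ : Divisor.degZero (K := L) (F := F)) :
          Divisor L F) = g • D - D := by
        rw [AddSubgroup.coe_add, AddSubgroup.coe_neg, SemilinearAut.coe_degZeroSMulHom]
        abel
      rwa [h2] at h1
    have hPinv : ∀ w : Place L F, g⁻¹ • w = Pinf ↔ w = Pinf := by
      intro w
      constructor
      · intro h'
        have : g • (g⁻¹ • w) = g • Pinf := by rw [h']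
        rwa [smul_inv_smul, hgP] at this
      · rintro rfl
        rw [inv_smul_eq_iff, hgP]
    ext v
    rw [SemilinearAut.divisor_smul_apply, hEv, hEv]
    have h1 := s29d_red_stable h.deg_one h.res D hD0 Pinf m hmin hf g hgP hgD v
    by_cases hv : v = Pinf
    · rw [(hPinv v).2 hv, hv]
    · have hv' : g⁻¹ • v ≠ Pinf := fun h' => hv ((hPinv v).1 h')
      rw [s29d_shift_apply_ne D Pinf m hv', s29d_shift_apply_ne D Pinf m hv]
      exact h1
  -- every place of the support is an extension
  have hsupp : ∀ v ∈ E.support, ∃ P, v = ext P := by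
    intro v hv
    by_contra hcon
    obtain ⟨t, c, hc, hcK⟩ := s29d_value_not_mem h v hcon
    obtain ⟨g, hg, hgc⟩ := h.trans c hcK
    obtain ⟨d, hd, hgd⟩ := s29d_exists_pow_fix n hfin x hnx g
    have hτ : ∀ k : ℕ, (g ^ d) ^ k ∈ H := fun k => H.pow_mem (H.pow_mem hg d) k
    have hτx : ∀ k : ℕ, (g ^ d) ^ k • x = x := by
      intro k
      induction k with
      | zero => rw [pow_zero, one_smul]
      | succ k ih => rw [pow_succ, mul_smul, hgd, ih]
    have hτE : ∀ k : ℕ, (g ^ d) ^ k • E = E := fun k => hstab _ (hτ k) (hτx k)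
    have hmem : ∀ k : ℕ, (g ^ d) ^ k • v ∈ (E.support : Set (Place L F)) := by
      intro k
      rw [Finset.mem_coe, Finsupp.mem_support_iff]
      have h1 := SemilinearAut.divisor_smul_apply_smul ((g ^ d) ^ k) E v
      rw [hτE k] at h1
      rw [h1]
      exact Finsupp.mem_support_iff.1 hv
    have hval : ∀ k : ℕ, ι t - algebraMap L F (c + ((d * k : ℕ) : L)) ∈
        ((g ^ d) ^ k • v).toValuationSubring.nonunits := by
      intro k
      have h1 := s29d_value_smul h (hτ k) v t c hc
      rwa [← pow_mul, s29d_baseAut_pow g c hgc (d * k), pow_mul] at h1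
    have hinj : Function.Injective fun k : ℕ => (g ^ d) ^ k • v := by
      intro k k' hkk'
      have h1 := hval k
      have h2 := hval k'
      simp only at hkk'
      rw [hkk'] at h1
      have h3 := s29d_value_unique _ _ h1 h2
      have h4 : ((d * k : ℕ) : L) = ((d * k' : ℕ) : L) := add_left_cancel h3
      have h5 : d * k = d * k' := Nat.cast_injective h4
      exact Nat.eq_of_mul_eq_mul_left hd h5
    exact Set.infinite_of_injective_forall_mem hinj hmem E.support.finite_toSet
  -- descend `E`
  have hinj := s29d_ext_injective h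
  have hrange : (E.support : Set (Place L F)) ⊆ Set.range ext := by
    intro v hv
    obtain ⟨P, hP⟩ := hsupp v hv
    exact ⟨P, hP.symm⟩
  set E₀ : Divisor K FK := Finsupp.comapDomain ext E hinj.injOn with hE₀
  have hE₀E : Finsupp.mapDomain ext E₀ = E := Finsupp.mapDomain_comapDomain ext hinj E hrange
  have hmap : Finsupp.mapDomain ext (E₀ - (m : ℤ) • Finsupp.single P₀ 1) = Df + D := by
    have h1 := map_sub (Finsupp.mapDomain.addMonoidHom ext :
      (Place K FK →₀ ℤ) →+ (Place L F →₀ ℤ)) E₀ ((m : ℤ) • Finsupp.single P₀ 1)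
    rw [map_zsmul] at h1
    simp only [Finsupp.mapDomain.addMonoidHom_apply] at h1
    rw [h1, hE₀E, Finsupp.mapDomain_single, hE, s29d_shift]
    abel
  refine ⟨E₀ - (m : ℤ) • Finsupp.single P₀ 1, ?_, ?_⟩
  · rw [Divisor.mem_degZero, ← s29d_degree_mapDomain h, hmap, map_add, hDf0, hD0, add_zero]
  · rw [hmap, add_sub_cancel_right]
    exact ⟨f, hf.1, hDf⟩

end Setup

end Fermat.Agent.S29

end
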