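/-
S29 [DESC-BC] (helper12), part 1: extension and restriction of places for an ARBITRARY
(possibly transcendental) extension of constant fields.  Prefix `s29bc_`.

`F / K`, `F' / K'` function fields (Prelude's `Place`), `φ₀ : K → K'`, `ι : F → F'` compatible,
`F' = ι(F) · K'`, `P` a place of `F / K` of degree one (`O_P = K + 𝔪_P`).

* `s29bc_exists_abs`: if `1` is not in the `K'`-span of `ι(𝔪_P)` (linear disjointness), then `P`
  extends to a place `P'` of `F' / K'` with `ord_{P'} (ι f) = ord_P f`.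
  (helper5's `s37t_cfe_abs` needs `K' / K` algebraic; here Chevalley's theorem is applied to the
  ring `K' + K' · ι(𝔪_P)` instead, and discreteness comes from helper5's structure theorem
  `s37t_cfe_val_eq`.)
* `s29bc_restrict_abs`: a place `P'` of `F' / K'` either restricts trivially to `F`
  (`ord_{P'} (ι f) = 0` for all `f ≠ 0`) or is an extension of a place `P` of `F / K`.
-/
import Mathlib
import Fermat.Prelude.Def_AlgebraicCurve_DivisorClassGroup
import Fermat.Agent.S24.PlaceBasic
import Fermat.Agent.S24.ValPlace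
import Fermat.Agent.S37.ToolCfeUniq
import Fermat.Agent.S37.ToolCfeAbs

set_option autoImplicit false
set_option linter.unusedSectionVars false
set_option linter.unusedVariables false

noncomputable section

namespace Fermat.Agent.S29

open AlgebraicCurve Fermat.Agent.S37

section Abs

variable {K F K' F' : Type*} [Field K] [Field F] [Algebra K F] [Field K'] [Field F']
  [Algebra K' F'] (φ₀ : K →+* K') (ι : F →+* F') (P : Place K F)

/-- The `K'`-span of `ι(𝔪_P)` is closed under multiplication. -/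
theorem s29bc_M_mul {x y : F'} (hx : x ∈ s37t_cfe_M K' ι P) (hy : y ∈ s37t_cfe_M K' ι P) :
    x * y ∈ s37t_cfe_M K' ι P := by
  unfold s37t_cfe_M at hx hy ⊢
  induction hx using Submodule.span_induction with
  | mem x hx =>
    induction hy using Submodule.span_induction with
    | mem y hy =>
      obtain ⟨a, ha, rfl⟩ := hx
      obtain ⟨b, hb, rfl⟩ := hy
      rw [← map_mul]
      exact Submodule.subset_span ⟨a * b, P.toValuationSubring.nonunits.mul_mem ha hb, rfl⟩
    | zero => rw [mul_zero]; exact Submodule.zero_mem _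
    | add y z _ _ hy hz => rw [mul_add]; exact Submodule.add_mem _ hy hz
    | smul c y _ hy =>
      rw [mul_smul_comm]
      exact Submodule.smul_mem _ c hy
  | zero => rw [zero_mul]; exact Submodule.zero_mem _
  | add x z _ _ hx hz => rw [add_mul]; exact Submodule.add_mem _ hx hz
  | smul c x _ hx =>
    rw [smul_mul_assoc]
    exact Submodule.smul_mem _ c hx

/-- Constants times elements of the span. -/
theorem s29bc_M_const_mul (a : K') {x : F'} (hx : x ∈ s37t_cfe_M K' ι P) :
    algebraMap K' F' a * x ∈ s37t_cfe_M K' ι P := by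
  rw [← Algebra.smul_def]
  exact Submodule.smul_mem _ a hx

/-- The ring `K' + K' · ι(𝔪_P)`. -/
def s29bc_B : Subring F' where
  carrier := {x | ∃ a : K', x - algebraMap K' F' a ∈ s37t_cfe_M K' ι P}
  mul_mem' := by
    rintro x y ⟨a, ha⟩ ⟨b, hb⟩
    refine ⟨a * b, ?_⟩
    have h : x * y - algebraMap K' F' (a * b) =
        (x - algebraMap K' F' a) * (y - algebraMap K' F' b) +
          (algebraMap K' F' a * (y - algebraMap K' F' b) +
            algebraMap K' F' b * (x - algebraMap K' F' a)) := by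
      rw [map_mul]; ring
    rw [h]
    exact Submodule.add_mem _ (s29bc_M_mul ι P ha hb)
      (Submodule.add_mem _ (s29bc_M_const_mul ι P a hb) (s29bc_M_const_mul ι P b ha))
  one_mem' := ⟨1, by rw [map_one, sub_self]; exact Submodule.zero_mem _⟩
  add_mem' := by
    rintro x y ⟨a, ha⟩ ⟨b, hb⟩
    refine ⟨a + b, ?_⟩
    have h : x + y - algebraMap K' F' (a + b) =
        (x - algebraMap K' F' a) + (y - algebraMap K' F' b) := by
      rw [map_add]; ring
    rw [h]
    exact Submodule.add_mem _ ha hb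
  zero_mem' := ⟨0, by rw [map_zero, sub_self]; exact Submodule.zero_mem _⟩
  neg_mem' := by
    rintro x ⟨a, ha⟩
    refine ⟨-a, ?_⟩
    have h : -x - algebraMap K' F' (-a) = -(x - algebraMap K' F' a) := by
      rw [map_neg]; ring
    rw [h]
    exact Submodule.neg_mem _ ha

theorem s29bc_const_mem_B (a : K') : algebraMap K' F' a ∈ s29bc_B (K' := K') ι P :=
  ⟨a, by rw [sub_self]; exact Submodule.zero_mem _⟩

theorem s29bc_M_le_B {x : F'} (hx : x ∈ s37t_cfe_M K' ι P) : x ∈ s29bc_B (K' := K') ι P :=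
  ⟨0, by rw [map_zero, sub_zero]; exact hx⟩

/-- The ideal `K' · ι(𝔪_P)` of `K' + K' · ι(𝔪_P)`. -/
def s29bc_I : Ideal ↥(s29bc_B (K' := K') ι P) where
  carrier := {x | (x : F') ∈ s37t_cfe_M K' ι P}
  add_mem' := by
    intro x y hx hy
    show ((x : F') + (y : F')) ∈ s37t_cfe_M K' ι P
    exact Submodule.add_mem _ hx hy
  zero_mem' := by
    show (0 : F') ∈ s37t_cfe_M K' ι P
    exact Submodule.zero_mem _
  smul_mem' := by
    rintro ⟨c, a, ha⟩ ⟨x, hxB⟩ hx
    change c * x ∈ s37t_cfe_M K' ι P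
    have hx' : x ∈ s37t_cfe_M K' ι P := hx
    have h : c * x = (c - algebraMap K' F' a) * x + algebraMap K' F' a * x := by ring
    rw [h]
    exact Submodule.add_mem _ (s29bc_M_mul ι P ha hx') (s29bc_M_const_mul ι P a hx')

/-- **Chevalley with constants**: if `1 ∉ K' · ι(𝔪_P)`, some valuation ring of `F'` contains `K'`
and dominates `P`. -/
theorem s29bc_exists_dom (hld : (1 : F') ∉ s37t_cfe_M K' ι P) :
    ∃ V : ValuationSubring F', s37t_cfe_Dom K' ι P V := by
  have hI : s29bc_I (K' := K') ι P ≠ ⊤ := by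
    intro h
    have h1 : (1 : ↥(s29bc_B (K' := K') ι P)) ∈ s29bc_I (K' := K') ι P := by
      rw [h]; exact Submodule.mem_top
    have h2 : (1 : F') ∈ s37t_cfe_M K' ι P := h1
    exact hld h2
  obtain ⟨V, hBV, hIV⟩ := Ideal.image_subset_nonunits_valuationSubring _ hI
  refine ⟨V, ⟨fun a => hBV (s29bc_const_mem_B ι P a), fun x hx => ?_⟩⟩
  have hM : ι x ∈ s37t_cfe_M K' ι P := Submodule.subset_span ⟨x, hx, rfl⟩
  have hmem : (⟨ι x, s29bc_M_le_B ι P hM⟩ : ↥(s29bc_B (K' := K') ι P)) ∈
      s29bc_I (K' := K') ι P := hM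
  exact hIV ⟨⟨ι x, s29bc_M_le_B ι P hM⟩, hmem, rfl⟩

variable {ι P}

/-- **Extension of a place of degree one** along an arbitrary extension of constant fields. -/
theorem s29bc_exists_abs
    (hι : ∀ c : K, ι (algebraMap K F c) = algebraMap K' F' (φ₀ c))
    (hdeg : ∀ x ∈ P.toValuationSubring,
      ∃ c : K, x - algebraMap K F c ∈ P.toValuationSubring.nonunits)
    (hgen : ∀ x : F', x ∈ Subfield.closure (Set.range ι ∪ Set.range (algebraMap K' F')))
    (hld : (1 : F') ∉ s37t_cfe_M K' ι P) :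
    ∃ P' : Place K' F', ∀ f : F, P'.ord (ι f) = P.ord f := by
  classical
  obtain ⟨W, hW⟩ := s29bc_exists_dom ι P hld
  obtain ⟨π, hπ⟩ := IsDiscreteValuationRing.exists_irreducible ↥P.toValuationSubring
  have hπ1 : P.ord (π : F) = 1 := P.ord_coe_irreducible hπ
  have hπ0 : (π : F) ≠ 0 := by
    intro h0
    exact hπ.ne_zero (Subtype.ext h0)
  have ht0 : ι (π : F) ≠ 0 := (_root_.map_ne_zero ι).2 hπ0
  have hπmem : (π : F) ∈ P.toValuationSubring.nonunits :=
    (Fermat.Agent.S24.place_mem_nonunits_iff P hπ0).2 (by rw [hπ1]; exact one_pos)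
  have ht1 : W.valuation (ι (π : F)) < 1 :=
    (W.mem_nonunits_iff).1 (hW.nonunits _ hπmem)
  have hvt : W.valuation (ι (π : F)) ≠ 0 := (Valuation.ne_zero_iff _).2 ht0
  have hΦ : ∀ x : F', x ≠ 0 → ∃ k : ℤ, W.valuation x = W.valuation (ι (π : F)) ^ k := by
    intro x hx0
    obtain ⟨e, he⟩ := s37t_cfe_val_eq φ₀ hι hdeg hgen hπ1 x hx0
    exact ⟨e, he W hW⟩
  -- the order function
  let w : F' → ℤ := fun x => if hx : x = 0 then 0 else Classical.choose (hΦ x hx)
  have hw : ∀ x : F', x ≠ 0 → W.valuation x = W.valuation (ι (π : F)) ^ (w x) := by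
    intro x hx
    have := Classical.choose_spec (hΦ x hx)
    simp only [w, dif_neg hx]
    exact this
  have hw_eq : ∀ (x : F') (k : ℤ), x ≠ 0 → W.valuation x = W.valuation (ι (π : F)) ^ k →
      w x = k := by
    intro x k hx hk
    exact s37t_cfe_zpow_inj hvt ht1 ((hw x hx).symm.trans hk)
  have hmul : ∀ f g : F', f ≠ 0 → g ≠ 0 → w (f * g) = w f + w g := by
    intro f g hf hg
    apply hw_eq _ _ (mul_ne_zero hf hg)
    rw [map_mul, hw f hf, hw g hg, zpow_add₀ hvt]
  have hadd : ∀ f g : F', f ≠ 0 → g ≠ 0 → f + g ≠ 0 → min (w f) (w g) ≤ w (f + g) := by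
    intro f g hf hg hfg
    have h1 := W.valuation.map_add f g
    rw [hw f hf, hw g hg, hw _ hfg] at h1
    rcases le_max_iff.1 h1 with h2 | h2
    · exact (min_le_left _ _).trans ((s37t_cfe_zpow_le_zpow hvt ht1 _ _).1 h2)
    · exact (min_le_right _ _).trans ((s37t_cfe_zpow_le_zpow hvt ht1 _ _).1 h2)
  have hconst : ∀ c : K', c ≠ 0 → w (algebraMap K' F' c) = 0 := by
    intro c hc
    apply hw_eq _ _ ((_root_.map_ne_zero (algebraMap K' F')).2 hc)
    rw [zpow_zero]
    exact hW.val_const hc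
  have hwt : w (ι (π : F)) = 1 := hw_eq _ _ ht0 (zpow_one _).symm
  have hne : ∃ f : F', f ≠ 0 ∧ w f ≠ 0 := ⟨ι (π : F), ht0, by rw [hwt]; exact one_ne_zero⟩
  obtain ⟨v, m, hm, hv⟩ := Fermat.Agent.S24.val_exists_place (K := K') w hmul hadd hconst hne
  have hm1 : (m : ℤ) = 1 := by
    have h1 := hv _ ht0
    rw [hwt] at h1
    exact Int.eq_one_of_mul_eq_one_right (by exact_mod_cast hm.le) h1.symm
  have hbase : ∀ f : F, f ≠ 0 → W.valuation (ι f) = W.valuation (ι (π : F)) ^ (P.ord f) := by
    intro f hf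
    obtain ⟨u, hu⟩ := P.exists_unit_mul_zpow hf hπ
    have hu0 : ((u : ↥P.toValuationSubring) : F) ≠ 0 := by
      intro h0
      rw [h0, zero_mul] at hu
      exact hf hu
    -- units of `O_P` map to units of `W`
    have hunit : W.valuation (ι ((u : ↥P.toValuationSubring) : F)) = 1 := by
      obtain ⟨c, hc⟩ := hdeg _ (u : ↥P.toValuationSubring).2
      have hc0 : c ≠ 0 := by
        rintro rfl
        rw [map_zero, sub_zero] at hc
        have := (P.toValuationSubring.mem_nonunits_iff_exists_mem_maximalIdeal).1 hc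
        obtain ⟨hmem, hmax⟩ := this
        have hunit' : IsUnit (⟨((u : ↥P.toValuationSubring) : F), hmem⟩ :
            ↥P.toValuationSubring) := u.isUnit
        exact (IsLocalRing.mem_maximalIdeal _).1 hmax hunit'
      have hU : s37t_cfe_IsU K' ι P (ι ((u : ↥P.toValuationSubring) : F)) := by
        refine ⟨φ₀ c, (_root_.map_ne_zero φ₀).2 hc0, ?_⟩
        rw [← hι, ← map_sub]
        exact Submodule.subset_span ⟨_, hc, rfl⟩
      exact hW.val_U hU
    conv_lhs => rw [hu]
    rw [map_mul, map_mul, hunit, one_mul, map_zpow₀, map_zpow₀]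
  refine ⟨v, fun f => ?_⟩
  rcases eq_or_ne f 0 with rfl | hf
  · rw [map_zero, Place.ord_zero, Place.ord_zero]
  · have hf' : ι f ≠ 0 := (_root_.map_ne_zero ι).2 hf
    have h1 := hv _ hf'
    rw [hm1, one_mul] at h1
    rw [← h1]
    exact hw_eq _ _ hf' (hbase f hf)

/-- **Restriction of a place**: a place of `F' / K'` is either trivial on `ι(F)` or the (unique)
extension of a place of `F / K`. -/
theorem s29bc_restrict_abs
    (hι : ∀ c : K, ι (algebraMap K F c) = algebraMap K' F' (φ₀ c))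
    (hdegK : ∀ (Q : Place K F), ∀ x ∈ Q.toValuationSubring,
      ∃ c : K, x - algebraMap K F c ∈ Q.toValuationSubring.nonunits)
    (hgen : ∀ x : F', x ∈ Subfield.closure (Set.range ι ∪ Set.range (algebraMap K' F')))
    (P' : Place K' F') :
    (∀ f : F, f ≠ 0 → P'.ord (ι f) = 0) ∨ ∃ Q : Place K F, ∀ f : F, P'.ord (ι f) = Q.ord f := by
  by_cases hne : ∃ f : F, f ≠ 0 ∧ P'.ord (ι f) ≠ 0
  · right
    have hmul : ∀ f g : F, f ≠ 0 → g ≠ 0 →
        P'.ord (ι (f * g)) = P'.ord (ι f) + P'.ord (ι g) := fun f g hf hg => by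
      rw [map_mul, P'.ord_mul ((_root_.map_ne_zero ι).2 hf) ((_root_.map_ne_zero ι).2 hg)]
    have hadd : ∀ f g : F, f ≠ 0 → g ≠ 0 → f + g ≠ 0 →
        min (P'.ord (ι f)) (P'.ord (ι g)) ≤ P'.ord (ι (f + g)) := fun f g hf hg hfg => by
      rw [map_add]
      exact Fermat.Agent.S24.place_ord_add_ge P' ((_root_.map_ne_zero ι).2 hf)
        ((_root_.map_ne_zero ι).2 hg) (by rw [← map_add]; exact (_root_.map_ne_zero ι).2 hfg)
    have hK : ∀ c : K, c ≠ 0 → P'.ord (ι (algebraMap K F c)) = 0 := fun c _ => by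
      rw [hι]
      exact Fermat.Agent.S24.place_ord_algebraMap P' _
    obtain ⟨Q, m, hm, hv, -, hnon, -, -, -⟩ :=
      Fermat.Agent.S24.val_exists_place_full (K := K) (fun f => P'.ord (ι f)) hmul hadd hK hne
    refine ⟨Q, ?_⟩
    have hdom : ∀ x ∈ Q.toValuationSubring.nonunits, ι x ∈ P'.toValuationSubring.nonunits := by
      intro x hx
      rcases (hnon x).1 hx with rfl | hpos
      · rw [map_zero]
        exact Fermat.Agent.S24.place_zero_mem_nonunits P'
      · have hx0 : x ≠ 0 := by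
          rintro rfl
          rw [map_zero, Place.ord_zero] at hpos
          exact lt_irrefl _ hpos
        exact (Fermat.Agent.S24.place_mem_nonunits_iff P' ((_root_.map_ne_zero ι).2 hx0)).2 hpos
    exact s37t_cfe_ord_of_dom φ₀ hι (hdegK Q) hgen P' hdom
  · left
    intro f hf
    by_contra h
    exact hne ⟨f, hf, h⟩

end Abs

end Fermat.Agent.S29
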