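/-
S29 [DESC-BC] (helper12), part 2: extension of places for the function fields
`F_K = laurentBaseChange K F₀ ⊆ K((q))` under an ARBITRARY extension `L / K` of constant fields
(e.g. `K = Q̄`, `L = ℂ`).  Prefix `s29bc_`.

* `s29bc_ld`: linear disjointness in the form needed: `1` is not in the `L`-span of `ι(𝔪_P)`
  (read off coefficientwise with a `K`-linear retraction `L → K`).
* `s29bc_exists`: every place of `F_K / K` of degree one extends to a place of `F_L / L` with the
  same orders;  `s29bc_unique`: the extension is unique;  `s29bc_restrict`: a place of `F_L / L`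
  is either trivial on `F_K` or an extension.
* `s29bc_ext`, `s29bc_ext_ord`, `s29bc_ext_injective`, `s29bc_ext_unique`, `s29bc_ext_or`.
-/
import Mathlib
import Fermat.Prelude.Def_ModularCurve_ArithmeticGalois
import Fermat.Agent.S18.Cfe
import Fermat.Agent.S29.DescBcAbs

set_option autoImplicit false
set_option linter.unusedSectionVars false
set_option linter.unusedVariables false
set_option linter.style.haveILetI false

noncomputable section

namespace Fermat.Agent.S29

open AlgebraicCurve ModularCurve Fermat.Agent.S37 Fermat.Agent.S18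

section Nonunits

variable {F : Type*} [Field F] (V : ValuationSubring F)

theorem s29bc_nonunits_add {x y : F} (hx : x ∈ V.nonunits) (hy : y ∈ V.nonunits) :
    x + y ∈ V.nonunits := by
  rw [V.mem_nonunits_iff] at hx hy ⊢
  exact lt_of_le_of_lt (V.valuation.map_add x y) (max_lt hx hy)

theorem s29bc_nonunits_mul_left {c x : F} (hc : c ∈ V) (hx : x ∈ V.nonunits) :
    c * x ∈ V.nonunits := by
  rw [V.mem_nonunits_iff] at hx ⊢
  rw [map_mul]
  have h1 : V.valuation c ≤ 1 := (V.valuation_le_one_iff c).2 hc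
  calc V.valuation c * V.valuation x ≤ 1 * V.valuation x := mul_le_mul_left h1 _
    _ = V.valuation x := one_mul _
    _ < 1 := hx

theorem s29bc_zero_mem_nonunits : (0 : F) ∈ V.nonunits := by
  rw [V.mem_nonunits_iff, map_zero]
  exact zero_lt_one

theorem s29bc_one_not_mem_nonunits : (1 : F) ∉ V.nonunits := by
  rw [V.mem_nonunits_iff, map_one]
  exact lt_irrefl _

end Nonunits

section Mod

variable (K L : Type) [Field K] [Algebra ℚ K] [Field L] [Algebra ℚ L] [Algebra K L]
  (F₀ : IntermediateField ℚ (LaurentSeries ℚ))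

theorem s29bc_coeff_iota (f : ↥(laurentBaseChange K F₀)) (n : ℤ) :
    ((s18cfe_iota K L F₀ f : ↥(laurentBaseChange L F₀)) : LaurentSeries L).coeff n =
      algebraMap K L ((f : LaurentSeries K).coeff n) := by
  rw [s18cfe_iota_coe, coeffMap_coeff]

theorem s29bc_coeff_const_mul (c : K) (f : ↥(laurentBaseChange K F₀)) (n : ℤ) :
    ((algebraMap K ↥(laurentBaseChange K F₀) c * f : ↥(laurentBaseChange K F₀)) :
      LaurentSeries K).coeff n = c * (f : LaurentSeries K).coeff n := by
  have h1 : ((algebraMap K ↥(laurentBaseChange K F₀) c * f : ↥(laurentBaseChange K F₀)) :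
      LaurentSeries K) = algebraMap K (LaurentSeries K) c * (f : LaurentSeries K) := rfl
  rw [h1, algebraMap_laurentSeries_eq_single, HahnSeries.coeff_single_zero_mul]

theorem s29bc_coeff_smul (a : L) (x : ↥(laurentBaseChange L F₀)) (n : ℤ) :
    ((a • x : ↥(laurentBaseChange L F₀)) : LaurentSeries L).coeff n =
      a * (x : LaurentSeries L).coeff n := by
  have h1 : ((a • x : ↥(laurentBaseChange L F₀)) : LaurentSeries L) =
      algebraMap L (LaurentSeries L) a * (x : LaurentSeries L) := by
    rw [Algebra.smul_def]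
    rfl
  rw [h1, algebraMap_laurentSeries_eq_single, HahnSeries.coeff_single_zero_mul]

variable {K L F₀}

/-- Coefficientwise retraction of the `L`-span of `ι(𝔪_P)` into `𝔪_P`. -/
theorem s29bc_ld_aux (P : Place K ↥(laurentBaseChange K F₀)) :
    ∀ x ∈ s37t_cfe_M L (s18cfe_iota K L F₀) P, ∀ lam : L →ₗ[K] K,
      ∃ y : ↥(laurentBaseChange K F₀), y ∈ P.toValuationSubring.nonunits ∧
        ∀ n : ℤ, (y : LaurentSeries K).coeff n = lam ((x : LaurentSeries L).coeff n) := by
  intro x hx
  unfold s37t_cfe_M at hx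
  induction hx using Submodule.span_induction with
  | mem x hx =>
    obtain ⟨m, hm, rfl⟩ := hx
    intro lam
    refine ⟨algebraMap K _ (lam 1) * m,
      s29bc_nonunits_mul_left _ (P.algebraMap_mem' _) hm, fun n => ?_⟩
    rw [s29bc_coeff_const_mul, s29bc_coeff_iota, Algebra.algebraMap_eq_smul_one, map_smul,
      smul_eq_mul, mul_comm]
  | zero =>
    intro lam
    refine ⟨0, s29bc_zero_mem_nonunits _, fun n => ?_⟩
    simp
  | add x z _ _ hx hz =>
    intro lam
    obtain ⟨y₁, hy₁, h₁⟩ := hx lam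
    obtain ⟨y₂, hy₂, h₂⟩ := hz lam
    refine ⟨y₁ + y₂, s29bc_nonunits_add _ hy₁ hy₂, fun n => ?_⟩
    have e1 : ((y₁ + y₂ : ↥(laurentBaseChange K F₀)) : LaurentSeries K) =
        (y₁ : LaurentSeries K) + (y₂ : LaurentSeries K) := rfl
    have e2 : ((x + z : ↥(laurentBaseChange L F₀)) : LaurentSeries L) =
        (x : LaurentSeries L) + (z : LaurentSeries L) := rfl
    rw [e1, e2, HahnSeries.coeff_add, HahnSeries.coeff_add, map_add, h₁, h₂]
  | smul a x _ hx =>
    intro lam
    obtain ⟨y, hy, h⟩ := hx (lam.comp (LinearMap.mulLeft K a))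
    refine ⟨y, hy, fun n => ?_⟩
    rw [h, s29bc_coeff_smul]
    rfl

/-- **Linear disjointness**: `1` is not in the `L`-span of `ι(𝔪_P)`. -/
theorem s29bc_ld (P : Place K ↥(laurentBaseChange K F₀)) :
    (1 : ↥(laurentBaseChange L F₀)) ∉ s37t_cfe_M L (s18cfe_iota K L F₀) P := by
  intro h1
  obtain ⟨lam, hlam⟩ := LinearMap.exists_leftInverse_of_injective (Algebra.linearMap K L)
    (LinearMap.ker_eq_bot.2 (algebraMap K L).injective)
  have hlam1 : lam 1 = 1 := by
    have := congrArg (fun g : K →ₗ[K] K => g 1) hlam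
    simpa using this
  obtain ⟨y, hy, h⟩ := s29bc_ld_aux P 1 h1 lam
  have hy1 : y = 1 := by
    apply Subtype.ext
    ext n
    rw [h]
    have e1 : ((1 : ↥(laurentBaseChange L F₀)) : LaurentSeries L) = 1 := rfl
    have e2 : ((1 : ↥(laurentBaseChange K F₀)) : LaurentSeries K) = 1 := rfl
    rw [e1, e2, HahnSeries.coeff_one, HahnSeries.coeff_one]
    split_ifs
    · exact hlam1
    · exact map_zero lam
  rw [hy1] at hy
  exact s29bc_one_not_mem_nonunits _ hy

theorem s29bc_hgen (x : ↥(laurentBaseChange L F₀)) :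
    x ∈ Subfield.closure (Set.range (s18cfe_iota K L F₀) ∪
      Set.range (algebraMap L ↥(laurentBaseChange L F₀))) :=
  s18cfe_iota_gen K L F₀ _ (fun f => Subfield.subset_closure (Or.inl ⟨f, rfl⟩))
    (fun c => Subfield.subset_closure (Or.inr ⟨c, rfl⟩)) x

/-- **(BC-1) Existence of the extension of a place** (any extension `L / K` of constant fields,
places of degree one). -/
theorem s29bc_exists (P : Place K ↥(laurentBaseChange K F₀)) (hP : P.deg = 1) :
    ∃ P' : Place L ↥(laurentBaseChange L F₀),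
      ∀ f : ↥(laurentBaseChange K F₀), P'.ord (s18cfe_iota K L F₀ f) = P.ord f :=
  s29bc_exists_abs (algebraMap K L) (s18cfe_iota_algebraMap K L F₀)
    (s37t_cfe_hdeg_of_deg hP) s29bc_hgen (s29bc_ld P)

/-- **Uniqueness of the extension.** -/
theorem s29bc_unique (P : Place K ↥(laurentBaseChange K F₀)) (hP : P.deg = 1)
    {P' P'' : Place L ↥(laurentBaseChange L F₀)}
    (h' : ∀ f : ↥(laurentBaseChange K F₀), P'.ord (s18cfe_iota K L F₀ f) = P.ord f)
    (h'' : ∀ f : ↥(laurentBaseChange K F₀), P''.ord (s18cfe_iota K L F₀ f) = P.ord f) :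
    P' = P'' :=
  s37t_cfe_place_unique_ord (algebraMap K L) (s18cfe_iota_algebraMap K L F₀)
    (s37t_cfe_hdeg_of_deg hP) s29bc_hgen h' h''

/-- **(BC-3) Restriction**: a place of `F_L / L` is either trivial on `F_K` or an extension. -/
theorem s29bc_restrict (hdeg : ∀ Q : Place K ↥(laurentBaseChange K F₀), Q.deg = 1)
    (P' : Place L ↥(laurentBaseChange L F₀)) :
    (∀ f : ↥(laurentBaseChange K F₀), f ≠ 0 → P'.ord (s18cfe_iota K L F₀ f) = 0) ∨
      ∃ Q : Place K ↥(laurentBaseChange K F₀),
        ∀ f : ↥(laurentBaseChange K F₀), P'.ord (s18cfe_iota K L F₀ f) = Q.ord f :=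
  s29bc_restrict_abs (algebraMap K L) (s18cfe_iota_algebraMap K L F₀)
    (fun Q => s37t_cfe_hdeg_of_deg (hdeg Q)) s29bc_hgen P'

/-- Two places with the same order function are equal. -/
theorem s29bc_place_ext {K F : Type*} [Field K] [Field F] [Algebra K F] {P Q : Place K F}
    (h : ∀ f : F, P.ord f = Q.ord f) : P = Q := by
  apply Fermat.Agent.S24.place_eq_of_le
  intro f hf
  exact Fermat.Agent.S24.place_mem_of_ord_nonneg Q
    (by rw [← h]; exact Fermat.Agent.S24.place_ord_nonneg_of_mem P hf)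

variable (K L F₀)

/-- **(BC-2) The extension of places** `Place K F_K → Place L F_L` (all places of degree one). -/
def s29bc_ext (hdeg : ∀ Q : Place K ↥(laurentBaseChange K F₀), Q.deg = 1)
    (P : Place K ↥(laurentBaseChange K F₀)) : Place L ↥(laurentBaseChange L F₀) :=
  Classical.choose (s29bc_exists (L := L) P (hdeg P))

variable {K L F₀}

theorem s29bc_ext_ord (hdeg : ∀ Q : Place K ↥(laurentBaseChange K F₀), Q.deg = 1)
    (P : Place K ↥(laurentBaseChange K F₀)) (f : ↥(laurentBaseChange K F₀)) :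
    (s29bc_ext K L F₀ hdeg P).ord (s18cfe_iota K L F₀ f) = P.ord f :=
  Classical.choose_spec (s29bc_exists (L := L) P (hdeg P)) f

theorem s29bc_ext_unique (hdeg : ∀ Q : Place K ↥(laurentBaseChange K F₀), Q.deg = 1)
    (P : Place K ↥(laurentBaseChange K F₀)) {P' : Place L ↥(laurentBaseChange L F₀)}
    (h : ∀ f : ↥(laurentBaseChange K F₀), P'.ord (s18cfe_iota K L F₀ f) = P.ord f) :
    P' = s29bc_ext K L F₀ hdeg P :=
  s29bc_unique P (hdeg P) h (s29bc_ext_ord hdeg P)

theorem s29bc_ext_injective (hdeg : ∀ Q : Place K ↥(laurentBaseChange K F₀), Q.deg = 1) :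
    Function.Injective (s29bc_ext K L F₀ hdeg) := by
  intro P Q h
  apply s29bc_place_ext
  intro f
  rw [← s29bc_ext_ord (L := L) hdeg P f, ← s29bc_ext_ord (L := L) hdeg Q f, h]

/-- A place of `F_L / L` is either trivial on `F_K` or `ext Q` for a (unique) `Q`. -/
theorem s29bc_ext_or (hdeg : ∀ Q : Place K ↥(laurentBaseChange K F₀), Q.deg = 1)
    (P' : Place L ↥(laurentBaseChange L F₀)) :
    (∀ f : ↥(laurentBaseChange K F₀), f ≠ 0 → P'.ord (s18cfe_iota K L F₀ f) = 0) ∨
      ∃ Q : Place K ↥(laurentBaseChange K F₀), P' = s29bc_ext K L F₀ hdeg Q := by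
  rcases s29bc_restrict hdeg P' with h | ⟨Q, hQ⟩
  · exact Or.inl h
  · exact Or.inr ⟨Q, s29bc_ext_unique hdeg Q hQ⟩

/-- A place of `F_L / L` at which some non-zero element of `F_K` has non-zero order is an
extension. -/
theorem s29bc_ext_of_ord_ne (hdeg : ∀ Q : Place K ↥(laurentBaseChange K F₀), Q.deg = 1)
    (P' : Place L ↥(laurentBaseChange L F₀)) {f : ↥(laurentBaseChange K F₀)}
    (hf : P'.ord (s18cfe_iota K L F₀ f) ≠ 0) :
    ∃ Q : Place K ↥(laurentBaseChange K F₀), P' = s29bc_ext K L F₀ hdeg Q := by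
  rcases s29bc_ext_or hdeg P' with h | h
  · exfalso
    apply hf
    rcases eq_or_ne f 0 with rfl | hf0
    · rw [map_zero, Place.ord_zero]
    · exact h f hf0
  · exact h

end Mod

end Fermat.Agent.S29
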