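/-
S29 [DESC-BC] (helper12), part 3: the base-change homomorphism on divisors and on `Pic⁰`, for an
abstract extension of places.  Prefix `s29bc_`.

`ι : F → F'` a ring homomorphism between function fields `F / K`, `F' / K'`, and
`ext : Place K F → Place K' F'` with `s29bc_IsExt ι ext`:
  * `ord`: `(ext P).ord (ι f) = P.ord f`;
  * `or` : every place of `F' / K'` is trivial on `ι(F)` or of the form `ext Q`;
  * `deg`: `(ext P).deg = P.deg`.
Then `s29bc_div ext := mapDomain ext` preserves degrees and principal divisors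
(`bc (div f) = div (ι f)`), and induces `s29bc_pic : Pic0 K F →+ Pic0 K' F'`.
-/
import Mathlib
import Fermat.Prelude.Def_AlgebraicCurve_DivisorClassGroup
import Fermat.Agent.S24.PlaceBasic

set_option autoImplicit false
set_option linter.unusedSectionVars false
set_option linter.unusedVariables false

noncomputable section

namespace Fermat.Agent.S29

open AlgebraicCurve

section Pic

variable {K F K' F' : Type*} [Field K] [Field F] [Algebra K F] [Field K'] [Field F']
  [Algebra K' F']

/-- `ext` is an extension of places along `ι`. -/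
structure s29bc_IsExt (ι : F →+* F') (ext : Place K F → Place K' F') : Prop where
  ord : ∀ (P : Place K F) (f : F), (ext P).ord (ι f) = P.ord f
  or : ∀ P' : Place K' F', (∀ f : F, f ≠ 0 → P'.ord (ι f) = 0) ∨ ∃ Q : Place K F, P' = ext Q
  deg : ∀ P : Place K F, (ext P).deg = P.deg

variable {ι : F →+* F'} {ext : Place K F → Place K' F'}

theorem s29bc_IsExt.injective (h : s29bc_IsExt ι ext) : Function.Injective ext := by
  intro P Q hPQ
  apply Fermat.Agent.S24.place_eq_of_le
  intro f hf
  refine Fermat.Agent.S24.place_mem_of_ord_nonneg Q ?_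
  rw [← h.ord Q f, ← hPQ, h.ord P f]
  exact Fermat.Agent.S24.place_ord_nonneg_of_mem P hf

/-- A place of `F'` at which some element of `ι(F)` has non-zero order is an extension. -/
theorem s29bc_IsExt.exists_of_ord_ne (h : s29bc_IsExt ι ext) (P' : Place K' F') {f : F}
    (hf : P'.ord (ι f) ≠ 0) : ∃ Q : Place K F, P' = ext Q := by
  rcases h.or P' with h0 | h1
  · exfalso
    apply hf
    rcases eq_or_ne f 0 with rfl | hf0
    · rw [map_zero, Place.ord_zero]
    · exact h0 f hf0
  · exact h1

/-- The order of `ι f` at a place which is not an extension vanishes. -/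
theorem s29bc_IsExt.ord_eq_zero (h : s29bc_IsExt ι ext) (P' : Place K' F')
    (hP' : P' ∉ Set.range ext) (f : F) : P'.ord (ι f) = 0 := by
  by_contra hne
  obtain ⟨Q, hQ⟩ := h.exists_of_ord_ne P' hne
  exact hP' ⟨Q, hQ.symm⟩

variable (ext) in
/-- **Base change of divisors.** -/
def s29bc_div : Divisor K F →+ Divisor K' F' :=
  Finsupp.mapDomain.addMonoidHom ext

theorem s29bc_div_apply (D : Divisor K F) : s29bc_div ext D = Finsupp.mapDomain ext D := rfl

theorem s29bc_div_single (P : Place K F) (n : ℤ) :
    s29bc_div ext (Finsupp.single P n) = Finsupp.single (ext P) n := by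
  rw [s29bc_div_apply, Finsupp.mapDomain_single]

theorem s29bc_div_ext (h : s29bc_IsExt ι ext) (D : Divisor K F) (P : Place K F) :
    s29bc_div ext D (ext P) = D P := by
  rw [s29bc_div_apply, Finsupp.mapDomain_apply h.injective]

theorem s29bc_div_notin (D : Divisor K F) (P' : Place K' F') (hP' : P' ∉ Set.range ext) :
    s29bc_div ext D P' = 0 := by
  rw [s29bc_div_apply, Finsupp.mapDomain_notin_range _ _ hP']

theorem s29bc_div_injective (h : s29bc_IsExt ι ext) : Function.Injective (s29bc_div ext) :=
  Finsupp.mapDomain_injective h.injective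

theorem s29bc_degree (h : s29bc_IsExt ι ext) (D : Divisor K F) :
    Divisor.degree (s29bc_div ext D) = Divisor.degree D := by
  have key : (Divisor.degree (K := K') (F := F')).comp (s29bc_div ext) =
      Divisor.degree (K := K) (F := F) := by
    refine Finsupp.addHom_ext fun P n => ?_
    rw [AddMonoidHom.comp_apply, s29bc_div_single, Divisor.degree_single,
      Divisor.degree_single, h.deg]
  exact DFunLike.congr_fun key D

theorem s29bc_mem_degZero (h : s29bc_IsExt ι ext) {D : Divisor K F}
    (hD : D ∈ Divisor.degZero (K := K) (F := F)) :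
    s29bc_div ext D ∈ Divisor.degZero (K := K') (F := F') := by
  rw [Divisor.mem_degZero] at hD ⊢
  rw [s29bc_degree h, hD]

/-- **`bc (div f) = div (ι f)`.** -/
theorem s29bc_div_ord (h : s29bc_IsExt ι ext) {D : Divisor K F} {f : F}
    (hD : ∀ v : Place K F, D v = v.ord f) (P' : Place K' F') :
    s29bc_div ext D P' = P'.ord (ι f) := by
  by_cases hP' : P' ∈ Set.range ext
  · obtain ⟨Q, rfl⟩ := hP'
    rw [s29bc_div_ext h, hD, h.ord]
  · rw [s29bc_div_notin D P' hP', h.ord_eq_zero P' hP']

theorem s29bc_isPrincipal (h : s29bc_IsExt ι ext) {D : Divisor K F}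
    (hD : Divisor.IsPrincipal D) : Divisor.IsPrincipal (s29bc_div ext D) := by
  obtain ⟨f, hf, hDf⟩ := hD
  exact ⟨ι f, (_root_.map_ne_zero ι).2 hf, fun P' => s29bc_div_ord h hDf P'⟩

/-- Conversely: if `bc D = div (ι f)` then `D = div f`. -/
theorem s29bc_isPrincipal_of (h : s29bc_IsExt ι ext) {D : Divisor K F} {f : F}
    (hD : ∀ P' : Place K' F', s29bc_div ext D P' = P'.ord (ι f)) (v : Place K F) :
    D v = v.ord f := by
  rw [← s29bc_div_ext h D v, hD, h.ord]

/-- Base change on divisors of degree zero. -/
def s29bc_degZero (h : s29bc_IsExt ι ext) :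
    Divisor.degZero (K := K) (F := F) →+ Divisor.degZero (K := K') (F := F') :=
  ((s29bc_div ext).comp (Divisor.degZero (K := K) (F := F)).subtype).codRestrict _
    (fun D => s29bc_mem_degZero h D.2)

theorem s29bc_coe_degZero (h : s29bc_IsExt ι ext) (D : Divisor.degZero (K := K) (F := F)) :
    (s29bc_degZero h D : Divisor K' F') = s29bc_div ext (D : Divisor K F) := rfl

/-- **(BC-4) Base change on `Pic⁰`.** -/
def s29bc_pic (h : s29bc_IsExt ι ext) : Pic0 K F →+ Pic0 K' F' :=
  QuotientAddGroup.map _ _ (s29bc_degZero h) (by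
    rintro ⟨D, hD0⟩ hD
    simp only [AddSubgroup.mem_addSubgroupOf] at hD
    simp only [AddSubgroup.mem_comap, AddSubgroup.mem_addSubgroupOf]
    exact s29bc_isPrincipal h hD)

theorem s29bc_pic_mk (h : s29bc_IsExt ι ext) (D : Divisor.degZero (K := K) (F := F)) :
    s29bc_pic h (Pic0.mk D) = Pic0.mk (s29bc_degZero h D) := rfl

/-- `bc x = 0` iff the base change of a representing divisor is principal. -/
theorem s29bc_pic_mk_eq_zero_iff (h : s29bc_IsExt ι ext)
    (D : Divisor.degZero (K := K) (F := F)) :
    s29bc_pic h (Pic0.mk D) = 0 ↔ Divisor.IsPrincipal (s29bc_div ext (D : Divisor K F)) := by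
  rw [s29bc_pic_mk, Pic0.mk, QuotientAddGroup.eq_zero_iff, AddSubgroup.mem_addSubgroupOf]
  rfl

end Pic

end Fermat.Agent.S29
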