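/-
S29 [DESC-FIX], coefficientwise core (helper27).  Prefix `s29cfx_`.

Descent of the field of constants, coefficientwise: an element of `F_L = L · F₀ ⊆ L((q))` all of
whose Laurent coefficients lie in the subfield `K ⊆ L` already lies in `F_K = K · F₀ ⊆ K((q))`.

Proof: a `K`-linear functional `lam : L → K` acts coefficientwise, `Λ : L((q)) → K((q))`, and `Λ`
is `K((q))`-linear.  Write `f' = r / s` with `r, s` in the `L`-span of `F₀`; then `Λ r`, `Λ s` lie
in the `K`-span of `F₀`, and `f₁ · Λ s = Λ r` for the series `f₁` over `K` with `f' = ι f₁`;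
choose `lam` with `Λ s ≠ 0`.
-/
import Mathlib
import Fermat.Agent.S18.Cfe

set_option autoImplicit false
set_option linter.unusedSectionVars false
set_option linter.style.haveILetI false

open ModularCurve IntermediateField

namespace Fermat.Agent.S29

section Dual

variable {K L : Type*} [Field K] [Field L] [Algebra K L]

/-- Coefficientwise application of a `K`-linear functional. -/
noncomputable def s29cfx_dual (lam : L →ₗ[K] K) (x : LaurentSeries L) : LaurentSeries K :=
  x.map lam

@[simp]
theorem s29cfx_dual_coeff (lam : L →ₗ[K] K) (x : LaurentSeries L) (n : ℤ) :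
    (s29cfx_dual lam x).coeff n = lam (x.coeff n) := rfl

theorem s29cfx_dual_support (lam : L →ₗ[K] K) (x : LaurentSeries L) :
    (s29cfx_dual lam x).support ⊆ x.support := by
  intro n hn
  rw [HahnSeries.mem_support] at hn ⊢
  intro h
  apply hn
  rw [s29cfx_dual_coeff, h, map_zero]

theorem s29cfx_dual_zero (lam : L →ₗ[K] K) : s29cfx_dual lam 0 = 0 := by
  refine HahnSeries.ext (funext fun n => ?_)
  simp

theorem s29cfx_dual_add (lam : L →ₗ[K] K) (x y : LaurentSeries L) :
    s29cfx_dual lam (x + y) = s29cfx_dual lam x + s29cfx_dual lam y := by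
  refine HahnSeries.ext (funext fun n => ?_)
  simp

theorem s29cfx_dual_smul (lam : L →ₗ[K] K) (c : L) (x : LaurentSeries L) :
    s29cfx_dual lam (c • x) = s29cfx_dual (lam.comp (LinearMap.mulLeft K c)) x := by
  refine HahnSeries.ext (funext fun n => ?_)
  simp

theorem s29cfx_dual_single (lam : L →ₗ[K] K) (c : L) :
    s29cfx_dual lam (HahnSeries.single 0 c) = HahnSeries.single 0 (lam c) := by
  refine HahnSeries.ext (funext fun n => ?_)
  rw [s29cfx_dual_coeff]
  rcases eq_or_ne n 0 with rfl | hn
  · simp
  · rw [HahnSeries.coeff_single_of_ne hn, HahnSeries.coeff_single_of_ne hn, map_zero]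

theorem s29cfx_coeffMap_support (u : LaurentSeries K) :
    (coeffMap (algebraMap K L) u).support ⊆ u.support := by
  intro n hn
  rw [HahnSeries.mem_support] at hn ⊢
  intro h
  apply hn
  rw [coeffMap_coeff, h, map_zero]

/-- `Λ` is linear over `K((q))`. -/
theorem s29cfx_dual_mul (lam : L →ₗ[K] K) (u : LaurentSeries K) (v : LaurentSeries L) :
    s29cfx_dual lam (coeffMap (algebraMap K L) u * v) = u * s29cfx_dual lam v := by
  refine HahnSeries.ext (funext fun n => ?_)
  rw [s29cfx_dual_coeff,
    HahnSeries.coeff_mul_left' u.isPWO_support (s29cfx_coeffMap_support u),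
    HahnSeries.coeff_mul_right' v.isPWO_support (s29cfx_dual_support lam v), map_sum]
  refine Finset.sum_congr rfl fun ij _ => ?_
  rw [coeffMap_coeff, s29cfx_dual_coeff, ← Algebra.smul_def, map_smul, smul_eq_mul]

end Dual

section Main

variable (K L : Type) [Field K] [Algebra ℚ K] [Field L] [Algebra ℚ L] [Algebra K L]
  (F₀ : IntermediateField ℚ (LaurentSeries ℚ))

/-- The `L`-algebra generated by the image of `F₀` in `L((q))` is its `L`-span. -/
theorem s29cfx_span_eq (a : LaurentSeries L)
    (ha : a ∈ Algebra.adjoin L (⇑(coeffEmb L) '' (F₀ : Set (LaurentSeries ℚ)))) :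
    a ∈ Submodule.span L (⇑(coeffEmb L) '' (F₀ : Set (LaurentSeries ℚ))) := by
  have h : (⇑(coeffEmb L) '' (F₀ : Set (LaurentSeries ℚ))) =
      ((F₀.toSubalgebra.toSubsemiring.toSubmonoid.map
        ((coeffEmb L : LaurentSeries ℚ →+* LaurentSeries L) : LaurentSeries ℚ →* LaurentSeries L) :
          Submonoid (LaurentSeries L)) : Set (LaurentSeries L)) := by
    ext y
    simp
  rw [← Subalgebra.mem_toSubmodule, Algebra.adjoin_eq_span, h, Submonoid.closure_eq, ← h] at ha
  induction ha using Submodule.span_induction with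
  | mem y hy => exact Submodule.subset_span hy
  | zero => exact zero_mem _
  | add x y _ _ hx hy => exact add_mem hx hy
  | smul c x _ hx =>
      have e : (algebraMap L (LaurentSeries L) c) * x = HahnSeries.C c * x := by
        rw [algebraMap_laurentSeries_eq_single]
        rfl
      rw [Algebra.smul_def, e, HahnSeries.C_mul_eq_smul]
      exact Submodule.smul_mem _ _ hx

/-- `Λ` maps the `L`-span of `F₀` into `F_K`. -/
theorem s29cfx_dual_mem (lam : L →ₗ[K] K) (a : LaurentSeries L)
    (ha : a ∈ Submodule.span L (⇑(coeffEmb L) '' (F₀ : Set (LaurentSeries ℚ)))) :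
    s29cfx_dual lam a ∈ laurentBaseChange K F₀ := by
  induction ha using Submodule.span_induction generalizing lam with
  | mem y hy =>
      obtain ⟨z, hz, rfl⟩ := hy
      have h1 : coeffEmb L z = coeffMap (algebraMap K L) (coeffEmb K z) * HahnSeries.single 0 1 := by
        rw [Fermat.Agent.S18.s18cfe_coeffMap_coeffEmb]
        change _ = _ * (1 : LaurentSeries L)
        rw [mul_one]
      rw [h1, s29cfx_dual_mul, s29cfx_dual_single]
      refine mul_mem (coeffEmb_mem_laurentBaseChange K hz) ?_
      rw [← algebraMap_laurentSeries_eq_single]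
      exact (laurentBaseChange K F₀).algebraMap_mem _
  | zero =>
      rw [s29cfx_dual_zero]
      exact zero_mem _
  | add x y _ _ hx hy =>
      rw [s29cfx_dual_add]
      exact add_mem (hx lam) (hy lam)
  | smul c x _ hx =>
      rw [s29cfx_dual_smul]
      exact hx _

/-- **[DESC-FIX]**, in terms of Laurent series. -/
theorem s29cfx_series (f' : LaurentSeries L) (hf' : f' ∈ laurentBaseChange L F₀)
    (h : ∀ n, f'.coeff n ∈ Set.range (algebraMap K L)) :
    ∃ f : LaurentSeries K, f ∈ laurentBaseChange K F₀ ∧ coeffMap (algebraMap K L) f = f' := by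
  classical
  -- a `K`-linear retraction of `K → L`
  obtain ⟨lam0, hlam0⟩ := LinearMap.exists_leftInverse_of_injective
    (Algebra.linearMap K L) (LinearMap.ker_eq_bot.2 (algebraMap K L).injective)
  have hlam0' : ∀ c : K, lam0 (algebraMap K L c) = c := fun c => by
    have := LinearMap.congr_fun hlam0 c
    simpa using this
  set f1 : LaurentSeries K := s29cfx_dual lam0 f' with hf1
  have hf1' : coeffMap (algebraMap K L) f1 = f' := by
    refine HahnSeries.ext (funext fun n => ?_)
    obtain ⟨c, hc⟩ := h n
    rw [coeffMap_coeff, hf1, s29cfx_dual_coeff, ← hc, hlam0']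
  refine ⟨f1, ?_, hf1'⟩
  -- write `f' = r / s`
  have hmem : f' ∈ IntermediateField.adjoin L (⇑(coeffEmb L) '' (F₀ : Set (LaurentSeries ℚ))) :=
    hf'
  rw [IntermediateField.mem_adjoin_iff_div] at hmem
  obtain ⟨r, hr, s, hs, hrs⟩ := hmem
  have hr' : r ∈ Submodule.span L (⇑(coeffEmb L) '' (F₀ : Set (LaurentSeries ℚ))) :=
    s29cfx_span_eq L F₀ r hr
  have hs' : s ∈ Submodule.span L (⇑(coeffEmb L) '' (F₀ : Set (LaurentSeries ℚ))) :=
    s29cfx_span_eq L F₀ s hs
  by_cases hs0 : s = 0
  · have hf0 : f' = 0 := by rw [hrs, hs0, div_zero]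
    have : f1 = 0 := by rw [hf1, hf0, s29cfx_dual_zero]
    rw [this]
    exact zero_mem _
  · obtain ⟨n, hn⟩ : ∃ n, s.coeff n ≠ 0 := by
      by_contra hcon
      push Not at hcon
      exact hs0 (HahnSeries.ext (funext fun n => by simpa using hcon n))
    obtain ⟨lam, hlam⟩ : ∃ lam : L →ₗ[K] K, lam (s.coeff n) ≠ 0 := by
      by_contra hcon
      push Not at hcon
      exact hn ((Module.forall_dual_apply_eq_zero_iff K (s.coeff n)).1 hcon)
    have hΛs : s29cfx_dual lam s ≠ 0 := by
      intro h0
      apply hlam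
      have := congrArg (fun x => HahnSeries.coeff x n) h0
      simpa using this
    have hmul : f' * s = r := by
      rw [hrs, div_mul_cancel₀ _ hs0]
    have key : f1 * s29cfx_dual lam s = s29cfx_dual lam r := by
      rw [← s29cfx_dual_mul, hf1', hmul]
    have : f1 = s29cfx_dual lam r / s29cfx_dual lam s := by
      rw [eq_div_iff hΛs, key]
    rw [this]
    exact div_mem (s29cfx_dual_mem K L F₀ lam r hr') (s29cfx_dual_mem K L F₀ lam s hs')

/-- **[DESC-FIX]** an element of `F_L` with coefficients in `K` comes from `F_K`. -/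
theorem s29cfx_general (f' : ↥(laurentBaseChange L F₀))
    (h : ∀ n, (f' : LaurentSeries L).coeff n ∈ Set.range (algebraMap K L)) :
    ∃ f : ↥(laurentBaseChange K F₀), Fermat.Agent.S18.s18cfe_iota K L F₀ f = f' := by
  obtain ⟨f, hf, hff'⟩ := s29cfx_series K L F₀ (f' : LaurentSeries L) f'.2 h
  exact ⟨⟨f, hf⟩, Subtype.ext hff'⟩

end Main

end Fermat.Agent.S29
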