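/-
S29 / S42, package [DESC], leaf [DESC-AUT] (owner: helper16).  Prefix `s29da_`.

For algebraically closed fields `K ⊆ L` and `c ∈ L` not in `K` there is a `K`-automorphism `σ`
of `L` with `σ c = c + 1`.  In particular the `Aut(L/K)`-orbit of `c` is infinite in
characteristic zero.

* `s29da_transcendental` : an element outside an algebraically closed subfield is transcendental;
* `s29da_extend` : an automorphism of the polynomial ring on a transcendence basis extends to `L`;
* `s29da_main` : the statement;
* `s29da_pow_apply` : `(σ ^ n) c = c + n`;  `s29da_orbit_infinite` : the orbit of `c` is infinite.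
-/
import Mathlib

set_option autoImplicit false

open MvPolynomial

namespace Fermat.Agent.S29

/-- An element of an extension of an algebraically closed field `K` that does not lie in `K`
is transcendental over `K`. -/
theorem s29da_transcendental {K L : Type*} [Field K] [Field L] [Algebra K L] [IsAlgClosed K]
    (c : L) (hc : c ∉ Set.range (algebraMap K L)) : Transcendental K c := by
  intro halg
  have hint : IsIntegral K c := halg.isIntegral
  have hirr : Irreducible (minpoly K c) := minpoly.irreducible hint
  have hdeg : (minpoly K c).degree = 1 := IsAlgClosed.degree_eq_one_of_irreducible K hirr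
  exact hc (minpoly.mem_range_of_degree_eq_one K c hdeg)

/-- An automorphism of the polynomial ring on a transcendence basis extends to an automorphism
of the algebraically closed field. -/
theorem s29da_extend {K L : Type*} [Field K] [Field L] [Algebra K L] [IsAlgClosed L]
    {ι : Type*} (v : ι → L) (hv : IsTranscendenceBasis K v)
    (φ : MvPolynomial ι K ≃ₐ[K] MvPolynomial ι K) :
    ∃ σ : L ≃ₐ[K] L, ∀ p : MvPolynomial ι K, σ (aeval v p) = aeval v (φ p) := by
  have := IsAlgClosed.isAlgClosure_of_transcendence_basis v hv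
  let e : Algebra.adjoin K (Set.range v) ≃+* Algebra.adjoin K (Set.range v) :=
    hv.1.aevalEquiv.symm.toRingEquiv.trans (φ.toRingEquiv.trans hv.1.aevalEquiv.toRingEquiv)
  have key : ∀ p : MvPolynomial ι K,
      IsAlgClosure.equivOfEquiv L L e (aeval v p) = aeval v (φ p) := by
    intro p
    have h1 : aeval v p = algebraMap (Algebra.adjoin K (Set.range v)) L (hv.1.aevalEquiv p) :=
      (hv.1.algebraMap_aevalEquiv p).symm
    rw [h1, IsAlgClosure.equivOfEquiv_algebraMap]
    have h2 : e (hv.1.aevalEquiv p) = hv.1.aevalEquiv (φ p) := by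
      simp [e]
    rw [h2, hv.1.algebraMap_aevalEquiv]
  refine ⟨AlgEquiv.ofRingEquiv (f := IsAlgClosure.equivOfEquiv L L e) (fun a => ?_), key⟩
  have h := key (C a)
  rw [← algebraMap_eq, AlgEquiv.commutes, algebraMap_eq, aeval_C] at h
  exact h

/-- **[DESC-AUT]**  For algebraically closed fields `K ⊆ L` and `c ∈ L ∖ K` there is
`σ ∈ Aut(L/K)` with `σ c = c + 1`. -/
theorem s29da_main (K L : Type*) [Field K] [Field L] [Algebra K L] [IsAlgClosed K]
    [IsAlgClosed L] (c : L) (hc : c ∉ Set.range (algebraMap K L)) :
    ∃ σ : L ≃ₐ[K] L, σ c = c + 1 := by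
  classical
  have hx : Transcendental K c := s29da_transcendental c hc
  have hs : AlgebraicIndepOn K id ({c} : Set L) :=
    (algebraicIndependent_singleton_iff (⟨c, rfl⟩ : ({c} : Set L))).mpr hx
  obtain ⟨t, hst, ht⟩ := exists_isTranscendenceBasis_superset hs
  let i0 : t := ⟨c, hst rfl⟩
  let d : t → K := fun i => if i = i0 then 1 else 0
  let f : MvPolynomial t K →ₐ[K] MvPolynomial t K := aeval (fun i => X i + C (d i))
  let g : MvPolynomial t K →ₐ[K] MvPolynomial t K := aeval (fun i => X i - C (d i))
  let φ : MvPolynomial t K ≃ₐ[K] MvPolynomial t K :=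
    AlgEquiv.ofAlgHom f g (by ext i; simp [f, g]) (by ext i; simp [f, g])
  obtain ⟨σ, hσ⟩ := s29da_extend _ ht φ
  refine ⟨σ, ?_⟩
  have h := hσ (X i0)
  have h1 : (aeval (fun i : t => (i : L)) (X i0 : MvPolynomial t K)) = c := by simp [i0]
  have h2 : (aeval (fun i : t => (i : L)) (φ (X i0))) = c + 1 := by
    simp [φ, f, d, i0]
  rw [h1, h2] at h
  exact h

/-- Iterating: `(σ ^ n) c = c + n`. -/
theorem s29da_pow_apply {K L : Type*} [Field K] [Field L] [Algebra K L]
    (σ : L ≃ₐ[K] L) (c : L) (h : σ c = c + 1) (n : ℕ) : (σ ^ n) c = c + n := by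
  induction n with
  | zero => simp
  | succ n ih =>
    rw [pow_succ', AlgEquiv.mul_apply, ih, map_add, h, map_natCast]
    push_cast
    ring

/-- In characteristic zero the `Aut(L/K)`-orbit of an element outside `K` is infinite. -/
theorem s29da_orbit_infinite (K L : Type*) [Field K] [Field L] [Algebra K L] [IsAlgClosed K]
    [IsAlgClosed L] [CharZero L] (c : L) (hc : c ∉ Set.range (algebraMap K L)) :
    (Set.range fun σ : L ≃ₐ[K] L => σ c).Infinite := by
  obtain ⟨σ, hσ⟩ := s29da_main K L c hc
  have hinj : Function.Injective (fun n : ℕ => (σ ^ n) c) := by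
    intro m n hmn
    simp only [s29da_pow_apply σ c hσ] at hmn
    exact_mod_cast add_left_cancel hmn
  refine Set.infinite_of_injective_forall_mem hinj (fun n => ⟨σ ^ n, rfl⟩)

end Fermat.Agent.S29
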