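/-
S29, package [EIG], leaf [DESC] (owner: helper28).  Prefix `s29d_`.  INTERFACE FILE.

[DESC] = "every `n`-torsion class of `Pic⁰(F_L)` comes from `Pic⁰(F_K)`" for an extension
`K ⊆ L` of algebraically closed fields of characteristic `0` (`K = Q̄`, `L = ℂ`), given that
`Pic⁰(F_L)[n]` is finite.

THE CUT.
  [DESC-ABS]  the abstract theorem `s29d_abs` / `s29d_inj_abs` about a pair of function fields
              `ι : F_K → F`, an extension map of places `ext`, and a group `H` of semilinear
              automorphisms of `F / L` (file `DescAbs.lean`, with its hypotheses `s29d_Setup`);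
  [DESC-AUT]  `s29d_AutStatement`: a constant `c ∉ K` is moved to `c + 1` by some `σ ∈ Aut(L/K)`;
  [DESC-FIX]  `s29d_FixStatement`: an element of `F_L` with coefficients in `K` lies in `ι F_K`.
-/
import Mathlib
import Fermat.Prelude.Def_ModularCurve_ArithmeticGalois
import Fermat.Agent.S18.Cfe

set_option autoImplicit false

open AlgebraicCurve ModularCurve

namespace Fermat.Agent.S29

/-- **[DESC-AUT]** a constant outside `K` is moved to `c + 1` by an automorphism of `L / K`. -/
def s29d_AutStatement : Prop :=
  ∀ (K L : Type) [Field K] [Field L] [Algebra K L] [IsAlgClosed K] [IsAlgClosed L]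
    [CharZero K] (c : L), c ∉ Set.range (algebraMap K L) →
      ∃ σ : L ≃ₐ[K] L, σ c = c + 1

/-- **[DESC-FIX]** an element of `F_L` all of whose coefficients lie in `K` comes from `F_K`. -/
def s29d_FixStatement : Prop :=
  ∀ (K L : Type) [Field K] [Algebra ℚ K] [Field L] [Algebra ℚ L] [Algebra K L]
    (F₀ : IntermediateField ℚ (LaurentSeries ℚ)) (f' : ↥(laurentBaseChange L F₀)),
    (∀ n : ℤ, (f' : LaurentSeries L).coeff n ∈ Set.range (algebraMap K L)) →
      ∃ f : ↥(laurentBaseChange K F₀), S18.s18cfe_iota K L F₀ f = f'

end Fermat.Agent.S29
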