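/-
S29 / S42, package [DESC], leaves [DESC-FIX] and [DESC-AUT]: the exports VERBATIM against
`S29/DescDefs.lean` (owner: helper16).  Prefix `s29df_`.

* `s29df_main : s29d_FixStatement` - an element of `F_L` all of whose `q`-expansion coefficients
  lie in `K` comes from `F_K` (the coefficientwise core is helper27's `s29cfx_general`,
  `S29/CoeffFix.lean`);
* `s29df_aut : s29d_AutStatement` - a constant outside `K` is moved to `c + 1` by an automorphism
  of `L / K` (`s29da_main`, `S29/DescAut.lean`);
* `s29df_fixed` : an element of `F_L` fixed by all coefficientwise automorphisms of `L / K`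
  (`K ⊆ L` algebraically closed) comes from `F_K`.
-/
import Mathlib
import Fermat.Agent.S29.DescDefs
import Fermat.Agent.S29.DescAut
import Fermat.Agent.S29.CoeffFix

set_option autoImplicit false

open AlgebraicCurve ModularCurve

namespace Fermat.Agent.S29

/-- **[DESC-FIX]** -/
theorem s29df_main : s29d_FixStatement :=
  fun K L _ _ _ _ _ F₀ f' h => s29cfx_general K L F₀ f' h

/-- **[DESC-AUT]** -/
theorem s29df_aut : s29d_AutStatement :=
  fun K L _ _ _ _ _ _ c hc => s29da_main K L c hc

/-- An element of `L` fixed by every automorphism of `L / K` lies in `K` (`K ⊆ L` algebraically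
closed). -/
theorem s29df_const_fixed (K L : Type) [Field K] [Field L] [Algebra K L] [IsAlgClosed K]
    [IsAlgClosed L] (c : L) (hc : ∀ σ : L ≃ₐ[K] L, σ c = c) :
    c ∈ Set.range (algebraMap K L) := by
  by_contra h
  obtain ⟨σ, hσ⟩ := s29da_main K L c h
  rw [hc σ] at hσ
  exact one_ne_zero (α := L) (by simpa using hσ.symm)

/-- **[DESC-FIX], invariant form.**  An element of `F_L` fixed by all coefficientwise
automorphisms of `L / K` comes from `F_K`. -/
theorem s29df_fixed (K L : Type) [Field K] [Algebra ℚ K] [Field L] [Algebra ℚ L] [Algebra K L]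
    [IsAlgClosed K] [IsAlgClosed L]
    (F₀ : IntermediateField ℚ (LaurentSeries ℚ)) (f' : ↥(laurentBaseChange L F₀))
    (hfix : ∀ σ : L ≃ₐ[K] L,
      coeffMap ((σ : L ≃ₐ[K] L) : L →+* L) (f' : LaurentSeries L) = (f' : LaurentSeries L)) :
    ∃ f : ↥(laurentBaseChange K F₀), S18.s18cfe_iota K L F₀ f = f' := by
  refine s29df_main K L F₀ f' (fun n => ?_)
  refine s29df_const_fixed K L _ (fun σ => ?_)
  have := congrArg (fun z : LaurentSeries L => z.coeff n) (hfix σ)
  simpa using this

end Fermat.Agent.S29
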