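/-
S29 / S42, package [DESC], leaf [DESC-H] (owner: helper16).  Prefix `s29dh_`.

The group `H` of the abstract descent theorem (`s29d_Setup`, `S29/DescSetup.lean`) for a pair of
constant fields `K ⊆ L` and the function fields `F_K = laurentBaseChange K F₀`,
`F_L = laurentBaseChange L F₀`: `H` is the image of `Aut(L/K)` acting coefficientwise
(through the Prelude's `arithmeticGalois`).

* `s29dh_hom : (L ≃ₐ[K] L) →* SemilinearAut L F_L`, `s29dh_H := range`;
* `s29dh_fix_iota`, `s29dh_trans`, `s29dh_fixed` : the fields `fix_iota`, `trans`, `fixed`;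
* `s29dh_setup_of` : the `s29d_Setup` for `ext := s29bc_ext` (helper12) from the function-field
  facts about `F_L`.
-/
import Mathlib
import Fermat.Agent.S29.DescSetup
import Fermat.Agent.S29.DescFix
import Fermat.Agent.S29.DescBcMod

set_option autoImplicit false

open AlgebraicCurve ModularCurve

noncomputable section

namespace Fermat.Agent.S29

section H

variable (K L : Type) [Field K] [Field L] [Algebra ℚ L] [Algebra K L]
  (F₀ : IntermediateField ℚ (LaurentSeries ℚ))

/-- A `K`-automorphism of `L` as a `ℚ`-automorphism. -/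
def s29dh_toQ : (L ≃ₐ[K] L) →* (L ≃ₐ[ℚ] L) where
  toFun σ := AlgEquiv.ofRingEquiv (f := σ.toRingEquiv) (fun q => by
    rw [eq_ratCast (algebraMap ℚ L) q]
    exact map_ratCast σ q)
  map_one' := by
    ext x
    rfl
  map_mul' σ τ := by
    ext x
    rfl

@[simp]
theorem s29dh_toQ_apply (σ : L ≃ₐ[K] L) (x : L) : s29dh_toQ K L σ x = σ x := rfl

/-- The coefficientwise action of `Aut(L/K)` on `F_L`. -/
def s29dh_hom : (L ≃ₐ[K] L) →* SemilinearAut L ↥(laurentBaseChange L F₀) :=
  (arithmeticGalois F₀).comp (s29dh_toQ K L)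

/-- The group `H`: the coefficientwise automorphisms of `F_L` coming from `Aut(L/K)`. -/
def s29dh_H : Subgroup (SemilinearAut L ↥(laurentBaseChange L F₀)) :=
  (s29dh_hom K L F₀).range

variable {K L F₀}

theorem s29dh_mem_H {g : SemilinearAut L ↥(laurentBaseChange L F₀)} :
    g ∈ s29dh_H K L F₀ ↔ ∃ σ : L ≃ₐ[K] L, s29dh_hom K L F₀ σ = g :=
  MonoidHom.mem_range

theorem s29dh_hom_mem (σ : L ≃ₐ[K] L) : s29dh_hom K L F₀ σ ∈ s29dh_H K L F₀ :=
  ⟨σ, rfl⟩

theorem s29dh_coe_smul (σ : L ≃ₐ[K] L) (x : ↥(laurentBaseChange L F₀)) :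
    ((s29dh_hom K L F₀ σ • x : ↥(laurentBaseChange L F₀)) : LaurentSeries L) =
      coeffMap ((σ : L ≃ₐ[K] L) : L →+* L) (x : LaurentSeries L) := by
  show ((arithmeticGalois F₀ (s29dh_toQ K L σ) • x : ↥(laurentBaseChange L F₀)) :
    LaurentSeries L) = _
  rw [coe_arithmeticGalois_smul]
  exact coeffMap_congr (RingHom.ext fun a => rfl) _

theorem s29dh_baseAut (σ : L ≃ₐ[K] L) (c : L) :
    SemilinearAut.baseAut (s29dh_hom K L F₀ σ) c = σ c := rfl

variable [Algebra ℚ K]

/-- The field `fix_iota` of `s29d_Setup`. -/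
theorem s29dh_fix_iota : ∀ g ∈ s29dh_H K L F₀, ∀ f : ↥(laurentBaseChange K F₀),
    g • S18.s18cfe_iota K L F₀ f = S18.s18cfe_iota K L F₀ f := by
  rintro g ⟨σ, rfl⟩ f
  apply Subtype.ext
  rw [s29dh_coe_smul, S18.s18cfe_iota_coe, coeffMap_coeffMap]
  exact coeffMap_congr (RingHom.ext fun a => σ.commutes a) _

omit [Algebra ℚ K] in
/-- The field `trans` of `s29d_Setup`. -/
theorem s29dh_trans [IsAlgClosed K] [IsAlgClosed L] :
    ∀ c : L, c ∉ Set.range (algebraMap K L) →
      ∃ g ∈ s29dh_H K L F₀, SemilinearAut.baseAut g c = c + 1 := by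
  intro c hc
  obtain ⟨σ, hσ⟩ := s29da_main K L c hc
  exact ⟨s29dh_hom K L F₀ σ, s29dh_hom_mem σ, by rw [s29dh_baseAut, hσ]⟩

/-- The field `fixed` of `s29d_Setup`. -/
theorem s29dh_fixed [IsAlgClosed K] [IsAlgClosed L] :
    ∀ f' : ↥(laurentBaseChange L F₀), (∀ g ∈ s29dh_H K L F₀, g • f' = f') →
      ∃ f : ↥(laurentBaseChange K F₀), S18.s18cfe_iota K L F₀ f = f' := by
  intro f' hf'
  refine s29df_fixed K L F₀ f' (fun σ => ?_)
  have h := hf' _ (s29dh_hom_mem (F₀ := F₀) σ)
  rw [← s29dh_coe_smul, h]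

/-- **[DESC-H]** the `s29d_Setup` for the pair `(F_K, F_L)`, `ext := s29bc_ext`, `H := s29dh_H`,
from the function-field facts. -/
theorem s29dh_setup_of [IsAlgClosed K] [IsAlgClosed L]
    (hdeg : ∀ Q : Place K ↥(laurentBaseChange K F₀), Q.deg = 1)
    (res : ∀ (P : Place L ↥(laurentBaseChange L F₀)) (f : ↥(laurentBaseChange L F₀)),
      f ∈ P.toValuationSubring →
        ∃ c : L, f - algebraMap L ↥(laurentBaseChange L F₀) c ∈ P.toValuationSubring.nonunits)
    (princ : HasPrincipalDivisors L ↥(laurentBaseChange L F₀))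
    (deg_one : ∀ P : Place L ↥(laurentBaseChange L F₀), P.deg = 1)
    (riemann : ∃ c : ℤ, ∀ D : Divisor L ↥(laurentBaseChange L F₀), c ≤ Divisor.degree D →
      ∃ f : ↥(laurentBaseChange L F₀), f ≠ 0 ∧
        ∀ v : Place L ↥(laurentBaseChange L F₀), 0 ≤ v.ord f + D v)
    (nonconst : ∃ t : ↥(laurentBaseChange K F₀),
      ∀ c : K, t ≠ algebraMap K ↥(laurentBaseChange K F₀) c)
    (place : Nonempty (Place K ↥(laurentBaseChange K F₀))) :
    s29d_Setup (algebraMap K L) (S18.s18cfe_iota K L F₀) (s29bc_ext K L F₀ hdeg)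
      (s29dh_H K L F₀) where
  res := res
  princ := princ
  deg_one := deg_one
  deg_oneK := hdeg
  riemann := riemann
  iota_alg := S18.s18cfe_iota_algebraMap K L F₀
  ext_ord := s29bc_ext_ord hdeg
  ext_unique := fun P _ h => s29bc_ext_unique hdeg P h
  ext_or := s29bc_ext_or hdeg
  fix_iota := s29dh_fix_iota
  trans := s29dh_trans
  fixed := s29dh_fixed
  nonconst := nonconst
  place := place

end H

end Fermat.Agent.S29
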