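/-
S29, package [EIG], leaf [DESC-INJ] = (D2) of helper28's cut (helper27).  Prefix `s29di_`.

`s29di_main`: in the situation `s29d_Setup φ ι ext H` of the abstract descent theorem, a divisor
`D₁` of `F_K` whose extension `ext_* D₁` to `F` is principal is principal.

Proof: `ext_* D₁ = div f'`.  Every `g ∈ H` fixes the places `ext P`, hence the divisor
`ext_* D₁`, hence `g • f' = b_g f'` for a constant `b_g` (a function without zeros and poles is
constant).  Normalising `f'` by its leading coefficient at a place `ext P₀` (with respect to a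
uniformizer `ι π`) gives an `H`-invariant function `f'' = a⁻¹ f'`, which lies in `ι F_K`.
-/
import Mathlib
import Fermat.Agent.S24.PlaceBasic
import Fermat.Agent.S29.DescSetup

set_option autoImplicit false
set_option linter.unusedSectionVars false
set_option linter.style.haveILetI false

open AlgebraicCurve

namespace Fermat.Agent.S29

section Gen

variable {K F : Type*} [Field K] [Field F] [Algebra K F]

theorem s29di_nonunits_sub (v : Place K F) {x y : F}
    (hx : x ∈ v.toValuationSubring.nonunits) (hy : y ∈ v.toValuationSubring.nonunits) :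
    x - y ∈ v.toValuationSubring.nonunits := by
  rw [ValuationSubring.mem_nonunits_iff_exists_mem_maximalIdeal] at hx hy ⊢
  obtain ⟨hx1, hx2⟩ := hx
  obtain ⟨hy1, hy2⟩ := hy
  exact ⟨sub_mem hx1 hy1,
    (show (⟨x, hx1⟩ - ⟨y, hy1⟩ : v.toValuationSubring) ∈ IsLocalRing.maximalIdeal _ from
      (IsLocalRing.maximalIdeal v.toValuationSubring).sub_mem hx2 hy2)⟩

theorem s29di_nonunits_mul (v : Place K F) {c x : F} (hc : c ∈ v.toValuationSubring)
    (hx : x ∈ v.toValuationSubring.nonunits) : c * x ∈ v.toValuationSubring.nonunits := by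
  rw [ValuationSubring.mem_nonunits_iff_exists_mem_maximalIdeal] at hx ⊢
  obtain ⟨hx1, hx2⟩ := hx
  exact ⟨mul_mem hc hx1,
    (show (⟨c, hc⟩ * ⟨x, hx1⟩ : v.toValuationSubring) ∈ IsLocalRing.maximalIdeal _ from
      (IsLocalRing.maximalIdeal v.toValuationSubring).mul_mem_left ⟨c, hc⟩ hx2)⟩

theorem s29di_smul_nonunits (g : SemilinearAut K F) (v : Place K F) {x : F}
    (hx : x ∈ v.toValuationSubring.nonunits) : g • x ∈ (g • v).toValuationSubring.nonunits := by
  rw [S24.place_mem_nonunits_iff'] at hx ⊢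
  rcases hx with rfl | hx
  · left; simp
  · right; rwa [SemilinearAut.ord_smul]

theorem s29di_degree_eq (D : Divisor K F) :
    Divisor.degree D = D.sum fun v n => n * (v.deg : ℤ) := by
  simp [Divisor.degree, Finsupp.liftAddHom_apply]

theorem s29di_degree_pos (hdeg : ∀ P : Place K F, P.deg = 1) (D : Divisor K F)
    (h0 : ∀ v, 0 ≤ D v) (P : Place K F) (hP : 0 < D P) : 0 < Divisor.degree D := by
  rw [s29di_degree_eq, Finsupp.sum]
  have hmem : P ∈ D.support := Finsupp.mem_support_iff.2 (ne_of_gt hP)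
  have h1 : D P * (P.deg : ℤ) ≤ ∑ v ∈ D.support, D v * (v.deg : ℤ) :=
    Finset.single_le_sum (f := fun v => D v * (v.deg : ℤ))
      (fun v _ => mul_nonneg (h0 v) (Int.natCast_nonneg _)) hmem
  rw [hdeg P] at h1
  simp only [Nat.cast_one, mul_one] at h1
  exact lt_of_lt_of_le hP h1

/-- A function without poles is constant. -/
theorem s29di_const
    (hres : ∀ (P : Place K F) (f : F), f ∈ P.toValuationSubring →
      ∃ c : K, f - algebraMap K F c ∈ P.toValuationSubring.nonunits)
    (hprinc : HasPrincipalDivisors K F) (hdeg : ∀ P : Place K F, P.deg = 1)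
    (P₀ : Place K F) (y : F) (hy : ∀ v : Place K F, 0 ≤ v.ord y) :
    ∃ c : K, y = algebraMap K F c := by
  obtain ⟨c, hc⟩ := hres P₀ y ((S24.place_mem_iff P₀).2 (hy P₀))
  refine ⟨c, ?_⟩
  by_contra hne
  have hz : y - algebraMap K F c ≠ 0 := fun h => hne (sub_eq_zero.1 h)
  obtain ⟨D, hD, hdegD⟩ := hprinc.exists_divisor (y - algebraMap K F c) hz
  have h0 : ∀ v, 0 ≤ D v := by
    intro v
    rw [hD v, ← S24.place_mem_iff]
    exact sub_mem ((S24.place_mem_iff v).2 (hy v)) (v.algebraMap_mem' c)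
  have hP : 0 < D P₀ := by
    rw [hD P₀]
    exact (S24.place_mem_nonunits_iff P₀ hz).1 hc
  have := s29di_degree_pos hdeg D h0 P₀ hP
  omega

end Gen

section Main

variable {K FK L F : Type*} [Field K] [Field FK] [Algebra K FK] [Field L] [Field F]
  [Algebra L F]
variable {φ : K →+* L} {ι : FK →+* F} {ext : Place K FK → Place L F}
  {H : Subgroup (SemilinearAut L F)}

theorem s29di_ext_injective (h : s29d_Setup φ ι ext H) : Function.Injective ext := by
  intro P Q hPQ
  rw [S24.place_eq_iff]
  intro f hf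
  rw [S24.place_mem_iff] at hf ⊢
  rw [← h.ext_ord Q f, ← hPQ, h.ext_ord P f]
  exact hf

theorem s29di_smul_ext (h : s29d_Setup φ ι ext H) (g : SemilinearAut L F) (hg : g ∈ H)
    (P : Place K FK) : g • ext P = ext P :=
  h.ext_unique P (g • ext P) fun f => by
    have := SemilinearAut.ord_smul g (ext P) (ι f)
    rw [h.fix_iota g hg f] at this
    rw [this, h.ext_ord]

theorem s29di_smul_mapDomain (h : s29d_Setup φ ι ext H) (g : SemilinearAut L F) (hg : g ∈ H)
    (D₁ : Divisor K FK) :
    g • (Finsupp.mapDomain ext D₁ : Divisor L F) = Finsupp.mapDomain ext D₁ := by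
  rw [SemilinearAut.divisor_smul_def, ← Finsupp.mapDomain_comp]
  congr 1
  funext P
  exact s29di_smul_ext h g hg P

/-- **[DESC-INJ]** a divisor of `F_K` whose extension to `F` is principal is principal. -/
theorem s29di_main (h : s29d_Setup φ ι ext H) (D₁ : Divisor K FK)
    (hD : Finsupp.mapDomain ext D₁ ∈ Divisor.principal (K := L) (F := F)) :
    D₁ ∈ Divisor.principal (K := K) (F := FK) := by
  classical
  obtain ⟨f', hf'0, hf'⟩ := hD
  obtain ⟨P₀⟩ := h.place
  set Q₀ : Place L F := ext P₀ with hQ₀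
  -- (i)+(ii): `g • f' = b_g f'`
  have hb : ∀ g ∈ H, ∃ b : L, b ≠ 0 ∧ g • f' = algebraMap L F b * f' := by
    intro g hg
    have hgf0 : g • f' ≠ 0 := by
      rw [SemilinearAut.smul_def]
      exact (map_ne_zero_iff _ (SemilinearAut.toRingAut g).injective).2 hf'0
    have hord : ∀ v : Place L F, v.ord (g • f') = v.ord f' := by
      intro v
      have h1 := SemilinearAut.ord_smul g (g⁻¹ • v) f'
      rw [smul_inv_smul] at h1
      rw [h1, ← hf' (g⁻¹ • v), ← SemilinearAut.divisor_smul_apply,
        s29di_smul_mapDomain h g hg, hf' v]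
    obtain ⟨b, hb⟩ := s29di_const h.res h.princ h.deg_one Q₀ ((g • f') * f'⁻¹) (fun v => by
      rw [Place.ord_mul v hgf0 (inv_ne_zero hf'0), Place.ord_inv, hord v]
      omega)
    have hb' : g • f' = algebraMap L F b * f' := by
      rw [← hb, inv_mul_cancel_right₀ hf'0]
    refine ⟨b, ?_, hb'⟩
    rintro rfl
    apply hgf0
    rw [hb', map_zero, zero_mul]
  -- (iii): normalisation at `Q₀`
  obtain ⟨π, hπ⟩ := S24.place_exists_irreducible P₀
  have hπ1 : P₀.ord (π : FK) = 1 := P₀.ord_coe_irreducible hπ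
  have hπ0 : (π : FK) ≠ 0 := by
    intro h0
    rw [h0, Place.ord_zero] at hπ1
    omega
  have hιπ0 : ι (π : FK) ≠ 0 := (map_ne_zero_iff _ ι.injective).2 hπ0
  have hιπ1 : Q₀.ord (ι (π : FK)) = 1 := by rw [hQ₀, h.ext_ord, hπ1]
  set k : ℤ := Q₀.ord f' with hk
  set u : F := f' * (ι (π : FK)) ^ (-k) with hu
  have hu0 : u ≠ 0 := mul_ne_zero hf'0 (zpow_ne_zero _ hιπ0)
  have huord : Q₀.ord u = 0 := by
    rw [hu, Place.ord_mul Q₀ hf'0 (zpow_ne_zero _ hιπ0), Place.ord_zpow, hιπ1, ← hk]
    ring
  obtain ⟨hu1, hu2⟩ := (S24.place_ord_eq_zero_iff Q₀ hu0).1 huord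
  obtain ⟨a, ha⟩ := h.res Q₀ u hu1
  have ha0 : a ≠ 0 := by
    rintro rfl
    rw [map_zero, sub_zero] at ha
    exact hu2 ha
  have hga : ∀ g ∈ H, ∀ b : L, g • f' = algebraMap L F b * f' →
      SemilinearAut.baseAut g a = b * a := by
    intro g hg b hb
    have hgu : g • u = algebraMap L F b * u := by
      rw [hu, SemilinearAut.smul_def, map_mul, map_zpow₀, ← SemilinearAut.smul_def,
        ← SemilinearAut.smul_def, hb, h.fix_iota g hg, mul_assoc]
    have h1 : g • (u - algebraMap L F a) ∈ Q₀.toValuationSubring.nonunits := by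
      have := s29di_smul_nonunits g Q₀ ha
      rwa [hQ₀, s29di_smul_ext h g hg P₀] at this
    rw [smul_sub, hgu, SemilinearAut.smul_algebraMap] at h1
    have h2 : algebraMap L F b * (u - algebraMap L F a) ∈ Q₀.toValuationSubring.nonunits :=
      s29di_nonunits_mul Q₀ (Q₀.algebraMap_mem' b) ha
    have h3 := s29di_nonunits_sub Q₀ h2 h1
    have e : algebraMap L F b * (u - algebraMap L F a) -
        (algebraMap L F b * u - algebraMap L F (SemilinearAut.baseAut g a)) =
        algebraMap L F (SemilinearAut.baseAut g a - b * a) := by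
      rw [map_sub, map_mul]
      ring
    rw [e] at h3
    by_contra hne
    exact S24.place_algebraMap_not_mem_nonunits Q₀ (sub_ne_zero.2 hne) h3
  set f'' : F := algebraMap L F a⁻¹ * f' with hf''
  have hf''0 : f'' ≠ 0 :=
    mul_ne_zero ((map_ne_zero_iff _ (algebraMap L F).injective).2 (inv_ne_zero ha0)) hf'0
  have hfix : ∀ g ∈ H, g • f'' = f'' := by
    intro g hg
    obtain ⟨b, hb0, hb⟩ := hb g hg
    have hab := hga g hg b hb
    rw [hf'', smul_mul', SemilinearAut.smul_algebraMap, hb, map_inv₀, hab, ← mul_assoc,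
      ← map_mul]
    congr 2
    field_simp
  -- (iv)
  obtain ⟨f, hf⟩ := h.fixed f'' hfix
  have hf0 : f ≠ 0 := by
    rintro rfl
    rw [map_zero] at hf
    exact hf''0 hf.symm
  refine ⟨f, hf0, fun P => ?_⟩
  rw [← h.ext_ord P f, hf, hf'',
    Place.ord_mul _ ((map_ne_zero_iff _ (algebraMap L F).injective).2 (inv_ne_zero ha0)) hf'0,
    S24.place_ord_algebraMap, zero_add, ← hf' (ext P),
    Finsupp.mapDomain_apply (s29di_ext_injective h)]

end Main

end Fermat.Agent.S29
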