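/-
S29, package [EIG], leaf [DESC] (owner: helper28), the export in `Pic⁰` vocabulary.
Prefix `s29d_`.

In the situation `s29d_Setup φ ι ext H` (file `DescSetup.lean`), with helper12's base change
`s29bc_pic : Pic⁰(F_K) → Pic⁰(F)` (file `DescBcPic.lean`) and the injectivity on divisors
[DESC-INJ] as a hypothesis:

* `s29d_isExt`: the extension datum `s29bc_IsExt ι ext` of `DescBcPic.lean` from the setup;
* `s29d_pic_injective`: `s29bc_pic` is injective;
* `s29d_main_abs`: if `Pic⁰(F)[n]` is finite, every `x ∈ Pic⁰(F)[n]` is `s29bc_pic y` for some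
  `y ∈ Pic⁰(F_K)[n]`;
* `s29d_bijOn`: `s29bc_pic` restricts to a bijection `Pic⁰(F_K)[n] → Pic⁰(F)[n]`.
-/
import Mathlib
import Fermat.Prelude.Def_AlgebraicCurve_BaseChangeGalois
import Fermat.Agent.S29.DescSetup
import Fermat.Agent.S29.DescAbs
import Fermat.Agent.S29.DescBcPic

set_option autoImplicit false

open AlgebraicCurve

noncomputable section

namespace Fermat.Agent.S29

variable {K FK L F : Type*} [Field K] [Field FK] [Algebra K FK] [Field L] [Field F]
  [Algebra L F]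

variable {φ : K →+* L} {ι : FK →+* F} {ext : Place K FK → Place L F}
  {H : Subgroup (SemilinearAut L F)}

/-- The extension datum of `DescBcPic.lean`, from the setup. -/
theorem s29d_isExt (h : s29d_Setup φ ι ext H) : s29bc_IsExt ι ext :=
  ⟨h.ext_ord, h.ext_or, fun P => by rw [h.deg_one, h.deg_oneK]⟩

/-- `Pic⁰(F_K) → Pic⁰(F)` is injective. -/
theorem s29d_pic_injective (hext : s29bc_IsExt ι ext)
    (hinj : ∀ D₁ : Divisor K FK, Finsupp.mapDomain ext D₁ ∈ Divisor.principal (K := L) (F := F) →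
      D₁ ∈ Divisor.principal (K := K) (F := FK)) :
    Function.Injective (s29bc_pic hext) := by
  rw [injective_iff_map_eq_zero]
  intro y hy
  obtain ⟨D, rfl⟩ := Pic0.mk_surjective y
  rw [s29bc_pic_mk_eq_zero_iff] at hy
  have h1 : (D : Divisor K FK) ∈ Divisor.principal (K := K) (F := FK) := hinj _ hy
  rw [Pic0.mk, QuotientAddGroup.eq_zero_iff, AddSubgroup.mem_addSubgroupOf]
  exact h1

theorem s29d_zsmul_mk_eq_zero_iff {K₁ F₁ : Type*} [Field K₁] [Field F₁] [Algebra K₁ F₁]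
    (n : ℤ) (D : Divisor.degZero (K := K₁) (F := F₁)) :
    n • Pic0.mk D = 0 ↔ n • (D : Divisor K₁ F₁) ∈ Divisor.principal (K := K₁) (F := F₁) := by
  show n • (QuotientAddGroup.mk D : Pic0 K₁ F₁) = 0 ↔ _
  rw [← QuotientAddGroup.mk_zsmul, QuotientAddGroup.eq_zero_iff,
    AddSubgroup.mem_addSubgroupOf]
  rfl

/-- **[DESC]**, abstract form: every `n`-torsion class of `Pic⁰(F)` descends. -/
theorem s29d_main_abs [CharZero L] (h : s29d_Setup φ ι ext H) (hext : s29bc_IsExt ι ext)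
    (hinj : ∀ D₁ : Divisor K FK, Finsupp.mapDomain ext D₁ ∈ Divisor.principal (K := L) (F := F) →
      D₁ ∈ Divisor.principal (K := K) (F := FK))
    (n : ℕ) (hfin : {y : Pic0 L F | (n : ℤ) • y = 0}.Finite) (x : Pic0 L F)
    (hx : (n : ℤ) • x = 0) :
    ∃ y : Pic0 K FK, (n : ℤ) • y = 0 ∧ s29bc_pic hext y = x := by
  obtain ⟨⟨D, hD⟩, rfl⟩ := Pic0.mk_surjective x
  have hn : (n : ℤ) • D ∈ Divisor.principal (K := L) (F := F) :=
    (s29d_zsmul_mk_eq_zero_iff (n : ℤ) ⟨D, hD⟩).1 hx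
  obtain ⟨D₀, hD₀, hD₀D⟩ := s29d_abs h n hfin D hD hn
  refine ⟨Pic0.mk ⟨D₀, hD₀⟩, ?_, ?_⟩
  · rw [s29d_zsmul_mk_eq_zero_iff]
    apply hinj
    have h1 : Finsupp.mapDomain ext ((n : ℤ) • D₀) =
        (n : ℤ) • (Finsupp.mapDomain ext D₀ - D) + (n : ℤ) • D := by
      have h2 := map_zsmul (Finsupp.mapDomain.addMonoidHom ext :
        (Place K FK →₀ ℤ) →+ (Place L F →₀ ℤ)) (n : ℤ) D₀
      simp only [Finsupp.mapDomain.addMonoidHom_apply] at h2
      rw [h2, smul_sub, sub_add_cancel]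
    show Finsupp.mapDomain ext ((n : ℤ) • D₀) ∈ Divisor.principal (K := L) (F := F)
    rw [h1]
    exact add_mem ((Divisor.principal (K := L) (F := F)).zsmul_mem hD₀D _) hn
  · rw [s29bc_pic_mk]
    refine (QuotientAddGroup.eq (s := (Divisor.principal (K := L) (F := F)).addSubgroupOf
      (Divisor.degZero (K := L) (F := F)))).2 ?_
    rw [AddSubgroup.mem_addSubgroupOf]
    have h2 : ((-(s29bc_degZero hext ⟨D₀, hD₀⟩) + (⟨D, hD⟩ :
        Divisor.degZero (K := L) (F := F)) : Divisor.degZero (K := L) (F := F)) :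
        Divisor L F) = -(Finsupp.mapDomain ext D₀ - D) := by
      rw [AddSubgroup.coe_add, AddSubgroup.coe_neg, s29bc_coe_degZero, s29bc_div_apply]
      abel
    rw [h2]
    exact neg_mem hD₀D

/-- `s29bc_pic` maps `n`-torsion to `n`-torsion. -/
theorem s29d_pic_torsion (hext : s29bc_IsExt ι ext) (n : ℤ) (y : Pic0 K FK)
    (hy : n • y = 0) : n • s29bc_pic hext y = 0 := by
  rw [← map_zsmul, hy, map_zero]

/-- **[DESC]**: `Pic⁰(F_K)[n] → Pic⁰(F)[n]` is bijective. -/
theorem s29d_bijOn [CharZero L] (h : s29d_Setup φ ι ext H) (hext : s29bc_IsExt ι ext)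
    (hinj : ∀ D₁ : Divisor K FK, Finsupp.mapDomain ext D₁ ∈ Divisor.principal (K := L) (F := F) →
      D₁ ∈ Divisor.principal (K := K) (F := FK))
    (n : ℕ) (hfin : {y : Pic0 L F | (n : ℤ) • y = 0}.Finite) :
    Set.BijOn (s29bc_pic hext) {y : Pic0 K FK | (n : ℤ) • y = 0}
      {y : Pic0 L F | (n : ℤ) • y = 0} := by
  refine ⟨fun y hy => s29d_pic_torsion hext n y hy,
    (s29d_pic_injective hext hinj).injOn, fun x hx => ?_⟩
  obtain ⟨y, hy, hyx⟩ := s29d_main_abs h hext hinj n hfin x hx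
  exact ⟨y, hy, hyx⟩

end Fermat.Agent.S29

end
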