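/-
S29, package [EIG], leaf [DESC] (owner: helper28): THE CONCRETE THEOREM.  Prefix `s29d_`.

For an extension `K ⊆ L` of algebraically closed fields of characteristic `0` and
`F₀ ⊆ ℚ((q))` such that `F_K = laurentBaseChange K F₀` and `F_L = laurentBaseChange L F₀` have
coordinates:

* `s29d_setup_coord`: the hypotheses `s29d_Setup` of the abstract descent theorem hold for
  `ι := S18.s18cfe_iota`, `ext := s29bc_ext` (helper12), `H := s29dh_H` (helper16);
* `s29d_final_injective`: `s29bc_pic : Pic⁰(F_K) → Pic⁰(F_L)` is injective;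
* `s29d_final_bijOn`: if `Pic⁰(F_L)[n]` is finite, `s29bc_pic` restricts to a bijection
  `Pic⁰(F_K)[n] → Pic⁰(F_L)[n]`.

For `K = Q̄`, `L = ℂ`, `F₀ = modularFunctionFieldFull N`:

* `s29d_kbc_of : s29d_RootFinStatement → s29d_HeckeBCStatement → s29k_BCStatement`
  ([K-BC] of helper26's `KumDefs.lean`, VERBATIM).
-/
import Mathlib
import Fermat.Agent.S24.Defs
import Fermat.Agent.S24.ANDefs
import Fermat.Agent.S24.DiffFinal
import Fermat.Agent.S24.FFIdentity
import Fermat.Agent.S24.CoordDiv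
import Fermat.Agent.S24.Final
import Fermat.Agent.S37.Riemann
import Fermat.Agent.S37.RatlQ
import Fermat.Agent.S29.DescSetup
import Fermat.Agent.S29.DescAbs
import Fermat.Agent.S29.DescMain
import Fermat.Agent.S29.DescInj
import Fermat.Agent.S29.DescH
import Fermat.Agent.S29.DescBcMod
import Fermat.Agent.S29.DescBcPic
import Fermat.Agent.S29.DictC.Final
import Fermat.Agent.S29.KumDefs

set_option autoImplicit false
set_option linter.style.haveILetI false

open AlgebraicCurve ModularCurve IntermediateField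

noncomputable section

namespace Fermat.Agent.S29

open Fermat.Agent.S24 Fermat.Agent.S37

section Generic

variable (K L : Type) [Field K] [Algebra ℚ K] [Field L] [Algebra ℚ L] [Algebra K L]
  [IsAlgClosed K] [IsAlgClosed L] [CharZero K] [CharZero L]
  (F₀ : IntermediateField ℚ (LaurentSeries ℚ))

/-- A function field with a coordinate has a place. -/
theorem s29d_nonempty_place {K₁ F₁ : Type} [Field K₁] [Field F₁] [Algebra K₁ F₁]
    [IsAlgClosed K₁] [CharZero K₁] (u : F₁) (hu : IsCoordinate K₁ u) :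
    Nonempty (Place K₁ F₁) := by
  classical
  obtain ⟨hfin, h⟩ := ff_fundamentalIdentity K₁ F₁ u hu
  by_contra hne
  rw [not_nonempty_iff] at hne
  have hempty : hfin.toFinset = ∅ := by
    rw [Finset.eq_empty_iff_forall_notMem]
    intro v
    exact (hne.false v).elim
  rw [hempty, Finset.sum_empty] at h
  haveI := hu.finite
  have hpos : 0 < Module.finrank K₁⟮u⟯ F₁ := Module.finrank_pos
  omega

/-- **The setup** at `(F_K, F_L)` from coordinates. -/
theorem s29d_setup_coord (uK : ↥(laurentBaseChange K F₀)) (huK : IsCoordinate K uK)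
    (uL : ↥(laurentBaseChange L F₀)) (huL : IsCoordinate L uL)
    (hdeg : ∀ Q : Place K ↥(laurentBaseChange K F₀), Q.deg = 1) :
    s29d_Setup (algebraMap K L) (S18.s18cfe_iota K L F₀) (s29bc_ext K L F₀ hdeg)
      (s29dh_H K L F₀) :=
  s29dh_setup_of (K := K) (L := L) (F₀ := F₀) hdeg
    (fun P f hf => s37rl_res (diff_isAlgebraic_of_isCoordinate huL) P f hf)
    (coord_principalDivisor ff_fundamentalIdentity L _ uL huL)
    (diff_degOneStatement L _ uL huL)
    (s37t_rr_main L _ uL huL)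
    ⟨uK, fun c hc => huK.transcendental (hc ▸ isAlgebraic_algebraMap c)⟩
    (s29d_nonempty_place uK huK)

/-- **[DESC]** `Pic⁰(F_K) → Pic⁰(F_L)` is injective. -/
theorem s29d_final_injective (uK : ↥(laurentBaseChange K F₀)) (huK : IsCoordinate K uK)
    (uL : ↥(laurentBaseChange L F₀)) (huL : IsCoordinate L uL)
    (hdeg : ∀ Q : Place K ↥(laurentBaseChange K F₀), Q.deg = 1)
    (hext : s29bc_IsExt (S18.s18cfe_iota K L F₀) (s29bc_ext K L F₀ hdeg)) :
    Function.Injective (s29bc_pic hext) :=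
  s29d_pic_injective hext (s29di_main (s29d_setup_coord K L F₀ uK huK uL huL hdeg))

/-- **[DESC]** `Pic⁰(F_K)[n] → Pic⁰(F_L)[n]` is bijective if `Pic⁰(F_L)[n]` is finite. -/
theorem s29d_final_bijOn (uK : ↥(laurentBaseChange K F₀)) (huK : IsCoordinate K uK)
    (uL : ↥(laurentBaseChange L F₀)) (huL : IsCoordinate L uL)
    (hdeg : ∀ Q : Place K ↥(laurentBaseChange K F₀), Q.deg = 1)
    (hext : s29bc_IsExt (S18.s18cfe_iota K L F₀) (s29bc_ext K L F₀ hdeg)) (n : ℕ)
    (hfin : {y : Pic0 L ↥(laurentBaseChange L F₀) | (n : ℤ) • y = 0}.Finite) :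
    Set.BijOn (s29bc_pic hext) {y : Pic0 K ↥(laurentBaseChange K F₀) | (n : ℤ) • y = 0}
      {y : Pic0 L ↥(laurentBaseChange L F₀) | (n : ℤ) • y = 0} :=
  s29d_bijOn (s29d_setup_coord K L F₀ uK huK uL huL hdeg) hext
    (s29di_main (s29d_setup_coord K L F₀ uK huK uL huL hdeg)) n hfin

/-- **[DESC]** every `n`-torsion class of `Pic⁰(F_L)` descends, if `Pic⁰(F_L)[n]` is finite. -/
theorem s29d_final (uK : ↥(laurentBaseChange K F₀)) (huK : IsCoordinate K uK)
    (uL : ↥(laurentBaseChange L F₀)) (huL : IsCoordinate L uL)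
    (hdeg : ∀ Q : Place K ↥(laurentBaseChange K F₀), Q.deg = 1)
    (hext : s29bc_IsExt (S18.s18cfe_iota K L F₀) (s29bc_ext K L F₀ hdeg)) (n : ℕ)
    (hfin : {y : Pic0 L ↥(laurentBaseChange L F₀) | (n : ℤ) • y = 0}.Finite)
    (x : Pic0 L ↥(laurentBaseChange L F₀)) (hx : (n : ℤ) • x = 0) :
    ∃ y : Pic0 K ↥(laurentBaseChange K F₀), (n : ℤ) • y = 0 ∧ s29bc_pic hext y = x :=
  s29d_main_abs (s29d_setup_coord K L F₀ uK huK uL huL hdeg) hext
    (s29di_main (s29d_setup_coord K L F₀ uK huK uL huL hdeg)) n hfin x hx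

end Generic

/-! ### The modular case `K = Q̄`, `L = ℂ` -/

/-- **[ROOT-FIN]** (input): the `n`-torsion of `Pic⁰(F_ℂ)` is finite. -/
def s29d_RootFinStatement : Prop :=
  ∀ (N : ℕ) [NeZero N] (n : ℕ), 0 < n →
    {x : Pic0 ℂ ↥(laurentBaseChange ℂ (modularFunctionFieldFull N)) | (n : ℤ) • x = 0}.Finite

/-- **[DESC-HECKE]** (input): base change commutes with the Hecke operators, for every
embedding `Q̄ → ℂ`. -/
def s29d_HeckeBCStatement : Prop :=
  ∀ (_ : Algebra (AlgebraicClosure ℚ) ℂ) (N : ℕ) [NeZero N]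
    (hdeg : ∀ Q : Place (AlgebraicClosure ℚ)
      ↥(laurentBaseChange (AlgebraicClosure ℚ) (modularFunctionFieldFull N)), Q.deg = 1)
    (hext : s29bc_IsExt
      (S18.s18cfe_iota (AlgebraicClosure ℚ) ℂ (modularFunctionFieldFull N))
      (s29bc_ext (AlgebraicClosure ℚ) ℂ (modularFunctionFieldFull N) hdeg))
    (ℓ : ℕ) [NeZero ℓ], ℓ.Prime → ¬ ℓ ∣ N → ∀ y : JZero N,
      s29bc_pic hext (heckeOperatorAlong (AlgebraicClosure ℚ) N ℓ y) =
        heckeOperatorAlong ℂ N ℓ (s29bc_pic hext y)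

/-- **[K-BC]** of `KumDefs.lean` from [ROOT-FIN] and [DESC-HECKE]. -/
theorem s29d_kbc_of (hRF : s29d_RootFinStatement) (hHecke : s29d_HeckeBCStatement) :
    s29k_BCStatement := by
  intro N _ n hn
  letI inst : Algebra (AlgebraicClosure ℚ) ℂ := (Fermat.Agent.S24.iota).toAlgebra
  have huK : IsCoordinate (AlgebraicClosure ℚ) (Fermat.Agent.S24.jF N) := final_jCoordinate N
  have huL : IsCoordinate ℂ (Fermat.Agent.S29.DictC.jF N) :=
    Fermat.Agent.S29.DictC.dc_jCoordinate N
  have hdeg : ∀ Q : Place (AlgebraicClosure ℚ)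
      ↥(laurentBaseChange (AlgebraicClosure ℚ) (modularFunctionFieldFull N)), Q.deg = 1 :=
    diff_degOneStatement (AlgebraicClosure ℚ) _ (Fermat.Agent.S24.jF N) huK
  have h := s29d_setup_coord (AlgebraicClosure ℚ) ℂ (modularFunctionFieldFull N)
    (Fermat.Agent.S24.jF N) huK (Fermat.Agent.S29.DictC.jF N) huL hdeg
  have hext := s29d_isExt h
  refine ⟨s29bc_pic hext, s29d_pic_injective hext (s29di_main h), ?_, ?_⟩
  · intro x hx
    have hx' : (n : ℤ) • x = 0 := by
      rw [natCast_zsmul]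
      exact hx
    obtain ⟨y, -, hy⟩ := s29d_main_abs h hext (s29di_main h) n (hRF N n hn) x hx'
    exact ⟨y, hy⟩
  · intro ℓ hℓ hℓN _ y
    haveI : NeZero ℓ := ⟨(Fact.out : ℓ.Prime).ne_zero⟩
    exact hHecke inst N hdeg hext ℓ Fact.out hℓN y

end Fermat.Agent.S29

end
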