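/-
S29 [DESC-HECKE] (helper21), abstract part: base change of divisors commutes with pull-back,
push-forward and correspondences.  Prefix `s29bh_`.

Two levels `F ⊆ F₁` over `K` and `F' ⊆ F₁'` over `K'`, ring homomorphisms `ι : F → F'`,
`ι₁ : F₁ → F₁'` compatible with the inclusions, and extensions of places `ext`, `ext₁`
(`s29bc_IsExt`, helper12's vocabulary).  Then
  * `(ext₁ Q).restrict F' = ext (Q.restrict F)`, with the same ramification index and (if the
    places of `F` have non-zero degree) the same inertia degree;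
  * the places of `F₁'` above `ext P` are exactly the `ext₁ Q`, `Q` above `P`;
  * `bc₁ ∘ pullback = pullback ∘ bc`,  `bc ∘ pushforward = pushforward ∘ bc₁`;
  * `bc` commutes with `Divisor.correspondence` and `Pic0.correspondence`.
-/
import Mathlib
import Fermat.Prelude.Def_AlgebraicCurve_Correspondence
import Fermat.Agent.S24.PlaceBasic
import Fermat.Agent.S29.DescBcPic

set_option autoImplicit false
set_option linter.unusedSectionVars false
set_option linter.unusedVariables false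
set_option linter.style.haveILetI false

noncomputable section

namespace Fermat.Agent.S29

open AlgebraicCurve

/-- Every place has an element of positive order. -/
theorem s29bh_exists_ord_pos {K F : Type*} [Field K] [Field F] [Algebra K F] (v : Place K F) :
    ∃ f : F, f ≠ 0 ∧ 0 < v.ord f := by
  obtain ⟨π, hπ⟩ := Fermat.Agent.S24.place_exists_irreducible v
  have hπ0 : (π : F) ≠ 0 := by
    simpa [ne_eq, ZeroMemClass.coe_eq_zero] using hπ.ne_zero
  refine ⟨π, hπ0, ?_⟩
  rw [← Fermat.Agent.S24.place_mem_nonunits_iff v hπ0]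
  rw [ValuationSubring.mem_nonunits_iff_exists_mem_maximalIdeal]
  refine ⟨π.2, ?_⟩
  rw [IsLocalRing.mem_maximalIdeal]
  exact hπ.not_isUnit

section Abs

variable {K F F₁ K' F' F₁' : Type*} [Field K] [Field F] [Field F₁] [Algebra K F] [Algebra K F₁]
  [Algebra F F₁] [IsScalarTower K F F₁] [Algebra.IsIntegral F F₁]
  [Field K'] [Field F'] [Field F₁'] [Algebra K' F'] [Algebra K' F₁']
  [Algebra F' F₁'] [IsScalarTower K' F' F₁'] [Algebra.IsIntegral F' F₁']
  {ι : F →+* F'} {ι₁ : F₁ →+* F₁'} {ext : Place K F → Place K' F'}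
  {ext₁ : Place K F₁ → Place K' F₁'}

/-- The basic identity: `e' · ord_{P'}(ι f) = e · ord_P(f)`. -/
theorem s29bh_ord_key (h₁ : s29bc_IsExt ι₁ ext₁)
    (hc : ∀ f : F, ι₁ (algebraMap F F₁ f) = algebraMap F' F₁' (ι f)) (Q : Place K F₁) (f : F) :
    ((ext₁ Q).ramificationIndex F' : ℤ) * ((ext₁ Q).restrict F').ord (ι f) =
      (Q.ramificationIndex F : ℤ) * (Q.restrict F).ord f := by
  rw [← Place.ord_restrict, ← Place.ord_restrict, ← hc, h₁.ord]

/-- Restriction commutes with extension, and the ramification indices agree. -/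
theorem s29bh_restrict_ext (h : s29bc_IsExt ι ext) (h₁ : s29bc_IsExt ι₁ ext₁)
    (hc : ∀ f : F, ι₁ (algebraMap F F₁ f) = algebraMap F' F₁' (ι f)) (Q : Place K F₁) :
    (ext₁ Q).restrict F' = ext (Q.restrict F) ∧
      (ext₁ Q).ramificationIndex F' = Q.ramificationIndex F := by
  have key := s29bh_ord_key (ext₁ := ext₁) h₁ hc Q
  have he : 0 < (Q.ramificationIndex F : ℤ) := by
    exact_mod_cast Q.ramificationIndex_pos (F := F)
  have he' : 0 < ((ext₁ Q).ramificationIndex F' : ℤ) := by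
    exact_mod_cast (ext₁ Q).ramificationIndex_pos (F := F')
  obtain ⟨f₀, hf₀, hf₀pos⟩ := s29bh_exists_ord_pos (Q.restrict F)
  rcases h.or ((ext₁ Q).restrict F') with h0 | ⟨P₀, hP₀⟩
  · exfalso
    have := key f₀
    rw [h0 f₀ hf₀, mul_zero] at this
    have hpos : 0 < (Q.ramificationIndex F : ℤ) * (Q.restrict F).ord f₀ := mul_pos he hf₀pos
    omega
  · have key' : ∀ f : F, ((ext₁ Q).ramificationIndex F' : ℤ) * P₀.ord f =
        (Q.ramificationIndex F : ℤ) * (Q.restrict F).ord f := by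
      intro f
      rw [← key f, hP₀, h.ord]
    have hP : P₀ = Q.restrict F := by
      apply Fermat.Agent.S24.place_eq_of_le
      intro f hf
      refine Fermat.Agent.S24.place_mem_of_ord_nonneg _ ?_
      have h1 := Fermat.Agent.S24.place_ord_nonneg_of_mem P₀ hf
      have h2 := key' f
      have h3 : 0 ≤ (Q.ramificationIndex F : ℤ) * (Q.restrict F).ord f := by
        rw [← h2]
        exact mul_nonneg he'.le h1
      by_contra hneg
      rw [not_le] at hneg
      have := mul_neg_of_pos_of_neg he hneg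
      omega
    refine ⟨by rw [hP₀, hP], ?_⟩
    have h4 := key' f₀
    rw [hP] at h4
    have h5 : ((ext₁ Q).ramificationIndex F' : ℤ) = (Q.ramificationIndex F : ℤ) :=
      mul_right_cancel₀ hf₀pos.ne' h4
    exact_mod_cast h5

theorem s29bh_restrict_ext' (h : s29bc_IsExt ι ext) (h₁ : s29bc_IsExt ι₁ ext₁)
    (hc : ∀ f : F, ι₁ (algebraMap F F₁ f) = algebraMap F' F₁' (ι f)) (Q : Place K F₁) :
    (ext₁ Q).restrict F' = ext (Q.restrict F) :=
  (s29bh_restrict_ext h h₁ hc Q).1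

theorem s29bh_ramificationIndex_ext (h : s29bc_IsExt ι ext) (h₁ : s29bc_IsExt ι₁ ext₁)
    (hc : ∀ f : F, ι₁ (algebraMap F F₁ f) = algebraMap F' F₁' (ι f)) (Q : Place K F₁) :
    (ext₁ Q).ramificationIndex F' = Q.ramificationIndex F :=
  (s29bh_restrict_ext h h₁ hc Q).2

/-- The inertia degrees agree (the places of `F` have non-zero degree). -/
theorem s29bh_inertiaDeg_ext (h : s29bc_IsExt ι ext) (h₁ : s29bc_IsExt ι₁ ext₁)
    (hc : ∀ f : F, ι₁ (algebraMap F F₁ f) = algebraMap F' F₁' (ι f))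
    (hdeg : ∀ P : Place K F, P.deg ≠ 0) (Q : Place K F₁) :
    (ext₁ Q).inertiaDeg F' = Q.inertiaDeg F := by
  have h1 := (ext₁ Q).deg_restrict_mul_inertiaDeg (F := F')
  have h2 := Q.deg_restrict_mul_inertiaDeg (F := F)
  rw [s29bh_restrict_ext' h h₁ hc Q, h.deg, h₁.deg, ← h2] at h1
  exact Nat.eq_of_mul_eq_mul_left (Nat.pos_of_ne_zero (hdeg _)) h1

/-- The places of `F₁'` above `ext P` are exactly the `ext₁ Q`, `Q` above `P`. -/
theorem s29bh_mem_range_of_restrict (h : s29bc_IsExt ι ext) (h₁ : s29bc_IsExt ι₁ ext₁)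
    (hc : ∀ f : F, ι₁ (algebraMap F F₁ f) = algebraMap F' F₁' (ι f))
    (w' : Place K' F₁') (P : Place K F) (hw : w'.restrict F' = ext P) :
    ∃ Q : Place K F₁, w' = ext₁ Q ∧ Q.restrict F = P := by
  obtain ⟨f₀, hf₀, hf₀pos⟩ := s29bh_exists_ord_pos P
  have he' : 0 < (w'.ramificationIndex F' : ℤ) := by
    exact_mod_cast w'.ramificationIndex_pos (F := F')
  have hne : w'.ord (ι₁ (algebraMap F F₁ f₀)) ≠ 0 := by
    rw [hc, Place.ord_restrict, hw, h.ord]
    exact (mul_pos he' hf₀pos).ne'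
  obtain ⟨Q, hQ⟩ := h₁.exists_of_ord_ne w' hne
  refine ⟨Q, hQ, ?_⟩
  apply h.injective
  rw [← s29bh_restrict_ext' h h₁ hc Q, ← hQ, hw]

/-- **Base change commutes with pull-back of divisors.** -/
theorem s29bh_pullback [HasPrincipalDivisors K F₁] [HasPrincipalDivisors K' F₁']
    (h : s29bc_IsExt ι ext) (h₁ : s29bc_IsExt ι₁ ext₁)
    (hc : ∀ f : F, ι₁ (algebraMap F F₁ f) = algebraMap F' F₁' (ι f)) (D : Divisor K F) :
    s29bc_div ext₁ (Divisor.pullback F₁ D) = Divisor.pullback F₁' (s29bc_div ext D) := by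
  refine Finsupp.ext fun w' => ?_
  rw [Divisor.pullback_apply]
  by_cases hw' : w' ∈ Set.range ext₁
  · obtain ⟨Q, rfl⟩ := hw'
    rw [s29bc_div_ext h₁, Divisor.pullback_apply, s29bh_restrict_ext' h h₁ hc Q,
      s29bh_ramificationIndex_ext h h₁ hc Q, s29bc_div_ext h]
  · rw [s29bc_div_notin _ _ hw']
    have hnot : w'.restrict F' ∉ Set.range ext := by
      rintro ⟨P, hP⟩
      obtain ⟨Q, hQ, -⟩ := s29bh_mem_range_of_restrict h h₁ hc w' P hP.symm
      exact hw' ⟨Q, hQ.symm⟩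
    rw [s29bc_div_notin _ _ hnot, mul_zero]

/-- **Base change commutes with push-forward of divisors.** -/
theorem s29bh_pushforward (h : s29bc_IsExt ι ext) (h₁ : s29bc_IsExt ι₁ ext₁)
    (hc : ∀ f : F, ι₁ (algebraMap F F₁ f) = algebraMap F' F₁' (ι f))
    (hdeg : ∀ P : Place K F, P.deg ≠ 0) (D₁ : Divisor K F₁) :
    s29bc_div ext (Divisor.pushforward F D₁) = Divisor.pushforward F' (s29bc_div ext₁ D₁) := by
  have key : (s29bc_div ext).comp (Divisor.pushforward (K := K) (F' := F₁) F) =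
      (Divisor.pushforward (K := K') (F' := F₁') F').comp (s29bc_div ext₁) := by
    refine Finsupp.addHom_ext fun Q n => ?_
    rw [AddMonoidHom.comp_apply, AddMonoidHom.comp_apply, Divisor.pushforward_single,
      s29bc_div_single, s29bc_div_single, Divisor.pushforward_single,
      s29bh_restrict_ext' h h₁ hc Q, s29bh_inertiaDeg_ext h h₁ hc hdeg Q]
  exact DFunLike.congr_fun key D₁

end Abs

section Along

variable {K F F₁ K' F' F₁' : Type*} [Field K] [Field F] [Field F₁] [Algebra K F] [Algebra K F₁]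
  [Field K'] [Field F'] [Field F₁'] [Algebra K' F'] [Algebra K' F₁']
  {ι : F →+* F'} {ι₁ : F₁ →+* F₁'} {ext : Place K F → Place K' F'}
  {ext₁ : Place K F₁ → Place K' F₁'}

/-- Base change commutes with `pullbackAlong`. -/
theorem s29bh_pullbackAlong [HasPrincipalDivisors K F₁] [HasPrincipalDivisors K' F₁']
    (φ : F →ₐ[K] F₁) (hφ : φ.toRingHom.IsIntegral)
    (φ' : F' →ₐ[K'] F₁') (hφ' : φ'.toRingHom.IsIntegral)
    (h : s29bc_IsExt ι ext) (h₁ : s29bc_IsExt ι₁ ext₁)
    (hc : ∀ f : F, ι₁ (φ f) = φ' (ι f)) (D : Divisor K F) :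
    s29bc_div ext₁ (Divisor.pullbackAlong φ hφ D) =
      Divisor.pullbackAlong φ' hφ' (s29bc_div ext D) := by
  letI := algebraAlong φ
  haveI := isScalarTower_along φ
  haveI := isIntegral_along φ hφ
  letI := algebraAlong φ'
  haveI := isScalarTower_along φ'
  haveI := isIntegral_along φ' hφ'
  exact s29bh_pullback h h₁ hc D

/-- Base change commutes with `pushforwardAlong`. -/
theorem s29bh_pushforwardAlong
    (φ : F →ₐ[K] F₁) (hφ : φ.toRingHom.IsIntegral)
    (φ' : F' →ₐ[K'] F₁') (hφ' : φ'.toRingHom.IsIntegral)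
    (h : s29bc_IsExt ι ext) (h₁ : s29bc_IsExt ι₁ ext₁)
    (hc : ∀ f : F, ι₁ (φ f) = φ' (ι f)) (hdeg : ∀ P : Place K F, P.deg ≠ 0)
    (D₁ : Divisor K F₁) :
    s29bc_div ext (Divisor.pushforwardAlong φ hφ D₁) =
      Divisor.pushforwardAlong φ' hφ' (s29bc_div ext₁ D₁) := by
  letI := algebraAlong φ
  haveI := isScalarTower_along φ
  haveI := isIntegral_along φ hφ
  letI := algebraAlong φ'
  haveI := isScalarTower_along φ'
  haveI := isIntegral_along φ' hφ'
  exact s29bh_pushforward h h₁ hc hdeg D₁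

/-- **Base change commutes with correspondences of divisors.** -/
theorem s29bh_correspondence [HasPrincipalDivisors K F₁] [HasPrincipalDivisors K' F₁']
    (φ ψ : F →ₐ[K] F₁) (hφ : φ.toRingHom.IsIntegral) (hψ : ψ.toRingHom.IsIntegral)
    (φ' ψ' : F' →ₐ[K'] F₁') (hφ' : φ'.toRingHom.IsIntegral) (hψ' : ψ'.toRingHom.IsIntegral)
    (h : s29bc_IsExt ι ext) (h₁ : s29bc_IsExt ι₁ ext₁)
    (hcφ : ∀ f : F, ι₁ (φ f) = φ' (ι f)) (hcψ : ∀ f : F, ι₁ (ψ f) = ψ' (ι f))
    (hdeg : ∀ P : Place K F, P.deg ≠ 0) (D : Divisor K F) :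
    s29bc_div ext (Divisor.correspondence φ ψ hφ hψ D) =
      Divisor.correspondence φ' ψ' hφ' hψ' (s29bc_div ext D) := by
  rw [Divisor.correspondence_apply, Divisor.correspondence_apply,
    s29bh_pushforwardAlong ψ hψ ψ' hψ' h h₁ hcψ hdeg,
    s29bh_pullbackAlong φ hφ φ' hφ' h h₁ hcφ]

/-- **Base change commutes with correspondences on `Pic⁰`.** -/
theorem s29bh_pic_correspondence [HasPrincipalDivisors K F₁] [HasPrincipalDivisors K' F₁']
    (φ ψ : F →ₐ[K] F₁) (hφ : φ.toRingHom.IsIntegral) (hψ : ψ.toRingHom.IsIntegral)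
    (hFI : FundamentalIdentityAlong K φ hφ) (hfin : FiniteAlong K ψ)
    (hN : NormFormulaAlong K ψ hfin)
    (φ' ψ' : F' →ₐ[K'] F₁') (hφ' : φ'.toRingHom.IsIntegral) (hψ' : ψ'.toRingHom.IsIntegral)
    (hFI' : FundamentalIdentityAlong K' φ' hφ') (hfin' : FiniteAlong K' ψ')
    (hN' : NormFormulaAlong K' ψ' hfin')
    (h : s29bc_IsExt ι ext) (h₁ : s29bc_IsExt ι₁ ext₁)
    (hcφ : ∀ f : F, ι₁ (φ f) = φ' (ι f)) (hcψ : ∀ f : F, ι₁ (ψ f) = ψ' (ι f))
    (hdeg : ∀ P : Place K F, P.deg ≠ 0) (x : Pic0 K F) :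
    s29bc_pic h (Pic0.correspondence φ ψ hφ hψ hFI hfin hN x) =
      Pic0.correspondence φ' ψ' hφ' hψ' hFI' hfin' hN' (s29bc_pic h x) := by
  induction x using QuotientAddGroup.induction_on with
  | H D =>
    show s29bc_pic h (Pic0.correspondence φ ψ hφ hψ hFI hfin hN (Pic0.mk D)) =
      Pic0.correspondence φ' ψ' hφ' hψ' hFI' hfin' hN' (s29bc_pic h (Pic0.mk D))
    rw [Pic0.correspondence_mk, s29bc_pic_mk, s29bc_pic_mk, Pic0.correspondence_mk]
    congr 1
    apply Subtype.ext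
    rw [s29bc_coe_degZero, Pic0.coe_degZeroCorrespondence, Pic0.coe_degZeroCorrespondence,
      s29bc_coe_degZero]
    exact s29bh_correspondence φ ψ hφ hψ φ' ψ' hφ' hψ' h h₁ hcφ hcψ hdeg _

end Along

end Fermat.Agent.S29
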