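/-
S29 [DESC-HECKE] (helper21), instance: base change of `Pic⁰` of the modular function fields
along a constant field extension `K ⊆ L` commutes with the Hecke operators.  Prefix `s29bh_`.

`ι := S18.s18cfe_iota K L F₀` (coefficientwise), at the levels `N` and `N ℓ`; `ext`, `ext₁` any
extensions of places in the sense of helper12's `s29bc_IsExt`.  Then

    s29bc_pic h (heckeOperatorAlong K N ℓ x) = heckeOperatorAlong L N ℓ (s29bc_pic h x)

as soon as the Hecke inputs hold over `K` and over `L` (`s29bh_hecke`), and for `K = Q̄`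

    s29bc_pic h (heckeOperatorBar N ℓ x) = heckeOperatorAlong L N ℓ (s29bc_pic h x)   (`s29bh_heckeBar`).
-/
import Mathlib
import Fermat.Prelude.Def_ModularCurve_HeckeModule
import Fermat.Agent.S18.Cfe
import Fermat.Agent.S29.DescBcMod
import Fermat.Agent.S29.DescHeckeAbs

set_option autoImplicit false
set_option linter.unusedSectionVars false
set_option linter.unusedVariables false
set_option linter.style.haveILetI false

noncomputable section

namespace Fermat.Agent.S29

open AlgebraicCurve ModularCurve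

/-- `coeffMap` commutes with `q ↦ q ^ n`. -/
theorem s29bh_coeffMap_qExpand {R S : Type*} [CommRing R] [CommRing S] (f : R →+* S) (n : ℕ)
    [NeZero n] (x : LaurentSeries R) : coeffMap f (qExpand R n x) = qExpand S n (coeffMap f x) := by
  ext k
  by_cases hk : (n : ℤ) ∣ k
  · obtain ⟨m, rfl⟩ := hk
    rw [coeffMap_coeff, qExpand_coeff_mul, qExpand_coeff_mul, coeffMap_coeff]
  · rw [coeffMap_coeff, qExpand_coeff_of_not_dvd n _ hk, qExpand_coeff_of_not_dvd n _ hk,
      map_zero]

section Inst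

variable (K L : Type) [Field K] [Algebra ℚ K] [Field L] [Algebra ℚ L] [Algebra K L]
  (N ℓ : ℕ) [NeZero N] [NeZero ℓ]

/-- The coefficientwise embedding commutes with the degeneracy map `α` (inclusion). -/
theorem s29bh_iota_alpha (f : ↥(laurentBaseChange K (modularFunctionFieldFull N))) :
    S18.s18cfe_iota K L (modularFunctionFieldFull (N * ℓ)) (heckeAlphaBar K N ℓ f) =
      heckeAlphaBar L N ℓ (S18.s18cfe_iota K L (modularFunctionFieldFull N) f) := by
  apply Subtype.ext
  rw [S18.s18cfe_iota_coe, coe_heckeAlphaBar, coe_heckeAlphaBar, S18.s18cfe_iota_coe]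

/-- The coefficientwise embedding commutes with the degeneracy map `β` (`q ↦ q ^ ℓ`). -/
theorem s29bh_iota_beta (f : ↥(laurentBaseChange K (modularFunctionFieldFull N))) :
    S18.s18cfe_iota K L (modularFunctionFieldFull (N * ℓ)) (heckeBetaBar K N ℓ f) =
      heckeBetaBar L N ℓ (S18.s18cfe_iota K L (modularFunctionFieldFull N) f) := by
  apply Subtype.ext
  rw [S18.s18cfe_iota_coe, coe_heckeBetaBar, coe_heckeBetaBar, S18.s18cfe_iota_coe,
    s29bh_coeffMap_qExpand]

variable {K L N ℓ}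

/-- **(BC-5) Base change commutes with the Hecke operators.** -/
theorem s29bh_hecke
    {ext : Place K ↥(laurentBaseChange K (modularFunctionFieldFull N)) →
      Place L ↥(laurentBaseChange L (modularFunctionFieldFull N))}
    {ext₁ : Place K ↥(laurentBaseChange K (modularFunctionFieldFull (N * ℓ))) →
      Place L ↥(laurentBaseChange L (modularFunctionFieldFull (N * ℓ)))}
    (h : s29bc_IsExt (S18.s18cfe_iota K L (modularFunctionFieldFull N)) ext)
    (h₁ : s29bc_IsExt (S18.s18cfe_iota K L (modularFunctionFieldFull (N * ℓ))) ext₁)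
    (hdeg : ∀ P : Place K ↥(laurentBaseChange K (modularFunctionFieldFull N)), P.deg ≠ 0)
    (hK : HeckeInputsAlong K N ℓ) (hL : HeckeInputsAlong L N ℓ)
    (x : Pic0 K ↥(laurentBaseChange K (modularFunctionFieldFull N))) :
    s29bc_pic h (heckeOperatorAlong K N ℓ x) = heckeOperatorAlong L N ℓ (s29bc_pic h x) := by
  obtain ⟨hα, hβ, hP, hfin, hFI, hN⟩ := hK
  obtain ⟨hα', hβ', hP', hfin', hFI', hN'⟩ := hL
  haveI := hP
  haveI := hP'
  rw [heckeOperatorAlong_eq hα hβ hFI hfin hN, heckeOperatorAlong_eq hα' hβ' hFI' hfin' hN']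
  exact s29bh_pic_correspondence (heckeBetaBar K N ℓ) (heckeAlphaBar K N ℓ) hβ hα hFI hfin hN
    (heckeBetaBar L N ℓ) (heckeAlphaBar L N ℓ) hβ' hα' hFI' hfin' hN' h h₁
    (s29bh_iota_beta K L N ℓ) (s29bh_iota_alpha K L N ℓ) hdeg x

/-- The `s29bc_IsExt` structure of helper12's extension of places `s29bc_ext`. -/
theorem s29bh_isExt (F₀ : IntermediateField ℚ (LaurentSeries ℚ))
    (hdeg : ∀ Q : Place K ↥(laurentBaseChange K F₀), Q.deg = 1)
    (hdegL : ∀ Q : Place L ↥(laurentBaseChange L F₀), Q.deg = 1) :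
    s29bc_IsExt (S18.s18cfe_iota K L F₀) (s29bc_ext K L F₀ hdeg) :=
  ⟨fun P f => s29bc_ext_ord hdeg P f, fun P' => s29bc_ext_or hdeg P',
    fun P => by rw [hdegL, hdeg]⟩

/-- (BC-5) for helper12's `s29bc_ext`. -/
theorem s29bh_hecke_ext
    (hdeg : ∀ Q : Place K ↥(laurentBaseChange K (modularFunctionFieldFull N)), Q.deg = 1)
    (hdegL : ∀ Q : Place L ↥(laurentBaseChange L (modularFunctionFieldFull N)), Q.deg = 1)
    (hdeg₁ : ∀ Q : Place K ↥(laurentBaseChange K (modularFunctionFieldFull (N * ℓ))), Q.deg = 1)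
    (hdegL₁ : ∀ Q : Place L ↥(laurentBaseChange L (modularFunctionFieldFull (N * ℓ))),
      Q.deg = 1)
    (hK : HeckeInputsAlong K N ℓ) (hL : HeckeInputsAlong L N ℓ)
    (x : Pic0 K ↥(laurentBaseChange K (modularFunctionFieldFull N))) :
    s29bc_pic (s29bh_isExt (modularFunctionFieldFull N) hdeg hdegL)
        (heckeOperatorAlong K N ℓ x) =
      heckeOperatorAlong L N ℓ
        (s29bc_pic (s29bh_isExt (modularFunctionFieldFull N) hdeg hdegL) x) :=
  s29bh_hecke (s29bh_isExt (modularFunctionFieldFull N) hdeg hdegL)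
    (s29bh_isExt (modularFunctionFieldFull (N * ℓ)) hdeg₁ hdegL₁)
    (fun P => by rw [hdeg P]; exact one_ne_zero) hK hL x

end Inst

section Bar

variable {L : Type} [Field L] [Algebra ℚ L] [Algebra (AlgebraicClosure ℚ) L]
  {N : ℕ} [NeZero N]

/-- **(BC-5) for `J₀(N)(Q̄)`**: base change to `L` intertwines `heckeOperatorBar` and
`heckeOperatorAlong L`. -/
theorem s29bh_heckeBar (ℓ : Nat.Primes)
    {ext : Place (AlgebraicClosure ℚ) ↥(modularFunctionFieldBar N) →
      Place L ↥(laurentBaseChange L (modularFunctionFieldFull N))}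
    {ext₁ : Place (AlgebraicClosure ℚ)
        ↥(laurentBaseChange (AlgebraicClosure ℚ) (modularFunctionFieldFull (N * ℓ))) →
      Place L ↥(laurentBaseChange L (modularFunctionFieldFull (N * ℓ)))}
    (h : s29bc_IsExt (S18.s18cfe_iota (AlgebraicClosure ℚ) L (modularFunctionFieldFull N)) ext)
    (h₁ : s29bc_IsExt
      (S18.s18cfe_iota (AlgebraicClosure ℚ) L (modularFunctionFieldFull (N * ℓ))) ext₁)
    (hdeg : ∀ P : Place (AlgebraicClosure ℚ) ↥(modularFunctionFieldBar N), P.deg ≠ 0)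
    (hK : haveI : NeZero (ℓ : ℕ) := ⟨ℓ.2.ne_zero⟩;
      HeckeInputsAlong (AlgebraicClosure ℚ) N ℓ)
    (hL : haveI : NeZero (ℓ : ℕ) := ⟨ℓ.2.ne_zero⟩; HeckeInputsAlong L N ℓ)
    (x : JZero N) :
    s29bc_pic h (heckeOperatorBar N ℓ x) =
      (haveI : NeZero (ℓ : ℕ) := ⟨ℓ.2.ne_zero⟩; heckeOperatorAlong L N ℓ) (s29bc_pic h x) := by
  haveI : NeZero (ℓ : ℕ) := ⟨ℓ.2.ne_zero⟩
  rw [heckeOperatorBar_apply]
  exact s29bh_hecke h h₁ hdeg hK hL x

end Bar

end Fermat.Agent.S29
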