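/-
S29 [DESC-HECKE] (helper21), final file: helper28's Prop `s29d_HeckeBCStatement` VERBATIM,
HYPOTHESIS-FREE.  Prefix `s29bh_`.

* `s29bh_inputsC N ℓ : HeckeInputsAlong ℂ N ℓ` (helper14's generic `s37hi_gen` with helper22's
  coordinate `DictC.dc_jCoordinate` over `ℂ`), so `heckeOperatorAlong ℂ N ℓ` IS `α_* ∘ β^*`;
* `s29bh_heckeBC_main : s29d_HeckeBCStatement`;
* `s29bh_kbc_of_rootFin : s29d_RootFinStatement → s29k_BCStatement`  ([K-BC] of `KumDefs.lean`
  with [ROOT-FIN] as the only open input).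
-/
import Mathlib
import Fermat.Agent.S24.Final
import Fermat.Agent.S24.DiffFinal
import Fermat.Agent.S37.HeckeInputs
import Fermat.Agent.S29.DictC.Final
import Fermat.Agent.S29.DescFinal
import Fermat.Agent.S29.DescHecke

set_option autoImplicit false
set_option linter.unusedSectionVars false
set_option linter.unusedVariables false
set_option linter.style.haveILetI false

noncomputable section

namespace Fermat.Agent.S29

open AlgebraicCurve ModularCurve

/-- The Hecke inputs over `ℂ`, at every level `N` and every `ℓ ≥ 1`. -/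
theorem s29bh_inputsC (N ℓ : ℕ) [NeZero N] [NeZero ℓ] : HeckeInputsAlong ℂ N ℓ := by
  have hu : Fermat.Agent.S24.IsCoordinate ℂ (DictC.jF N) := DictC.dc_jCoordinate N
  have hu' : Fermat.Agent.S24.IsCoordinate ℂ (DictC.jF (N * ℓ)) := DictC.dc_jCoordinate (N * ℓ)
  obtain ⟨hα, hP, hfin, -, hN⟩ := Fermat.Agent.S37.s37hi_gen ℂ (DictC.FunField N)
    (DictC.FunField (N * ℓ)) (DictC.jF N) (DictC.jF (N * ℓ)) hu hu' (heckeAlphaBar ℂ N ℓ)
  obtain ⟨hβ, _, _, hFI, _⟩ := Fermat.Agent.S37.s37hi_gen ℂ (DictC.FunField N)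
    (DictC.FunField (N * ℓ)) (DictC.jF N) (DictC.jF (N * ℓ)) hu hu' (heckeBetaBar ℂ N ℓ)
  exact ⟨hα, hβ, hP, hfin, hFI, hN⟩

/-- All places of the modular function field over `ℂ` have degree one. -/
theorem s29bh_degC (N : ℕ) [NeZero N]
    (Q : Place ℂ ↥(laurentBaseChange ℂ (modularFunctionFieldFull N))) : Q.deg = 1 :=
  Fermat.Agent.S24.diff_degOneStatement ℂ _ (DictC.jF N) (DictC.dc_jCoordinate N) Q

/-- All places of the modular function field over `Q̄` have degree one. -/
theorem s29bh_degBar (N : ℕ) [NeZero N]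
    (Q : Place (AlgebraicClosure ℚ)
      ↥(laurentBaseChange (AlgebraicClosure ℚ) (modularFunctionFieldFull N))) : Q.deg = 1 :=
  Fermat.Agent.S24.diff_degOneStatement (AlgebraicClosure ℚ) _ (Fermat.Agent.S24.jF N)
    (Fermat.Agent.S24.final_jCoordinate N) Q

/-- **[DESC-HECKE]**, helper28's Prop VERBATIM: base change `Pic⁰(F̄_N) → Pic⁰(F_ℂ)` commutes
with the Hecke operators, for every embedding `Q̄ → ℂ`. -/
theorem s29bh_heckeBC_main : s29d_HeckeBCStatement := by
  intro inst N _ hdeg hext ℓ _ hℓ hℓN y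
  exact s29bh_hecke hext
    (s29bh_isExt (modularFunctionFieldFull (N * ℓ)) (s29bh_degBar (N * ℓ)) (s29bh_degC (N * ℓ)))
    (fun P => by rw [hdeg P]; exact one_ne_zero)
    (Fermat.Agent.S37.s37hi_main N ℓ) (s29bh_inputsC N ℓ) y

/-- **[K-BC]** of `KumDefs.lean`, with [ROOT-FIN] as the only open input. -/
theorem s29bh_kbc_of_rootFin (hRF : s29d_RootFinStatement) : s29k_BCStatement :=
  s29d_kbc_of hRF s29bh_heckeBC_main

end Fermat.Agent.S29
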