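import Mathlib

/-!
# S29, package [EIS], part 1: the twisted Eisenstein series - definitions and automorphy

`Γ = Γ₀(N)`, `χ : Γ → ℂˣ` a character which is trivial on the elements with lower-left entry `0`
(i.e. on `± T^n`).  For a bottom row `v = (c, d)` of `Γ` put `w(v) = χ(γ)⁻¹`, `γ ∈ Γ` any element
with bottom row `v`, and

  `E_χ(z) = ∑_v w(v) (c z + d)^(-k)`.

Then `E_χ ∣[k] γ = χ(γ) E_χ` for `γ ∈ Γ`.
-/

set_option autoImplicit false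

open UpperHalfPlane Complex Matrix CongruenceSubgroup ModularForm EisensteinSeries Filter Topology
open scoped MatrixGroups Manifold

noncomputable section

namespace Fermat.Agent.S29

variable (N : ℕ)

/-- The bottom rows of `Γ₀(N)`. -/
def s29e_rows : Set (Fin 2 → ℤ) := {v | (N : ℤ) ∣ v 0 ∧ IsCoprime (v 0) (v 1)}

variable {N}

theorem s29e_mem_gamma0_iff {γ : SL(2, ℤ)} : γ ∈ Gamma0 N ↔ (N : ℤ) ∣ γ 1 0 := by
  rw [Gamma0_mem, ZMod.intCast_zmod_eq_zero_iff_dvd]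

theorem s29e_row_mem (γ : ↥(Gamma0 N)) : (γ : SL(2, ℤ)) 1 ∈ s29e_rows N :=
  ⟨s29e_mem_gamma0_iff.mp γ.2, (γ : SL(2, ℤ)).isCoprime_row 1⟩

theorem s29e_exists_mat {v : Fin 2 → ℤ} (hv : v ∈ s29e_rows N) :
    ∃ γ : ↥(Gamma0 N), (γ : SL(2, ℤ)) 1 = v := by
  obtain ⟨g, h10, h11⟩ := hv.2.exists_SL2_row 1
  refine ⟨⟨g, s29e_mem_gamma0_iff.mpr (h10 ▸ hv.1)⟩, ?_⟩
  funext i
  fin_cases i
  · exact h10
  · exact h11

/-- The bottom row of a product. -/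
theorem s29e_row_mul (γ δ : SL(2, ℤ)) :
    (γ * δ) 1 = (γ 1) ᵥ* (δ : Matrix (Fin 2) (Fin 2) ℤ) := by
  rw [Matrix.SpecialLinearGroup.coe_mul]
  funext j
  simp [Matrix.mul_apply, Matrix.vecMul, dotProduct]

/-- Two elements of `SL(2, ℤ)` with the same bottom row differ by an element with lower-left
entry `0`. -/
theorem s29e_same_row {γ γ' : SL(2, ℤ)} (h : γ' 1 = γ 1) : (γ' * γ⁻¹) 1 0 = 0 := by
  have h0 : γ' 1 0 = γ 1 0 := congrFun h 0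
  have h1 : γ' 1 1 = γ 1 1 := congrFun h 1
  rw [Matrix.SpecialLinearGroup.coe_mul, Matrix.SpecialLinearGroup.coe_inv, Matrix.adjugate_fin_two,
    Matrix.mul_apply, Fin.sum_univ_two]
  simp only [Matrix.of_apply, Matrix.cons_val_zero, Matrix.cons_val_one, Matrix.cons_val',
    Matrix.cons_val_fin_one]
  rw [h0, h1]
  ring

section Weight

variable (χ : ↥(Gamma0 N) →* ℂˣ)

/-- The weight `w(v) = χ(γ_v)⁻¹` of a bottom row. -/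
def s29e_wt (v : Fin 2 → ℤ) : ℂ := by
  classical
  exact if h : v ∈ s29e_rows N then (((χ (s29e_exists_mat h).choose)⁻¹ : ℂˣ) : ℂ) else 0

variable {χ}

theorem s29e_wt_eq (htri : ∀ γ : ↥(Gamma0 N), (γ : SL(2, ℤ)) 1 0 = 0 → χ γ = 1)
    (γ : ↥(Gamma0 N)) : s29e_wt χ ((γ : SL(2, ℤ)) 1) = (((χ γ)⁻¹ : ℂˣ) : ℂ) := by
  classical
  have hmem := s29e_row_mem γ
  rw [s29e_wt, dif_pos hmem]
  have hc := (s29e_exists_mat hmem).choose_spec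
  set γ' := (s29e_exists_mat hmem).choose with hγ'
  have h1 : χ (γ' * γ⁻¹) = 1 := htri _ (s29e_same_row hc)
  rw [map_mul, map_inv, mul_inv_eq_one] at h1
  rw [h1]

theorem s29e_norm_wt (hu : ∀ γ, ‖((χ γ : ℂˣ) : ℂ)‖ = 1) {v : Fin 2 → ℤ}
    (hv : v ∈ s29e_rows N) : ‖s29e_wt χ v‖ = 1 := by
  classical
  rw [s29e_wt, dif_pos hv, Units.val_inv_eq_inv_val, norm_inv, hu, inv_one]

theorem s29e_norm_wt_le (hu : ∀ γ, ‖((χ γ : ℂˣ) : ℂ)‖ = 1) (v : Fin 2 → ℤ) :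
    ‖s29e_wt χ v‖ ≤ 1 := by
  classical
  by_cases hv : v ∈ s29e_rows N
  · exact (s29e_norm_wt hu hv).le
  · rw [s29e_wt, dif_neg hv, norm_zero]
    exact zero_le_one

/-- `w(v γ) = w(v) χ(γ)⁻¹`. -/
theorem s29e_wt_vecMul (htri : ∀ γ : ↥(Gamma0 N), (γ : SL(2, ℤ)) 1 0 = 0 → χ γ = 1)
    {v : Fin 2 → ℤ} (hv : v ∈ s29e_rows N) (γ : ↥(Gamma0 N)) :
    s29e_wt χ (v ᵥ* ((γ : SL(2, ℤ)) : Matrix (Fin 2) (Fin 2) ℤ)) = s29e_wt χ v * (((χ γ)⁻¹ : ℂˣ) : ℂ) := by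
  obtain ⟨δ, rfl⟩ := s29e_exists_mat hv
  have e : ((δ : SL(2, ℤ)) 1) ᵥ* ((γ : SL(2, ℤ)) : Matrix (Fin 2) (Fin 2) ℤ) = ((δ * γ : ↥(Gamma0 N)) : SL(2, ℤ)) 1 := by
    rw [Subgroup.coe_mul, s29e_row_mul]
  rw [e, s29e_wt_eq htri, s29e_wt_eq htri, map_mul, mul_inv, Units.val_mul]

theorem s29e_vecMul_mem {v : Fin 2 → ℤ} (hv : v ∈ s29e_rows N) (γ : ↥(Gamma0 N)) :
    v ᵥ* ((γ : SL(2, ℤ)) : Matrix (Fin 2) (Fin 2) ℤ) ∈ s29e_rows N := by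
  obtain ⟨δ, rfl⟩ := s29e_exists_mat hv
  have e : ((δ : SL(2, ℤ)) 1) ᵥ* ((γ : SL(2, ℤ)) : Matrix (Fin 2) (Fin 2) ℤ) = ((δ * γ : ↥(Gamma0 N)) : SL(2, ℤ)) 1 := by
    rw [Subgroup.coe_mul, s29e_row_mul]
  rw [e]
  exact s29e_row_mem _

end Weight

end Fermat.Agent.S29
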