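import Mathlib
import Fermat.Agent.S29.EisDefs

/-!
# S29, package [EIS], part 2: the twisted Eisenstein series - the series and its automorphy

`E_χ(z) = ∑_{v ∈ ℤ²} w(v) (v₀ z + v₁)^(-k)` (`w = 0` outside the bottom rows of `Γ₀(N)`).
-/

set_option autoImplicit false

open UpperHalfPlane Complex Matrix CongruenceSubgroup ModularForm EisensteinSeries Filter Topology
open scoped MatrixGroups Manifold

noncomputable section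

namespace Fermat.Agent.S29

variable {N : ℕ} {χ : ↥(Gamma0 N) →* ℂˣ}

/-- Right multiplication by an element of `SL(2, ℤ)` as a permutation of `ℤ²`. -/
def s29e_vecMulEquiv (α : SL(2, ℤ)) : (Fin 2 → ℤ) ≃ (Fin 2 → ℤ) where
  toFun v := v ᵥ* (α : Matrix (Fin 2) (Fin 2) ℤ)
  invFun v := v ᵥ* ((α⁻¹ : SL(2, ℤ)) : Matrix (Fin 2) (Fin 2) ℤ)
  left_inv v := by
    simp_rw [vecMul_vecMul, ← Matrix.SpecialLinearGroup.coe_mul, mul_inv_cancel,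
      Matrix.SpecialLinearGroup.coe_one, vecMul_one]
  right_inv v := by
    simp_rw [vecMul_vecMul, ← Matrix.SpecialLinearGroup.coe_mul, inv_mul_cancel,
      Matrix.SpecialLinearGroup.coe_one, vecMul_one]

@[simp] theorem s29e_vecMulEquiv_apply (α : SL(2, ℤ)) (v : Fin 2 → ℤ) :
    s29e_vecMulEquiv α v = v ᵥ* (α : Matrix (Fin 2) (Fin 2) ℤ) := rfl

theorem s29e_vecMul_mem_iff (γ : ↥(Gamma0 N)) (v : Fin 2 → ℤ) :
    v ᵥ* ((γ : SL(2, ℤ)) : Matrix (Fin 2) (Fin 2) ℤ) ∈ s29e_rows N ↔ v ∈ s29e_rows N := by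
  refine ⟨fun h => ?_, fun h => s29e_vecMul_mem h γ⟩
  have h1 := s29e_vecMul_mem h γ⁻¹
  have e : (v ᵥ* ((γ : SL(2, ℤ)) : Matrix (Fin 2) (Fin 2) ℤ)) ᵥ*
      (((γ⁻¹ : ↥(Gamma0 N)) : SL(2, ℤ)) : Matrix (Fin 2) (Fin 2) ℤ) = v := by
    rw [vecMul_vecMul, Subgroup.coe_inv, ← Matrix.SpecialLinearGroup.coe_mul, mul_inv_cancel,
      Matrix.SpecialLinearGroup.coe_one, vecMul_one]
  rwa [e] at h1

/-- `w(v γ) = w(v) χ(γ)⁻¹` for all `v`. -/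
theorem s29e_wt_vecMul' (htri : ∀ γ : ↥(Gamma0 N), (γ : SL(2, ℤ)) 1 0 = 0 → χ γ = 1)
    (v : Fin 2 → ℤ) (γ : ↥(Gamma0 N)) :
    s29e_wt χ (v ᵥ* ((γ : SL(2, ℤ)) : Matrix (Fin 2) (Fin 2) ℤ)) =
      s29e_wt χ v * (((χ γ)⁻¹ : ℂˣ) : ℂ) := by
  classical
  by_cases hv : v ∈ s29e_rows N
  · exact s29e_wt_vecMul htri hv γ
  · have hv' : v ᵥ* ((γ : SL(2, ℤ)) : Matrix (Fin 2) (Fin 2) ℤ) ∉ s29e_rows N :=
      fun h => hv ((s29e_vecMul_mem_iff γ v).mp h)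
    rw [s29e_wt, dif_neg hv', s29e_wt, dif_neg hv, zero_mul]

variable (χ) in
/-- The twisted Eisenstein series. -/
def s29e_E (k : ℤ) (z : ℍ) : ℂ := ∑' v : Fin 2 → ℤ, s29e_wt χ v * eisSummand k v z

theorem s29e_norm_term_le (hu : ∀ γ, ‖((χ γ : ℂˣ) : ℂ)‖ = 1) (k : ℤ) (v : Fin 2 → ℤ) (z : ℍ) :
    ‖s29e_wt χ v * eisSummand k v z‖ ≤ ‖eisSummand k v z‖ := by
  rw [norm_mul]
  exact mul_le_of_le_one_left (norm_nonneg _) (s29e_norm_wt_le hu v)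

theorem s29e_summable_norm (hu : ∀ γ, ‖((χ γ : ℂˣ) : ℂ)‖ = 1) {k : ℤ} (hk : 3 ≤ k) (z : ℍ) :
    Summable fun v : Fin 2 → ℤ => ‖s29e_wt χ v * eisSummand k v z‖ :=
  (summable_norm_eisSummand hk z).of_nonneg_of_le (fun _ => norm_nonneg _)
    (fun v => s29e_norm_term_le hu k v z)

theorem s29e_summable (hu : ∀ γ, ‖((χ γ : ℂˣ) : ℂ)‖ = 1) {k : ℤ} (hk : 3 ≤ k) (z : ℍ) :
    Summable fun v : Fin 2 → ℤ => s29e_wt χ v * eisSummand k v z :=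
  (s29e_summable_norm hu hk z).of_norm

/-- The slash of `E_χ` by an element of `SL(2, ℤ)`. -/
theorem s29e_slash_apply (k : ℤ) (α : SL(2, ℤ)) (z : ℍ) :
    (s29e_E χ k ∣[k] α) z =
      ∑' v : Fin 2 → ℤ, s29e_wt χ v * eisSummand k (v ᵥ* (α : Matrix (Fin 2) (Fin 2) ℤ)) z := by
  rw [SL_slash_apply, s29e_E, ← tsum_mul_right]
  refine tsum_congr (fun v => ?_)
  rw [eisSummand_SL2_apply, mul_assoc, mul_comm (denom _ _ ^ k), mul_assoc, ← zpow_add₀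
    (denom_ne_zero _ z), add_neg_cancel, zpow_zero, mul_one]

/-- **Automorphy**: `E_χ ∣[k] γ = χ(γ) E_χ` for `γ ∈ Γ₀(N)`. -/
theorem s29e_slash_gamma0 (htri : ∀ γ : ↥(Gamma0 N), (γ : SL(2, ℤ)) 1 0 = 0 → χ γ = 1)
    (k : ℤ) (γ : ↥(Gamma0 N)) :
    s29e_E χ k ∣[k] (γ : SL(2, ℤ)) = ((χ γ : ℂˣ) : ℂ) • s29e_E χ k := by
  funext z
  rw [s29e_slash_apply, Pi.smul_apply, smul_eq_mul, s29e_E, ← tsum_mul_left]
  have e : ∀ v : Fin 2 → ℤ,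
      s29e_wt χ v * eisSummand k (v ᵥ* ((γ : SL(2, ℤ)) : Matrix (Fin 2) (Fin 2) ℤ)) z =
        (fun u : Fin 2 → ℤ => ((χ γ : ℂˣ) : ℂ) * (s29e_wt χ u * eisSummand k u z))
          (s29e_vecMulEquiv (γ : SL(2, ℤ)) v) := by
    intro v
    simp only [s29e_vecMulEquiv_apply]
    rw [s29e_wt_vecMul' htri v γ, Units.val_inv_eq_inv_val]
    have hne : ((χ γ : ℂˣ) : ℂ) ≠ 0 := Units.ne_zero _
    field_simp
  rw [tsum_congr e]
  exact (s29e_vecMulEquiv (γ : SL(2, ℤ))).tsum_eq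
    (fun u : Fin 2 → ℤ => ((χ γ : ℂˣ) : ℂ) * (s29e_wt χ u * eisSummand k u z))

end Fermat.Agent.S29
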