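import Mathlib
import Fermat.Agent.S29.EisSeries

/-!
# S29, package [EIS], part 4: the twisted Eisenstein series is bounded at the cusps
-/

set_option autoImplicit false

open UpperHalfPlane Complex Matrix CongruenceSubgroup ModularForm EisensteinSeries Filter Topology Set
open scoped MatrixGroups Manifold

noncomputable section

namespace Fermat.Agent.S29

variable {N : ℕ} {χ : ↥(Gamma0 N) →* ℂˣ}

/-- The majorant `G(z) = ∑_u |u₀ z + u₁|^(-k)` is invariant under `z ↦ z + n`. -/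
theorem s29e_G_T (k : ℤ) (n : ℤ) (z : ℍ) :
    ∑' u : Fin 2 → ℤ, ‖eisSummand k u (ModularGroup.T ^ n • z)‖ =
      ∑' u : Fin 2 → ℤ, ‖eisSummand k u z‖ := by
  have hden : denom ((ModularGroup.T ^ n : SL(2, ℤ)) : GL (Fin 2) ℝ) z = 1 := by
    rw [ModularGroup.denom_apply]
    simp [ModularGroup.coe_T_zpow]
  have e : ∀ u : Fin 2 → ℤ, ‖eisSummand k u (ModularGroup.T ^ n • z)‖ =
      (fun v : Fin 2 → ℤ => ‖eisSummand k v z‖) (s29e_vecMulEquiv (ModularGroup.T ^ n) u) := by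
    intro u
    simp only [s29e_vecMulEquiv_apply]
    rw [eisSummand_SL2_apply, hden, _root_.one_zpow, one_mul]
  rw [tsum_congr e]
  exact (s29e_vecMulEquiv (ModularGroup.T ^ n)).tsum_eq (fun v : Fin 2 → ℤ => ‖eisSummand k v z‖)

/-- The majorant is bounded on `2 ≤ Im z`. -/
theorem s29e_G_le {k : ℤ} (hk : 3 ≤ k) (z : ℍ) (hz : 2 ≤ z.im) :
    ∑' u : Fin 2 → ℤ, ‖eisSummand k u z‖ ≤
      ∑' u : Fin 2 → ℤ, r ⟨⟨1, 2⟩, Nat.ofNat_pos⟩ ^ (-k) * ‖u‖ ^ (-k) := by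
  obtain ⟨n, hn⟩ := ModularGroup_T_zpow_mem_verticalStrip z (N := 1) one_pos
  rw [← s29e_G_T k ((1 : ℕ) * n) z]
  have hk' : (2 : ℝ) < k := by norm_cast
  apply (summable_norm_eisSummand hk _).tsum_le_tsum _
  · exact_mod_cast (summable_one_div_norm_rpow hk').mul_left <| r ⟨⟨1, 2⟩, Nat.ofNat_pos⟩ ^ (-k)
  · intro x
    simp_rw [eisSummand, norm_zpow]
    have h1 : ModularGroup.T ^ ((1 : ℕ) * n) • z ∈ verticalStrip (1 : ℕ) 2 :=
      verticalStrip_anti_right _ hz hn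
    have h2 := summand_bound_of_mem_verticalStrip (k := k) (lt_trans two_pos hk').le x two_pos h1
    have h3 : (((1 : ℕ) : ℝ)) = 1 := Nat.cast_one
    simp only [h3] at h2
    exact_mod_cast h2

/-- The norm of a slash of `E_χ` is bounded by the majorant. -/
theorem s29e_norm_slash_le (hu : ∀ γ, ‖((χ γ : ℂˣ) : ℂ)‖ = 1) {k : ℤ} (hk : 3 ≤ k)
    (α : SL(2, ℤ)) (z : ℍ) :
    ‖(s29e_E χ k ∣[k] α) z‖ ≤ ∑' u : Fin 2 → ℤ, ‖eisSummand k u z‖ := by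
  rw [s29e_slash_apply]
  have hs : Summable fun v : Fin 2 → ℤ =>
      ‖eisSummand k (v ᵥ* (α : Matrix (Fin 2) (Fin 2) ℤ)) z‖ :=
    (s29e_vecMulEquiv α).summable_iff.mpr (summable_norm_eisSummand hk z)
  have hle : ∀ v : Fin 2 → ℤ,
      ‖s29e_wt χ v * eisSummand k (v ᵥ* (α : Matrix (Fin 2) (Fin 2) ℤ)) z‖ ≤
        ‖eisSummand k (v ᵥ* (α : Matrix (Fin 2) (Fin 2) ℤ)) z‖ := by
    intro v
    rw [norm_mul]
    exact mul_le_of_le_one_left (norm_nonneg _) (s29e_norm_wt_le hu v)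
  have hs' : Summable fun v : Fin 2 → ℤ =>
      ‖s29e_wt χ v * eisSummand k (v ᵥ* (α : Matrix (Fin 2) (Fin 2) ℤ)) z‖ :=
    hs.of_nonneg_of_le (fun _ => norm_nonneg _) hle
  refine (norm_tsum_le_tsum_norm hs').trans ?_
  refine (hs'.tsum_le_tsum hle hs).trans (le_of_eq ?_)
  exact (s29e_vecMulEquiv α).tsum_eq (fun u : Fin 2 → ℤ => ‖eisSummand k u z‖)

/-- **Boundedness at the cusps**: every `SL(2, ℤ)`-translate of `E_χ` is bounded at `i∞`. -/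
theorem s29e_isBoundedAtImInfty (hu : ∀ γ, ‖((χ γ : ℂˣ) : ℂ)‖ = 1) {k : ℤ} (hk : 3 ≤ k)
    (α : SL(2, ℤ)) : IsBoundedAtImInfty (s29e_E χ k ∣[k] α) := by
  rw [UpperHalfPlane.isBoundedAtImInfty_iff]
  refine ⟨∑' u : Fin 2 → ℤ, r ⟨⟨1, 2⟩, Nat.ofNat_pos⟩ ^ (-k) * ‖u‖ ^ (-k), 2, fun z hz => ?_⟩
  exact (s29e_norm_slash_le hu hk α z).trans (s29e_G_le hk z hz)

end Fermat.Agent.S29
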