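import Mathlib
import Fermat.Agent.S29.EisSeries

/-!
# S29, package [EIS], part 5: the limit of the twisted Eisenstein series at `i∞`

`E_χ(z) → 2` as `Im z → ∞` (`k` even, `k ≥ 4`): the two terms `v = (0, ±1)`.
-/

set_option autoImplicit false

open UpperHalfPlane Complex Matrix CongruenceSubgroup ModularForm EisensteinSeries Filter Topology Set
open scoped MatrixGroups Manifold

noncomputable section

namespace Fermat.Agent.S29

variable {N : ℕ} {χ : ↥(Gamma0 N) →* ℂˣ}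

theorem s29e_wt_e2 (htri : ∀ γ : ↥(Gamma0 N), (γ : SL(2, ℤ)) 1 0 = 0 → χ γ = 1) :
    s29e_wt χ ![0, 1] = 1 := by
  have h := s29e_wt_eq htri (1 : ↥(Gamma0 N))
  have e : ((1 : ↥(Gamma0 N)) : SL(2, ℤ)) 1 = ![0, 1] := by
    funext i
    fin_cases i <;> simp
  rw [e, map_one, inv_one, Units.val_one] at h
  exact h

theorem s29e_neg_one_mem : (-1 : SL(2, ℤ)) ∈ Gamma0 N := by
  rw [s29e_mem_gamma0_iff]
  simp

theorem s29e_wt_neg_e2 (htri : ∀ γ : ↥(Gamma0 N), (γ : SL(2, ℤ)) 1 0 = 0 → χ γ = 1) :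
    s29e_wt χ ![0, -1] = 1 := by
  have h := s29e_wt_eq htri (⟨-1, s29e_neg_one_mem⟩ : ↥(Gamma0 N))
  have e : ((⟨-1, s29e_neg_one_mem⟩ : ↥(Gamma0 N)) : SL(2, ℤ)) 1 = ![0, -1] := by
    funext i
    fin_cases i <;> simp
  have h1 : χ ⟨-1, s29e_neg_one_mem⟩ = 1 := htri _ (by simp)
  rw [e, h1, inv_one, Units.val_one] at h
  exact h

theorem s29e_wt_of_zero {v : Fin 2 → ℤ} (hv0 : v 0 = 0) (hv : v ≠ ![0, 1])
    (hv' : v ≠ ![0, -1]) : s29e_wt χ v = 0 := by
  classical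
  have hnot : v ∉ s29e_rows N := by
    rintro ⟨-, hco⟩
    rw [hv0, isCoprime_zero_left, Int.isUnit_iff] at hco
    rcases hco with h | h
    · apply hv
      funext i
      fin_cases i
      · simpa using hv0
      · simpa using h
    · apply hv'
      funext i
      fin_cases i
      · simpa using hv0
      · simpa using h
  rw [s29e_wt, dif_neg hnot]

theorem s29e_T_zpow_mem (n : ℤ) : (ModularGroup.T ^ n : SL(2, ℤ)) ∈ Gamma0 N := by
  rw [s29e_mem_gamma0_iff]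
  simp [ModularGroup.coe_T_zpow]

/-- **Periodicity**: `E_χ(z + n) = E_χ(z)`. -/
theorem s29e_periodic (htri : ∀ γ : ↥(Gamma0 N), (γ : SL(2, ℤ)) 1 0 = 0 → χ γ = 1)
    (k : ℤ) (n : ℤ) (z : ℍ) : s29e_E χ k (ModularGroup.T ^ n • z) = s29e_E χ k z := by
  have h := congrFun (s29e_slash_gamma0 htri k ⟨ModularGroup.T ^ n, s29e_T_zpow_mem n⟩) z
  have hχ : χ ⟨ModularGroup.T ^ n, s29e_T_zpow_mem n⟩ = 1 :=
    htri _ (by simp [ModularGroup.coe_T_zpow])
  have hden : denom ((ModularGroup.T ^ n : SL(2, ℤ)) : GL (Fin 2) ℝ) z = 1 := by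
    rw [ModularGroup.denom_apply]
    simp [ModularGroup.coe_T_zpow]
  rw [SL_slash_apply, hχ, hden] at h
  simpa using h

theorem s29e_im_le_norm {v : Fin 2 → ℤ} (hv : v 0 ≠ 0) (z : ℍ) :
    z.im ≤ ‖(v 0 : ℂ) * (z : ℂ) + v 1‖ := by
  have h1 : |((v 0 : ℂ) * (z : ℂ) + v 1).im| ≤ ‖(v 0 : ℂ) * (z : ℂ) + v 1‖ :=
    Complex.abs_im_le_norm _
  have h2 : ((v 0 : ℂ) * (z : ℂ) + v 1).im = (v 0 : ℝ) * z.im := by
    simp
  rw [h2, abs_mul, abs_of_pos z.im_pos] at h1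
  have h3 : (1 : ℝ) ≤ |(v 0 : ℝ)| := by
    have : (1 : ℤ) ≤ |v 0| := Int.one_le_abs hv
    exact_mod_cast this
  calc z.im = 1 * z.im := (one_mul _).symm
    _ ≤ |(v 0 : ℝ)| * z.im := mul_le_mul_of_nonneg_right h3 z.im_pos.le
    _ ≤ _ := h1

theorem s29e_tendsto_term_zero {k : ℤ} (hk : 0 < k) {v : Fin 2 → ℤ} (hv : v 0 ≠ 0) :
    Tendsto (fun z : ℍ => eisSummand k v z) atImInfty (𝓝 0) := by
  rw [tendsto_zero_iff_norm_tendsto_zero]
  have him : Tendsto (fun z : ℍ => z.im) atImInfty atTop := tendsto_comap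
  have h1 : Tendsto (fun z : ℍ => (z.im) ^ (-k)) atImInfty (𝓝 0) :=
    (tendsto_zpow_atTop_zero (by omega)).comp him
  refine squeeze_zero' (Eventually.of_forall fun z => norm_nonneg _) ?_ h1
  filter_upwards with z
  rw [eisSummand, norm_zpow]
  obtain ⟨m, rfl⟩ : ∃ m : ℕ, k = m := ⟨k.toNat, (Int.toNat_of_nonneg hk.le).symm⟩
  rw [_root_.zpow_neg, _root_.zpow_neg, zpow_natCast, zpow_natCast]
  exact inv_anti₀ (pow_pos z.im_pos m) (pow_le_pow_left₀ z.im_pos.le (s29e_im_le_norm hv z) m)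

theorem s29e_tendsto_strip (hu : ∀ γ, ‖((χ γ : ℂˣ) : ℂ)‖ = 1)
    (htri : ∀ γ : ↥(Gamma0 N), (γ : SL(2, ℤ)) 1 0 = 0 → χ γ = 1)
    {k : ℤ} (hk : 3 ≤ k) (hk2 : Even k) :
    Tendsto (s29e_E χ k) (atImInfty ⊓ 𝓟 (verticalStrip 1 2)) (𝓝 2) := by
  classical
  have hne : (![0, 1] : Fin 2 → ℤ) ≠ ![0, -1] := by
    intro h
    have := congrFun h 1
    simp at this
  have hsum : ∑' v : Fin 2 → ℤ, (if v = ![0, 1] ∨ v = ![0, -1] then (1 : ℂ) else 0) = 2 := by
    rw [tsum_eq_sum (s := {![0, 1], ![0, -1]}), Finset.sum_pair hne]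
    · simp
      norm_num
    · intro v hv
      simp only [Finset.mem_insert, Finset.mem_singleton] at hv
      rw [if_neg hv]
  rw [← hsum]
  have hk' : (2 : ℝ) < k := by norm_cast
  refine tendsto_tsum_of_dominated_convergence
    (bound := fun u : Fin 2 → ℤ => r ⟨⟨1, 2⟩, Nat.ofNat_pos⟩ ^ (-k) * ‖u‖ ^ (-k)) ?_ ?_ ?_
  · exact_mod_cast (summable_one_div_norm_rpow hk').mul_left <| r ⟨⟨1, 2⟩, Nat.ofNat_pos⟩ ^ (-k)
  · intro v
    refine Tendsto.mono_left ?_ inf_le_left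
    by_cases hv0 : v 0 = 0
    · have hconst : ∀ z : ℍ, s29e_wt χ v * eisSummand k v z =
          (if v = ![0, 1] ∨ v = ![0, -1] then (1 : ℂ) else 0) := by
        intro z
        by_cases h1 : v = ![0, 1]
        · rw [if_pos (Or.inl h1), h1, s29e_wt_e2 htri, eisSummand]
          simp
        · by_cases h2 : v = ![0, -1]
          · rw [if_pos (Or.inr h2), h2, s29e_wt_neg_e2 htri, eisSummand]
            simp [hk2.neg_one_zpow]
          · rw [if_neg (by tauto), s29e_wt_of_zero hv0 h1 h2, zero_mul]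
      simp_rw [hconst]
      exact tendsto_const_nhds
    · have hg : (if v = ![0, 1] ∨ v = ![0, -1] then (1 : ℂ) else 0) = 0 := by
        rw [if_neg]
        rintro (h | h) <;> exact hv0 (by rw [h]; simp)
      rw [hg]
      have := (s29e_tendsto_term_zero (by omega : 0 < k) hv0).const_mul (s29e_wt χ v)
      simpa using this
  · rw [eventually_inf_principal]
    filter_upwards with z hz v
    refine (s29e_norm_term_le hu k v z).trans ?_
    rw [eisSummand, norm_zpow]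
    have h2 := summand_bound_of_mem_verticalStrip (k := k) (lt_trans two_pos hk').le v two_pos hz
    exact_mod_cast h2

/-- **The value at `i∞`**: `E_χ(z) → 2` as `Im z → ∞`. -/
theorem s29e_tendsto (hu : ∀ γ, ‖((χ γ : ℂˣ) : ℂ)‖ = 1)
    (htri : ∀ γ : ↥(Gamma0 N), (γ : SL(2, ℤ)) 1 0 = 0 → χ γ = 1)
    {k : ℤ} (hk : 3 ≤ k) (hk2 : Even k) :
    Tendsto (s29e_E χ k) atImInfty (𝓝 2) := by
  intro U hU
  have h := s29e_tendsto_strip hu htri hk hk2 hU
  rw [Filter.mem_map, Filter.mem_inf_principal, atImInfty_mem] at h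
  obtain ⟨B, hB⟩ := h
  rw [Filter.mem_map, atImInfty_mem]
  refine ⟨max B 2, fun z hz => ?_⟩
  obtain ⟨n, hn⟩ := ModularGroup_T_zpow_mem_verticalStrip z (N := 1) one_pos
  have him : (ModularGroup.T ^ ((1 : ℕ) * n) • z).im = z.im := ModularGroup.im_T_zpow_smul _ _
  have h1 : ModularGroup.T ^ ((1 : ℕ) * n) • z ∈ verticalStrip 1 2 := by
    have h3 : (((1 : ℕ) : ℝ)) = 1 := Nat.cast_one
    rw [h3] at hn
    exact verticalStrip_anti_right _ ((le_max_right B 2).trans hz) hn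
  have h2 := hB (ModularGroup.T ^ ((1 : ℕ) * n) • z) (by rw [him]; exact (le_max_left B 2).trans hz) h1
  simp only [Set.mem_preimage] at h2 ⊢
  rwa [s29e_periodic htri] at h2

end Fermat.Agent.S29
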