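import Mathlib
import Fermat.Agent.S29.EisHolo
import Fermat.Agent.S29.EisBdd
import Fermat.Agent.S29.EisLim

/-!
# S29, package [EIS]: the twisted Eisenstein series

For a character `χ : Γ₀(N) → ℂˣ` with values of norm `1` which is trivial on the elements with
lower-left entry `0`, and an even weight `k ≥ 4`, the series

  `E_χ(z) = ∑_{(c, d)} χ(γ_{(c, d)})⁻¹ (c z + d)^(-k)`

(sum over the bottom rows of `Γ₀(N)`) is holomorphic on the upper half plane, satisfies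
`E_χ ∣[k] γ = χ(γ) E_χ` for `γ ∈ Γ₀(N)`, all its `SL(2, ℤ)`-translates are bounded at `i∞`, and
`E_χ(z) → 2` as `Im z → ∞`; in particular `E_χ ≠ 0`.
-/

set_option autoImplicit false

open UpperHalfPlane Complex Matrix CongruenceSubgroup ModularForm EisensteinSeries Filter Topology
open scoped MatrixGroups Manifold

noncomputable section

namespace Fermat.Agent.S29

variable {N : ℕ} {χ : ↥(Gamma0 N) →* ℂˣ}

/-- The four properties of the twisted Eisenstein series `s29e_E χ k`. -/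
theorem s29e_E_spec (hu : ∀ γ, ‖((χ γ : ℂˣ) : ℂ)‖ = 1)
    (htri : ∀ γ : ↥(Gamma0 N), (γ : SL(2, ℤ)) 1 0 = 0 → χ γ = 1)
    {k : ℤ} (hk : 3 ≤ k) (hk2 : Even k) :
    MDiff (s29e_E χ k) ∧
      (∀ γ : ↥(Gamma0 N), s29e_E χ k ∣[k] (γ : SL(2, ℤ)) = ((χ γ : ℂˣ) : ℂ) • s29e_E χ k) ∧
      (∀ α : SL(2, ℤ), IsBoundedAtImInfty (s29e_E χ k ∣[k] α)) ∧
      Tendsto (s29e_E χ k) atImInfty (𝓝 2) :=
  ⟨s29e_mdifferentiable hu hk, s29e_slash_gamma0 htri k, s29e_isBoundedAtImInfty hu hk,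
    s29e_tendsto hu htri hk hk2⟩

/-- **[EIS]** Existence of a twisted Eisenstein series with value `2` at `i∞`. -/
theorem s29e_main (N : ℕ) [NeZero N] {k : ℤ} (hk : 3 ≤ k) (hk2 : Even k)
    (χ : ↥(Gamma0 N) →* ℂˣ) (hu : ∀ γ, ‖((χ γ : ℂˣ) : ℂ)‖ = 1)
    (htri : ∀ γ : ↥(Gamma0 N), (γ : SL(2, ℤ)) 1 0 = 0 → χ γ = 1) :
    ∃ E : ℍ → ℂ, MDiff E ∧
      (∀ γ : ↥(Gamma0 N), E ∣[k] (γ : SL(2, ℤ)) = ((χ γ : ℂˣ) : ℂ) • E) ∧
      (∀ α : SL(2, ℤ), IsBoundedAtImInfty (E ∣[k] α)) ∧ Tendsto E atImInfty (𝓝 2) :=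
  ⟨s29e_E χ k, s29e_E_spec hu htri hk hk2⟩

/-- The twisted Eisenstein series is not identically zero. -/
theorem s29e_E_ne_zero (hu : ∀ γ, ‖((χ γ : ℂˣ) : ℂ)‖ = 1)
    (htri : ∀ γ : ↥(Gamma0 N), (γ : SL(2, ℤ)) 1 0 = 0 → χ γ = 1)
    {k : ℤ} (hk : 3 ≤ k) (hk2 : Even k) : s29e_E χ k ≠ 0 := by
  intro h
  have h1 := s29e_tendsto hu htri hk hk2
  rw [h] at h1
  have h2 : Tendsto (0 : ℍ → ℂ) atImInfty (𝓝 0) := tendsto_const_nhds
  have := tendsto_nhds_unique h1 h2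
  norm_num at this

end Fermat.Agent.S29
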