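import Mathlib
import Fermat.Prelude.Def_ModularCurve_PeriodMap
import Fermat.Agent.S20.Conj
import Fermat.Agent.S29.Eis

/-!
# S29, package [EIS], corollaries: forms with character, products, powers, the characters `ζ^c`

* `s29e_IsTw N k χ f`: `f` is holomorphic, of weight `k` and character `χ` on `Γ₀(N)`, with all
  `SL(2, ℤ)`-translates bounded at `i∞`;  closed under products and powers, and for `χ = 1` it is
  `IsMF (G0 N) k f`.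
* `s29e_chi ζ c`: the character `γ ↦ ζ ^ c(γ)` of `Γ₀(N)` attached to a homomorphism
  `c : Γ₀(N) → ℤ`; for `c` parabolic and `ζ^p = 1` it satisfies the hypotheses of `s29e_main`.
-/

set_option autoImplicit false

open UpperHalfPlane Complex Matrix CongruenceSubgroup ModularForm EisensteinSeries Filter Topology
open scoped MatrixGroups Manifold
open Fermat.Agent.S22 (IsMF G0)

noncomputable section

namespace Fermat.Agent.S29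

variable {N : ℕ}

/-- `f` is holomorphic on `ℍ`, of weight `k` and character `χ` on `Γ₀(N)`, and all its
`SL(2, ℤ)`-translates are bounded at `i∞`. -/
def s29e_IsTw (N : ℕ) (k : ℤ) (χ : ↥(Gamma0 N) →* ℂˣ) (f : ℍ → ℂ) : Prop :=
  MDiff f ∧ (∀ γ : ↥(Gamma0 N), f ∣[k] (γ : SL(2, ℤ)) = ((χ γ : ℂˣ) : ℂ) • f) ∧
    ∀ α : SL(2, ℤ), IsBoundedAtImInfty (f ∣[k] α)

theorem s29e_isTw_E {χ : ↥(Gamma0 N) →* ℂˣ} (hu : ∀ γ, ‖((χ γ : ℂˣ) : ℂ)‖ = 1)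
    (htri : ∀ γ : ↥(Gamma0 N), (γ : SL(2, ℤ)) 1 0 = 0 → χ γ = 1) {k : ℤ} (hk : 3 ≤ k) :
    s29e_IsTw N k χ (s29e_E χ k) :=
  ⟨s29e_mdifferentiable hu hk, s29e_slash_gamma0 htri k, s29e_isBoundedAtImInfty hu hk⟩

theorem s29e_isTw_one : s29e_IsTw N 0 1 (1 : ℍ → ℂ) := by
  refine ⟨mdifferentiable_const, fun γ => ?_, fun α => ?_⟩
  · rw [is_invariant_one, MonoidHom.one_apply, Units.val_one, one_smul]
  · rw [is_invariant_one]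
    exact Filter.const_boundedAtFilter _ (1 : ℂ)

theorem s29e_IsTw.mul {k₁ k₂ : ℤ} {χ₁ χ₂ : ↥(Gamma0 N) →* ℂˣ} {f g : ℍ → ℂ}
    (hf : s29e_IsTw N k₁ χ₁ f) (hg : s29e_IsTw N k₂ χ₂ g) :
    s29e_IsTw N (k₁ + k₂) (χ₁ * χ₂) (f * g) := by
  refine ⟨hf.1.mul hg.1, fun γ => ?_, fun α => ?_⟩
  · rw [mul_slash_SL2, hf.2.1, hg.2.1, MonoidHom.mul_apply, Units.val_mul]
    funext z
    simp only [Pi.mul_apply, Pi.smul_apply, smul_eq_mul]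
    ring
  · rw [mul_slash_SL2]
    exact (hf.2.2 α).mul (hg.2.2 α)

theorem s29e_IsTw.pow {k : ℤ} {χ : ↥(Gamma0 N) →* ℂˣ} {f : ℍ → ℂ}
    (hf : s29e_IsTw N k χ f) (p : ℕ) : s29e_IsTw N (p * k) (χ ^ p) (f ^ p) := by
  induction p with
  | zero =>
    have e0 : χ ^ 0 = 1 := pow_zero χ
    rw [Nat.cast_zero, zero_mul, pow_zero, e0]
    exact s29e_isTw_one
  | succ p ih =>
    have h := ih.mul hf
    have e : ((p + 1 : ℕ) : ℤ) * k = p * k + k := by push_cast; ring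
    have e2 : χ ^ (p + 1) = χ ^ p * χ := pow_succ χ p
    have e3 : f ^ (p + 1) = f ^ p * f := pow_succ f p
    rw [e, e2, e3]
    exact h

theorem s29e_IsTw.congr_char {k : ℤ} {χ χ' : ↥(Gamma0 N) →* ℂˣ} {f : ℍ → ℂ}
    (hf : s29e_IsTw N k χ f) (h : ∀ γ, χ γ = χ' γ) : s29e_IsTw N k χ' f :=
  ⟨hf.1, fun γ => by rw [hf.2.1, h], hf.2.2⟩

/-- A form with trivial character is a modular form. -/
theorem s29e_IsTw.isMF [NeZero N] {k : ℤ} {χ : ↥(Gamma0 N) →* ℂˣ} {f : ℍ → ℂ}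
    (hf : s29e_IsTw N k χ f) (hχ : ∀ γ, χ γ = 1) : IsMF (G0 N) k f :=
  Fermat.Agent.S20.isMF_criterion N k f hf.1
    (fun γ hγ => by
      have h := hf.2.1 ⟨γ, hγ⟩
      rw [hχ, Units.val_one, one_smul] at h
      exact h) hf.2.2

theorem s29e_isTw_of_isMF [NeZero N] {k : ℤ} {f : ℍ → ℂ} (hf : IsMF (G0 N) k f) :
    s29e_IsTw N k 1 f := by
  refine ⟨Fermat.Agent.S20.conj_mdiff_of_isMF hf, fun γ => ?_, fun α => ?_⟩
  · obtain ⟨F, rfl⟩ := hf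
    rw [MonoidHom.one_apply, Units.val_one, one_smul]
    exact F.slash_action_eq' _ ⟨(γ : SL(2, ℤ)), γ.2, rfl⟩
  · exact Fermat.Agent.S20.isBoundedAtImInfty_slash_of_isMF hf α

/-- The `p`-th power of a form whose character is killed by `p` is a modular form. -/
theorem s29e_IsTw.isMF_pow [NeZero N] {k : ℤ} {χ : ↥(Gamma0 N) →* ℂˣ} {f : ℍ → ℂ}
    (hf : s29e_IsTw N k χ f) (p : ℕ) (hχ : ∀ γ, χ γ ^ p = 1) : IsMF (G0 N) (p * k) (f ^ p) :=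
  (hf.pow p).isMF (fun γ => by rw [MonoidHom.pow_apply, hχ])

/-- A character of finite order has values of norm `1`. -/
theorem s29e_norm_of_pow {χ : ↥(Gamma0 N) →* ℂˣ} {p : ℕ} (hp : p ≠ 0)
    (hχ : ∀ γ, χ γ ^ p = 1) (γ : ↥(Gamma0 N)) : ‖((χ γ : ℂˣ) : ℂ)‖ = 1 := by
  have h : ((χ γ : ℂˣ) : ℂ) ^ p = 1 := by
    rw [← Units.val_pow_eq_pow_val, hχ, Units.val_one]
  exact Complex.norm_eq_one_of_pow_eq_one h hp

/-- **(a)** `E_χ^p` is a modular form of weight `p k` on `Γ₀(N)` if `χ^p = 1`, with value `2^p` at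
`i∞`. -/
theorem s29e_isMF_pow [NeZero N] {χ : ↥(Gamma0 N) →* ℂˣ} {p : ℕ} (hp : p ≠ 0)
    (hχ : ∀ γ, χ γ ^ p = 1)
    (htri : ∀ γ : ↥(Gamma0 N), (γ : SL(2, ℤ)) 1 0 = 0 → χ γ = 1) {k : ℤ} (hk : 3 ≤ k) :
    IsMF (G0 N) (p * k) (s29e_E χ k ^ p) :=
  (s29e_isTw_E (s29e_norm_of_pow hp hχ) htri hk).isMF_pow p hχ

theorem s29e_tendsto_pow {χ : ↥(Gamma0 N) →* ℂˣ} {p : ℕ} (hp : p ≠ 0)
    (hχ : ∀ γ, χ γ ^ p = 1)
    (htri : ∀ γ : ↥(Gamma0 N), (γ : SL(2, ℤ)) 1 0 = 0 → χ γ = 1) {k : ℤ} (hk : 3 ≤ k)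
    (hk2 : Even k) : Tendsto (s29e_E χ k ^ p) atImInfty (𝓝 (2 ^ p)) :=
  (s29e_tendsto (s29e_norm_of_pow hp hχ) htri hk hk2).pow p

/-! ### Periodicity of the translates -/

theorem s29e_gamma_le_gamma0 : CongruenceSubgroup.Gamma N ≤ Gamma0 N := by
  intro γ hγ
  rw [Gamma_mem] at hγ
  rw [Gamma0_mem]
  exact hγ.2.2.1

theorem s29e_conj_T_mem (α : SL(2, ℤ)) :
    α * ModularGroup.T ^ (N : ℤ) * α⁻¹ ∈ Gamma0 N := by
  apply s29e_gamma_le_gamma0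
  have h := ModularGroup_T_pow_mem_Gamma (N : ℤ) (N : ℤ) dvd_rfl
  rw [Int.natAbs_natCast] at h
  exact (Gamma_normal N).conj_mem _ h α

theorem s29e_conj_T_trace (α : SL(2, ℤ)) :
    (((α * ModularGroup.T ^ (N : ℤ) * α⁻¹ : SL(2, ℤ)) : Matrix (Fin 2) (Fin 2) ℤ)).trace ^ 2 = 4 := by
  have h1 : (((α * ModularGroup.T ^ (N : ℤ) * α⁻¹ : SL(2, ℤ)) : Matrix (Fin 2) (Fin 2) ℤ)).trace =
      ((ModularGroup.T ^ (N : ℤ) : SL(2, ℤ)) : Matrix (Fin 2) (Fin 2) ℤ).trace := by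
    rw [Matrix.SpecialLinearGroup.coe_mul, Matrix.trace_mul_comm,
      ← Matrix.SpecialLinearGroup.coe_mul, inv_mul_cancel_left]
  rw [h1, ModularGroup.coe_T_zpow]
  simp [Matrix.trace_fin_two]

theorem s29e_denom_T_zpow (n : ℤ) (z : ℍ) :
    denom ((ModularGroup.T ^ n : SL(2, ℤ)) : GL (Fin 2) ℝ) z = 1 := by
  rw [ModularGroup.denom_apply]
  simp [ModularGroup.coe_T_zpow]

/-- **(d)** If `χ` is trivial on the parabolic elements, every `SL(2, ℤ)`-translate of a form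
with character `χ` on `Γ₀(N)` is invariant under `z ↦ z + N`. -/
theorem s29e_IsTw.slash_T {k : ℤ} {χ : ↥(Gamma0 N) →* ℂˣ} {f : ℍ → ℂ}
    (hf : s29e_IsTw N k χ f)
    (hpar : ∀ γ : ↥(Gamma0 N),
      ((γ : SL(2, ℤ)) : Matrix (Fin 2) (Fin 2) ℤ).trace ^ 2 = 4 → χ γ = 1)
    (α : SL(2, ℤ)) : (f ∣[k] α) ∣[k] (ModularGroup.T ^ (N : ℤ)) = f ∣[k] α := by
  have h1 := hf.2.1 ⟨_, s29e_conj_T_mem (N := N) α⟩
  rw [hpar ⟨_, s29e_conj_T_mem (N := N) α⟩ (s29e_conj_T_trace α), Units.val_one, one_smul] at h1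
  have h2 : (f ∣[k] (α * ModularGroup.T ^ (N : ℤ) * α⁻¹ : SL(2, ℤ))) ∣[k] α = f ∣[k] α := by
    rw [h1]
  rw [← SlashAction.slash_mul, inv_mul_cancel_right, SlashAction.slash_mul] at h2
  exact h2

theorem s29e_IsTw.slash_periodic {k : ℤ} {χ : ↥(Gamma0 N) →* ℂˣ} {f : ℍ → ℂ}
    (hf : s29e_IsTw N k χ f)
    (hpar : ∀ γ : ↥(Gamma0 N),
      ((γ : SL(2, ℤ)) : Matrix (Fin 2) (Fin 2) ℤ).trace ^ 2 = 4 → χ γ = 1)
    (α : SL(2, ℤ)) (z : ℍ) :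
    (f ∣[k] α) (ModularGroup.T ^ (N : ℤ) • z) = (f ∣[k] α) z := by
  have h := congrFun (hf.slash_T hpar α) z
  rw [SL_slash_apply, s29e_denom_T_zpow, _root_.one_zpow, mul_one] at h
  exact h

/-! ### The characters `ζ ^ c` -/

/-- The character `γ ↦ ζ ^ c(γ)` attached to a homomorphism `c : Γ₀(N) → ℤ`. -/
def s29e_chi (ζ : ℂˣ) (c : Additive ↥(Gamma0 N) →+ ℤ) : ↥(Gamma0 N) →* ℂˣ :=
  MonoidHom.mk' (fun γ => ζ ^ c (Additive.ofMul γ))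
    (fun a b => by rw [ofMul_mul, map_add, _root_.zpow_add])

@[simp] theorem s29e_chi_apply (ζ : ℂˣ) (c : Additive ↥(Gamma0 N) →+ ℤ) (γ : ↥(Gamma0 N)) :
    s29e_chi ζ c γ = ζ ^ c (Additive.ofMul γ) := rfl

theorem s29e_chi_zero (ζ : ℂˣ) : s29e_chi ζ (0 : Additive ↥(Gamma0 N) →+ ℤ) = 1 := by
  ext γ
  simp

theorem s29e_chi_add (ζ : ℂˣ) (c c' : Additive ↥(Gamma0 N) →+ ℤ) :
    s29e_chi ζ (c + c') = s29e_chi ζ c * s29e_chi ζ c' := by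
  ext γ
  simp [_root_.zpow_add]

theorem s29e_chi_pow {ζ : ℂˣ} {p : ℕ} (hζ : ζ ^ p = 1) (c : Additive ↥(Gamma0 N) →+ ℤ)
    (γ : ↥(Gamma0 N)) : s29e_chi ζ c γ ^ p = 1 := by
  rw [s29e_chi_apply, ← zpow_natCast, ← _root_.zpow_mul, mul_comm, _root_.zpow_mul, zpow_natCast, hζ,
    _root_.one_zpow]

/-- An element of `SL(2, ℤ)` with lower-left entry `0` is parabolic (or `± 1`). -/
theorem s29e_trace_of_zero {γ : SL(2, ℤ)} (h : γ 1 0 = 0) :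
    ((γ : Matrix (Fin 2) (Fin 2) ℤ)).trace ^ 2 = 4 := by
  have hdet := γ.det_coe
  rw [Matrix.det_fin_two] at hdet
  have h' : (γ : Matrix (Fin 2) (Fin 2) ℤ) 1 0 = 0 := h
  rw [h', mul_zero, sub_zero] at hdet
  rw [Matrix.trace_fin_two]
  rcases Int.eq_one_or_neg_one_of_mul_eq_one' hdet with ⟨h0, h1⟩ | ⟨h0, h1⟩
  · rw [h0, h1]; norm_num
  · rw [h0, h1]; norm_num

theorem s29e_chi_par (ζ : ℂˣ) {c : Additive ↥(Gamma0 N) →+ ℤ}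
    (hc : c ∈ ModularCurve.Period.parabolicHoms ℤ (Gamma0 N) ℤ) (γ : ↥(Gamma0 N))
    (hγ : ((γ : SL(2, ℤ)) : Matrix (Fin 2) (Fin 2) ℤ).trace ^ 2 = 4) : s29e_chi ζ c γ = 1 := by
  rw [s29e_chi_apply, hc γ hγ, zpow_zero]

theorem s29e_chi_tri (ζ : ℂˣ) {c : Additive ↥(Gamma0 N) →+ ℤ}
    (hc : c ∈ ModularCurve.Period.parabolicHoms ℤ (Gamma0 N) ℤ) (γ : ↥(Gamma0 N))
    (hγ : (γ : SL(2, ℤ)) 1 0 = 0) : s29e_chi ζ c γ = 1 :=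
  s29e_chi_par ζ hc γ (s29e_trace_of_zero hγ)

/-- **(c)** The twisted Eisenstein series with character `ζ^c`, `c` a parabolic homomorphism
`Γ₀(N) → ℤ`, `ζ^p = 1`: it is a form with character `ζ^c`, its value at `i∞` is `2`, its `p`-th
power is a modular form of weight `p k` on `Γ₀(N)`, and all its translates are invariant under
`z ↦ z + N`. -/
theorem s29e_main_chi (N : ℕ) [NeZero N] {k : ℤ} (hk : 3 ≤ k) (hk2 : Even k) {p : ℕ}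
    (hp : p ≠ 0) {ζ : ℂˣ} (hζ : ζ ^ p = 1) {c : Additive ↥(Gamma0 N) →+ ℤ}
    (hc : c ∈ ModularCurve.Period.parabolicHoms ℤ (Gamma0 N) ℤ) :
    s29e_IsTw N k (s29e_chi ζ c) (s29e_E (s29e_chi ζ c) k) ∧
      Tendsto (s29e_E (s29e_chi ζ c) k) atImInfty (𝓝 2) ∧
      IsMF (G0 N) (p * k) (s29e_E (s29e_chi ζ c) k ^ p) ∧
      ∀ (α : SL(2, ℤ)) (z : ℍ),
        (s29e_E (s29e_chi ζ c) k ∣[k] α) (ModularGroup.T ^ (N : ℤ) • z) =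
          (s29e_E (s29e_chi ζ c) k ∣[k] α) z := by
  have hu := s29e_norm_of_pow hp (s29e_chi_pow hζ c)
  have htri := s29e_chi_tri ζ hc
  have hT := s29e_isTw_E hu htri hk
  exact ⟨hT, s29e_tendsto hu htri hk hk2, hT.isMF_pow p (s29e_chi_pow hζ c),
    hT.slash_periodic (s29e_chi_par ζ hc)⟩

/-- `E_1` (trivial character) is a modular form on `Γ₀(N)`. -/
theorem s29e_isMF_one (N : ℕ) [NeZero N] {k : ℤ} (hk : 3 ≤ k) :
    IsMF (G0 N) k (s29e_E (1 : ↥(Gamma0 N) →* ℂˣ) k) :=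
  (s29e_isTw_E (χ := (1 : ↥(Gamma0 N) →* ℂˣ)) (fun γ => by simp) (fun γ _ => rfl) hk).isMF
    (fun γ => rfl)

theorem s29e_tendsto_one (N : ℕ) {k : ℤ} (hk : 3 ≤ k) (hk2 : Even k) :
    Tendsto (s29e_E (1 : ↥(Gamma0 N) →* ℂˣ) k) atImInfty (𝓝 2) :=
  s29e_tendsto (χ := (1 : ↥(Gamma0 N) →* ℂˣ)) (fun γ => by simp) (fun γ _ => rfl) hk hk2

theorem s29e_ne_zero_of_tendsto {f : ℍ → ℂ} (h : Tendsto f atImInfty (𝓝 2)) : f ≠ 0 := by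
  intro h0
  rw [h0] at h
  have h2 : Tendsto (0 : ℍ → ℂ) atImInfty (𝓝 0) := tendsto_const_nhds
  have := tendsto_nhds_unique h h2
  norm_num at this

/-- **The data for a root class** (weight `4`): for a parabolic homomorphism `c : Γ₀(N) → ℤ` and
`ζ^p = 1`, the pair `f = E_{ζ^c}`, `g = E_1`. -/
theorem s29e_root_data (N : ℕ) [NeZero N] {p : ℕ} (hp : p ≠ 0) {ζ : ℂˣ} (hζ : ζ ^ p = 1)
    {c : Additive ↥(Gamma0 N) →+ ℤ}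
    (hc : c ∈ ModularCurve.Period.parabolicHoms ℤ (Gamma0 N) ℤ) :
    ∃ (k : ℕ) (f g : ℍ → ℂ), f ≠ 0 ∧ g ≠ 0 ∧ MDiff f ∧ MDiff g ∧
      (∀ γ : ↥(Gamma0 N), f ∣[(k : ℤ)] (γ : SL(2, ℤ)) = ((s29e_chi ζ c γ : ℂˣ) : ℂ) • f) ∧
      IsMF (G0 N) k g ∧ (∀ α : SL(2, ℤ), IsBoundedAtImInfty (f ∣[(k : ℤ)] α)) ∧
      IsMF (G0 N) (p * k) (f ^ p) ∧ IsMF (G0 N) (p * k) (g ^ p) ∧
      Tendsto f atImInfty (𝓝 2) ∧ Tendsto g atImInfty (𝓝 2) ∧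
      (∀ (α : SL(2, ℤ)) (z : ℍ),
        (f ∣[(k : ℤ)] α) (ModularGroup.T ^ (N : ℤ) • z) = (f ∣[(k : ℤ)] α) z) ∧
      (∀ (α : SL(2, ℤ)) (z : ℍ),
        (g ∣[(k : ℤ)] α) (ModularGroup.T ^ (N : ℤ) • z) = (g ∣[(k : ℤ)] α) z) := by
  have hk : (3 : ℤ) ≤ ((4 : ℕ) : ℤ) := by norm_num
  have hk2 : Even (((4 : ℕ) : ℤ)) := ⟨2, by norm_num⟩
  obtain ⟨hT, hlim, hpow, hper⟩ := s29e_main_chi N hk hk2 hp hζ hc
  have hg := s29e_isMF_one N hk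
  have hgT := s29e_isTw_of_isMF hg
  refine ⟨4, s29e_E (s29e_chi ζ c) ((4 : ℕ) : ℤ), s29e_E (1 : ↥(Gamma0 N) →* ℂˣ) ((4 : ℕ) : ℤ),
    s29e_ne_zero_of_tendsto hlim, s29e_ne_zero_of_tendsto (s29e_tendsto_one N hk hk2), hT.1,
    hgT.1, hT.2.1, hg, hT.2.2, hpow, ?_, hlim, s29e_tendsto_one N hk hk2, hper, ?_⟩
  · exact hgT.isMF_pow p (fun γ => by simp)
  · exact hgT.slash_periodic (fun γ _ => rfl)

end Fermat.Agent.S29
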