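/-
S29, leaf [KAN] (owner: helper4).  Prefix `s29kan_`.

**Every ratio of two modular forms of the same weight on `Γ₀(N)` lies in the function field
`F_ℂ = ℂ(j(q^d) : d ∣ N) ⊆ ℂ((q))`** (in fact already in `ℂ(j, j_N)`).

* `s29kan_IsForm N k f`  : `f` is holomorphic on `ℍ`, `f ∣[k] γ = f` for `γ ∈ Γ₀(N)`, and every
                           `SL(2,ℤ)`-translate `f ∣[k] γ` is bounded at `i∞` (what a modular form
                           of weight `k` on `Γ₀(N)` is, as a predicate on functions);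
* `s29kan_holo_level`    : a holomorphic modular function of level `N` with Laurent expansion `s`
                           has `s ∈ ℂ(j, j_N)`;
* `s29kan_holo`          : the same, with target `laurentBaseChange ℂ (modularFunctionFieldFull N)`;
* `s29kan_ratio`         : `series f / series g ∈ F_ℂ` for forms `f`, `g ≠ 0` of the same weight;
* `s29kan_ratio_poly`    : the analytic realisation `f · B(j, j_N) = g · A(j, j_N)`.
-/
import Mathlib
import Fermat.Agent.S20.Conj
import Fermat.Agent.S28.UnitMem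

set_option autoImplicit false

noncomputable section

namespace Fermat.Agent.S29

open UpperHalfPlane ModularFormClass CongruenceSubgroup Matrix.SpecialLinearGroup Function
open ModularForm Filter Asymptotics
open scoped MatrixGroups ModularForm Manifold Real Topology Polynomial

open Fermat.Agent.S20 Fermat.Agent.S22 Fermat.Agent.S24 Fermat.Agent.S28 ModularCurve

local notation "Δ" => ModularForm.discriminant

/-! ### Holomorphic modular functions lie in the function field -/

/-- **[KAN], holomorphic case, level `d`.** A holomorphic modular function for `Γ₀(d)` (all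
translates of moderate growth) with Laurent expansion `s` at `i∞` has `s ∈ ℂ(j, j_d)`. -/
theorem s29kan_holo_level (d : ℕ) [NeZero d] (f : ℍ → ℂ) (hf : anB_IsModFun d f)
    (s : LaurentSeries ℂ) (hs : anA_HasLaurent s f) :
    s ∈ laurentBaseChange ℂ (modularFunctionField d) := by
  set E := laurentBaseChange ℂ (modularFunctionField d) with hE
  obtain ⟨A, B, hAB, z₀, hz₀⟩ := umem_lagrange d hf
  set sj := anA_jSeries with hsj
  set t := ModularCurve.qExpand ℂ d anA_jSeries with ht
  have hA := umem_hasLaurent_evalEval umem_hasLaurent_jfun (umem_hasLaurent_jd d) A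
  have hB := umem_hasLaurent_evalEval umem_hasLaurent_jfun (umem_hasLaurent_jd d) B
  have hmul := hs.mul hB
  have hfun : (f * fun z => B.evalEval (jfun z) (anB_jd d z)) =
      fun z => A.evalEval (jfun z) (anB_jd d z) := by
    funext z
    exact hAB z
  rw [hfun] at hmul
  have hser : s * umem_serEval sj t B = umem_serEval sj t A := hmul.unique_series hA
  have hB0 : umem_serEval sj t B ≠ 0 := by
    intro h0
    rw [h0] at hB
    have := congrFun hB.eq_zero_of_zero z₀
    exact hz₀ this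
  have hC : ∀ c : ℂ, (HahnSeries.C c : LaurentSeries ℂ) ∈ E.toSubfield := by
    intro c
    have h1 := E.algebraMap_mem c
    rw [algebraMap_laurentSeries_eq_single] at h1
    exact h1
  have hsE : sj ∈ E.toSubfield := by
    have h1 := coeffEmb_mem_laurentBaseChange ℂ (jq_mem d)
    rw [umem_coeffEmb_jq] at h1
    exact h1
  have htE : t ∈ E.toSubfield := by
    have h1 := coeffEmb_mem_laurentBaseChange ℂ (jqN_mem d)
    rw [umem_coeffEmb_jqd] at h1
    exact h1
  have hAE := umem_serEval_mem E.toSubfield hC hsE htE A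
  have hBE := umem_serEval_mem E.toSubfield hC hsE htE B
  have hdiv : s = umem_serEval sj t A / umem_serEval sj t B := by
    rw [eq_div_iff hB0, hser]
  rw [hdiv]
  exact div_mem hAE hBE

/-- Monotonicity of `laurentBaseChange`. -/
theorem s29kan_laurentBaseChange_mono (L : Type*) [Field L] [Algebra ℚ L]
    {F₀ F₁ : IntermediateField ℚ (LaurentSeries ℚ)} (h : F₀ ≤ F₁) :
    laurentBaseChange L F₀ ≤ laurentBaseChange L F₁ := by
  rw [laurentBaseChange, IntermediateField.adjoin_le_iff]
  rintro _ ⟨y, hy, rfl⟩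
  exact coeffEmb_mem_laurentBaseChange L (h hy)

/-- **[KAN], holomorphic case.** A holomorphic modular function for `Γ₀(N)` with Laurent
expansion `s` has `s ∈ F_ℂ`. -/
theorem s29kan_holo (N : ℕ) [NeZero N] (f : ℍ → ℂ) (hf : anB_IsModFun N f)
    (s : LaurentSeries ℂ) (hs : anA_HasLaurent s f) :
    s ∈ laurentBaseChange ℂ (modularFunctionFieldFull N) :=
  s29kan_laurentBaseChange_mono ℂ (modularFunctionField_le_full N)
    (s29kan_holo_level N f hf s hs)

/-! ### From forms of weight `12 m` to modular functions -/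

/-- The translates of `h / Δ ^ m`. -/
theorem s29kan_quot_smul (h : ℍ → ℂ) (m : ℕ) (γ : SL(2, ℤ)) (z : ℍ) :
    h (γ • z) / Δ (γ • z) ^ m = (h ∣[(12 * m : ℤ)] γ) z / Δ z ^ m := by
  have hden : denom γ z ≠ 0 := denom_ne_zero γ z
  have hΔ : Δ z ≠ 0 := discriminant_ne_zero z
  have hpow : (denom γ z ^ (12 : ℤ)) ^ m = denom γ z ^ (12 * m : ℤ) := by
    rw [← zpow_natCast, ← zpow_mul]
  rw [ModularForm.SL_slash_apply, anC_discriminant_smul, mul_pow, hpow, zpow_neg]
  have h1 : denom γ z ^ (12 * m : ℤ) ≠ 0 := zpow_ne_zero _ hden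
  have h2 : Δ z ^ m ≠ 0 := pow_ne_zero _ hΔ
  field_simp

theorem s29kan_inv_disc_pow_isBigO (m : ℕ) :
    (fun τ : ℍ => (Δ τ ^ m)⁻¹) =O[atImInfty] fun τ : ℍ => Real.exp (2 * π * m * τ.im) := by
  have h := umem_inv_disc_isBigO.pow m
  refine (h.congr_left fun τ => ?_).congr_right fun τ => ?_
  · rw [inv_pow]
  · rw [← Real.exp_nat_mul]
    congr 1
    ring

/-- For a form `h` of weight `12 m` and level `Γ₀(N)`, `h / Δ ^ m` is a holomorphic modular
function of level `N`. -/
theorem s29kan_isModFun (N : ℕ) [NeZero N] (m : ℕ) {h : ℍ → ℂ}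
    (hh : IsMF (G0 N) (12 * m) h) : anB_IsModFun N (fun z => h z / Δ z ^ m) where
  holo := (conj_mdiff_of_isMF hh).div (anC_discriminant_pow_mdiff m)
    (fun z => pow_ne_zero _ (discriminant_ne_zero z))
  inv := by
    intro γ hγ z
    rw [s29kan_quot_smul, conj_slash_Gamma0 hh γ hγ]
  growth := by
    intro γ
    have hfun : (fun z : ℍ => h (γ • z) / Δ (γ • z) ^ m) =
        fun z : ℍ => (h ∣[(12 * m : ℤ)] γ) z * (Δ z ^ m)⁻¹ := by
      funext z
      rw [s29kan_quot_smul, div_eq_mul_inv]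
    rw [hfun]
    have hb : IsBoundedAtImInfty (h ∣[(12 * m : ℤ)] γ) := isBoundedAtImInfty_slash_of_isMF hh γ
    have h1 := (show (h ∣[(12 * m : ℤ)] γ) =O[atImInfty] (1 : ℍ → ℝ) from hb).mul
      (s29kan_inv_disc_pow_isBigO m)
    refine ⟨m, h1.congr_right fun z => ?_⟩
    simp

/-- The Laurent expansion of `h / Δ ^ m`. -/
theorem s29kan_hasLaurent_quot {h : ℍ → ℂ} (hh : IsNice h) (m : ℕ) :
    anA_HasLaurent (HahnSeries.ofPowerSeries ℤ ℂ (qExpansion 1 h) * umem_deltaInvC ^ m)
      (fun z => h z / Δ z ^ m) := by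
  have h1 := (anA_HasLaurent.of_isNice hh).mul (umem_hasLaurent_pow umem_hasLaurent_disc_inv m)
  refine (congrArg (anA_HasLaurent _) ?_).mp h1
  funext z
  simp only [Pi.mul_apply, Pi.pow_apply, div_eq_mul_inv, inv_pow]

/-- **[KAN], forms of weight `12 m`.** -/
theorem s29kan_mem_of_weight (N : ℕ) [NeZero N] (m : ℕ) {h : ℍ → ℂ}
    (hh : IsMF (G0 N) (12 * m) h) :
    HahnSeries.ofPowerSeries ℤ ℂ (qExpansion 1 h) * umem_deltaInvC ^ m ∈
      laurentBaseChange ℂ (modularFunctionFieldFull N) :=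
  s29kan_holo N _ (s29kan_isModFun N m hh) _ (s29kan_hasLaurent_quot hh.isNice_G0 m)

/-! ### Ratios of forms -/

theorem s29kan_deltaInvC_ne_zero : umem_deltaInvC ≠ 0 := by
  intro h
  have := umem_deltaC_mul_inv
  rw [h, mul_zero] at this
  exact zero_ne_one this

/-- The `q`-expansion of a non-zero form is non-zero. -/
theorem s29kan_series_ne_zero {g : ℍ → ℂ} (hg : IsNice g) (hg0 : g ≠ 0) :
    HahnSeries.ofPowerSeries ℤ ℂ (qExpansion 1 g) ≠ 0 := by
  intro h
  have h1 := anA_HasLaurent.of_isNice hg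
  rw [h] at h1
  exact hg0 h1.eq_zero_of_zero

/-- **[KAN].** The ratio of the `q`-expansions of two modular forms of the same weight on
`Γ₀(N)` lies in the function field `F_ℂ`. -/
theorem s29kan_ratio (N : ℕ) [NeZero N] (k : ℕ) (f g : ℍ → ℂ)
    (hf : IsMF (G0 N) k f) (hg : IsMF (G0 N) k g) :
    HahnSeries.ofPowerSeries ℤ ℂ (qExpansion 1 f) / HahnSeries.ofPowerSeries ℤ ℂ (qExpansion 1 g) ∈
      laurentBaseChange ℂ (modularFunctionFieldFull N) := by
  by_cases hg0 : g = 0
  · have h0 : HahnSeries.ofPowerSeries ℤ ℂ (qExpansion 1 g) = 0 := by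
      have h1 := anA_HasLaurent.of_isNice hg.isNice_G0
      subst hg0
      exact h1.series_eq_zero
    rw [h0, div_zero]
    exact zero_mem _
  set sf := HahnSeries.ofPowerSeries ℤ ℂ (qExpansion 1 f) with hsf
  set sg := HahnSeries.ofPowerSeries ℤ ℂ (qExpansion 1 g) with hsg
  have hsg0 : sg ≠ 0 := s29kan_series_ne_zero hg.isNice_G0 hg0
  -- numerator `f g¹¹`, denominator `g¹²`, both of weight `12 k`
  have hnum : IsMF (G0 N) (12 * k) (f * g ^ 11) :=
    (hf.mul (hg.pow 11)).cast (by push_cast; ring)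
  have hden : IsMF (G0 N) (12 * k) (g ^ 12) := (hg.pow 12).cast (by push_cast; ring)
  have h1 := s29kan_mem_of_weight N k hnum
  have h2 := s29kan_mem_of_weight N k hden
  have e1 : HahnSeries.ofPowerSeries ℤ ℂ (qExpansion 1 (f * g ^ 11)) = sf * sg ^ 11 := by
    rw [hf.isNice_G0.qExpansion_mul (hg.isNice_G0.pow 11), hg.isNice_G0.qExpansion_pow, map_mul,
      map_pow]
  have e2 : HahnSeries.ofPowerSeries ℤ ℂ (qExpansion 1 (g ^ 12)) = sg ^ 12 := by
    rw [hg.isNice_G0.qExpansion_pow, map_pow]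
  rw [e1] at h1
  rw [e2] at h2
  have hd : umem_deltaInvC ^ k ≠ 0 := pow_ne_zero _ s29kan_deltaInvC_ne_zero
  have key : sf / sg = (sf * sg ^ 11 * umem_deltaInvC ^ k) / (sg ^ 12 * umem_deltaInvC ^ k) := by
    field_simp
  rw [key]
  exact div_mem h1 h2

/-! ### The analytic realisation -/

/-- A function with a non-zero Laurent expansion is not identically zero. -/
theorem s29kan_exists_ne_zero {s : LaurentSeries ℂ} {f : ℍ → ℂ} (h : anA_HasLaurent s f)
    (hs : s ≠ 0) : ∃ z : ℍ, f z ≠ 0 := by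
  by_contra hcon
  have hf : f = 0 := funext fun z => by_contra fun hz => hcon ⟨z, hz⟩
  subst hf
  exact hs h.series_eq_zero

/-- A function which is not identically zero has a non-zero Laurent expansion. -/
theorem s29kan_series_ne_zero_of_exists {s : LaurentSeries ℂ} {f : ℍ → ℂ}
    (h : anA_HasLaurent s f) {z : ℍ} (hz : f z ≠ 0) : s ≠ 0 := by
  intro hs
  subst hs
  exact hz (congrFun h.eq_zero_of_zero z)

/-- **[KAN], holomorphic case with the analytic realisation.** For a holomorphic modular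
function `f` of level `N` with Laurent expansion `s` there are bivariate polynomials `A`, `B` with
`f · B(j, j_N) = A(j, j_N)` on `ℍ`, `s · B(j_q, j_q^N) = A(j_q, j_q^N)` in `ℂ((q))` and
`B(j_q, j_q^N) ≠ 0`. -/
theorem s29kan_holo_poly (N : ℕ) [NeZero N] (f : ℍ → ℂ) (hf : anB_IsModFun N f)
    (s : LaurentSeries ℂ) (hs : anA_HasLaurent s f) :
    ∃ A B : ℂ[X][X],
      (∀ z : ℍ, f z * B.evalEval (jfun z) (anB_jd N z) = A.evalEval (jfun z) (anB_jd N z)) ∧
      s * umem_serEval anA_jSeries (ModularCurve.qExpand ℂ N anA_jSeries) B =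
        umem_serEval anA_jSeries (ModularCurve.qExpand ℂ N anA_jSeries) A ∧
      umem_serEval anA_jSeries (ModularCurve.qExpand ℂ N anA_jSeries) B ≠ 0 := by
  obtain ⟨A, B, hAB, z₀, hz₀⟩ := umem_lagrange N hf
  have hA := umem_hasLaurent_evalEval umem_hasLaurent_jfun (umem_hasLaurent_jd N) A
  have hB := umem_hasLaurent_evalEval umem_hasLaurent_jfun (umem_hasLaurent_jd N) B
  have hmul := hs.mul hB
  have hfun : (f * fun z => B.evalEval (jfun z) (anB_jd N z)) =
      fun z => A.evalEval (jfun z) (anB_jd N z) := by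
    funext z
    exact hAB z
  rw [hfun] at hmul
  exact ⟨A, B, hAB, hmul.unique_series hA, s29kan_series_ne_zero_of_exists hB hz₀⟩

/-- **[KAN], analytic realisation of a ratio of forms.** For forms `f`, `g ≠ 0` of the same
weight on `Γ₀(N)` there are bivariate polynomials `A`, `B` with
`f · B(j, j_N) = g · A(j, j_N)` on `ℍ`, the same identity for the `q`-expansions, and
`B(j, j_N)` not identically zero. -/
theorem s29kan_ratio_poly (N : ℕ) [NeZero N] (k : ℕ) (f g : ℍ → ℂ)
    (hf : IsMF (G0 N) k f) (hg : IsMF (G0 N) k g) (hg0 : g ≠ 0) :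
    ∃ A B : ℂ[X][X],
      (∀ z : ℍ, f z * B.evalEval (jfun z) (anB_jd N z) =
        g z * A.evalEval (jfun z) (anB_jd N z)) ∧
      HahnSeries.ofPowerSeries ℤ ℂ (qExpansion 1 f) *
          umem_serEval anA_jSeries (ModularCurve.qExpand ℂ N anA_jSeries) B =
        HahnSeries.ofPowerSeries ℤ ℂ (qExpansion 1 g) *
          umem_serEval anA_jSeries (ModularCurve.qExpand ℂ N anA_jSeries) A ∧
      umem_serEval anA_jSeries (ModularCurve.qExpand ℂ N anA_jSeries) B ≠ 0 ∧
      ∃ z : ℍ, B.evalEval (jfun z) (anB_jd N z) ≠ 0 := by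
  set sf := HahnSeries.ofPowerSeries ℤ ℂ (qExpansion 1 f) with hsf
  set sg := HahnSeries.ofPowerSeries ℤ ℂ (qExpansion 1 g) with hsg
  set sj := anA_jSeries with hsj
  set t := ModularCurve.qExpand ℂ N anA_jSeries with ht
  have hsg0 : sg ≠ 0 := s29kan_series_ne_zero hg.isNice_G0 hg0
  have hnum : IsMF (G0 N) (12 * k) (f * g ^ 11) :=
    (hf.mul (hg.pow 11)).cast (by push_cast; ring)
  have hden : IsMF (G0 N) (12 * k) (g ^ 12) := (hg.pow 12).cast (by push_cast; ring)
  have e1 : HahnSeries.ofPowerSeries ℤ ℂ (qExpansion 1 (f * g ^ 11)) = sf * sg ^ 11 := by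
    rw [hf.isNice_G0.qExpansion_mul (hg.isNice_G0.pow 11), hg.isNice_G0.qExpansion_pow, map_mul,
      map_pow]
  have e2 : HahnSeries.ofPowerSeries ℤ ℂ (qExpansion 1 (g ^ 12)) = sg ^ 12 := by
    rw [hg.isNice_G0.qExpansion_pow, map_pow]
  obtain ⟨A₁, B₁, h1f, h1s, h1n⟩ := s29kan_holo_poly N _ (s29kan_isModFun N k hnum) _
    (s29kan_hasLaurent_quot hnum.isNice_G0 k)
  obtain ⟨A₂, B₂, h2f, h2s, h2n⟩ := s29kan_holo_poly N _ (s29kan_isModFun N k hden) _
    (s29kan_hasLaurent_quot hden.isNice_G0 k)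
  rw [e1] at h1s
  rw [e2] at h2s
  have hd : umem_deltaInvC ^ k ≠ 0 := pow_ne_zero _ s29kan_deltaInvC_ne_zero
  -- `A₂(j_q, j_q^N) ≠ 0`
  have hA2 : umem_serEval sj t A₂ ≠ 0 := by
    rw [← h2s]
    exact mul_ne_zero (mul_ne_zero (pow_ne_zero _ hsg0) hd) h2n
  have hserB : umem_serEval sj t (A₂ * B₁) = umem_serEval sj t A₂ * umem_serEval sj t B₁ := by
    unfold umem_serEval
    rw [Polynomial.eval₂_mul]
  have hserA : umem_serEval sj t (A₁ * B₂) = umem_serEval sj t A₁ * umem_serEval sj t B₂ := by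
    unfold umem_serEval
    rw [Polynomial.eval₂_mul]
  have hBne : umem_serEval sj t (A₂ * B₁) ≠ 0 := by
    rw [hserB]
    exact mul_ne_zero hA2 h1n
  refine ⟨A₁ * B₂, A₂ * B₁, ?_, ?_, hBne, ?_⟩
  · intro z
    have hΔ : Δ z ^ k ≠ 0 := pow_ne_zero _ (discriminant_ne_zero z)
    have q1 := h1f z
    have q2 := h2f z
    simp only [Pi.mul_apply, Pi.pow_apply] at q1 q2
    rw [Polynomial.evalEval_mul, Polynomial.evalEval_mul, ← q1, ← q2]
    field_simp
  · rw [hserA, hserB, ← h1s, ← h2s]
    ring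
  · exact s29kan_exists_ne_zero
      (umem_hasLaurent_evalEval umem_hasLaurent_jfun (umem_hasLaurent_jd N) (A₂ * B₁)) hBne

end Fermat.Agent.S29

end
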