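/-
S29, package [KUM], leaf [K-MUL] (owner: helper5).  Prefix `s29km_`.

**Root classes add up**: if `x` is a root class of `χ` and `x'` is a root class of `χ'`, then
`x + x'` is a root class of `χ χ'` (data `(k + k', f f', g g', D + D', y y')`).

* `s29km_pow_isNice`   : the `n`-th power of a form whose character is killed by `n` is
                         `1`-periodic, holomorphic and bounded at `i∞`;
* `s29km_ser_ne_zero`  : its `q`-expansion is non-zero if the form is non-zero;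
* `s29km_ser_mul`      : `ser ((f f')^n) = ser (f^n) ser (f'^n)`;
* `s29km_mul_ne_zero`  : `f f' ≠ 0`;
* `s29km_main`         : `s29k_MulStatement`, VERBATIM `KumDefs.lean`.
-/
import Mathlib
import Fermat.Agent.S29.KumDefs
import Fermat.Agent.S29.Kan
import Fermat.Agent.S29.EisCor

set_option autoImplicit false

noncomputable section

namespace Fermat.Agent.S29

open UpperHalfPlane CongruenceSubgroup ModularCurve AlgebraicCurve
open ModularForm ModularFormClass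
open scoped MatrixGroups ModularForm Manifold
open Fermat.Agent.S22 Fermat.Agent.S24

/-- The two spellings of "form of weight `k` and character `χ`" agree. -/
theorem s29km_isTw {N : ℕ} {k : ℤ} {χ : ↥(Gamma0 N) →* ℂˣ} {f : ℍ → ℂ}
    (h : s29k_IsForm N k χ f) : s29e_IsTw N k χ f :=
  ⟨h.1, h.2.1, h.2.2⟩

theorem s29km_isForm {N : ℕ} {k : ℤ} {χ : ↥(Gamma0 N) →* ℂˣ} {f : ℍ → ℂ}
    (h : s29e_IsTw N k χ f) : s29k_IsForm N k χ f :=
  ⟨h.1, h.2.1, h.2.2⟩

/-- The `n`-th power of a form whose character is killed by `n` is nice. -/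
theorem s29km_pow_isNice {N : ℕ} [NeZero N] {k : ℤ} {χ : ↥(Gamma0 N) →* ℂˣ} {f : ℍ → ℂ}
    (h : s29k_IsForm N k χ f) (n : ℕ) (hχ : ∀ γ, χ γ ^ n = 1) : IsNice (f ^ n) :=
  ((s29km_isTw h).isMF_pow n hχ).isNice_G0

theorem s29km_pow_ne_zero {f : ℍ → ℂ} (hf : f ≠ 0) (n : ℕ) : f ^ n ≠ 0 := by
  intro h
  apply hf
  funext z
  have h1 := congrFun h z
  rw [Pi.pow_apply, Pi.zero_apply] at h1
  exact eq_zero_of_pow_eq_zero h1

/-- The `q`-expansion of the `n`-th power of a non-zero form is non-zero. -/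
theorem s29km_ser_ne_zero {N : ℕ} [NeZero N] {k : ℤ} {χ : ↥(Gamma0 N) →* ℂˣ} {f : ℍ → ℂ}
    (h : s29k_IsForm N k χ f) (hf : f ≠ 0) (n : ℕ) (hχ : ∀ γ, χ γ ^ n = 1) :
    s29k_ser (f ^ n) ≠ 0 :=
  s29kan_series_ne_zero (s29km_pow_isNice h n hχ) (s29km_pow_ne_zero hf n)

/-- `ser ((f f')^n) = ser (f^n) ser (f'^n)`. -/
theorem s29km_ser_mul {N : ℕ} [NeZero N] {k k' : ℤ} {χ χ' : ↥(Gamma0 N) →* ℂˣ} {f f' : ℍ → ℂ}
    (h : s29k_IsForm N k χ f) (h' : s29k_IsForm N k' χ' f') (n : ℕ) (hχ : ∀ γ, χ γ ^ n = 1)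
    (hχ' : ∀ γ, χ' γ ^ n = 1) :
    s29k_ser ((f * f') ^ n) = s29k_ser (f ^ n) * s29k_ser (f' ^ n) := by
  unfold s29k_ser
  rw [mul_pow, (s29km_pow_isNice h n hχ).qExpansion_mul (s29km_pow_isNice h' n hχ'), map_mul]

/-- The product of two non-zero forms (with characters killed by some `n > 0`) is non-zero. -/
theorem s29km_mul_ne_zero {N : ℕ} [NeZero N] {k k' : ℤ} {χ χ' : ↥(Gamma0 N) →* ℂˣ}
    {f f' : ℍ → ℂ} (h : s29k_IsForm N k χ f) (h' : s29k_IsForm N k' χ' f') (hf : f ≠ 0)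
    (hf' : f' ≠ 0) (n : ℕ) (hn : 0 < n) (hχ : ∀ γ, χ γ ^ n = 1) (hχ' : ∀ γ, χ' γ ^ n = 1) :
    f * f' ≠ 0 := by
  intro h0
  have h1 := s29km_ser_mul h h' n hχ hχ'
  have h2 : s29k_ser ((f * f') ^ n) = 0 := by
    rw [h0, zero_pow hn.ne']
    unfold s29k_ser
    exact (anA_HasLaurent.of_isNice IsNice.zero).series_eq_zero
  rw [h2] at h1
  rcases mul_eq_zero.mp h1.symm with h3 | h3
  · exact s29km_ser_ne_zero h hf n hχ h3
  · exact s29km_ser_ne_zero h' hf' n hχ' h3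

/-- **[K-MUL]** root classes add up. -/
theorem s29km_main : s29k_MulStatement := by
  intro N _ n hn χ χ' hχ hχ' x x' hx hx'
  obtain ⟨k, f, g, hf, hg, hf0, hg0, D, y, hxD, hy, hD⟩ := hx
  obtain ⟨k', f', g', hf', hg', hf0', hg0', D', y', hxD', hy', hD'⟩ := hx'
  have h1 : ∀ γ : ↥(Gamma0 N), (1 : ↥(Gamma0 N) →* ℂˣ) γ ^ n = 1 := fun γ => by
    rw [MonoidHom.one_apply, one_pow]
  have hF : s29k_IsForm N ((k + k' : ℕ) : ℤ) (χ * χ') (f * f') := by
    rw [Nat.cast_add]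
    exact s29km_isForm ((s29km_isTw hf).mul (s29km_isTw hf'))
  have hG : s29k_IsForm N ((k + k' : ℕ) : ℤ) 1 (g * g') := by
    rw [Nat.cast_add]
    have h := (s29km_isTw hg).mul (s29km_isTw hg')
    exact s29km_isForm (h.congr_char fun γ => by
      rw [MonoidHom.mul_apply, MonoidHom.one_apply, one_mul])
  have hsf := s29km_ser_ne_zero hf hf0 n hχ
  have hsf' := s29km_ser_ne_zero hf' hf0' n hχ'
  have hsg := s29km_ser_ne_zero hg hg0 n h1
  have hsg' := s29km_ser_ne_zero hg' hg0' n h1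
  have hy0 : y ≠ 0 := by
    intro h0
    rw [h0] at hy
    have h2 : s29k_ser (f ^ n) / s29k_ser (g ^ n) ≠ 0 := div_ne_zero hsf hsg
    exact h2 hy.symm
  have hy0' : y' ≠ 0 := by
    intro h0
    rw [h0] at hy'
    have h2 : s29k_ser (f' ^ n) / s29k_ser (g' ^ n) ≠ 0 := div_ne_zero hsf' hsg'
    exact h2 hy'.symm
  refine ⟨k + k', f * f', g * g', hF, hG, s29km_mul_ne_zero hf hf' hf0 hf0' n hn hχ hχ',
    s29km_mul_ne_zero hg hg' hg0 hg0' n hn h1 h1, D + D', y * y', ?_, ?_, ?_⟩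
  · rw [hxD, hxD', Pic0.mk_add]
  · rw [s29km_ser_mul hf hf' n hχ hχ', s29km_ser_mul hg hg' n h1 h1]
    have e : ((y * y' : ↥(laurentBaseChange ℂ (modularFunctionFieldFull N))) : LaurentSeries ℂ) =
        (y : LaurentSeries ℂ) * (y' : LaurentSeries ℂ) := rfl
    rw [e, hy, hy', div_mul_div_comm]
  · intro P
    rw [P.ord_mul hy0 hy0', ← hD P, ← hD' P, AddSubgroup.coe_add, Finsupp.add_apply, mul_add]

end Fermat.Agent.S29

end
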