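/-
S29 [K-DIV]: `s29k_DivStatement` (S29/KumDefs.lean, verbatim) from the dictionary over `ℂ`
(`DictC.dict_div_tr`).  Owner: helper22.
-/
import Mathlib
import Fermat.Agent.S29.KumDefs
import Fermat.Agent.S29.KumMul
import Fermat.Agent.S29.DictC.DictDivTr

set_option autoImplicit false

noncomputable section

namespace Fermat.Agent.S29

open UpperHalfPlane CongruenceSubgroup ModularCurve AlgebraicCurve
open ModularForm ModularFormClass
open scoped MatrixGroups ModularForm Manifold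
open Fermat.Agent.S22 Fermat.Agent.S24

/-- The invariance of `f / g` under the elements of `Γ₀(N)` on which the character is trivial. -/
theorem s29dk_ratio_inv {N : ℕ} {k : ℤ} {χ : ↥(Gamma0 N) →* ℂˣ} {f g : ℍ → ℂ}
    (hf : ∀ γ : ↥(Gamma0 N), f ∣[k] (γ : SL(2, ℤ)) = ((χ γ : ℂˣ) : ℂ) • f)
    (hg : ∀ γ : ↥(Gamma0 N), g ∣[k] (γ : SL(2, ℤ)) = (((1 : ↥(Gamma0 N) →* ℂˣ) γ : ℂˣ) : ℂ) • g)
    (σ : SL(2, ℤ)) (hσ : σ ∈ Gamma0 N) (hχ : χ ⟨σ, hσ⟩ = 1) (w : ℍ) :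
    f (σ • w) * g w = f w * g (σ • w) := by
  have h1 := congrFun (hf ⟨σ, hσ⟩) w
  have h2 := congrFun (hg ⟨σ, hσ⟩) w
  rw [hχ] at h1
  simp only [MonoidHom.one_apply, Units.val_one, one_smul] at h1 h2
  rw [SL_slash_apply] at h1 h2
  have hd : denom (σ : SL(2, ℤ)) w ^ (-k) ≠ 0 := zpow_ne_zero _ (denom_ne_zero _ _)
  calc f (σ • w) * g w = f (σ • w) * (g (σ • w) * denom σ w ^ (-k)) := by rw [h2]
    _ = (f (σ • w) * denom σ w ^ (-k)) * g (σ • w) := by ring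
    _ = f w * g (σ • w) := by rw [h1]

/-- The periodicity of `f ∣[k] γ⁻¹` under `z ↦ z + h` when `γ⁻¹ T^h γ ∈ Γ₀(N)` and the
character is trivial on this element. -/
theorem s29dk_periodic {N : ℕ} {k : ℤ} {χ : ↥(Gamma0 N) →* ℂˣ} {f : ℍ → ℂ}
    (hf : ∀ γ : ↥(Gamma0 N), f ∣[k] (γ : SL(2, ℤ)) = ((χ γ : ℂˣ) : ℂ) • f)
    (γ : SL(2, ℤ)) (h : ℕ) (hδ : γ⁻¹ * ModularGroup.T ^ h * γ ∈ Gamma0 N)
    (hχ : χ ⟨γ⁻¹ * ModularGroup.T ^ h * γ, hδ⟩ = 1) (z : ℍ) :
    (f ∣[k] γ⁻¹) ((h : ℝ) +ᵥ z) = (f ∣[k] γ⁻¹) z := by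
  have h1 : (f ∣[k] γ⁻¹) ∣[k] (ModularGroup.T ^ h : SL(2, ℤ)) = f ∣[k] γ⁻¹ := by
    have h2 := hf ⟨γ⁻¹ * ModularGroup.T ^ h * γ, hδ⟩
    rw [hχ] at h2
    simp only [Units.val_one, one_smul] at h2
    have e : γ⁻¹ * ModularGroup.T ^ h = (γ⁻¹ * ModularGroup.T ^ h * γ) * γ⁻¹ := by group
    rw [← SlashAction.slash_mul, e, SlashAction.slash_mul, h2]
  have hT : (ModularGroup.T ^ h : SL(2, ℤ)) = ModularGroup.T ^ (h : ℤ) := (zpow_natCast _ _).symm
  rw [hT] at h1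
  have h3 := congrFun h1 z
  rw [SL_slash_apply] at h3
  have hden : ∀ m : ℤ, denom ((ModularGroup.T ^ m : SL(2, ℤ)) : GL (Fin 2) ℝ) z = 1 := by
    intro m
    rw [ModularGroup.denom_apply]
    simp [ModularGroup.coe_T_zpow]
  have hsm : (ModularGroup.T ^ (h : ℤ) : SL(2, ℤ)) • z = (h : ℝ) +ᵥ z := by
    rw [modular_T_zpow_smul]
    simp
  rw [hden, one_zpow, mul_one, hsm] at h3
  exact h3

/-- **[K-DIV]**, verbatim `s29k_DivStatement` of `S29/KumDefs.lean`. -/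
theorem s29dk_main : s29k_DivStatement := by
  intro N _ n hn χ hχ hpar k f g hf hg hf0 hg0 y hy P
  obtain ⟨hfd, hfχ, hfb⟩ := hf
  obtain ⟨hgd, hgχ, hgb⟩ := hg
  have hf' : s29k_IsForm N k χ f := ⟨hfd, hfχ, hfb⟩
  have hg' : s29k_IsForm N k 1 g := ⟨hgd, hgχ, hgb⟩
  have h1χ : ∀ γ : ↥(Gamma0 N), (1 : ↥(Gamma0 N) →* ℂˣ) γ ^ n = 1 := fun γ => by
    rw [MonoidHom.one_apply, one_pow]
  have hsf : s29k_ser (f ^ n) ≠ 0 := s29km_ser_ne_zero hf' hf0 n hχ
  have hsg : s29k_ser (g ^ n) ≠ 0 := s29km_ser_ne_zero hg' hg0 n h1χ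
  have hΘ := DictC.dict_isBridge N
  obtain ⟨a, b, hb, hab⟩ := DictC.fracA_exists_div N y
  have hy0 : y ≠ 0 := by
    intro h0
    rw [h0] at hy
    have : s29k_ser (f ^ n) / s29k_ser (g ^ n) = 0 := hy.symm
    rcases div_eq_zero_iff.mp this with h | h
    · exact hsf h
    · exact hsg h
  have ha : a ≠ 0 := by
    rintro rfl
    apply hy0
    rw [hab]
    simp
  have hb' : ((b : DictC.ringA N) : DictC.FunField N) ≠ 0 := by
    simpa using hb
  -- the identity of Laurent series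
  have hser : DictC.anA_ser (a : DictC.FunField N) * s29k_ser (g ^ n) =
      DictC.anA_ser (b : DictC.FunField N) * s29k_ser (f ^ n) := by
    have e1 : ∀ x : DictC.FunField N, DictC.anA_ser x = (x : LaurentSeries ℂ) := fun x =>
      ModularCurve.coeffMap_id _
    rw [e1, e1]
    have e2 : ((a : DictC.ringA N) : DictC.FunField N) =
        y * ((b : DictC.ringA N) : DictC.FunField N) := by
      rw [hab, div_mul_cancel₀ _ hb']
    have e3 : (((a : DictC.ringA N) : DictC.FunField N) : LaurentSeries ℂ) =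
        (y : LaurentSeries ℂ) * (((b : DictC.ringA N) : DictC.FunField N) : LaurentSeries ℂ) := by
      rw [e2]
      rfl
    rw [e3, hy]
    field_simp
  -- the identity of functions
  have hLa := (DictC.anA_theta_spec a).mul (anA_HasLaurent.of_isNice (s29km_pow_isNice hg' n h1χ))
  have hLb := (DictC.anA_theta_spec b).mul (anA_HasLaurent.of_isNice (s29km_pow_isNice hf' n hχ))
  have hser' : DictC.anA_ser (a : DictC.FunField N) *
      HahnSeries.ofPowerSeries ℤ ℂ (qExpansion 1 (g ^ n)) =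
      DictC.anA_ser (b : DictC.FunField N) *
        HahnSeries.ofPowerSeries ℤ ℂ (qExpansion 1 (f ^ n)) := hser
  rw [hser'] at hLa
  have hfun := hLa.unique_fun hLb
  have hfun' : ∀ z, DictC.anA_theta N a z * g z ^ n = DictC.anA_theta N b z * f z ^ n := by
    intro z
    exact congrFun hfun z
  have hres := DictC.dict_div_tr hΘ n (k : ℤ) hfd hgd (Function.ne_iff.mp hf0)
    (Function.ne_iff.mp hg0)
    (fun σ hσ htr w => s29dk_ratio_inv hfχ hgχ σ hσ (hpar ⟨σ, hσ⟩ htr) w)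
    (fun γ h _ hδ =>
      ⟨fun z => s29dk_periodic hfχ γ h hδ (hpar ⟨_, hδ⟩ (DictC.dict_trace_conj_T_pow γ h)) z,
        fun z => s29dk_periodic hgχ γ h hδ (MonoidHom.one_apply _) z⟩)
    hfb hgb ha hb hfun' P
  rw [hab]
  exact hres

end Fermat.Agent.S29
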