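/-
S29 [DESC-BC] (helper12), part 4: `j` is a coordinate on `F_L = laurentBaseChange L F_N` for
EVERY algebraically closed field `L` of characteristic `0` (e.g. `L = ℂ`), by base change from
`Q̄` (S24's `final_jCoordinate`).  Prefix `s29bc_`.

* `s29bc_dep_map`, `s29bc_alg_map`, `s29bc_finite_map`, `s29bc_coord_map`: algebraic dependence
  / finiteness / `IsCoordinate` transfer along an extension of the constant field;
* `s29bc_coord_main L N : IsCoordinate L (s18_j L N)`;
* consequences for `F_L`: `s29bc_deg_one`, `s29bc_res`, `s29bc_princ`, `s29bc_riemann`,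
  `s29bc_heckeInputs`;
* `s29bc_isExt`: the extension map of places `s29bc_ext` satisfies `s29bc_IsExt`;
  `s29bc_bc` the base change `Pic⁰(F_K) →+ Pic⁰(F_L)`.
-/
import Mathlib
import Fermat.Agent.S24.Final
import Fermat.Agent.S18.ConstDep
import Fermat.Agent.S18.GaussQOfBasic
import Fermat.Agent.S18.RamJ
import Fermat.Agent.S37.Riemann
import Fermat.Agent.S37.HeckeInputs
import Fermat.Agent.S29.DescBcMod
import Fermat.Agent.S29.DescBcPic

set_option autoImplicit false
set_option linter.unusedSectionVars false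
set_option linter.unusedVariables false
set_option linter.style.haveILetI false

noncomputable section

namespace Fermat.Agent.S29

open AlgebraicCurve ModularCurve IntermediateField Fermat.Agent.S37 Fermat.Agent.S18
  Fermat.Agent.S24

section Abs

variable {K F K' F' : Type*} [Field K] [Field F] [Algebra K F] [Field K'] [Field F']
  [Algebra K' F'] (φ₀ : K →+* K') {ι : F →+* F'}
  (hι : ∀ c : K, ι (algebraMap K F c) = algebraMap K' F' (φ₀ c))

include hι

/-- Algebraic dependence is preserved by an extension of the constant field. -/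
theorem s29bc_dep_map {x y : F} (h : s18c_Dep K x y) : s18c_Dep K' (ι x) (ι y) := by
  obtain ⟨T, g, ⟨i, hi, hgi⟩, hsum⟩ := h
  refine ⟨T, fun i => φ₀ (g i), ⟨i, hi, (map_ne_zero φ₀).2 hgi⟩, ?_⟩
  have h1 := congrArg ι hsum
  rw [map_sum, map_zero] at h1
  rw [← h1]
  refine Finset.sum_congr rfl fun i _ => ?_
  rw [map_mul, hι, s18c_mon_apply, s18c_mon_apply, map_mul, map_pow, map_pow]

/-- Elements of `ι F` are algebraic over `K'(ι u)`. -/
theorem s29bc_alg_map {u : F} (hu : IsCoordinate K u) (hu' : Transcendental K' (ι u)) (f : F) :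
    IsAlgebraic K'⟮ι u⟯ (ι f) := by
  haveI := hu.finite
  have h1 : IsAlgebraic K⟮u⟯ f := Algebra.IsAlgebraic.isAlgebraic f
  exact s18c_alg_of_Dep _ _ hu' (s29bc_dep_map φ₀ hι (s18c_Dep_of_alg _ _ h1))

/-- `ι` maps `K(u)` into `K'(ι u)`. -/
theorem s29bc_iota_adjoin {u : F} {c : F} (hc : c ∈ K⟮u⟯) : ι c ∈ K'⟮ι u⟯ := by
  induction hc using IntermediateField.adjoin_induction with
  | mem x hx =>
    rw [Set.mem_singleton_iff] at hx
    rw [hx]
    exact IntermediateField.mem_adjoin_simple_self K' (ι u)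
  | algebraMap x =>
    rw [hι]
    exact K'⟮ι u⟯.algebraMap_mem _
  | add x y _ _ hx hy => rw [map_add]; exact add_mem hx hy
  | inv x _ hx => rw [map_inv₀]; exact inv_mem hx
  | mul x y _ _ hx hy => rw [map_mul]; exact mul_mem hx hy

/-- Finiteness over the coordinate is preserved by an extension of the constant field. -/
theorem s29bc_finite_map {u : F} (hu : IsCoordinate K u) (hu' : Transcendental K' (ι u))
    (hgen : ∀ x : F', x ∈ Subfield.closure (Set.range ι ∪ Set.range (algebraMap K' F'))) :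
    FiniteDimensional K'⟮ι u⟯ F' := by
  classical
  haveI := hu.finite
  let b := Module.finBasis K⟮u⟯ F
  let S : Set F' := Set.range (fun i => ι (b i))
  haveI hSfin : Finite S := Set.finite_range _
  have hfd : FiniteDimensional K'⟮ι u⟯ (IntermediateField.adjoin K'⟮ι u⟯ S) :=
    IntermediateField.finiteDimensional_adjoin (fun x hx => by
      obtain ⟨i, rfl⟩ := hx
      exact (s29bc_alg_map φ₀ hι hu hu' (b i)).isIntegral)
  have hE : ∀ y ∈ K'⟮ι u⟯, y ∈ IntermediateField.adjoin K'⟮ι u⟯ S := by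
    intro y hy
    have : y = algebraMap K'⟮ι u⟯ F' ⟨y, hy⟩ := rfl
    rw [this]
    exact (IntermediateField.adjoin K'⟮ι u⟯ S).algebraMap_mem _
  have hle : Subfield.closure (Set.range ι ∪ Set.range (algebraMap K' F')) ≤
      (IntermediateField.adjoin K'⟮ι u⟯ S).toSubfield := by
    rw [Subfield.closure_le]
    rintro y (⟨f, rfl⟩ | ⟨c, rfl⟩)
    · have hf : f = ∑ i, (b.repr f i) • b i := (b.sum_repr f).symm
      show ι f ∈ IntermediateField.adjoin K'⟮ι u⟯ S
      rw [hf, map_sum]
      refine sum_mem fun i _ => ?_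
      rw [Algebra.smul_def, map_mul]
      refine mul_mem (hE _ ?_) (IntermediateField.subset_adjoin _ _ ⟨i, rfl⟩)
      exact s29bc_iota_adjoin φ₀ hι (b.repr f i).2
    · show algebraMap K' F' c ∈ IntermediateField.adjoin K'⟮ι u⟯ S
      exact hE _ (K'⟮ι u⟯.algebraMap_mem c)
  have htop : IntermediateField.adjoin K'⟮ι u⟯ S = ⊤ := by
    rw [eq_top_iff]
    intro x _
    exact hle (hgen x)
  rw [htop] at hfd
  exact (IntermediateField.topEquiv (F := K'⟮ι u⟯) (E := F')).toLinearEquiv.finiteDimensional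

/-- `IsCoordinate` is preserved by an extension of the constant field (given the transcendence
of the image). -/
theorem s29bc_coord_map {u : F} {u' : F'} (huu' : ι u = u') (hu : IsCoordinate K u)
    (hu' : Transcendental K' u')
    (hgen : ∀ x : F', x ∈ Subfield.closure (Set.range ι ∪ Set.range (algebraMap K' F'))) :
    IsCoordinate K' u' := by
  subst huu'
  exact ⟨hu', s29bc_finite_map φ₀ hι hu hu' hgen⟩

end Abs

section Conc

variable (K L : Type) [Field K] [CharZero K] [Field L] [CharZero L] [Algebra K L]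
  (N : ℕ) [NeZero N]

/-- `ι j_K = j_L`. -/
theorem s29bc_iota_j :
    s18cfe_iota K L (modularFunctionFieldFull N) (s18_j K N) = s18_j L N :=
  Subtype.ext (s18cfe_coeffMap_coeffEmb K L jq)

/-- `j_L` is a coordinate if `j_K` is. -/
theorem s29bc_coord_of (h : IsCoordinate K (s18_j K N)) : IsCoordinate L (s18_j L N) :=
  s29bc_coord_map (algebraMap K L) (s18cfe_iota_algebraMap K L (modularFunctionFieldFull N))
    (s29bc_iota_j K L N) h (s18gq_transc_j L N) s29bc_hgen

end Conc

section Main

variable (L : Type) [Field L] [CharZero L] [IsAlgClosed L] (N : ℕ) [NeZero N]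

/-- `j` is a coordinate on `F_{Q̄}(N)`, in the spelling `s18_j`. -/
theorem s29bc_coord_QBar : IsCoordinate (AlgebraicClosure ℚ) (s18_j (AlgebraicClosure ℚ) N) := by
  rw [s18rj_j_eq]
  exact final_jCoordinate N

/-- **`j` is a coordinate on `F_L(N)`** for every algebraically closed field `L` of
characteristic `0`. -/
theorem s29bc_coord_main : IsCoordinate L (s18_j L N) := by
  haveI : Algebra.IsAlgebraic ℚ (AlgebraicClosure ℚ) := AlgebraicClosure.isAlgebraic ℚ
  letI : Algebra (AlgebraicClosure ℚ) L :=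
    ((IsAlgClosed.lift : AlgebraicClosure ℚ →ₐ[ℚ] L) : AlgebraicClosure ℚ →+* L).toAlgebra
  exact s29bc_coord_of (AlgebraicClosure ℚ) L N (s29bc_coord_QBar N)

/-- Every place of `F_L(N)` has degree one. -/
theorem s29bc_deg_one (P : Place L ↥(s18_F L N)) : P.deg = 1 :=
  diff_degOneStatement L ↥(s18_F L N) (s18_j L N) (s29bc_coord_main L N) P

/-- The value map at a place of `F_L(N)`. -/
theorem s29bc_res (P : Place L ↥(s18_F L N)) (f : ↥(s18_F L N))
    (hf : f ∈ P.toValuationSubring) :
    ∃ c : L, f - algebraMap L ↥(s18_F L N) c ∈ P.toValuationSubring.nonunits :=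
  s37t_cfe_hdeg_of_deg (s29bc_deg_one L N P) f hf

/-- Principal divisors of `F_L(N)` have degree `0` (and finite support). -/
theorem s29bc_princ : HasPrincipalDivisors L ↥(s18_F L N) :=
  coord_principalDivisor ff_fundamentalIdentity L ↥(s18_F L N) (s18_j L N) (s29bc_coord_main L N)

/-- Riemann's inequality for `F_L(N)`. -/
theorem s29bc_riemann : ∃ c : ℤ, ∀ D : Divisor L ↥(s18_F L N), c ≤ Divisor.degree D →
    ∃ f : ↥(s18_F L N), f ≠ 0 ∧ ∀ v : Place L ↥(s18_F L N), 0 ≤ v.ord f + D v :=
  s37t_rr_main L ↥(s18_F L N) (s18_j L N) (s29bc_coord_main L N)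

/-- The inputs of the Prelude's Hecke correspondence over `L`. -/
theorem s29bc_heckeInputs (ℓ : ℕ) [NeZero ℓ] : HeckeInputsAlong L N ℓ := by
  have hu : IsCoordinate L (s18_j L N) := s29bc_coord_main L N
  have hu' : IsCoordinate L (s18_j L (N * ℓ)) := s29bc_coord_main L (N * ℓ)
  obtain ⟨hα, hP, hfin, -, hN⟩ := s37hi_gen L ↥(s18_F L N) ↥(s18_F L (N * ℓ)) (s18_j L N)
    (s18_j L (N * ℓ)) hu hu' (heckeAlphaBar L N ℓ)
  obtain ⟨hβ, _, _, hFI, _⟩ := s37hi_gen L ↥(s18_F L N) ↥(s18_F L (N * ℓ)) (s18_j L N)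
    (s18_j L (N * ℓ)) hu hu' (heckeBetaBar L N ℓ)
  exact ⟨hα, hβ, hP, hfin, hFI, hN⟩

end Main

section Ext

variable (K L : Type) [Field K] [CharZero K] [IsAlgClosed K] [Field L] [CharZero L]
  [IsAlgClosed L] [Algebra K L] (N : ℕ) [NeZero N]

/-- The extension of places `Place K F_K → Place L F_L`, for algebraically closed constant
fields. -/
def s29bc_extN : Place K ↥(s18_F K N) → Place L ↥(s18_F L N) :=
  s29bc_ext K L (modularFunctionFieldFull N) (s29bc_deg_one K N)

theorem s29bc_isExt :
    s29bc_IsExt (s18cfe_iota K L (modularFunctionFieldFull N)) (s29bc_extN K L N) where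
  ord := s29bc_ext_ord (s29bc_deg_one K N)
  or := s29bc_ext_or (s29bc_deg_one K N)
  deg := fun P => by rw [s29bc_deg_one L N, s29bc_deg_one K N]

/-- **The base change map** `Pic⁰(F_K(N)) →+ Pic⁰(F_L(N))`. -/
def s29bc_bc : Pic0 K ↥(s18_F K N) →+ Pic0 L ↥(s18_F L N) :=
  s29bc_pic (s29bc_isExt K L N)

end Ext

end Fermat.Agent.S29
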