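import Mathlib

set_option autoImplicit false
set_option linter.style.haveILetI false
set_option linter.unusedSectionVars false

open IntermediateField

noncomputable section

namespace Fermat.Agent.S29

/-- Degree bound for a base change generated by the image: if `F'/F` is finite separable,
`ι' : F' → E'` extends `ι : F → E`, and `E'` is generated over `E` by `ι' F'`, then `E'/E` is
finite of degree at most `[F' : F]`. -/
theorem s29hk_finrank_le {F F' E E' : Type*} [Field F] [Field F'] [Field E] [Field E']
    [Algebra F F'] [Algebra E E'] [FiniteDimensional F F'] [Algebra.IsSeparable F F']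
    (ι : F →+* E) (ι' : F' →+* E')
    (hι : ∀ y, ι' (algebraMap F F' y) = algebraMap E E' (ι y))
    (hgen : ∀ S : IntermediateField E E', (∀ f, ι' f ∈ S) → ∀ x, x ∈ S) :
    Module.Finite E E' ∧ Module.finrank E E' ≤ Module.finrank F F' := by
  obtain ⟨θ, hθ⟩ := Field.exists_primitive_element F F'
  have hθi : IsIntegral F θ := Algebra.IsIntegral.isIntegral θ
  have hmap : ∀ p : Polynomial F,
      ι' (Polynomial.aeval θ p) = Polynomial.aeval (ι' θ) (p.map ι) := by
    intro p
    rw [Polynomial.aeval_def, Polynomial.hom_eval₂, Polynomial.aeval_def, Polynomial.eval₂_map]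
    congr 1
    ext y
    exact hι y
  have hroot : Polynomial.aeval (ι' θ) ((minpoly F θ).map ι) = 0 := by
    rw [← hmap, minpoly.aeval, map_zero]
  have hθ'i : IsIntegral E (ι' θ) :=
    ⟨(minpoly F θ).map ι, (minpoly.monic hθi).map ι, hroot⟩
  have htop : E⟮ι' θ⟯ = ⊤ := by
    rw [eq_top_iff]
    intro x _
    refine hgen _ (fun f => ?_) x
    have hf : f ∈ (F⟮θ⟯).toSubalgebra := by
      show f ∈ F⟮θ⟯
      rw [hθ]
      trivial
    rw [IntermediateField.adjoin_simple_toSubalgebra_of_isAlgebraic hθi.isAlgebraic,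
      Algebra.adjoin_singleton_eq_range_aeval] at hf
    obtain ⟨p, rfl⟩ := hf
    show ι' (Polynomial.aeval θ p) ∈ E⟮ι' θ⟯
    rw [hmap]
    exact IntermediateField.algebra_adjoin_le_adjoin E _
      (Polynomial.aeval_mem_adjoin_singleton E (ι' θ))
  haveI hfd : FiniteDimensional E E⟮ι' θ⟯ := IntermediateField.adjoin.finiteDimensional hθ'i
  have hfin : Module.Finite E E' := by
    have h1 : Module.Finite E (⊤ : IntermediateField E E') := htop ▸ hfd
    exact Module.Finite.equiv (IntermediateField.topEquiv (F := E) (E := E')).toLinearEquiv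
  refine ⟨hfin, ?_⟩
  have h1 : Module.finrank E E' = (minpoly E (ι' θ)).natDegree := by
    rw [← IntermediateField.adjoin.finrank hθ'i, htop, IntermediateField.finrank_top']
  have h2 : Module.finrank F F' = (minpoly F θ).natDegree := by
    rw [← IntermediateField.adjoin.finrank hθi, hθ, IntermediateField.finrank_top']
  rw [h1, h2]
  calc (minpoly E (ι' θ)).natDegree ≤ ((minpoly F θ).map ι).natDegree :=
        Polynomial.natDegree_le_natDegree
          (minpoly.min E _ ((minpoly.monic hθi).map ι) hroot)
    _ = (minpoly F θ).natDegree := Polynomial.natDegree_map ι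

/-- **Norm = product over sufficiently many embeddings**: variant of `s37es_nm_abs` in which
only `[F' : F] ≤ |I|` is assumed. -/
theorem s29hk_abs {F F' E I : Type*} [Field F] [Field F'] [Field E] [Algebra F F']
    [FiniteDimensional F F'] [Algebra.IsSeparable F F'] [Fintype I]
    (ι : F →+* E) (σ : I → (F' →+* E)) (hσ : Function.Injective σ)
    (hι : ∀ i (y : F), σ i (algebraMap F F' y) = ι y)
    (hcard : Module.finrank F F' ≤ Fintype.card I) (x : F') :
    ι (Algebra.norm F x) = ∏ i, σ i x := by
  classical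
  letI : Algebra F (AlgebraicClosure E) :=
    ((algebraMap E (AlgebraicClosure E)).comp ι).toAlgebra
  let e : I → (F' →ₐ[F] AlgebraicClosure E) := fun i =>
    { ((algebraMap E (AlgebraicClosure E)).comp (σ i)) with
      commutes' := fun y => by
        show algebraMap E (AlgebraicClosure E) (σ i (algebraMap F F' y)) =
          algebraMap E (AlgebraicClosure E) (ι y)
        rw [hι] }
  have he_apply : ∀ i z, e i z = algebraMap E (AlgebraicClosure E) (σ i z) := fun _ _ => rfl
  have hinj : Function.Injective e := by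
    intro i k hik
    apply hσ
    ext z
    have h := DFunLike.congr_fun hik z
    rw [he_apply, he_apply] at h
    exact (algebraMap E (AlgebraicClosure E)).injective h
  have hbij : Function.Bijective e := by
    rw [Fintype.bijective_iff_injective_and_card]
    refine ⟨hinj, le_antisymm (Fintype.card_le_of_injective e hinj) ?_⟩
    rw [AlgHom.card]
    exact hcard
  have h1 := Algebra.norm_eq_prod_embeddings F (AlgebraicClosure E) x
  have h2 : (∏ τ : F' →ₐ[F] AlgebraicClosure E, τ x) = ∏ i, e i x :=
    (Fintype.prod_bijective e hbij (fun i => e i x) (fun τ => τ x) (fun _ => rfl)).symm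
  rw [h2] at h1
  have h3 : (∏ i, e i x) = algebraMap E (AlgebraicClosure E) (∏ i, σ i x) := by
    rw [map_prod]
    exact Finset.prod_congr rfl fun i _ => he_apply i x
  rw [h3] at h1
  exact (algebraMap E (AlgebraicClosure E)).injective h1

/-- The product over the powers of a primitive root does not depend on the root. -/
theorem s29hk_prod_indep {R A : Type*} [CommRing R] [IsDomain R] [CommMonoid A] (ℓ : ℕ)
    (ζ ζ' : Rˣ) (hζ : IsPrimitiveRoot ζ ℓ) (hζ' : IsPrimitiveRoot ζ' ℓ) (g : Rˣ → A) :
    ∏ i ∈ Finset.range ℓ, g (ζ ^ i) = ∏ i ∈ Finset.range ℓ, g (ζ' ^ i) := by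
  classical
  have himg : ∀ (a b : Rˣ), IsPrimitiveRoot a ℓ → IsPrimitiveRoot b ℓ →
      (Finset.range ℓ).image (fun i => a ^ i) ⊆ (Finset.range ℓ).image (fun i => b ^ i) := by
    intro a b ha hb x hx
    obtain ⟨i, hi, rfl⟩ := Finset.mem_image.1 hx
    haveI : NeZero ℓ := ⟨by rintro rfl; simp at hi⟩
    have h1 : a ^ i ∈ rootsOfUnity ℓ R := by
      rw [mem_rootsOfUnity, ← pow_mul, mul_comm, pow_mul, ha.pow_eq_one, one_pow]
    obtain ⟨j, hj, hjx⟩ := hb.eq_pow_of_mem_rootsOfUnity h1
    exact Finset.mem_image.2 ⟨j, Finset.mem_range.2 hj, hjx⟩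
  have hprod : ∀ (a : Rˣ), IsPrimitiveRoot a ℓ →
      ∏ i ∈ Finset.range ℓ, g (a ^ i) = ∏ x ∈ (Finset.range ℓ).image (fun i => a ^ i), g x := by
    intro a ha
    rw [Finset.prod_image]
    intro i hi j hj hij
    exact ha.pow_inj (Finset.mem_range.1 hi) (Finset.mem_range.1 hj) hij
  rw [hprod ζ hζ, hprod ζ' hζ',
    Finset.Subset.antisymm (himg ζ ζ' hζ hζ') (himg ζ' ζ hζ' hζ)]

end Fermat.Agent.S29
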