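/-
S29 / (K4) [HECKE-κ], part 1 (owner: helper14).  Prefix `s29hk_`.

EXTENSION OF SCALARS FOR HOMOMORPHISMS OF FUNCTION FIELDS (pure algebra).

* `s29hk_ld`  : `K`-linearly independent Laurent series stay `L`-linearly independent after the
                coefficientwise extension of scalars `K((q)) → L((q))` (linear disjointness).
* `s29hk_ext` : `K ⊆ L` fields, `F / K`, `E / L`, `ι : F → E` with `E = L · ι(F)`, `ι` and
                `σ : F → E'` preserving linear independence (stated with explicit sums)  ⟹  there is a ring homomorphism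
                `τ : E → E'` with `τ ∘ ι = σ` which is the identity on `L`
                (`E = Frac (L ⊗[K] F)`).
-/
import Mathlib
import Fermat.Prelude.Def_ModularCurve_LaurentCoeff
import Fermat.Agent.S37.ToolCfeUniq

set_option autoImplicit false
set_option linter.style.haveILetI false

open ModularCurve TensorProduct

noncomputable section

namespace Fermat.Agent.S29

section LD

variable {K L : Type*} [Field K] [Field L] [Algebra K L]

/-- coefficientwise: `coeffMap` of an `L`-linear combination. -/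
theorem s29hk_coeff_sum {I : Type*} (s : Finset I) (g : I → L) (x : I → LaurentSeries K)
    (m : ℤ) :
    (∑ i ∈ s, HahnSeries.C (g i) * coeffMap (algebraMap K L) (x i)).coeff m =
      ∑ i ∈ s, g i * algebraMap K L ((x i).coeff m) := by
  rw [← HahnSeries.coeff.addMonoidHom_apply, map_sum]
  refine Finset.sum_congr rfl fun i _ => ?_
  rw [HahnSeries.coeff.addMonoidHom_apply, HahnSeries.C_mul_eq_smul, HahnSeries.coeff_smul,
    smul_eq_mul, coeffMap_coeff]

/-- **Linear disjointness** (stated with explicit sums, no module structure): `K`-linearly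
independent Laurent series stay linearly independent over `L` after the coefficientwise extension
of scalars. -/
theorem s29hk_ld {I : Type*} (x : I → LaurentSeries K)
    (hx : ∀ (s : Finset I) (k : I → K), ∑ i ∈ s, HahnSeries.C (k i) * x i = 0 →
      ∀ i ∈ s, k i = 0)
    (s : Finset I) (g : I → L)
    (hg : ∑ i ∈ s, HahnSeries.C (g i) * coeffMap (algebraMap K L) (x i) = 0) :
    ∀ i ∈ s, g i = 0 := by
  classical
  intro i hi
  let b := Module.Basis.ofVectorSpace K L
  refine b.ext_elem fun j => ?_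
  rw [map_zero, Finsupp.zero_apply]
  have hK : ∑ i ∈ s, HahnSeries.C (b.repr (g i) j) * x i = 0 := by
    ext m
    rw [HahnSeries.coeff_zero, ← HahnSeries.coeff.addMonoidHom_apply, map_sum]
    have h1 := congrArg (fun z : LaurentSeries L => z.coeff m) hg
    simp only [s29hk_coeff_sum, HahnSeries.coeff_zero] at h1
    have h2 := congrArg (fun z : L => b.repr z j) h1
    simp only [map_sum, map_zero, Finsupp.coe_finsetSum, Finset.sum_apply,
      Finsupp.zero_apply] at h2
    rw [← h2]
    refine Finset.sum_congr rfl fun i _ => ?_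
    rw [HahnSeries.coeff.addMonoidHom_apply, HahnSeries.C_mul_eq_smul, HahnSeries.coeff_smul,
      smul_eq_mul]
    have h3 : g i * algebraMap K L ((x i).coeff m) = ((x i).coeff m) • g i := by
      rw [Algebra.smul_def, mul_comm]
    rw [h3, map_smul, Finsupp.smul_apply, smul_eq_mul, mul_comm]
  exact hx s (fun i => b.repr (g i) j) hK i hi

end LD

section Ext

universe uK uL uF uE uE'

variable {K : Type uK} {L : Type uL} {F : Type uF} {E : Type uE} {E' : Type uE'}
  [Field K] [Field L] [Algebra K L] [Field F] [Algebra K F]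
  [Field E] [Algebra L E] [Field E'] [Algebra L E']

/-- The `L`-algebra homomorphism `L ⊗[K] F → E`, `c ⊗ f ↦ c · ι f`. -/
def s29hk_tmap (ι : F →+* E)
    (hι : ∀ c : K, ι (algebraMap K F c) = algebraMap L E (algebraMap K L c)) :
    L ⊗[K] F →ₐ[L] E :=
  letI : Algebra K E := ((algebraMap L E).comp (algebraMap K L)).toAlgebra
  haveI : IsScalarTower K L E := IsScalarTower.of_algebraMap_eq fun _ => rfl
  Algebra.TensorProduct.lift (Algebra.ofId L E) ({ ι with commutes' := hι } : F →ₐ[K] E)
    (fun _ _ => Commute.all _ _)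

theorem s29hk_tmap_tmul (ι : F →+* E)
    (hι : ∀ c : K, ι (algebraMap K F c) = algebraMap L E (algebraMap K L c)) (c : L) (f : F) :
    s29hk_tmap ι hι (c ⊗ₜ[K] f) = algebraMap L E c * ι f := by
  letI : Algebra K E := ((algebraMap L E).comp (algebraMap K L)).toAlgebra
  haveI : IsScalarTower K L E := IsScalarTower.of_algebraMap_eq fun _ => rfl
  exact Algebra.TensorProduct.lift_tmul _ _ _ c f

/-- `s29hk_tmap` is injective when `ι` preserves linear independence. -/
theorem s29hk_tmap_injective (ι : F →+* E)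
    (hι : ∀ c : K, ι (algebraMap K F c) = algebraMap L E (algebraMap K L c))
    (hLD : ∀ (I : Type uF) (x : I → F), LinearIndependent K x →
      ∀ (s : Finset I) (g : I → L), ∑ i ∈ s, algebraMap L E (g i) * ι (x i) = 0 →
        ∀ i ∈ s, g i = 0) :
    Function.Injective (s29hk_tmap ι hι) := by
  classical
  let b := Module.Basis.ofVectorSpace K F
  let B := Algebra.TensorProduct.basis L b
  have hli := hLD _ b b.linearIndependent
  rw [injective_iff_map_eq_zero]
  intro t ht
  have h1 : t = ∑ i ∈ (B.repr t).support, (B.repr t i) • B i := by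
    conv_lhs => rw [← B.linearCombination_repr t]
    rw [Finsupp.linearCombination_apply, Finsupp.sum]
  have h2 : ∑ i ∈ (B.repr t).support, algebraMap L E (B.repr t i) * ι (b i) = 0 := by
    rw [← ht]
    conv_rhs => rw [h1]
    rw [map_sum]
    refine Finset.sum_congr rfl fun i _ => ?_
    rw [map_smul, Algebra.TensorProduct.basis_apply, s29hk_tmap_tmul, map_one, one_mul,
      Algebra.smul_def]
  have h3 := hli (B.repr t).support (fun i => B.repr t i) h2
  have h4 : B.repr t = 0 := by
    ext i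
    by_cases hi : i ∈ (B.repr t).support
    · exact h3 i hi
    · simpa using hi
  exact B.repr.map_eq_zero_iff.1 h4

/-- **Extension of scalars for homomorphisms**: if `E = L · ι(F)` and `ι`, `σ` preserve linear
independence, there is a ring homomorphism `τ : E → E'` with `τ ∘ ι = σ`, identity on `L`. -/
theorem s29hk_ext (ι : F →+* E)
    (hι : ∀ c : K, ι (algebraMap K F c) = algebraMap L E (algebraMap K L c))
    (hgen : ∀ x : E, x ∈ Subfield.closure (Set.range ι ∪ Set.range (algebraMap L E)))
    (hLD : ∀ (I : Type uF) (x : I → F), LinearIndependent K x →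
      ∀ (s : Finset I) (g : I → L), ∑ i ∈ s, algebraMap L E (g i) * ι (x i) = 0 →
        ∀ i ∈ s, g i = 0)
    (σ : F →+* E')
    (hσ : ∀ c : K, σ (algebraMap K F c) = algebraMap L E' (algebraMap K L c))
    (hLD' : ∀ (I : Type uF) (x : I → F), LinearIndependent K x →
      ∀ (s : Finset I) (g : I → L), ∑ i ∈ s, algebraMap L E' (g i) * σ (x i) = 0 →
        ∀ i ∈ s, g i = 0) :
    ∃ τ : E →+* E', (∀ f : F, τ (ι f) = σ f) ∧
      ∀ c : L, τ (algebraMap L E c) = algebraMap L E' c := by
  classical
  set m := s29hk_tmap ι hι with hm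
  set m' := s29hk_tmap σ hσ with hm'
  have hmi : Function.Injective m := s29hk_tmap_injective ι hι hLD
  have hmi' : Function.Injective m' := s29hk_tmap_injective σ hσ hLD'
  letI : Algebra (L ⊗[K] F) E := m.toRingHom.toAlgebra
  haveI : IsDomain (L ⊗[K] F) := Function.Injective.isDomain m.toRingHom hmi
  haveI : FaithfulSMul (L ⊗[K] F) E := (faithfulSMul_iff_algebraMap_injective _ _).2 hmi
  have hsurj : ∀ z : E, ∃ x y : L ⊗[K] F,
      z = algebraMap (L ⊗[K] F) E x / algebraMap (L ⊗[K] F) E y := by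
    intro z
    obtain ⟨u, v, hu, hv, hv0, huv⟩ := Fermat.Agent.S37.s37t_cfe_frac' (K' := L) (ι := ι) z (hgen z)
    obtain ⟨s₁, d₁, rfl⟩ := Fermat.Agent.S37.s37t_cfe_adjoin_sum (K' := L) (ι := ι) hu
    obtain ⟨s₂, d₂, rfl⟩ := Fermat.Agent.S37.s37t_cfe_adjoin_sum (K' := L) (ι := ι) hv
    refine ⟨∑ f ∈ s₁, d₁ f ⊗ₜ[K] f, ∑ f ∈ s₂, d₂ f ⊗ₜ[K] f, ?_⟩
    have e1 : algebraMap (L ⊗[K] F) E (∑ f ∈ s₁, d₁ f ⊗ₜ[K] f) =
        ∑ f ∈ s₁, algebraMap L E (d₁ f) * ι f := by
      show m (∑ f ∈ s₁, d₁ f ⊗ₜ[K] f) = _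
      rw [map_sum]
      exact Finset.sum_congr rfl fun f _ => s29hk_tmap_tmul ι hι _ _
    have e2 : algebraMap (L ⊗[K] F) E (∑ f ∈ s₂, d₂ f ⊗ₜ[K] f) =
        ∑ f ∈ s₂, algebraMap L E (d₂ f) * ι f := by
      show m (∑ f ∈ s₂, d₂ f ⊗ₜ[K] f) = _
      rw [map_sum]
      exact Finset.sum_congr rfl fun f _ => s29hk_tmap_tmul ι hι _ _
    rw [e1, e2, eq_div_iff hv0, huv]
  haveI : IsFractionRing (L ⊗[K] F) E := IsFractionRing.of_field _ _ hsurj
  refine ⟨IsFractionRing.lift (A := L ⊗[K] F) (K := E) (g := m'.toRingHom) hmi', ?_, ?_⟩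
  · intro f
    have h1 : ι f = algebraMap (L ⊗[K] F) E (1 ⊗ₜ[K] f) := by
      show ι f = m (1 ⊗ₜ[K] f)
      rw [hm, s29hk_tmap_tmul, map_one, one_mul]
    rw [h1, IsFractionRing.lift_algebraMap]
    show m' (1 ⊗ₜ[K] f) = σ f
    rw [hm', s29hk_tmap_tmul, map_one, one_mul]
  · intro c
    have h1 : algebraMap L E c = algebraMap (L ⊗[K] F) E (c ⊗ₜ[K] 1) := by
      show _ = m (c ⊗ₜ[K] 1)
      rw [hm, s29hk_tmap_tmul, map_one, mul_one]
    rw [h1, IsFractionRing.lift_algebraMap]
    show m' (c ⊗ₜ[K] 1) = _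
    rw [hm', s29hk_tmap_tmul, map_one, mul_one]

end Ext

end Fermat.Agent.S29
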