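/-
S29 / [KUM] / [K-HECKE], part (HK-1) (owner: helper14).  Prefix `s29hk_`.

THE NORM FORMULA OVER AN ARBITRARY FIELD `L ⊇ Q̄` (in particular `L = ℂ`), in q-expansion form:
for `ℓ ∤ M` prime, `ζ` a primitive `ℓ`-th root of unity of `L` and `y ∈ F_L(M)`

    N_α(β y)(t^ℓ) = y(t^{ℓ²}) · ∏_{i<ℓ} y(ζ^i t)        (`s29hk_norm`, `s29hk_norm_C`)

by base change of helper17's `s37es_nm_main` (S37/EsNorm.lean): the `ℓ + 1` embeddings
`σ_a : F̄_{Mℓ} → Q̄((t))` over `α F̄_M` extend (coefficientwise) to embeddings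
`τ_a : F_L(Mℓ) → L((t))` over `α F_L(M)` (`s29hk_ext`, linear disjointness of constants), they are
pairwise distinct, and `[F_L(Mℓ) : α F_L(M)] ≤ ℓ + 1` (`s29hk_finrank_le`).
-/
import Mathlib
import Fermat.Agent.S29.HeckeKExt
import Fermat.Agent.S29.HeckeKAbs
import Fermat.Agent.S37.EsConj
import Fermat.Agent.S37.EsNorm
import Fermat.Agent.S37.AtkinLehner
import Fermat.Agent.S18.Cfe

set_option autoImplicit false
set_option linter.style.haveILetI false
set_option linter.unusedSectionVars false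

open ModularCurve AlgebraicCurve
open Fermat.Agent.S24 Fermat.Agent.S37 Fermat.Agent.S18

noncomputable section

namespace Fermat.Agent.S29

section Gen

variable (L : Type) [Field L] [Algebra ℚ L] [Algebra QBar L]

/-- `F_L(N) ⊆ L((q))`. -/
abbrev s29hk_F (N : ℕ) : Type := ↥(laurentBaseChange L (modularFunctionFieldFull N))

/-- The coefficientwise embedding `F̄_N → F_L(N)`. -/
abbrev s29hk_iota (N : ℕ) : FunField N →+* s29hk_F L N :=
  s18cfe_iota QBar L (modularFunctionFieldFull N)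

theorem s29hk_iota_coe (N : ℕ) (f : FunField N) :
    ((s29hk_iota L N f : s29hk_F L N) : LaurentSeries L) =
      coeffMap (algebraMap QBar L) (f : LaurentSeries QBar) := rfl

theorem s29hk_coeffMap_qExpand {R S : Type*} [CommRing R] [CommRing S] (φ : R →+* S) (d : ℕ)
    [NeZero d] (x : LaurentSeries R) :
    coeffMap φ (qExpand R d x) = qExpand S d (coeffMap φ x) := by
  ext k
  by_cases hk : (d : ℤ) ∣ k
  · obtain ⟨m, rfl⟩ := hk
    rw [coeffMap_coeff, qExpand_coeff_mul, qExpand_coeff_mul, coeffMap_coeff]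
  · rw [coeffMap_coeff, qExpand_coeff_of_not_dvd d _ hk, qExpand_coeff_of_not_dvd d _ hk,
      map_zero]

theorem s29hk_coe_sum_smul {K : Type*} [Field K] (F : IntermediateField K (LaurentSeries K))
    {I : Type*} (s : Finset I) (g : I → K) (x : I → ↥F) :
    ((∑ i ∈ s, g i • x i : ↥F) : LaurentSeries K) =
      ∑ i ∈ s, HahnSeries.C (g i) * (x i : LaurentSeries K) := by
  rw [AddSubmonoidClass.coe_finsetSum]
  refine Finset.sum_congr rfl fun i _ => ?_
  rw [IntermediateField.coe_smul, Algebra.smul_def, algebraMap_laurentSeries_eq_single]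
  rfl

theorem s29hk_coe_sum_mul {K : Type*} [Field K] (F : IntermediateField K (LaurentSeries K))
    {I : Type*} (s : Finset I) (g : I → K) (x : I → ↥F) :
    ((∑ i ∈ s, algebraMap K ↥F (g i) * x i : ↥F) : LaurentSeries K) =
      ∑ i ∈ s, HahnSeries.C (g i) * (x i : LaurentSeries K) := by
  rw [← s29hk_coe_sum_smul]
  congr 1

/-- Linear disjointness for `ι`. -/
theorem s29hk_iota_ld (N : ℕ) (I : Type) (x : I → FunField N) (hx : LinearIndependent QBar x)
    (s : Finset I) (g : I → L)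
    (hg : ∑ i ∈ s, algebraMap L (s29hk_F L N) (g i) * s29hk_iota L N (x i) = 0) :
    ∀ i ∈ s, g i = 0 := by
  have h1 : ((∑ i ∈ s, algebraMap L (s29hk_F L N) (g i) * s29hk_iota L N (x i) :
      s29hk_F L N) : LaurentSeries L) = ((0 : s29hk_F L N) : LaurentSeries L) :=
    congrArg Subtype.val hg
  rw [s29hk_coe_sum_mul, ZeroMemClass.coe_zero] at h1
  refine s29hk_ld (fun i => ((x i : FunField N) : LaurentSeries QBar)) ?_ s g h1
  intro t k hk
  have h2 : (∑ i ∈ t, k i • x i : FunField N) = 0 := by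
    apply Subtype.ext
    rw [s29hk_coe_sum_smul, ZeroMemClass.coe_zero]
    exact hk
  exact linearIndependent_iff'.1 hx t k h2

/-- A ring homomorphism out of `F_L(N)` into a field is determined by its values on the
constants and on `ι(F̄_N)`. -/
theorem s29hk_hom_ext (N : ℕ) {E : Type*} [Field E] (f g : s29hk_F L N →+* E)
    (hc : ∀ c : L, f (algebraMap L (s29hk_F L N) c) = g (algebraMap L (s29hk_F L N) c))
    (hι : ∀ y : FunField N, f (s29hk_iota L N y) = g (s29hk_iota L N y)) : f = g := by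
  ext x
  exact s18cfe_iota_gen QBar L (modularFunctionFieldFull N) (RingHom.eqLocusField f g) hι hc x

/-- `E = L · ι(F)`. -/
theorem s29hk_gen (N : ℕ) (x : s29hk_F L N) :
    x ∈ Subfield.closure (Set.range (s29hk_iota L N) ∪
      Set.range (algebraMap L (s29hk_F L N))) :=
  s18cfe_iota_gen QBar L (modularFunctionFieldFull N) _
    (fun f => Subfield.subset_closure (Or.inl ⟨f, rfl⟩))
    (fun c => Subfield.subset_closure (Or.inr ⟨c, rfl⟩)) x

variable (M ℓ : ℕ) [NeZero M] [NeZero ℓ]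

theorem s29hk_alpha_iota (y : FunField M) :
    heckeAlphaBar L M ℓ (s29hk_iota L M y) = s29hk_iota L (M * ℓ) (heckeAlphaBar QBar M ℓ y) := by
  apply Subtype.ext
  rw [coe_heckeAlphaBar, s29hk_iota_coe, s29hk_iota_coe, coe_heckeAlphaBar]

theorem s29hk_beta_iota (y : FunField M) :
    heckeBetaBar L M ℓ (s29hk_iota L M y) = s29hk_iota L (M * ℓ) (heckeBetaBar QBar M ℓ y) := by
  apply Subtype.ext
  rw [coe_heckeBetaBar, s29hk_iota_coe, s29hk_iota_coe, coe_heckeBetaBar, s29hk_coeffMap_qExpand]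


/-! ### The `ℓ + 1` embeddings over `L` -/

section Tau

variable (W : FunField (M * ℓ) →ₐ[QBar] FunField (M * ℓ)) (ζ₀ : QBarˣ)

/-- The image of `ζ₀` in `L`. -/
def s29hk_zeta : Lˣ := Units.map (algebraMap QBar L : QBar →* L) ζ₀

theorem s29hk_sigma_const (a : Option (Fin ℓ)) (c : QBar) :
    s37es_nm_sigma M ℓ W ζ₀ a (algebraMap QBar (FunField (M * ℓ)) c) =
      algebraMap QBar (LaurentSeries QBar) c := by
  cases a with
  | none =>
    rw [s37es_nm_sigma_none]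
    show qExpand QBar ℓ (algebraMap QBar (LaurentSeries QBar) c) = _
    rw [algebraMap_laurentSeries_eq_single, qExpand_single, mul_zero]
  | some i =>
    rw [s37es_nm_sigma_some, W.commutes]
    show s37es_tw (ζ₀ ^ (i : ℕ)) (algebraMap QBar (LaurentSeries QBar) c) = _
    rw [algebraMap_laurentSeries_eq_single]
    exact s37es_tw_C _ c

theorem s29hk_sigma_smul (a : Option (Fin ℓ)) (c : QBar) (x : FunField (M * ℓ)) :
    s37es_nm_sigma M ℓ W ζ₀ a (c • x) =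
      HahnSeries.C c * s37es_nm_sigma M ℓ W ζ₀ a x := by
  rw [Algebra.smul_def, map_mul, s29hk_sigma_const, algebraMap_laurentSeries_eq_single]
  rfl

/-- The `ℓ + 1` embeddings of `F_L(Mℓ)` into `L((t))`: existence. -/
theorem s29hk_tau_exists (a : Option (Fin ℓ)) :
    ∃ τ : s29hk_F L (M * ℓ) →+* LaurentSeries L,
      (∀ f : FunField (M * ℓ), τ (s29hk_iota L (M * ℓ) f) =
        coeffMap (algebraMap QBar L) (s37es_nm_sigma M ℓ W ζ₀ a f)) ∧
      ∀ c : L, τ (algebraMap L (s29hk_F L (M * ℓ)) c) = algebraMap L (LaurentSeries L) c := by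
  refine s29hk_ext (K := QBar) (L := L) (s29hk_iota L (M * ℓ))
    (s18cfe_iota_algebraMap QBar L (modularFunctionFieldFull (M * ℓ)))
    (s29hk_gen L (M * ℓ)) (s29hk_iota_ld L (M * ℓ))
    ((coeffMap (algebraMap QBar L)).comp (s37es_nm_sigma M ℓ W ζ₀ a)) ?_ ?_
  · intro c
    rw [RingHom.comp_apply, s29hk_sigma_const]
    exact s18cfe_coeffMap_algebraMap QBar L c
  · intro I x hx s g hg
    have hg' : ∑ i ∈ s, HahnSeries.C (g i) *
        coeffMap (algebraMap QBar L) (s37es_nm_sigma M ℓ W ζ₀ a (x i)) = 0 := by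
      rw [← hg]
      refine Finset.sum_congr rfl fun i _ => ?_
      rw [algebraMap_laurentSeries_eq_single]
      rfl
    refine s29hk_ld (fun i => s37es_nm_sigma M ℓ W ζ₀ a (x i)) ?_ s g hg'
    intro t k hk
    have h2 : s37es_nm_sigma M ℓ W ζ₀ a (∑ i ∈ t, k i • x i) = 0 := by
      rw [map_sum, ← hk]
      exact Finset.sum_congr rfl fun i _ => s29hk_sigma_smul M ℓ W ζ₀ a (k i) (x i)
    have h3 : (∑ i ∈ t, k i • x i : FunField (M * ℓ)) = 0 :=
      (map_eq_zero_iff _ (RingHom.injective _)).1 h2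
    exact linearIndependent_iff'.1 hx t k h3

/-- The `ℓ + 1` embeddings of `F_L(Mℓ)` into `L((t))`. -/
def s29hk_tau (a : Option (Fin ℓ)) : s29hk_F L (M * ℓ) →+* LaurentSeries L :=
  (s29hk_tau_exists L M ℓ W ζ₀ a).choose

theorem s29hk_tau_iota (a : Option (Fin ℓ)) (f : FunField (M * ℓ)) :
    s29hk_tau L M ℓ W ζ₀ a (s29hk_iota L (M * ℓ) f) =
      coeffMap (algebraMap QBar L) (s37es_nm_sigma M ℓ W ζ₀ a f) :=
  (s29hk_tau_exists L M ℓ W ζ₀ a).choose_spec.1 f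

theorem s29hk_tau_const (a : Option (Fin ℓ)) (c : L) :
    s29hk_tau L M ℓ W ζ₀ a (algebraMap L (s29hk_F L (M * ℓ)) c) =
      algebraMap L (LaurentSeries L) c :=
  (s29hk_tau_exists L M ℓ W ζ₀ a).choose_spec.2 c

end Tau


/-! ### `τ_a ∘ α`, `τ_a ∘ β` -/

section TauProps

variable (W : FunField (M * ℓ) →ₐ[QBar] FunField (M * ℓ)) (ζ₀ : QBarˣ)

theorem s29hk_coeffMap_C (c : QBar) :
    coeffMap (algebraMap QBar L) (algebraMap QBar (LaurentSeries QBar) c) =
      algebraMap L (LaurentSeries L) (algebraMap QBar L c) :=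
  s18cfe_coeffMap_algebraMap QBar L c

/-- `τ_a ∘ α = (y ↦ y(t^ℓ))`. -/
theorem s29hk_tau_alpha
    (hWα : ∀ f : FunField M, W (heckeAlphaBar QBar M ℓ f) = heckeBetaBar QBar M ℓ f)
    (hζ : ζ₀ ^ ℓ = 1) (a : Option (Fin ℓ)) (y : s29hk_F L M) :
    s29hk_tau L M ℓ W ζ₀ a (heckeAlphaBar L M ℓ y) = qExpand L ℓ (y : LaurentSeries L) := by
  have h := s29hk_hom_ext L M
    ((s29hk_tau L M ℓ W ζ₀ a).comp (heckeAlphaBar L M ℓ).toRingHom)
    ((qExpand L ℓ).comp (algebraMap (s29hk_F L M) (LaurentSeries L))) ?_ ?_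
  · exact DFunLike.congr_fun h y
  · intro c
    show s29hk_tau L M ℓ W ζ₀ a (heckeAlphaBar L M ℓ (algebraMap L (s29hk_F L M) c)) =
      qExpand L ℓ (algebraMap L (LaurentSeries L) c)
    rw [AlgHom.commutes, s29hk_tau_const, algebraMap_laurentSeries_eq_single, qExpand_single,
      mul_zero]
  · intro f
    show s29hk_tau L M ℓ W ζ₀ a (heckeAlphaBar L M ℓ (s29hk_iota L M f)) =
      qExpand L ℓ ((s29hk_iota L M f : s29hk_F L M) : LaurentSeries L)
    rw [s29hk_alpha_iota, s29hk_tau_iota, s37es_nm_sigma_commutes M ℓ W hWα ζ₀ hζ,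
      s37es_nm_iota_apply, s29hk_coeffMap_qExpand, s29hk_iota_coe]

/-- `τ_∞ ∘ β = (y ↦ y(t^{ℓ²}))`. -/
theorem s29hk_tau_none_beta (y : s29hk_F L M) :
    s29hk_tau L M ℓ W ζ₀ none (heckeBetaBar L M ℓ y) =
      qExpand L (ℓ * ℓ) (y : LaurentSeries L) := by
  have h := s29hk_hom_ext L M
    ((s29hk_tau L M ℓ W ζ₀ none).comp (heckeBetaBar L M ℓ).toRingHom)
    ((qExpand L (ℓ * ℓ)).comp (algebraMap (s29hk_F L M) (LaurentSeries L))) ?_ ?_
  · exact DFunLike.congr_fun h y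
  · intro c
    show s29hk_tau L M ℓ W ζ₀ none (heckeBetaBar L M ℓ (algebraMap L (s29hk_F L M) c)) =
      qExpand L (ℓ * ℓ) (algebraMap L (LaurentSeries L) c)
    rw [AlgHom.commutes, s29hk_tau_const, algebraMap_laurentSeries_eq_single, qExpand_single,
      mul_zero]
  · intro f
    show s29hk_tau L M ℓ W ζ₀ none (heckeBetaBar L M ℓ (s29hk_iota L M f)) =
      qExpand L (ℓ * ℓ) ((s29hk_iota L M f : s29hk_F L M) : LaurentSeries L)
    rw [s29hk_beta_iota, s29hk_tau_iota, s37es_nm_sigma_none, coe_heckeBetaBar, qExpand_qExpand,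
      s29hk_coeffMap_qExpand, s29hk_iota_coe]

/-- `τ_i ∘ β = (y ↦ y(ζ^i t))`. -/
theorem s29hk_tau_some_beta
    (hWβ : ∀ f : FunField M, W (heckeBetaBar QBar M ℓ f) = heckeAlphaBar QBar M ℓ f)
    (i : Fin ℓ) (y : s29hk_F L M) :
    s29hk_tau L M ℓ W ζ₀ (some i) (heckeBetaBar L M ℓ y) =
      s37es_tw (s29hk_zeta L ζ₀ ^ (i : ℕ)) (y : LaurentSeries L) := by
  have h := s29hk_hom_ext L M
    ((s29hk_tau L M ℓ W ζ₀ (some i)).comp (heckeBetaBar L M ℓ).toRingHom)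
    ((s37es_tw (s29hk_zeta L ζ₀ ^ (i : ℕ))).toRingHom.comp
      (algebraMap (s29hk_F L M) (LaurentSeries L))) ?_ ?_
  · exact DFunLike.congr_fun h y
  · intro c
    show s29hk_tau L M ℓ W ζ₀ (some i) (heckeBetaBar L M ℓ (algebraMap L (s29hk_F L M) c)) =
      s37es_tw (s29hk_zeta L ζ₀ ^ (i : ℕ)) (algebraMap L (LaurentSeries L) c)
    rw [AlgHom.commutes, s29hk_tau_const, algebraMap_laurentSeries_eq_single]
    exact (s37es_tw_C _ c).symm
  · intro f
    show s29hk_tau L M ℓ W ζ₀ (some i) (heckeBetaBar L M ℓ (s29hk_iota L M f)) =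
      s37es_tw (s29hk_zeta L ζ₀ ^ (i : ℕ)) ((s29hk_iota L M f : s29hk_F L M) : LaurentSeries L)
    rw [s29hk_beta_iota, s29hk_tau_iota, s37es_nm_sigma_some, hWβ, coe_heckeAlphaBar,
      s37es_tw_coeffMap, s29hk_iota_coe, map_pow]
    rfl

/-- The `τ_a` are pairwise distinct. -/
theorem s29hk_tau_injective (hℓ : ℓ.Prime)
    (hWβ : ∀ f : FunField M, W (heckeBetaBar QBar M ℓ f) = heckeAlphaBar QBar M ℓ f)
    (hζ : IsPrimitiveRoot ζ₀ ℓ) : Function.Injective (s29hk_tau L M ℓ W ζ₀) := by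
  intro a b hab
  apply s37es_nm_sigma_injective M ℓ hℓ W hWβ ζ₀ hζ
  ext f : 1
  have h1 : coeffMap (algebraMap QBar L) (s37es_nm_sigma M ℓ W ζ₀ a f) =
      coeffMap (algebraMap QBar L) (s37es_nm_sigma M ℓ W ζ₀ b f) := by
    rw [← s29hk_tau_iota, ← s29hk_tau_iota, hab]
  exact (coeffMap (algebraMap QBar L)).injective h1

end TauProps

/-! ### The degree and the norm formula -/

section Norm

theorem s29hk_charZero (N : ℕ) : CharZero (s29hk_F L N) := by
  haveI : CharZero L := algebraRat.charZero L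
  exact charZero_of_injective_algebraMap (algebraMap L (s29hk_F L N)).injective

/-- `F_L(Mℓ)` is finite of degree at most `ℓ + 1` over `α F_L(M)`. -/
theorem s29hk_finite (hℓ : ℓ.Prime) (hℓM : ¬ ℓ ∣ M) :
    letI := algebraAlong (heckeAlphaBar L M ℓ)
    Module.Finite (s29hk_F L M) (s29hk_F L (M * ℓ)) ∧
      Module.finrank (s29hk_F L M) (s29hk_F L (M * ℓ)) ≤ ℓ + 1 := by
  letI : Algebra (FunField M) (FunField (M * ℓ)) := algebraAlong (heckeAlphaBar QBar M ℓ)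
  letI : Algebra (s29hk_F L M) (s29hk_F L (M * ℓ)) := algebraAlong (heckeAlphaBar L M ℓ)
  have hfr : Module.finrank (FunField M) (FunField (M * ℓ)) = ℓ + 1 :=
    s37es_nm_finrank M ℓ hℓ hℓM
  haveI : FiniteDimensional (FunField M) (FunField (M * ℓ)) :=
    Module.finite_of_finrank_pos (by rw [hfr]; omega)
  haveI : Algebra.IsSeparable (FunField M) (FunField (M * ℓ)) := inferInstance
  have h := s29hk_finrank_le (s29hk_iota L M) (s29hk_iota L (M * ℓ))
    (fun y => (s29hk_alpha_iota L M ℓ y).symm) ?_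
  · rw [hfr] at h
    exact h
  · intro S hS x
    refine s18cfe_iota_gen QBar L (modularFunctionFieldFull (M * ℓ)) S.toSubfield hS ?_ x
    intro c
    have hc : algebraMap L (s29hk_F L (M * ℓ)) c =
        algebraMap (s29hk_F L M) (s29hk_F L (M * ℓ)) (algebraMap L (s29hk_F L M) c) :=
      ((heckeAlphaBar L M ℓ).commutes c).symm
    rw [hc]
    exact S.algebraMap_mem _

/-- **(HK-1)**, generic form: `N_α(β y)(t^ℓ) = y(t^{ℓ²}) · ∏_{i<ℓ} y(ζ^i t)` over any field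
`L ⊇ Q̄`, for the image `ζ` of a primitive `ℓ`-th root of unity of `Q̄`. -/
theorem s29hk_norm_gen (hℓ : ℓ.Prime) (hℓM : ¬ ℓ ∣ M) (ζ₀ : QBarˣ)
    (hζ₀ : IsPrimitiveRoot ζ₀ ℓ) (y : s29hk_F L M) :
    qExpand L ℓ
      (((letI := algebraAlong (heckeAlphaBar L M ℓ);
        Algebra.norm (s29hk_F L M) (heckeBetaBar L M ℓ y) : s29hk_F L M)) :
          LaurentSeries L) =
      qExpand L (ℓ * ℓ) (y : LaurentSeries L) *
        ∏ i ∈ Finset.range ℓ, s37es_tw (s29hk_zeta L ζ₀ ^ i) (y : LaurentSeries L) := by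
  obtain ⟨W, hWα, hWβ⟩ := s37es_nm_W M ℓ hℓ hℓM
  letI : Algebra (s29hk_F L M) (s29hk_F L (M * ℓ)) := algebraAlong (heckeAlphaBar L M ℓ)
  obtain ⟨hfin, hle⟩ := s29hk_finite L M ℓ hℓ hℓM
  haveI : Module.Finite (s29hk_F L M) (s29hk_F L (M * ℓ)) := hfin
  haveI : CharZero (s29hk_F L M) := s29hk_charZero L M
  haveI : Algebra.IsSeparable (s29hk_F L M) (s29hk_F L (M * ℓ)) := inferInstance
  have h := s29hk_abs ((qExpand L ℓ).comp (algebraMap (s29hk_F L M) (LaurentSeries L)))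
    (s29hk_tau L M ℓ W ζ₀) (s29hk_tau_injective L M ℓ W ζ₀ hℓ hWβ hζ₀)
    (fun a z => s29hk_tau_alpha L M ℓ W ζ₀ hWα hζ₀.pow_eq_one a z)
    (by rw [Fintype.card_option, Fintype.card_fin]; exact hle) (heckeBetaBar L M ℓ y)
  rw [Fintype.prod_option, s29hk_tau_none_beta] at h
  have h2 : (∏ i : Fin ℓ, s29hk_tau L M ℓ W ζ₀ (some i) (heckeBetaBar L M ℓ y)) =
      ∏ i ∈ Finset.range ℓ, s37es_tw (s29hk_zeta L ζ₀ ^ i) (y : LaurentSeries L) := by
    rw [← Fin.prod_univ_eq_prod_range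
      (fun i => s37es_tw (s29hk_zeta L ζ₀ ^ i) (y : LaurentSeries L)) ℓ]
    exact Finset.prod_congr rfl fun i _ => s29hk_tau_some_beta L M ℓ W ζ₀ hWβ i y
  rw [h2] at h
  exact h

theorem s29hk_zeta_primitive (ζ₀ : QBarˣ) (hζ₀ : IsPrimitiveRoot ζ₀ ℓ) :
    IsPrimitiveRoot (s29hk_zeta L ζ₀) ℓ :=
  hζ₀.map_of_injective (Units.map_injective (algebraMap QBar L).injective)

/-- **(HK-1)** over any field `L ⊇ Q̄`, for every primitive `ℓ`-th root of unity of `L`. -/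
theorem s29hk_norm (hℓ : ℓ.Prime) (hℓM : ¬ ℓ ∣ M) (ζ : Lˣ)
    (hζ : IsPrimitiveRoot ζ ℓ) (y : s29hk_F L M) :
    qExpand L ℓ
      (((letI := algebraAlong (heckeAlphaBar L M ℓ);
        Algebra.norm (s29hk_F L M) (heckeBetaBar L M ℓ y) : s29hk_F L M)) :
          LaurentSeries L) =
      qExpand L (ℓ * ℓ) (y : LaurentSeries L) *
        ∏ i ∈ Finset.range ℓ, s37es_tw (ζ ^ i) (y : LaurentSeries L) := by
  obtain ⟨ζ₀, hζ₀⟩ : ∃ ζ₀ : QBarˣ, IsPrimitiveRoot ζ₀ ℓ := by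
    haveI : NeZero (ℓ : QBar) := ⟨by exact_mod_cast hℓ.ne_zero⟩
    obtain ⟨z, hz⟩ := HasEnoughRootsOfUnity.exists_primitiveRoot QBar ℓ
    exact ⟨hz.isUnit hℓ.ne_zero |>.unit, IsPrimitiveRoot.coe_units_iff.1 (by simpa using hz)⟩
  rw [s29hk_norm_gen L M ℓ hℓ hℓM ζ₀ hζ₀ y]
  congr 1
  exact s29hk_prod_indep ℓ (s29hk_zeta L ζ₀) ζ (s29hk_zeta_primitive L ℓ ζ₀ hζ₀) hζ
    (fun u => s37es_tw u (y : LaurentSeries L))

end Norm

end Gen

/-- **(HK-1)** over `ℂ`: for every primitive `ℓ`-th root of unity `ζ` of `ℂ` and every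
`y ∈ F_ℂ(N)`:  `N_α(β y)(t^ℓ) = y(t^{ℓ²}) · ∏_{i<ℓ} y(ζ^i t)`. -/
theorem s29hk_norm_C (N ℓ : ℕ) [NeZero N] [NeZero ℓ] (hℓ : ℓ.Prime) (hℓN : ¬ ℓ ∣ N) (ζ : ℂˣ)
    (hζ : IsPrimitiveRoot ζ ℓ) (y : ↥(laurentBaseChange ℂ (modularFunctionFieldFull N))) :
    qExpand ℂ ℓ
      (((letI := algebraAlong (heckeAlphaBar ℂ N ℓ);
        Algebra.norm ↥(laurentBaseChange ℂ (modularFunctionFieldFull N))
          (heckeBetaBar ℂ N ℓ y) : ↥(laurentBaseChange ℂ (modularFunctionFieldFull N)))) :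
          LaurentSeries ℂ) =
      qExpand ℂ (ℓ * ℓ) (y : LaurentSeries ℂ) *
        ∏ i ∈ Finset.range ℓ, s37es_tw (ζ ^ i) (y : LaurentSeries ℂ) := by
  haveI : Algebra.IsAlgebraic ℚ (AlgebraicClosure ℚ) := AlgebraicClosure.isAlgebraic ℚ
  letI : Algebra QBar ℂ :=
    ((IsAlgClosed.lift : AlgebraicClosure ℚ →ₐ[ℚ] ℂ) : AlgebraicClosure ℚ →+* ℂ).toAlgebra
  exact s29hk_norm ℂ N ℓ hℓ hℓN ζ hζ y

end Fermat.Agent.S29
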