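/-
S29, leaf [HK-AN] (owner: helper4), part 1.  Prefix `s29hka_`.

The `q`-expansions of the functions `z ↦ P ((z + j) / ℓ)` composed with `z ↦ ℓ z`, i.e. of
`z ↦ P (z + j / ℓ)`: the twist of the `q`-expansion of `P` by `ζ ^ j`, `ζ = exp (2 π i / ℓ)`.
-/
import Mathlib
import Fermat.Prelude.Def_ModularForm_HeckeOperator
import Fermat.Agent.S24.BridgeLaurent
import Fermat.Agent.S28.TwistFormal

set_option autoImplicit false

noncomputable section

namespace Fermat.Agent.S29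

open UpperHalfPlane ModularFormClass CongruenceSubgroup Matrix.SpecialLinearGroup Function
open ModularForm Filter Asymptotics
open scoped MatrixGroups ModularForm Manifold Real Topology

open Fermat.Agent.S22 Fermat.Agent.S24 Fermat.Agent.S28

/-! ### Generalities on nice functions -/

/-- A `1`-periodic function takes the same value at `τ₁ = τ₂ + m`. -/
theorem s29hka_apply_eq_of_coe_eq_add_nat {f : ℍ → ℂ} (hf : Periodic (f ∘ ofComplex) 1)
    {τ₁ τ₂ : ℍ} (m : ℕ) (h : (τ₁ : ℂ) = τ₂ + m) : f τ₁ = f τ₂ := by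
  have h1 : (f ∘ ofComplex) ((τ₂ : ℂ) + m) = (f ∘ ofComplex) (τ₂ : ℂ) := by
    have := hf.nat_mul m
    rw [mul_one] at this
    exact this (τ₂ : ℂ)
  simp only [comp_apply] at h1
  rw [← h, ofComplex_apply, ofComplex_apply] at h1
  exact h1

/-- Periodicity from invariance under `τ ↦ 1 + τ`. -/
theorem s29hka_periodic_of_vadd {g : ℍ → ℂ} (hg : ∀ τ : ℍ, g ((1 : ℝ) +ᵥ τ) = g τ) :
    Periodic (g ∘ ofComplex) 1 := by
  intro w
  by_cases hw : 0 < Complex.im w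
  · have hw' : 0 < Complex.im (w + 1) := by simp [hw]
    simp only [comp_apply, ofComplex_apply_of_im_pos hw', ofComplex_apply_of_im_pos hw]
    convert hg ⟨w, hw⟩ using 2
    apply UpperHalfPlane.ext
    simp [add_comm]
  · have hw1 : Complex.im (w + 1) ≤ 0 := by simpa using hw
    have hw0 : Complex.im w ≤ 0 := not_lt.mp hw
    simp only [comp_apply, ofComplex_apply_eq_of_im_nonpos hw1 hw0]

/-- The coefficients of a nice function are determined by a convergent expansion. -/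
theorem s29hka_coeff_unique {g : ℍ → ℂ} (hg : IsNice g) {c : ℕ → ℂ}
    (hs : ∀ τ : ℍ, HasSum (fun m ↦ c m • Periodic.qParam 1 τ ^ m) (g τ)) (m : ℕ) :
    (qExpansion 1 g).coeff m = c m :=
  (UpperHalfPlane.qExpansion_coeff_unique (ContinuousMap.mk g hg.holo.continuous) one_pos
    hg.analyticAt hs m).symm

/-- Composition with the action of a matrix of positive determinant, through the slash action
of weight `0`. -/
theorem s29hka_comp_eq_slash (g : GL (Fin 2) ℝ) (hg : 0 < (Matrix.GeneralLinearGroup.det g).val)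
    (f : ℍ → ℂ) :
    (fun z => f (g • z)) = ((Matrix.GeneralLinearGroup.det g).val : ℂ) • (f ∣[(0 : ℤ)] g) := by
  funext z
  have hne : (((Matrix.GeneralLinearGroup.det g).val : ℝ) : ℂ) ≠ 0 := by
    exact_mod_cast hg.ne'
  rw [Pi.smul_apply, ModularForm.slash_apply, UpperHalfPlane.σ, if_pos hg, abs_of_pos hg]
  simp only [ContinuousAlgEquiv.refl_apply, neg_zero, zpow_zero, mul_one, zero_sub, smul_eq_mul]
  rw [zpow_neg_one, ← mul_assoc, mul_comm _ (f (g • z)), mul_assoc, mul_inv_cancel₀ hne, mul_one]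

theorem s29hka_mdiff_comp (g : GL (Fin 2) ℝ) (hg : 0 < (Matrix.GeneralLinearGroup.det g).val)
    {f : ℍ → ℂ} (hf : MDiff f) : MDiff (fun z => f (g • z)) := by
  rw [s29hka_comp_eq_slash g hg f]
  exact (hf.slash 0 g).const_smul _

theorem s29hka_bdd_comp (g : GL (Fin 2) ℝ) (hg : 0 < (Matrix.GeneralLinearGroup.det g).val)
    (hg0 : (g : Matrix (Fin 2) (Fin 2) ℝ) 1 0 = 0)
    {f : ℍ → ℂ} (hf : IsBoundedAtImInfty f) : IsBoundedAtImInfty (fun z => f (g • z)) := by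
  rw [s29hka_comp_eq_slash g hg f]
  exact (hf.slash 0 hg0).const_smul_left _

/-! ### The matrices -/

theorem s29hka_heckeMatrix_one_zero (p j : ℕ) :
    ((heckeMatrix p j : GL (Fin 2) ℝ) : Matrix (Fin 2) (Fin 2) ℝ) 1 0 = 0 := by
  rcases eq_or_ne p 0 with rfl | hp
  · simp
  · rw [val_heckeMatrix hp]; rfl

theorem s29hka_heckeDiagMatrix_one_zero (p : ℕ) :
    ((heckeDiagMatrix p : GL (Fin 2) ℝ) : Matrix (Fin 2) (Fin 2) ℝ) 1 0 = 0 := by
  rcases eq_or_ne p 0 with rfl | hp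
  · simp
  · rw [val_heckeDiagMatrix hp]; rfl

/-- `(ℓ z + j) / ℓ = z + j / ℓ`. -/
theorem s29hka_coe_matrix_diag {ℓ : ℕ} (hℓ : ℓ ≠ 0) (j : ℕ) (z : ℍ) :
    ((heckeMatrix ℓ j • (heckeDiagMatrix ℓ • z) : ℍ) : ℂ) = (z : ℂ) + (j : ℂ) / (ℓ : ℂ) := by
  have hℓ' : (ℓ : ℂ) ≠ 0 := by exact_mod_cast hℓ
  rw [coe_heckeMatrix_smul hℓ, coe_heckeDiagMatrix_smul hℓ]
  field_simp

/-- `ℓ (ℓ z) = ℓ² z`. -/
theorem s29hka_diag_diag {ℓ : ℕ} (hℓ : ℓ ≠ 0) (z : ℍ) :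
    heckeDiagMatrix ℓ • (heckeDiagMatrix ℓ • z) = heckeDiagMatrix (ℓ * ℓ) • z := by
  apply UpperHalfPlane.ext
  rw [coe_heckeDiagMatrix_smul hℓ, coe_heckeDiagMatrix_smul hℓ,
    coe_heckeDiagMatrix_smul (Nat.mul_ne_zero hℓ hℓ)]
  push_cast
  ring

/-! ### The twisted factors -/

/-- The function `z ↦ P (z + j / ℓ)`, written as `P ∘ heckeMatrix ℓ j ∘ heckeDiagMatrix ℓ`. -/
def s29hka_fac (ℓ j : ℕ) (P : ℍ → ℂ) : ℍ → ℂ :=
  fun z => P (heckeMatrix ℓ j • (heckeDiagMatrix ℓ • z))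

theorem s29hka_fac_apply (ℓ j : ℕ) (P : ℍ → ℂ) (z : ℍ) :
    s29hka_fac ℓ j P z = P (heckeMatrix ℓ j • (heckeDiagMatrix ℓ • z)) := rfl

theorem s29hka_fac_isNice {ℓ : ℕ} (hℓ : ℓ ≠ 0) (j : ℕ) {P : ℍ → ℂ} (hP : IsNice P) :
    IsNice (s29hka_fac ℓ j P) where
  per := by
    refine s29hka_periodic_of_vadd fun τ => ?_
    refine s29hka_apply_eq_of_coe_eq_add_nat hP.per 1 ?_
    rw [s29hka_coe_matrix_diag hℓ, s29hka_coe_matrix_diag hℓ, coe_vadd]
    push_cast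
    ring
  holo := by
    have h1 : MDiff (fun w => P (heckeMatrix ℓ j • w)) :=
      s29hka_mdiff_comp _ (det_heckeMatrix_pos ℓ j) hP.holo
    exact s29hka_mdiff_comp _ (det_heckeDiagMatrix_pos ℓ) h1
  bdd := by
    have h1 : IsBoundedAtImInfty (fun w => P (heckeMatrix ℓ j • w)) :=
      s29hka_bdd_comp _ (det_heckeMatrix_pos ℓ j) (s29hka_heckeMatrix_one_zero ℓ j) hP.bdd
    exact s29hka_bdd_comp _ (det_heckeDiagMatrix_pos ℓ) (s29hka_heckeDiagMatrix_one_zero ℓ) h1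

/-- The root of unity `exp (2 π i / ℓ)`. -/
def s29hka_zeta (ℓ : ℕ) : ℂˣ :=
  Units.mk0 (Complex.exp (2 * π * Complex.I / ℓ)) (Complex.exp_ne_zero _)

theorem s29hka_zeta_val (ℓ : ℕ) :
    ((s29hka_zeta ℓ : ℂˣ) : ℂ) = Complex.exp (2 * π * Complex.I / ℓ) := rfl

theorem s29hka_zeta_isPrimitiveRoot {ℓ : ℕ} (hℓ : ℓ ≠ 0) : IsPrimitiveRoot (s29hka_zeta ℓ) ℓ := by
  have h := Complex.isPrimitiveRoot_exp ℓ hℓ
  rw [← IsPrimitiveRoot.coe_units_iff]
  exact h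

theorem s29hka_qParam_fac {ℓ : ℕ} (hℓ : ℓ ≠ 0) (j : ℕ) (z : ℍ) :
    Periodic.qParam 1 ((heckeMatrix ℓ j • (heckeDiagMatrix ℓ • z) : ℍ) : ℂ) =
      ((s29hka_zeta ℓ : ℂˣ) : ℂ) ^ j * Periodic.qParam 1 (z : ℂ) := by
  have hℓ' : (ℓ : ℂ) ≠ 0 := by exact_mod_cast hℓ
  rw [s29hka_coe_matrix_diag hℓ, s29hka_zeta_val]
  simp only [Periodic.qParam, Complex.ofReal_one, div_one]
  rw [← Complex.exp_nat_mul, ← Complex.exp_add]
  congr 1
  field_simp
  ring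

/-- The `q`-coefficients of `z ↦ P (z + j / ℓ)`. -/
theorem s29hka_fac_coeff {ℓ : ℕ} (hℓ : ℓ ≠ 0) (j : ℕ) {P : ℍ → ℂ} (hP : IsNice P) (m : ℕ) :
    (qExpansion 1 (s29hka_fac ℓ j P)).coeff m =
      (((s29hka_zeta ℓ : ℂˣ) : ℂ) ^ j) ^ m * (qExpansion 1 P).coeff m := by
  refine s29hka_coeff_unique (s29hka_fac_isNice hℓ j hP)
    (c := fun m => (((s29hka_zeta ℓ : ℂˣ) : ℂ) ^ j) ^ m * (qExpansion 1 P).coeff m)
    (fun τ => ?_) m
  have h := UpperHalfPlane.hasSum_qExpansion one_pos hP.per hP.holo hP.bdd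
    (heckeMatrix ℓ j • (heckeDiagMatrix ℓ • τ))
  rw [s29hka_qParam_fac hℓ] at h
  refine (congrArg (fun F => HasSum F _) ?_).mp h
  funext n
  simp only [smul_eq_mul]
  rw [mul_pow]
  ring

/-- **The twist.** The `q`-expansion of `z ↦ P (z + j / ℓ)` is the twist by `ζ ^ j` of the
`q`-expansion of `P`. -/
theorem s29hka_fac_series {ℓ : ℕ} (hℓ : ℓ ≠ 0) (j : ℕ) {P : ℍ → ℂ} (hP : IsNice P) :
    HahnSeries.ofPowerSeries ℤ ℂ (qExpansion 1 (s29hka_fac ℓ j P)) =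
      twL_twist (s29hka_zeta ℓ ^ j) (HahnSeries.ofPowerSeries ℤ ℂ (qExpansion 1 P)) := by
  ext n
  rw [twL_twist_coeff]
  rcases lt_or_ge n 0 with hn | hn
  · rw [ModularCurve.ofPowerSeries_coeff_of_neg _ hn, ModularCurve.ofPowerSeries_coeff_of_neg _ hn,
      mul_zero]
  · obtain ⟨m, rfl⟩ := Int.eq_ofNat_of_zero_le hn
    rw [HahnSeries.ofPowerSeries_apply_coeff, HahnSeries.ofPowerSeries_apply_coeff,
      s29hka_fac_coeff hℓ j hP, zpow_natCast]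
    push_cast
    rfl

end Fermat.Agent.S29

end
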