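/-
S29, leaf [HK-AN] (owner: helper4), part 2.  Prefix `s29hka_`.

The Hecke product `P̃(z) = ∏_{x ∈ ℙ¹(𝔽_ℓ)} P (α_x z)` (`α_x = heckeRep ℓ x`: `z ↦ ℓ z` and
`z ↦ (z + j) / ℓ`) of a nice function `P`, and its `q`-expansion:

    (series P̃)(t^ℓ) = (series P)(t^(ℓ²)) · ∏_{j < ℓ} (series P)(ζ^j t),   ζ = exp (2 π i / ℓ).
-/
import Mathlib
import Fermat.Prelude.Sol.S_ModularForm_heckeT_slash_eq_self_of_mem_Gamma0
import Fermat.Agent.S28.TwistLaurent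
import Fermat.Agent.S29.HkAnTwist

set_option autoImplicit false

noncomputable section

namespace Fermat.Agent.S29

open UpperHalfPlane ModularFormClass CongruenceSubgroup Matrix.SpecialLinearGroup Function
open ModularForm Filter Asymptotics
open scoped MatrixGroups ModularForm Manifold Real Topology

open Fermat.Agent.S22 Fermat.Agent.S24 Fermat.Agent.S28
open P2MW.S_ModularForm_heckeT_slash_eq_self_of_mem_Gamma0.ModularForm.HeckeSlashInvariance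

/-- The Hecke product of a function: `z ↦ ∏ₓ P (heckeRep ℓ x • z)`. -/
def s29hka_prod (ℓ : ℕ) [NeZero ℓ] (P : ℍ → ℂ) : ℍ → ℂ :=
  fun z => ∏ x : OnePoint (ZMod ℓ), P (heckeRep ℓ x • z)

theorem s29hka_prod_apply (ℓ : ℕ) [NeZero ℓ] (P : ℍ → ℂ) (z : ℍ) :
    s29hka_prod ℓ P z = ∏ x : OnePoint (ZMod ℓ), P (heckeRep ℓ x • z) := rfl

theorem s29hka_prod_range_eq_prod_zmod {ℓ : ℕ} [NeZero ℓ] {M : Type*} [CommMonoid M]
    (F : ℕ → M) : ∏ j ∈ Finset.range ℓ, F j = ∏ x : ZMod ℓ, F x.val := by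
  refine Finset.prod_nbij' (fun j : ℕ ↦ (j : ZMod ℓ)) (fun x : ZMod ℓ ↦ x.val)
    (fun _ _ ↦ Finset.mem_univ _) (fun x _ ↦ Finset.mem_range.mpr x.val_lt) (fun j hj ↦ ?_)
    (fun x _ ↦ ?_) (fun j hj ↦ ?_)
  · exact ZMod.val_cast_of_lt (Finset.mem_range.mp hj)
  · exact ZMod.natCast_zmod_val x
  · rw [ZMod.val_cast_of_lt (Finset.mem_range.mp hj)]

/-- The Hecke product in `range` form. -/
theorem s29hka_prod_eq (ℓ : ℕ) [NeZero ℓ] (P : ℍ → ℂ) (z : ℍ) :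
    s29hka_prod ℓ P z =
      P (heckeDiagMatrix ℓ • z) * ∏ j ∈ Finset.range ℓ, P (heckeMatrix ℓ j • z) := by
  rw [s29hka_prod_apply, s29hka_prod_range_eq_prod_zmod]
  exact Fintype.prod_option (fun x : OnePoint (ZMod ℓ) ↦ P (heckeRep ℓ x • z))

theorem s29hka_prod_mul (ℓ : ℕ) [NeZero ℓ] (P Q : ℍ → ℂ) :
    s29hka_prod ℓ (P * Q) = s29hka_prod ℓ P * s29hka_prod ℓ Q := by
  funext z
  simp only [s29hka_prod_apply, Pi.mul_apply]
  exact Finset.prod_mul_distrib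

theorem s29hka_prod_pow (ℓ : ℕ) [NeZero ℓ] (P : ℍ → ℂ) (n : ℕ) :
    s29hka_prod ℓ (P ^ n) = s29hka_prod ℓ P ^ n := by
  funext z
  simp only [s29hka_prod_apply, Pi.pow_apply]
  exact Finset.prod_pow _ _ _

theorem s29hka_prod_one (ℓ : ℕ) [NeZero ℓ] : s29hka_prod ℓ (1 : ℍ → ℂ) = 1 := by
  funext z
  simp [s29hka_prod_apply]

/-! ### Regularity -/

theorem s29hka_mdiff_finprod {ι : Type*} (S : Finset ι) (F : ι → ℍ → ℂ)
    (h : ∀ i ∈ S, MDiff (F i)) : MDiff (fun z => ∏ i ∈ S, F i z) := by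
  classical
  induction S using Finset.induction_on with
  | empty =>
    simp only [Finset.prod_empty]
    exact mdifferentiable_const
  | insert a S ha ih =>
    have h1 : MDiff (F a * fun z => ∏ i ∈ S, F i z) :=
      (h a (Finset.mem_insert_self a S)).mul (ih fun i hi => h i (Finset.mem_insert_of_mem hi))
    have e : (fun z => ∏ i ∈ insert a S, F i z) = F a * fun z => ∏ i ∈ S, F i z := by
      funext z
      simp only [Pi.mul_apply]
      rw [Finset.prod_insert ha]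
    rw [e]
    exact h1

theorem s29hka_bdd_finprod {ι : Type*} (S : Finset ι) (F : ι → ℍ → ℂ)
    (h : ∀ i ∈ S, IsBoundedAtImInfty (F i)) : IsBoundedAtImInfty (fun z => ∏ i ∈ S, F i z) := by
  classical
  induction S using Finset.induction_on with
  | empty =>
    simp only [Finset.prod_empty]
    exact Filter.const_boundedAtFilter atImInfty (1 : ℂ)
  | insert a S ha ih =>
    have h1 : IsBoundedAtImInfty (F a * fun z => ∏ i ∈ S, F i z) :=
      (h a (Finset.mem_insert_self a S)).mul (ih fun i hi => h i (Finset.mem_insert_of_mem hi))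
    have e : (fun z => ∏ i ∈ insert a S, F i z) = F a * fun z => ∏ i ∈ S, F i z := by
      funext z
      simp only [Pi.mul_apply]
      rw [Finset.prod_insert ha]
    rw [e]
    exact h1

theorem s29hka_heckeRep_det_pos (ℓ : ℕ) (x : OnePoint (ZMod ℓ)) :
    0 < (Matrix.GeneralLinearGroup.det (heckeRep ℓ x)).val := by
  induction x using OnePoint.rec with
  | infty => exact det_heckeDiagMatrix_pos ℓ
  | coe j => exact det_heckeMatrix_pos ℓ j.val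

theorem s29hka_heckeRep_one_zero (ℓ : ℕ) (x : OnePoint (ZMod ℓ)) :
    ((heckeRep ℓ x : GL (Fin 2) ℝ) : Matrix (Fin 2) (Fin 2) ℝ) 1 0 = 0 := by
  induction x using OnePoint.rec with
  | infty => exact s29hka_heckeDiagMatrix_one_zero ℓ
  | coe j => exact s29hka_heckeMatrix_one_zero ℓ j.val

/-- **(A1)** The Hecke product of a holomorphic function is holomorphic. -/
theorem s29hka_prod_mdiff (ℓ : ℕ) [NeZero ℓ] {P : ℍ → ℂ} (hP : MDiff P) :
    MDiff (s29hka_prod ℓ P) :=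
  s29hka_mdiff_finprod Finset.univ (fun x z => P (heckeRep ℓ x • z))
    fun x _ => s29hka_mdiff_comp _ (s29hka_heckeRep_det_pos ℓ x) hP

/-- The Hecke product of a function bounded at `i∞` is bounded at `i∞`. -/
theorem s29hka_prod_bdd (ℓ : ℕ) [NeZero ℓ] {P : ℍ → ℂ} (hP : IsBoundedAtImInfty P) :
    IsBoundedAtImInfty (s29hka_prod ℓ P) :=
  s29hka_bdd_finprod Finset.univ (fun x z => P (heckeRep ℓ x • z))
    fun x _ => s29hka_bdd_comp _ (s29hka_heckeRep_det_pos ℓ x) (s29hka_heckeRep_one_zero ℓ x) hP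

/-! ### Periodicity -/

theorem s29hka_heckeMatrix_smul_vadd {ℓ : ℕ} (hℓ : ℓ ≠ 0) (j : ℕ) (τ : ℍ) :
    heckeMatrix ℓ j • ((1 : ℝ) +ᵥ τ) = heckeMatrix ℓ (j + 1) • τ := by
  apply UpperHalfPlane.ext
  rw [coe_heckeMatrix_smul hℓ, coe_heckeMatrix_smul hℓ, coe_vadd]
  push_cast
  ring

theorem s29hka_coe_heckeMatrix_smul_self {ℓ : ℕ} (hℓ : ℓ ≠ 0) (τ : ℍ) :
    ((heckeMatrix ℓ ℓ • τ : ℍ) : ℂ) = (heckeMatrix ℓ 0 • τ : ℍ) + (1 : ℕ) := by
  have hℓ' : (ℓ : ℂ) ≠ 0 := by exact_mod_cast hℓ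
  rw [coe_heckeMatrix_smul hℓ, coe_heckeMatrix_smul hℓ]
  field_simp
  push_cast
  ring

theorem s29hka_coe_heckeDiagMatrix_smul_vadd {ℓ : ℕ} (hℓ : ℓ ≠ 0) (τ : ℍ) :
    ((heckeDiagMatrix ℓ • ((1 : ℝ) +ᵥ τ) : ℍ) : ℂ) = (heckeDiagMatrix ℓ • τ : ℍ) + (ℓ : ℕ) := by
  rw [coe_heckeDiagMatrix_smul hℓ, coe_heckeDiagMatrix_smul hℓ, coe_vadd]
  push_cast
  ring

theorem s29hka_prod_vadd (ℓ : ℕ) [NeZero ℓ] {P : ℍ → ℂ} (hP : Periodic (P ∘ ofComplex) 1)
    (τ : ℍ) : s29hka_prod ℓ P ((1 : ℝ) +ᵥ τ) = s29hka_prod ℓ P τ := by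
  have hℓ : ℓ ≠ 0 := NeZero.ne ℓ
  rw [s29hka_prod_eq, s29hka_prod_eq,
    s29hka_apply_eq_of_coe_eq_add_nat hP ℓ (s29hka_coe_heckeDiagMatrix_smul_vadd hℓ τ)]
  congr 1
  simp only [s29hka_heckeMatrix_smul_vadd hℓ]
  obtain ⟨n, hn⟩ : ∃ n, ℓ = n + 1 := Nat.exists_eq_succ_of_ne_zero hℓ
  have h0 := Finset.prod_range_succ' (fun j => P (heckeMatrix ℓ j • τ)) n
  have h1 := Finset.prod_range_succ (fun j => P (heckeMatrix ℓ (j + 1) • τ)) n
  have h2 : P (heckeMatrix ℓ (n + 1) • τ) = P (heckeMatrix ℓ 0 • τ) := by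
    rw [← hn]
    exact s29hka_apply_eq_of_coe_eq_add_nat hP 1 (s29hka_coe_heckeMatrix_smul_self hℓ τ)
  rw [hn] at *
  rw [h1, h0, h2]

/-- The Hecke product of a nice function is nice. -/
theorem s29hka_prod_isNice (ℓ : ℕ) [NeZero ℓ] {P : ℍ → ℂ} (hP : IsNice P) :
    IsNice (s29hka_prod ℓ P) where
  per := s29hka_periodic_of_vadd (s29hka_prod_vadd ℓ hP.per)
  holo := s29hka_prod_mdiff ℓ hP.holo
  bdd := s29hka_prod_bdd ℓ hP.bdd

/-! ### The `q`-expansion of the Hecke product -/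

/-- The Hecke product evaluated at `ℓ z`. -/
theorem s29hka_prod_diag (ℓ : ℕ) [NeZero ℓ] (P : ℍ → ℂ) (z : ℍ) :
    s29hka_prod ℓ P (heckeDiagMatrix ℓ • z) =
      P (heckeDiagMatrix (ℓ * ℓ) • z) * ∏ j ∈ Finset.range ℓ, s29hka_fac ℓ j P z := by
  rw [s29hka_prod_eq, s29hka_diag_diag (NeZero.ne ℓ)]
  rfl

/-- **(A4), core.** The `q`-expansion of the Hecke product of a nice function:
`(series P̃)(t^ℓ) = (series P)(t^(ℓ²)) · ∏_{j<ℓ} (series P)(ζ^j t)`. -/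
theorem s29hka_prod_series (ℓ : ℕ) [NeZero ℓ] {P : ℍ → ℂ} (hP : IsNice P) :
    ModularCurve.qExpand ℂ ℓ (HahnSeries.ofPowerSeries ℤ ℂ (qExpansion 1 (s29hka_prod ℓ P))) =
      ModularCurve.qExpand ℂ (ℓ * ℓ) (HahnSeries.ofPowerSeries ℤ ℂ (qExpansion 1 P)) *
        ∏ j ∈ Finset.range ℓ,
          twL_twist (s29hka_zeta ℓ ^ j) (HahnSeries.ofPowerSeries ℤ ℂ (qExpansion 1 P)) := by
  have hℓ : ℓ ≠ 0 := NeZero.ne ℓ
  have H1 := twL_hasLaurent_diag' (anA_HasLaurent.of_isNice (s29hka_prod_isNice ℓ hP)) ℓ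
  have H2 := twL_hasLaurent_diag' (anA_HasLaurent.of_isNice hP) (ℓ * ℓ)
  have H3 : anA_HasLaurent
      (∏ j ∈ Finset.range ℓ,
        twL_twist (s29hka_zeta ℓ ^ j) (HahnSeries.ofPowerSeries ℤ ℂ (qExpansion 1 P)))
      (fun z => ∏ j ∈ Finset.range ℓ, s29hka_fac ℓ j P z) := by
    refine twL_hasLaurent_prod (Finset.range ℓ) fun j _ => ?_
    rw [← s29hka_fac_series hℓ j hP]
    exact anA_HasLaurent.of_isNice (s29hka_fac_isNice hℓ j hP)
  have H4 := H2.mul H3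
  have e : ((fun z => P (heckeDiagMatrix (ℓ * ℓ) • z)) *
      fun z => ∏ j ∈ Finset.range ℓ, s29hka_fac ℓ j P z) =
      fun z => s29hka_prod ℓ P (heckeDiagMatrix ℓ • z) := by
    funext z
    rw [s29hka_prod_diag]
    rfl
  rw [e] at H4
  exact H1.unique_series H4

end Fermat.Agent.S29

end
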