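/-
S29, leaf [HK-AN] (owner: helper4): the analytic half of [HECKE-κ].  Prefix `s29hka_`.

For a prime `ℓ ∤ N` and a function `f` on the upper half plane the **Hecke product** is

    s29hka_prod ℓ f (z) = ∏_{x ∈ ℙ¹(𝔽_ℓ)} f (heckeRep ℓ x • z) = f (ℓ z) · ∏_{j < ℓ} f ((z + j) / ℓ).

EXPORTS.
* (A1) `s29hka_prod_mdiff`, `s29hka_prod_ne_zero`, `s29hka_prod_pow`, `s29hka_prod_mul`;
* (A2) `s29hka_prod_char`  : weight `(ℓ + 1) k`, character `γ ↦ ∏ₓ χ (s29lat_gam N ℓ hℓN γ x)`;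
* (A3) `s29hka_prod_bdd_slash`, `s29hka_prod_isMF`;
* (A4) `s29hka_ratio_series` : for nice `P`, `Q` and `y = series P / series Q`,
        `(series P̃ / series Q̃)(t^ℓ) = y(t^(ℓ²)) · ∏_{j<ℓ} y(ζ^j t)`, `ζ = exp (2 π i / ℓ)`
        (`s29hka_ratio_series'`: the same with S37's `s37es_tw`; `s29hka_ratio_series_pow`: for
        `P = f ^ p`, `Q = g ^ p`).
-/
import Mathlib
import Fermat.Agent.S37.EsTwist
import Fermat.Agent.S29.HkAnProd
import Fermat.Agent.S29.HkAnChar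

set_option autoImplicit false

noncomputable section

namespace Fermat.Agent.S29

open UpperHalfPlane ModularFormClass CongruenceSubgroup Matrix.SpecialLinearGroup Function
open ModularForm Filter Asymptotics
open scoped MatrixGroups ModularForm Manifold Real Topology

open Fermat.Agent.S22 Fermat.Agent.S24 Fermat.Agent.S28 Fermat.Agent.S37

/-- S28's twist and S37's twist agree. -/
theorem s29hka_twist_eq (ζ : ℂˣ) (x : LaurentSeries ℂ) : twL_twist ζ x = s37es_tw ζ x := by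
  ext n
  rfl

theorem s29hka_qExpand_injective (ℓ : ℕ) [NeZero ℓ] :
    Function.Injective (ModularCurve.qExpand ℂ ℓ) :=
  (ModularCurve.qExpand ℂ ℓ).injective

/-- The series of a nice function. -/
abbrev s29hka_ser (P : ℍ → ℂ) : LaurentSeries ℂ :=
  HahnSeries.ofPowerSeries ℤ ℂ (qExpansion 1 P)

theorem s29hka_ser_ne_zero {P : ℍ → ℂ} (hP : IsNice P) (h0 : P ≠ 0) : s29hka_ser P ≠ 0 := by
  intro h
  have h1 := anA_HasLaurent.of_isNice hP
  rw [show HahnSeries.ofPowerSeries ℤ ℂ (qExpansion 1 P) = 0 from h] at h1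
  exact h0 h1.eq_zero_of_zero

/-- **(A1)** The Hecke product of a non-zero nice function is non-zero. -/
theorem s29hka_prod_ne_zero (ℓ : ℕ) [NeZero ℓ] {P : ℍ → ℂ} (hP : IsNice P) (h0 : P ≠ 0) :
    s29hka_prod ℓ P ≠ 0 := by
  intro h
  have h1 := s29hka_prod_series ℓ hP
  have h2 : HahnSeries.ofPowerSeries ℤ ℂ (qExpansion 1 (s29hka_prod ℓ P)) = 0 := by
    have h3 := anA_HasLaurent.of_isNice (s29hka_prod_isNice ℓ hP)
    rw [h] at h3 ⊢
    exact h3.series_eq_zero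
  rw [h2, map_zero] at h1
  have hs := s29hka_ser_ne_zero hP h0
  have h4 : ModularCurve.qExpand ℂ (ℓ * ℓ) (s29hka_ser P) ≠ 0 := by
    intro h5
    exact hs ((s29hka_qExpand_injective (ℓ * ℓ)) (by rw [h5, map_zero]))
  have h6 : ∏ j ∈ Finset.range ℓ, twL_twist (s29hka_zeta ℓ ^ j) (s29hka_ser P) ≠ 0 :=
    Finset.prod_ne_zero_iff.mpr fun j _ => (twL_twist_eq_zero _).not.mpr hs
  exact mul_ne_zero h4 h6 h1.symm

/-- **(A1)** for a function with a nice non-zero power. -/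
theorem s29hka_prod_ne_zero_of_pow (ℓ : ℕ) [NeZero ℓ] {f : ℍ → ℂ} {p : ℕ}
    (hP : IsNice (f ^ p)) (h0 : f ≠ 0) (hp : p ≠ 0) : s29hka_prod ℓ f ≠ 0 := by
  intro h
  have h1 : f ^ p ≠ 0 := by
    intro h2
    apply h0
    funext z
    have := congrFun h2 z
    simpa [hp] using this
  have h3 := s29hka_prod_ne_zero ℓ hP h1
  rw [s29hka_prod_pow, h] at h3
  exact h3 (zero_pow hp)

/-- **(A4)** The `q`-expansion of a ratio of Hecke products:
`(series P̃ / series Q̃)(t^ℓ) = y(t^(ℓ²)) · ∏_{j<ℓ} y(ζ^j t)` for `y = series P / series Q`. -/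
theorem s29hka_ratio_series (ℓ : ℕ) [NeZero ℓ] {P Q : ℍ → ℂ} (hP : IsNice P) (hQ : IsNice Q) :
    ModularCurve.qExpand ℂ ℓ (s29hka_ser (s29hka_prod ℓ P) / s29hka_ser (s29hka_prod ℓ Q)) =
      ModularCurve.qExpand ℂ (ℓ * ℓ) (s29hka_ser P / s29hka_ser Q) *
        ∏ j ∈ Finset.range ℓ, twL_twist (s29hka_zeta ℓ ^ j) (s29hka_ser P / s29hka_ser Q) := by
  rw [map_div₀, s29hka_prod_series ℓ hP, s29hka_prod_series ℓ hQ, map_div₀]
  simp only [map_div₀]
  rw [Finset.prod_div_distrib]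
  rw [div_mul_div_comm]

/-- **(A4)** in the spelling of S37's twist `s37es_tw`. -/
theorem s29hka_ratio_series' (ℓ : ℕ) [NeZero ℓ] {P Q : ℍ → ℂ} (hP : IsNice P) (hQ : IsNice Q) :
    ModularCurve.qExpand ℂ ℓ (s29hka_ser (s29hka_prod ℓ P) / s29hka_ser (s29hka_prod ℓ Q)) =
      ModularCurve.qExpand ℂ (ℓ * ℓ) (s29hka_ser P / s29hka_ser Q) *
        ∏ j ∈ Finset.range ℓ, s37es_tw (s29hka_zeta ℓ ^ j) (s29hka_ser P / s29hka_ser Q) := by
  rw [s29hka_ratio_series ℓ hP hQ]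
  congr 1

/-- **(A4)** for `p`-th powers: `y = series (f ^ p) / series (g ^ p)`, `F = s29hka_prod ℓ f`,
`G = s29hka_prod ℓ g`. -/
theorem s29hka_ratio_series_pow (ℓ : ℕ) [NeZero ℓ] {f g : ℍ → ℂ} (p : ℕ)
    (hP : IsNice (f ^ p)) (hQ : IsNice (g ^ p)) :
    ModularCurve.qExpand ℂ ℓ
        (s29hka_ser (s29hka_prod ℓ f ^ p) / s29hka_ser (s29hka_prod ℓ g ^ p)) =
      ModularCurve.qExpand ℂ (ℓ * ℓ) (s29hka_ser (f ^ p) / s29hka_ser (g ^ p)) *
        ∏ j ∈ Finset.range ℓ,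
          s37es_tw (s29hka_zeta ℓ ^ j) (s29hka_ser (f ^ p) / s29hka_ser (g ^ p)) := by
  rw [← s29hka_prod_pow, ← s29hka_prod_pow]
  exact s29hka_ratio_series' ℓ hP hQ

end Fermat.Agent.S29

end
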