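/-
S29 [K-UNIQ] (helper7; sub-architect of [KUM]: helper26).  Prefix `s29ku_`.

Two root classes of the same character are equal: for root data `(k, f, g, D, y)` and
`(k', f', g', D', y')` of `χ` the functions `f g' (f' g)^(n-1)` and `(f' g)^n` are honest modular
forms of weight `(k + k') n` on `Γ₀(N)`, so the ratio `u` of their `q`-expansions lies in `F_ℂ`
([KAN]); `u^n = y / y'`, hence `n (D - D') = n div u` and `D - D' = div u`.
-/
import Mathlib
import Fermat.Agent.S29.KumDefs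
import Fermat.Agent.S29.Kan
import Fermat.Agent.S29.EisCor

set_option autoImplicit false

noncomputable section

namespace Fermat.Agent.S29

open UpperHalfPlane CongruenceSubgroup ModularCurve AlgebraicCurve
open ModularForm ModularFormClass
open scoped MatrixGroups ModularForm Manifold
open Fermat.Agent.S22 (IsMF G0 IsNice)

variable {N : ℕ}

/-- The predicate of `KumDefs.lean` is the predicate of `EisCor.lean`. -/
theorem s29ku_isTw {k : ℤ} {χ : ↥(Gamma0 N) →* ℂˣ} {f : ℍ → ℂ} (h : s29k_IsForm N k χ f) :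
    s29e_IsTw N k χ f := h

theorem s29ku_isForm {k : ℤ} {χ : ↥(Gamma0 N) →* ℂˣ} {f : ℍ → ℂ} (h : s29e_IsTw N k χ f) :
    s29k_IsForm N k χ f := h

/-- Products of forms with characters. -/
theorem s29ku_mul {k₁ k₂ : ℤ} {χ₁ χ₂ : ↥(Gamma0 N) →* ℂˣ} {f g : ℍ → ℂ}
    (hf : s29k_IsForm N k₁ χ₁ f) (hg : s29k_IsForm N k₂ χ₂ g) :
    s29k_IsForm N (k₁ + k₂) (χ₁ * χ₂) (f * g) :=
  s29e_IsTw.mul (s29ku_isTw hf) (s29ku_isTw hg)

/-- Powers of forms with characters. -/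
theorem s29ku_pow {k : ℤ} {χ : ↥(Gamma0 N) →* ℂˣ} {f : ℍ → ℂ}
    (hf : s29k_IsForm N k χ f) (p : ℕ) : s29k_IsForm N (p * k) (χ ^ p) (f ^ p) :=
  s29e_IsTw.pow (s29ku_isTw hf) p

/-- A form with trivial character is a modular form. -/
theorem s29ku_isMF [NeZero N] {k : ℤ} {χ : ↥(Gamma0 N) →* ℂˣ} {f : ℍ → ℂ}
    (hf : s29k_IsForm N k χ f) (hχ : ∀ γ, χ γ = 1) : IsMF (G0 N) k f :=
  s29e_IsTw.isMF (s29ku_isTw hf) hχ

/-- The `n`-th power of a form whose character has order dividing `n` is a modular form. -/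
theorem s29ku_isMF_pow [NeZero N] {k : ℤ} {χ : ↥(Gamma0 N) →* ℂˣ} {f : ℍ → ℂ}
    (hf : s29k_IsForm N k χ f) (n : ℕ) (hχ : ∀ γ, χ γ ^ n = 1) :
    IsMF (G0 N) (n * k) (f ^ n) :=
  s29e_IsTw.isMF_pow (s29ku_isTw hf) n hχ

/-- ... hence it is `1`-periodic, holomorphic and bounded at `i∞`. -/
theorem s29ku_isNice_pow [NeZero N] {k : ℤ} {χ : ↥(Gamma0 N) →* ℂˣ} {f : ℍ → ℂ}
    (hf : s29k_IsForm N k χ f) (n : ℕ) (hχ : ∀ γ, χ γ ^ n = 1) : IsNice (f ^ n) :=
  (s29ku_isMF_pow hf n hχ).isNice_G0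

theorem s29ku_pow_ne_zero {f : ℍ → ℂ} (hf : f ≠ 0) (n : ℕ) : f ^ n ≠ 0 := by
  obtain ⟨z, hz⟩ : ∃ z, f z ≠ 0 := by
    by_contra hcon
    exact hf (funext fun z => by_contra fun hz => hcon ⟨z, hz⟩)
  intro h
  have := congrFun h z
  rw [Pi.pow_apply, Pi.zero_apply] at this
  exact hz (eq_zero_of_pow_eq_zero this)

/-- The series of a non-zero nice function is not zero. -/
theorem s29ku_ser_ne_zero {f : ℍ → ℂ} (hf : IsNice f) (hf0 : f ≠ 0) : s29k_ser f ≠ 0 :=
  s29kan_series_ne_zero hf hf0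

theorem s29ku_ser_mul {f g : ℍ → ℂ} (hf : IsNice f) (hg : IsNice g) :
    s29k_ser (f * g) = s29k_ser f * s29k_ser g := by
  rw [s29k_ser, hf.qExpansion_mul hg, map_mul]
  rfl

theorem s29ku_ser_pow {f : ℍ → ℂ} (hf : IsNice f) (n : ℕ) :
    s29k_ser (f ^ n) = s29k_ser f ^ n := by
  rw [s29k_ser, hf.qExpansion_pow, map_pow]
  rfl

/-- The algebraic core: if `y = uⁿ y'` in `F`, `n D = div y`, `n D' = div y'`, then
`[D] = [D']`. -/
theorem s29ku_mk_eq {K F : Type*} [Field K] [Field F] [Algebra K F] {n : ℕ} (hn : 0 < n)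
    (D D' : Divisor.degZero (K := K) (F := F)) (y y' u : F) (hy' : y' ≠ 0) (hu : u ≠ 0)
    (hyu : y = u ^ n * y')
    (hD : ∀ P : Place K F, (n : ℤ) * (D : Divisor K F) P = P.ord y)
    (hD' : ∀ P : Place K F, (n : ℤ) * (D' : Divisor K F) P = P.ord y') :
    Pic0.mk D = Pic0.mk D' := by
  have hn0 : (n : ℤ) ≠ 0 := by exact_mod_cast hn.ne'
  have key : ∀ P : Place K F, (D : Divisor K F) P = P.ord u + (D' : Divisor K F) P := by
    intro P
    have h1 : P.ord y = (n : ℤ) * P.ord u + P.ord y' := by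
      rw [hyu, P.ord_mul (pow_ne_zero n hu) hy', ← zpow_natCast, P.ord_zpow]
    have h2 : (n : ℤ) * (D : Divisor K F) P
        = (n : ℤ) * (P.ord u + (D' : Divisor K F) P) := by
      rw [hD P, h1, mul_add, hD' P]
    exact mul_left_cancel₀ hn0 h2
  refine (QuotientAddGroup.eq).mpr ?_
  rw [AddSubgroup.mem_addSubgroupOf]
  refine ⟨u⁻¹, inv_ne_zero hu, fun P => ?_⟩
  rw [P.ord_inv]
  have := key P
  simp only [AddSubgroup.coe_add, NegMemClass.coe_neg, Finsupp.add_apply, Finsupp.neg_apply]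
  rw [this]
  ring

/-- **[K-UNIQ]** two root classes of the same character are equal. -/
theorem s29ku_main : s29k_UniqStatement := by
  intro N _ n hn χ hχ x x' hx hx'
  obtain ⟨k, f, g, hf, hg, hf0, hg0, D, y, rfl, hy, hD⟩ := hx
  obtain ⟨k', f', g', hf', hg', hf0', hg0', D', y', rfl, hy', hD'⟩ := hx'
  obtain ⟨m, rfl⟩ : ∃ m, n = m + 1 := ⟨n - 1, by omega⟩
  have h1 : ∀ γ : ↥(Gamma0 N), (1 : ↥(Gamma0 N) →* ℂˣ) γ ^ (m + 1) = 1 := fun γ => by simp
  -- the four nice powers and their series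
  have nA := s29ku_isNice_pow hf (m + 1) hχ
  have nB := s29ku_isNice_pow hg (m + 1) h1
  have nA' := s29ku_isNice_pow hf' (m + 1) hχ
  have nB' := s29ku_isNice_pow hg' (m + 1) h1
  have hA0 : s29k_ser (f ^ (m + 1)) ≠ 0 := s29ku_ser_ne_zero nA (s29ku_pow_ne_zero hf0 _)
  have hB0 : s29k_ser (g ^ (m + 1)) ≠ 0 := s29ku_ser_ne_zero nB (s29ku_pow_ne_zero hg0 _)
  have hA0' : s29k_ser (f' ^ (m + 1)) ≠ 0 := s29ku_ser_ne_zero nA' (s29ku_pow_ne_zero hf0' _)
  have hB0' : s29k_ser (g' ^ (m + 1)) ≠ 0 := s29ku_ser_ne_zero nB' (s29ku_pow_ne_zero hg0' _)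
  -- the two honest forms
  have hnum : IsMF (G0 N) (((k + k') * (m + 1) : ℕ) : ℤ) (f * g' * (f' * g) ^ m) := by
    have h := s29ku_mul (s29ku_mul hf hg') (s29ku_pow (s29ku_mul hf' hg) m)
    refine (s29ku_isMF h ?_).cast ?_
    · intro γ
      simp only [MonoidHom.mul_apply, MonoidHom.pow_apply, MonoidHom.one_apply, mul_one]
      rw [← pow_succ']
      exact hχ γ
    · push_cast
      ring
  have hden : IsMF (G0 N) (((k + k') * (m + 1) : ℕ) : ℤ) ((f' * g) ^ (m + 1)) := by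
    have h := s29ku_pow (s29ku_mul hf' hg) (m + 1)
    refine (s29ku_isMF h ?_).cast ?_
    · intro γ
      simp only [MonoidHom.mul_apply, MonoidHom.pow_apply, MonoidHom.one_apply, mul_one]
      exact hχ γ
    · push_cast
      ring
  have hu_mem : s29k_ser (f * g' * (f' * g) ^ m) / s29k_ser ((f' * g) ^ (m + 1)) ∈
      laurentBaseChange ℂ (modularFunctionFieldFull N) :=
    s29kan_ratio N ((k + k') * (m + 1)) _ _ hnum hden
  -- the series identities
  have e_num : s29k_ser (f * g' * (f' * g) ^ m) ^ (m + 1)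
      = s29k_ser (f ^ (m + 1)) * s29k_ser (g' ^ (m + 1))
        * (s29k_ser (f' ^ (m + 1)) * s29k_ser (g ^ (m + 1))) ^ m := by
    rw [← s29ku_ser_pow hnum.isNice_G0]
    have e : (f * g' * (f' * g) ^ m) ^ (m + 1)
        = f ^ (m + 1) * g' ^ (m + 1) * (f' ^ (m + 1) * g ^ (m + 1)) ^ m := by ring
    rw [e, s29ku_ser_mul (nA.mul nB') ((nA'.mul nB).pow m), s29ku_ser_mul nA nB',
      s29ku_ser_pow (nA'.mul nB), s29ku_ser_mul nA' nB]
  have e_den : s29k_ser ((f' * g) ^ (m + 1)) ^ (m + 1)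
      = (s29k_ser (f' ^ (m + 1)) * s29k_ser (g ^ (m + 1))) ^ (m + 1) := by
    rw [← s29ku_ser_pow hden.isNice_G0]
    have e : ((f' * g) ^ (m + 1)) ^ (m + 1) = (f' ^ (m + 1) * g ^ (m + 1)) ^ (m + 1) := by ring
    rw [e, s29ku_ser_pow (nA'.mul nB), s29ku_ser_mul nA' nB]
  have hnum0 : s29k_ser (f * g' * (f' * g) ^ m) ≠ 0 := by
    intro h0
    rw [h0, zero_pow (Nat.succ_ne_zero m)] at e_num
    exact mul_ne_zero (mul_ne_zero hA0 hB0') (pow_ne_zero m (mul_ne_zero hA0' hB0)) e_num.symm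
  have hden0 : s29k_ser ((f' * g) ^ (m + 1)) ≠ 0 := by
    intro h0
    rw [h0, zero_pow (Nat.succ_ne_zero m)] at e_den
    exact pow_ne_zero (m + 1) (mul_ne_zero hA0' hB0) e_den.symm
  -- the element `u`
  set u : ↥(laurentBaseChange ℂ (modularFunctionFieldFull N)) :=
    ⟨s29k_ser (f * g' * (f' * g) ^ m) / s29k_ser ((f' * g) ^ (m + 1)), hu_mem⟩ with hu_def
  have hu0 : u ≠ 0 := by
    intro h
    have := congrArg (fun t : ↥(laurentBaseChange ℂ (modularFunctionFieldFull N)) =>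
      (t : LaurentSeries ℂ)) h
    simp only [hu_def, ZeroMemClass.coe_zero] at this
    exact div_ne_zero hnum0 hden0 this
  have hy0' : y' ≠ 0 := by
    intro h
    have := hy'
    rw [h, ZeroMemClass.coe_zero] at this
    exact div_ne_zero hA0' hB0' this.symm
  have hyu : y = u ^ (m + 1) * y' := by
    apply Subtype.ext
    rw [MulMemClass.coe_mul, SubmonoidClass.coe_pow, hy, hy', hu_def]
    simp only
    rw [div_pow, e_num, e_den]
    field_simp
    ring
  exact s29ku_mk_eq hn D D' y y' u hy0' hu0 hyu hD hD'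

end Fermat.Agent.S29
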