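/-
S29, leaf [HK-AN] (owner: helper4), part 5: the exports in the vocabulary of `KumDefs.lean`.
Prefix `s29hka_`.

* `s29hka_isForm` / `s29hka_isForm_nat` / `s29hka_isForm_one` : the Hecke product of a form of
  weight `k` and character `χ` is a form of weight `(ℓ + 1) k` and character
  `χ' = γ ↦ ∏ₓ χ (s29lat_gam N ℓ hℓN γ x)`;
* `s29hka_prod_tw_eq` : `∏_{i<ℓ} tw (ζ^i) y` does not depend on the primitive `ℓ`-th root `ζ`;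
* `s29hka_ratio_kum` : **(A4)** for `y = s29k_ser (f^n) / s29k_ser (g^n)`;
* `s29hka_root_series` : the element `y'` with `y'(t^ℓ) = y(t^(ℓ²)) ∏ y(ζ^i t)` IS
  `s29k_ser (F^n) / s29k_ser (G^n)`, `F`, `G` the Hecke products of `f`, `g`.
-/
import Mathlib
import Fermat.Agent.S29.KumDefs
import Fermat.Agent.S29.KumUniq
import Fermat.Agent.S29.HkAn

set_option autoImplicit false

noncomputable section

namespace Fermat.Agent.S29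

open UpperHalfPlane ModularFormClass CongruenceSubgroup Matrix.SpecialLinearGroup Function
open ModularForm Filter Asymptotics
open scoped MatrixGroups ModularForm Manifold Real Topology

open Fermat.Agent.S22 Fermat.Agent.S24 Fermat.Agent.S28 Fermat.Agent.S37

/-! ### (A1)-(A3) in the vocabulary of `KumDefs.lean` -/

/-- **(A1)-(A3)** The Hecke product of a form of weight `k` and character `χ` is a form of weight
`(ℓ + 1) k` and character `χ' = γ ↦ ∏ₓ χ (s29lat_gam N ℓ hℓN γ x)`. -/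
theorem s29hka_isForm (N ℓ : ℕ) [Fact ℓ.Prime] (hℓN : ¬ ℓ ∣ N) (k : ℤ)
    (χ χ' : ↥(Gamma0 N) →* ℂˣ)
    (hχ' : ∀ γ, χ' γ = ∏ x : OnePoint (ZMod ℓ), χ (s29lat_gam N ℓ hℓN γ x)) {f : ℍ → ℂ}
    (hf : s29k_IsForm N k χ f) :
    s29k_IsForm N (((ℓ : ℤ) + 1) * k) χ' (s29hka_prod ℓ f) := by
  obtain ⟨h1, h2, h3⟩ := hf
  refine ⟨s29hka_prod_mdiff ℓ h1, fun γ => ?_, fun α => s29hka_prod_bdd_slash k f h3 α⟩
  rw [s29hka_prod_char hℓN k χ f h2 γ, hχ' γ]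
  congr 1
  push_cast
  rfl

/-- The same with a natural number as weight (the weight of `s29k_IsRoot`). -/
theorem s29hka_isForm_nat (N ℓ : ℕ) [Fact ℓ.Prime] (hℓN : ¬ ℓ ∣ N) (k : ℕ)
    (χ χ' : ↥(Gamma0 N) →* ℂˣ)
    (hχ' : ∀ γ, χ' γ = ∏ x : OnePoint (ZMod ℓ), χ (s29lat_gam N ℓ hℓN γ x)) {f : ℍ → ℂ}
    (hf : s29k_IsForm N (k : ℤ) χ f) :
    s29k_IsForm N (((ℓ + 1) * k : ℕ) : ℤ) χ' (s29hka_prod ℓ f) := by
  have h := s29hka_isForm N ℓ hℓN (k : ℤ) χ χ' hχ' hf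
  have e : (((ℓ + 1) * k : ℕ) : ℤ) = ((ℓ : ℤ) + 1) * (k : ℤ) := by push_cast; ring
  rw [e]
  exact h

/-- The Hecke product of a form with trivial character has trivial character. -/
theorem s29hka_isForm_one (N ℓ : ℕ) [Fact ℓ.Prime] (hℓN : ¬ ℓ ∣ N) (k : ℕ) {g : ℍ → ℂ}
    (hg : s29k_IsForm N (k : ℤ) 1 g) :
    s29k_IsForm N (((ℓ + 1) * k : ℕ) : ℤ) 1 (s29hka_prod ℓ g) :=
  s29hka_isForm_nat N ℓ hℓN k 1 1 (fun γ => by simp) hg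

/-- The character `γ ↦ ∏ₓ χ (s29lat_gam γ x)` has order dividing `n` if `χ` has. -/
theorem s29hka_char_pow (N ℓ : ℕ) [Fact ℓ.Prime] (hℓN : ¬ ℓ ∣ N) (n : ℕ)
    (χ χ' : ↥(Gamma0 N) →* ℂˣ) (hχ : ∀ γ, χ γ ^ n = 1)
    (hχ' : ∀ γ, χ' γ = ∏ x : OnePoint (ZMod ℓ), χ (s29lat_gam N ℓ hℓN γ x)) (γ : ↥(Gamma0 N)) :
    χ' γ ^ n = 1 := by
  rw [hχ' γ, ← Finset.prod_pow]
  exact Finset.prod_eq_one fun x _ => hχ _

/-! ### The product of the twists does not depend on the primitive root -/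

theorem s29hka_tw_congr {ζ ξ : ℂˣ} (h : ζ = ξ) (y : LaurentSeries ℂ) :
    s37es_tw ζ y = s37es_tw ξ y := by rw [h]

/-- `∏_{i<ℓ} tw (ζ^i) y` is the product over the `ℓ`-th roots of unity: it does not depend on
the primitive `ℓ`-th root of unity `ζ`. -/
theorem s29hka_prod_tw_eq {ℓ : ℕ} (hℓ : ℓ ≠ 0) {ζ ξ : ℂˣ} (hζ : IsPrimitiveRoot ζ ℓ)
    (hξ : IsPrimitiveRoot ξ ℓ) (y : LaurentSeries ℂ) :
    ∏ i ∈ Finset.range ℓ, s37es_tw (ζ ^ i) y = ∏ i ∈ Finset.range ℓ, s37es_tw (ξ ^ i) y := by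
  classical
  have key : ∀ {ω : ℂˣ}, IsPrimitiveRoot ω ℓ →
      ∏ i ∈ Finset.range ℓ, s37es_tw (ω ^ i) y =
        ∏ μ ∈ (Finset.range ℓ).image (fun i => ω ^ i), s37es_tw μ y := by
    intro ω hω
    rw [Finset.prod_image]
    intro i hi j hj hij
    exact hω.pow_inj (Finset.mem_range.mp hi) (Finset.mem_range.mp hj) hij
  have hsub : ∀ {ω ω' : ℂˣ}, IsPrimitiveRoot ω ℓ → IsPrimitiveRoot ω' ℓ →
      (Finset.range ℓ).image (fun i => ω ^ i) ⊆ (Finset.range ℓ).image (fun i => ω' ^ i) := by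
    intro ω ω' hω hω' μ hμ
    obtain ⟨i, -, rfl⟩ := Finset.mem_image.mp hμ
    have : NeZero ℓ := ⟨hℓ⟩
    have hC : IsPrimitiveRoot ((ω' : ℂˣ) : ℂ) ℓ := IsPrimitiveRoot.coe_units_iff.mpr hω'
    have h0 : (ω ^ i) ^ ℓ = 1 := by rw [← pow_mul, mul_comm, pow_mul, hω.pow_eq_one, one_pow]
    have h1 : (((ω ^ i : ℂˣ) : ℂˣ) : ℂ) ^ ℓ = 1 := by
      rw [← Units.val_pow_eq_pow_val, h0, Units.val_one]
    obtain ⟨j, hj, hj'⟩ := hC.eq_pow_of_pow_eq_one h1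
    refine Finset.mem_image.mpr ⟨j, Finset.mem_range.mpr hj, Units.ext ?_⟩
    rw [Units.val_pow_eq_pow_val]
    exact hj'
  rw [key hζ, key hξ, Finset.Subset.antisymm (hsub hζ hξ) (hsub hξ hζ)]

/-! ### (A4) in the vocabulary of `KumDefs.lean` -/

theorem s29hka_ser_eq (f : ℍ → ℂ) : s29k_ser f = s29hka_ser f := rfl

/-- **(A4)** for nice `P`, `Q`, any primitive `ℓ`-th root of unity `ζ`, spelling `s29k_ser`. -/
theorem s29hka_ratio_nice (ℓ : ℕ) [NeZero ℓ] {ζ : ℂˣ} (hζ : IsPrimitiveRoot ζ ℓ) {P Q : ℍ → ℂ}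
    (hP : IsNice P) (hQ : IsNice Q) :
    ModularCurve.qExpand ℂ ℓ (s29k_ser (s29hka_prod ℓ P) / s29k_ser (s29hka_prod ℓ Q)) =
      ModularCurve.qExpand ℂ (ℓ * ℓ) (s29k_ser P / s29k_ser Q) *
        ∏ i ∈ Finset.range ℓ, s37es_tw (ζ ^ i) (s29k_ser P / s29k_ser Q) := by
  rw [s29hka_prod_tw_eq (NeZero.ne ℓ) hζ (s29hka_zeta_isPrimitiveRoot (NeZero.ne ℓ))]
  exact s29hka_ratio_series' ℓ hP hQ

/-- **(A4)** for honest modular forms `P`, `Q` on `Γ₀(N)`. -/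
theorem s29hka_ratio_isMF (N ℓ : ℕ) [NeZero N] [NeZero ℓ] {ζ : ℂˣ} (hζ : IsPrimitiveRoot ζ ℓ)
    {k k' : ℤ} {P Q : ℍ → ℂ} (hP : IsMF (G0 N) k P) (hQ : IsMF (G0 N) k' Q) :
    ModularCurve.qExpand ℂ ℓ (s29k_ser (s29hka_prod ℓ P) / s29k_ser (s29hka_prod ℓ Q)) =
      ModularCurve.qExpand ℂ (ℓ * ℓ) (s29k_ser P / s29k_ser Q) *
        ∏ i ∈ Finset.range ℓ, s37es_tw (ζ ^ i) (s29k_ser P / s29k_ser Q) :=
  s29hka_ratio_nice ℓ hζ hP.isNice_G0 hQ.isNice_G0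

/-- **(A4)** for the data of a root class: `y = s29k_ser (f^n) / s29k_ser (g^n)`,
`F = s29hka_prod ℓ f`, `G = s29hka_prod ℓ g`:
`(s29k_ser (F^n) / s29k_ser (G^n))(t^ℓ) = y(t^(ℓ²)) · ∏_{i<ℓ} y(ζ^i t)`. -/
theorem s29hka_ratio_kum (N ℓ n : ℕ) [NeZero N] [NeZero ℓ] {ζ : ℂˣ} (hζ : IsPrimitiveRoot ζ ℓ)
    {k k' : ℤ} {χ χ₁ : ↥(Gamma0 N) →* ℂˣ} (hχ : ∀ γ, χ γ ^ n = 1) (hχ₁ : ∀ γ, χ₁ γ ^ n = 1)
    {f g : ℍ → ℂ} (hf : s29k_IsForm N k χ f) (hg : s29k_IsForm N k' χ₁ g) :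
    ModularCurve.qExpand ℂ ℓ
        (s29k_ser (s29hka_prod ℓ f ^ n) / s29k_ser (s29hka_prod ℓ g ^ n)) =
      ModularCurve.qExpand ℂ (ℓ * ℓ) (s29k_ser (f ^ n) / s29k_ser (g ^ n)) *
        ∏ i ∈ Finset.range ℓ, s37es_tw (ζ ^ i) (s29k_ser (f ^ n) / s29k_ser (g ^ n)) := by
  rw [← s29hka_prod_pow, ← s29hka_prod_pow]
  exact s29hka_ratio_nice ℓ hζ (s29ku_isNice_pow hf n hχ) (s29ku_isNice_pow hg n hχ₁)

/-- The element `y'` with `y'(t^ℓ) = y(t^(ℓ²)) ∏ y(ζ^i t)` (e.g. the norm of `β y`, by the norm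
formula) IS `s29k_ser (F^n) / s29k_ser (G^n)`. -/
theorem s29hka_root_series (N ℓ n : ℕ) [NeZero N] [NeZero ℓ] {ζ : ℂˣ}
    (hζ : IsPrimitiveRoot ζ ℓ) {k k' : ℤ} {χ χ₁ : ↥(Gamma0 N) →* ℂˣ} (hχ : ∀ γ, χ γ ^ n = 1)
    (hχ₁ : ∀ γ, χ₁ γ ^ n = 1) {f g : ℍ → ℂ} (hf : s29k_IsForm N k χ f)
    (hg : s29k_IsForm N k' χ₁ g) {y y' : LaurentSeries ℂ}
    (hy : y = s29k_ser (f ^ n) / s29k_ser (g ^ n))
    (hy' : ModularCurve.qExpand ℂ ℓ y' =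
      ModularCurve.qExpand ℂ (ℓ * ℓ) y * ∏ i ∈ Finset.range ℓ, s37es_tw (ζ ^ i) y) :
    y' = s29k_ser (s29hka_prod ℓ f ^ n) / s29k_ser (s29hka_prod ℓ g ^ n) := by
  apply s29hka_qExpand_injective ℓ
  rw [hy', hy, s29hka_ratio_kum N ℓ n hζ hχ hχ₁ hf hg]

/-- The Hecke products of the non-zero forms of a root class are non-zero. -/
theorem s29hka_prod_ne_zero_kum (N ℓ n : ℕ) [NeZero N] [NeZero ℓ] (hn : 0 < n) {k : ℤ}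
    {χ : ↥(Gamma0 N) →* ℂˣ} (hχ : ∀ γ, χ γ ^ n = 1) {f : ℍ → ℂ} (hf : s29k_IsForm N k χ f)
    (hf0 : f ≠ 0) : s29hka_prod ℓ f ≠ 0 :=
  s29hka_prod_ne_zero_of_pow ℓ (s29ku_isNice_pow hf n hχ) hf0 hn.ne'

end Fermat.Agent.S29

end
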