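/-
S29 / [KUM], leaf [K-HECKE] (owner: helper14; analytic half [HK-AN]: helper4).  Prefix `s29hk_`.

THE EXPORT: `theorem s29hk_main : s29k_HeckeStatement` (VERBATIM `KumDefs.lean`).

Root data `(k, f, g, D, y)` of `χ` are mapped to the root data
`((ℓ + 1) k, ∏ₓ f ∘ heckeRep ℓ x, ∏ₓ g ∘ heckeRep ℓ x, α_* β^* D, N_α(β y))` of `T_ℓ χ`:
* forms                      : helper4's `s29hka_isForm_nat`, `s29hka_isForm_one`,
                               `s29hka_prod_ne_zero_kum`;
* the series of `N_α(β y)`   : the norm formula `s29hk_norm_C` (HeckeKNorm.lean) + helper4's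
                               `s29hka_root_series`;
* the divisor of `N_α(β y)`  : `s29hk_div` below (Prelude: `pullback_apply_eq_ord`,
                               `NormFormulaAlong`);
* `HeckeInputsAlong ℂ N ℓ`   : helper12's `s29bc_heckeInputs`.
-/
import Mathlib
import Fermat.Agent.S29.KumDefs
import Fermat.Agent.S29.HkAnKum
import Fermat.Agent.S29.HeckeKNorm
import Fermat.Agent.S29.DescBcInst

set_option autoImplicit false
set_option linter.style.haveILetI false
set_option linter.unusedSectionVars false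
set_option linter.unusedVariables false

open ModularCurve AlgebraicCurve UpperHalfPlane CongruenceSubgroup
open scoped MatrixGroups ModularForm Manifold

noncomputable section

namespace Fermat.Agent.S29

/-- **Divisor bookkeeping**: if `n D = div y` then `n (ψ_* φ^* D) = div N_ψ(φ y)`. -/
theorem s29hk_div_abs {K F F' : Type*} [Field K] [Field F] [Field F'] [Algebra K F]
    [Algebra K F'] [HasPrincipalDivisors K F'] (φ ψ : F →ₐ[K] F')
    (hφ : φ.toRingHom.IsIntegral) (hψ : ψ.toRingHom.IsIntegral) (hfin : FiniteAlong K ψ)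
    (hN : NormFormulaAlong K ψ hfin) (n : ℤ) (D : Divisor K F) (y : F) (hy : y ≠ 0)
    (hD : ∀ P : Place K F, n * D P = P.ord y) (P : Place K F) :
    n * (Divisor.correspondence φ ψ hφ hψ D) P =
      P.ord (letI := algebraAlong ψ; Algebra.norm F (φ y)) := by
  have h1 : ∀ w : Place K F', Divisor.pullbackAlong φ hφ (n • D) w = w.ord (φ y) := by
    intro w
    letI := algebraAlong φ
    haveI := isScalarTower_along φ
    haveI := isIntegral_along φ hφ
    exact Divisor.pullback_apply_eq_ord (F' := F') (D := n • D) (f := y)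
      (fun v => by rw [Finsupp.smul_apply, smul_eq_mul]; exact hD v) w
  have h2 : Divisor.pushforwardAlong ψ hψ (Divisor.pullbackAlong φ hφ (n • D)) P =
      P.ord (letI := algebraAlong ψ; Algebra.norm F (φ y)) := by
    letI := algebraAlong ψ
    haveI := isScalarTower_along ψ
    haveI := isIntegral_along ψ hψ
    haveI : Module.Finite F F' := hfin
    exact hN (φ y) ((map_ne_zero φ).2 hy) _ h1 P
  rw [← h2, ← Divisor.correspondence_apply, map_zsmul, Finsupp.smul_apply, smul_eq_mul]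

/-- **[K-HECKE]** the Hecke operator `T_ℓ` maps a root class of `χ` to a root class of
`T_ℓ χ`. -/
theorem s29hk_main : s29k_HeckeStatement := by
  intro N _ n hn ℓ _ hℓN hℓn χ χ' hχ hpar hχ' x hx
  have hℓ : ℓ.Prime := Fact.out
  haveI : NeZero ℓ := ⟨hℓ.ne_zero⟩
  obtain ⟨k, f, g, hf, hg, hf0, hg0, D, y, hxD, hy, hD⟩ := hx
  obtain ⟨hα, hβ, hP, hfin, hFI, hNF⟩ := s29bc_heckeInputs ℂ N ℓ
  haveI : HasPrincipalDivisors ℂ ↥(laurentBaseChange ℂ (modularFunctionFieldFull (N * ℓ))) := hP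
  have hχ₁ : ∀ γ : ↥(Gamma0 N), (1 : ↥(Gamma0 N) →* ℂˣ) γ ^ n = 1 := fun γ => by
    rw [MonoidHom.one_apply, one_pow]
  have hy0 : y ≠ 0 := by
    intro h0
    have h1 : (y : LaurentSeries ℂ) = 0 := by rw [h0]; rfl
    rw [hy] at h1
    exact div_ne_zero
      (s29ku_ser_ne_zero (s29ku_isNice_pow hf n hχ) (s29ku_pow_ne_zero hf0 n))
      (s29ku_ser_ne_zero (s29ku_isNice_pow hg n hχ₁) (s29ku_pow_ne_zero hg0 n)) h1
  refine ⟨(ℓ + 1) * k, s29hka_prod ℓ f, s29hka_prod ℓ g,
    s29hka_isForm_nat N ℓ hℓN k χ χ' hχ' hf, s29hka_isForm_one N ℓ hℓN k hg,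
    s29hka_prod_ne_zero_kum N ℓ n hn hχ hf hf0, s29hka_prod_ne_zero_kum N ℓ n hn hχ₁ hg hg0,
    Pic0.degZeroCorrespondence (heckeBetaBar ℂ N ℓ) (heckeAlphaBar ℂ N ℓ) hβ hα hFI D,
    (letI := algebraAlong (heckeAlphaBar ℂ N ℓ);
      Algebra.norm ↥(laurentBaseChange ℂ (modularFunctionFieldFull N)) (heckeBetaBar ℂ N ℓ y)),
    ?_, ?_, ?_⟩
  · rw [hxD, heckeOperatorAlong_eq hα hβ hFI hfin hNF]
    rfl
  · exact s29hka_root_series N ℓ n (s29hka_zeta_isPrimitiveRoot (NeZero.ne ℓ)) hχ hχ₁ hf hg hy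
      (s29hk_norm_C N ℓ hℓ hℓN (s29hka_zeta ℓ) (s29hka_zeta_isPrimitiveRoot (NeZero.ne ℓ)) y)
  · intro P
    exact s29hk_div_abs (heckeBetaBar ℂ N ℓ) (heckeAlphaBar ℂ N ℓ) hβ hα hfin hNF (n : ℤ)
      (D : Divisor ℂ ↥(laurentBaseChange ℂ (modularFunctionFieldFull N))) y hy0 hD P

end Fermat.Agent.S29
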