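/-
S29, package [KUM] (sub-architect: helper26).  Prefix `s29k_`.

  `s29k_c_of : [K-EX] → [K-UNIQ] → [K-MUL] → [K-TRIV] → [K-HECKE] → [LAT-HOM] → [K-C]`

The Kummer map over `ℂ`: `D c` is THE root class of the character `ζ^c`.
-/
import Mathlib
import Fermat.Agent.S29.KumDefs

set_option autoImplicit false
set_option linter.style.haveILetI false
set_option linter.unusedVariables false

noncomputable section

namespace Fermat.Agent.S29

open UpperHalfPlane CongruenceSubgroup ModularCurve ModularCurve.Period AlgebraicCurve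
open scoped MatrixGroups

/-! ### The characters `ζ^c` -/

section Chi

variable {N : ℕ}

theorem s29k_chi_apply (ζ : ℂˣ) (c : Additive ↥(Gamma0 N) →+ ℤ) (γ : ↥(Gamma0 N)) :
    s29k_chi ζ c γ = ζ ^ c (Additive.ofMul γ) := rfl

theorem s29k_chi_pow {n : ℕ} {ζ : ℂˣ} (hζ : ζ ^ n = 1) (c : Additive ↥(Gamma0 N) →+ ℤ)
    (γ : ↥(Gamma0 N)) : s29k_chi ζ c γ ^ n = 1 := by
  rw [s29k_chi_apply, ← zpow_natCast, ← zpow_mul, mul_comm, zpow_mul, zpow_natCast, hζ, one_zpow]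

theorem s29k_chi_add (ζ : ℂˣ) (c c' : Additive ↥(Gamma0 N) →+ ℤ) :
    s29k_chi ζ (c + c') = s29k_chi ζ c * s29k_chi ζ c' := by
  ext γ
  simp only [s29k_chi_apply, MonoidHom.mul_apply, AddMonoidHom.add_apply, zpow_add, Units.val_mul]

theorem s29k_chi_zero (ζ : ℂˣ) : s29k_chi ζ (0 : Additive ↥(Gamma0 N) →+ ℤ) = 1 := by
  ext γ
  simp only [s29k_chi_apply, AddMonoidHom.zero_apply, zpow_zero, MonoidHom.one_apply]

theorem s29k_chi_nsmul {n : ℕ} {ζ : ℂˣ} (hζ : ζ ^ n = 1) (c : Additive ↥(Gamma0 N) →+ ℤ) :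
    s29k_chi ζ (n • c) = 1 := by
  ext γ
  simp only [s29k_chi_apply, AddMonoidHom.nsmul_apply, MonoidHom.one_apply, Units.val_one,
    Units.val_eq_one]
  rw [nsmul_eq_mul, zpow_mul, zpow_natCast, hζ, one_zpow]

theorem s29k_chi_eq_one_iff {n : ℕ} {ζ : ℂˣ} (hζ : IsPrimitiveRoot ζ n)
    (c : Additive ↥(Gamma0 N) →+ ℤ) :
    s29k_chi ζ c = 1 ↔ ∀ γ : ↥(Gamma0 N), (n : ℤ) ∣ c (Additive.ofMul γ) := by
  constructor
  · intro h γ
    have := DFunLike.congr_fun h γ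
    rw [s29k_chi_apply, MonoidHom.one_apply] at this
    exact (hζ.zpow_eq_one_iff_dvd _).mp this
  · intro h
    ext γ
    rw [s29k_chi_apply, MonoidHom.one_apply, (hζ.zpow_eq_one_iff_dvd _).mpr (h γ)]

end Chi

/-! ### Elements of finite order -/

section Torsion

open Polynomial

/-- An element of `SL(2, ℤ)` with `(tr γ)² < 4` satisfies `γ ^ 12 = 1`. -/
theorem s29k_pow_twelve (γ : SL(2, ℤ))
    (h : (γ : Matrix (Fin 2) (Fin 2) ℤ).trace ^ 2 < 4) : γ ^ 12 = 1 := by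
  set M : Matrix (Fin 2) (Fin 2) ℤ := (γ : Matrix (Fin 2) (Fin 2) ℤ) with hM
  have hdet : M.det = 1 := γ.2
  have hch : aeval M M.charpoly = 0 := Matrix.aeval_self_charpoly M
  rw [Matrix.charpoly_fin_two, hdet] at hch
  have ht : M.trace = -1 ∨ M.trace = 0 ∨ M.trace = 1 := by
    have h1 : -2 < M.trace := by nlinarith
    have h2 : M.trace < 2 := by nlinarith
    omega
  have key : aeval M ((X : ℤ[X]) ^ 12 - 1) = 0 := by
    rcases ht with ht | ht | ht
    · rw [ht] at hch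
      have e : (X : ℤ[X]) ^ 12 - 1 =
          ((X - 1) * (X ^ 9 + X ^ 6 + X ^ 3 + 1)) * (X ^ 2 - C (-1 : ℤ) * X + C (1 : ℤ)) := by
        simp only [map_neg, map_one]
        ring
      rw [e, map_mul, hch, mul_zero]
    · rw [ht] at hch
      have e : (X : ℤ[X]) ^ 12 - 1 =
          (X ^ 10 - X ^ 8 + X ^ 6 - X ^ 4 + X ^ 2 - 1) * (X ^ 2 - C (0 : ℤ) * X + C (1 : ℤ)) := by
        simp only [map_zero, map_one]
        ring
      rw [e, map_mul, hch, mul_zero]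
    · rw [ht] at hch
      have e : (X : ℤ[X]) ^ 12 - 1 =
          ((X ^ 4 + X ^ 3 - X - 1) * (X ^ 6 + 1)) * (X ^ 2 - C (1 : ℤ) * X + C (1 : ℤ)) := by
        simp only [map_one]
        ring
      rw [e, map_mul, hch, mul_zero]
  have hpow : M ^ 12 = 1 := by
    have : aeval M ((X : ℤ[X]) ^ 12 - 1) = M ^ 12 - 1 := by
      simp only [map_sub, map_pow, aeval_X, map_one]
    rw [this] at key
    exact sub_eq_zero.mp key
  apply Subtype.ext
  rw [Matrix.SpecialLinearGroup.coe_pow, Matrix.SpecialLinearGroup.coe_one]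
  exact hpow

variable {N : ℕ}

/-- A parabolic homomorphism with values in `ℤ` kills every element with `(tr γ)² ≤ 4`. -/
theorem s29k_par_apply {c : Additive ↥(Gamma0 N) →+ ℤ} (hc : c ∈ parabolicHoms ℤ (Gamma0 N) ℤ)
    (γ : ↥(Gamma0 N))
    (h : ((γ : SL(2, ℤ)) : Matrix (Fin 2) (Fin 2) ℤ).trace ^ 2 ≤ 4) :
    c (Additive.ofMul γ) = 0 := by
  rcases h.lt_or_eq with h | h
  · have h12 : γ ^ 12 = 1 := by
      apply Subtype.ext
      rw [Subgroup.coe_pow, Subgroup.coe_one]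
      exact s29k_pow_twelve _ h
    have h1 : c (Additive.ofMul (γ ^ 12)) = 12 • c (Additive.ofMul γ) := by
      rw [ofMul_pow, map_nsmul]
    rw [h12, ofMul_one, map_zero] at h1
    rw [nsmul_eq_mul] at h1
    push_cast at h1
    omega
  · exact hc γ h

theorem s29k_chi_isPar (ζ : ℂˣ) {c : Additive ↥(Gamma0 N) →+ ℤ}
    (hc : c ∈ parabolicHoms ℤ (Gamma0 N) ℤ) : s29k_IsPar (s29k_chi ζ c) := by
  intro γ h
  rw [s29k_chi_apply, s29k_par_apply hc γ h, zpow_zero]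

end Torsion

/-! ### The composition -/

section Main

variable {N : ℕ}

theorem s29k_zpow_sum {ι : Type*} (s : Finset ι) (ζ : ℂˣ) (f : ι → ℤ) :
    ζ ^ (∑ i ∈ s, f i) = ∏ i ∈ s, ζ ^ f i := by
  classical
  induction s using Finset.induction_on with
  | empty => simp
  | insert a s ha ih => rw [Finset.sum_insert ha, Finset.prod_insert ha, zpow_add, ih]

/-- The defining formula of `s29lat_T`, from [LAT-HOM]. -/
theorem s29k_T_apply (hHom : s29lat_HomStatement) (N ℓ : ℕ) [Fact ℓ.Prime] (hℓN : ¬ ℓ ∣ N)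
    (ψ : parabolicHoms ℤ (Gamma0 N) ℤ) (γ : Gamma0 N) :
    (s29lat_T N ℓ hℓN ψ : Additive (Gamma0 N) →+ ℤ) (Additive.ofMul γ) =
      s29lat_heckeFun N ℓ hℓN (ψ : Additive (Gamma0 N) →+ ℤ) γ := by
  have h := hHom N ℓ hℓN
  unfold s29lat_T
  rw [dif_pos h]
  exact h.choose_spec ψ γ

/-- Division of a homomorphism with values in `n ℤ` by `n`. -/
def s29k_div (n : ℕ) (c : Additive ↥(Gamma0 N) →+ ℤ)
    (h : ∀ γ : ↥(Gamma0 N), (n : ℤ) ∣ c (Additive.ofMul γ)) : Additive ↥(Gamma0 N) →+ ℤ where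
  toFun γ := c γ / n
  map_zero' := by rw [map_zero, Int.zero_ediv]
  map_add' a b := by
    rw [map_add]
    exact Int.add_ediv_of_dvd_left (h (Additive.toMul a))

theorem s29k_div_apply (n : ℕ) (c : Additive ↥(Gamma0 N) →+ ℤ)
    (h : ∀ γ : ↥(Gamma0 N), (n : ℤ) ∣ c (Additive.ofMul γ)) (γ : Additive ↥(Gamma0 N)) :
    s29k_div n c h γ = c γ / n := rfl

/-- **[K-C]** from its leaves. -/
theorem s29k_c_of (hEx : s29k_ExStatement) (hUniq : s29k_UniqStatement)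
    (hMul : s29k_MulStatement) (hTriv : s29k_TrivStatement) (hHecke : s29k_HeckeStatement)
    (hHom : s29lat_HomStatement) : s29k_CStatement := by
  intro N _ n hn ζ hζ
  have hζn : ζ ^ n = 1 := hζ.pow_eq_one
  have hex : ∀ c : ↥(parabolicHoms ℤ (Gamma0 N) ℤ),
      ∃ x, s29k_IsRoot N n (s29k_chi ζ (c : Additive ↥(Gamma0 N) →+ ℤ)) x :=
    fun c => hEx N n hn ζ hζn c c.2
  choose D hD using hex
  have hpow : ∀ (c : Additive ↥(Gamma0 N) →+ ℤ) (γ : ↥(Gamma0 N)), s29k_chi ζ c γ ^ n = 1 :=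
    fun c γ => s29k_chi_pow hζn c γ
  have hadd : ∀ c c', D (c + c') = D c + D c' := by
    intro c c'
    have h1 := hD (c + c')
    have h2 := hMul N n hn _ _ (hpow c) (hpow c') _ _ (hD c) (hD c')
    rw [← s29k_chi_add] at h2
    exact hUniq N n hn _ (hpow _) _ _ h1 h2
  have hD0' : D 0 = 0 := (AddMonoidHom.mk' D hadd).map_zero
  have hD0 : s29k_IsRoot N n 1 0 := by
    have h := hD 0
    rw [hD0'] at h
    have e : s29k_chi ζ ((0 : ↥(parabolicHoms ℤ (Gamma0 N) ℤ)) : Additive ↥(Gamma0 N) →+ ℤ) = 1 :=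
      s29k_chi_zero ζ
    rw [e] at h
    exact h
  refine ⟨AddMonoidHom.mk' D hadd, hD, ?_, ?_, ?_⟩
  · intro c
    have h1 : n • D c = D (n • c) := (map_nsmul (AddMonoidHom.mk' D hadd) n c).symm
    have h2 := hD (n • c)
    have e : s29k_chi ζ ((n • c : ↥(parabolicHoms ℤ (Gamma0 N) ℤ)) : Additive ↥(Gamma0 N) →+ ℤ)
        = 1 := s29k_chi_nsmul hζn _
    rw [e] at h2
    show n • D c = 0
    rw [h1]
    exact hUniq N n hn 1 (fun γ => by rw [MonoidHom.one_apply, one_pow]) _ _ h2 hD0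
  · intro c hc
    have h1 := hD c
    rw [show D c = 0 from hc] at h1
    have h2 := hTriv N n hn _ (hpow _) h1
    rw [s29k_chi_eq_one_iff hζ] at h2
    have hn0 : (n : ℤ) ≠ 0 := by exact_mod_cast hn.ne'
    refine ⟨⟨s29k_div n c h2, ?_⟩, ?_⟩
    · intro γ hγ
      rw [s29k_div_apply, c.2 γ hγ, Int.zero_ediv]
    · apply Subtype.ext
      ext γ
      show (c : Additive ↥(Gamma0 N) →+ ℤ) γ = n • (s29k_div n c h2 γ)
      rw [s29k_div_apply, nsmul_eq_mul]
      exact (Int.mul_ediv_cancel' (h2 (Additive.toMul γ))).symm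
  · intro ℓ _ hℓN hℓn c
    have h1 := hD (s29lat_T N ℓ hℓN c)
    have hχ : ∀ γ : ↥(Gamma0 N),
        s29k_chi ζ ((s29lat_T N ℓ hℓN c : ↥(parabolicHoms ℤ (Gamma0 N) ℤ)) :
          Additive ↥(Gamma0 N) →+ ℤ) γ =
        ∏ x : OnePoint (ZMod ℓ),
          s29k_chi ζ (c : Additive ↥(Gamma0 N) →+ ℤ) (s29lat_gam N ℓ hℓN γ x) := by
      intro γ
      rw [s29k_chi_apply, s29k_T_apply hHom, s29lat_heckeFun, s29k_zpow_sum]
      rfl
    have h2 := hHecke N n hn ℓ hℓN hℓn (s29k_chi ζ c) _ (hpow _) (s29k_chi_isPar ζ c.2) hχ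
      (D c) (hD c)
    exact hUniq N n hn _ (hpow _) _ _ h1 h2

end Main

end Fermat.Agent.S29

end
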