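/-
S29, package [KUM] (sub-architect: helper26).  Prefix `s29k_`.

  `s29k_ex_of : s29k_DivStatement → s29k_ExStatement`          ([K-EX] from [K-DIV])

The character `ζ^c` of a parabolic homomorphism `c` has a root class: `f = E_{ζ^c}`, `g = E_1`
(helper15's twisted Eisenstein series of weight `4`, `s29e_root_data`), `y = series (f^n) /
series (g^n) ∈ F_ℂ` (helper4's `s29kan_ratio`), `D = (1/n) div y` ([K-DIV] and the principal
divisors of `F_ℂ`, helper12's `s29bc_princ`).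

Also: the dictionary between the vocabulary of `KumDefs.lean` and of `EisCor.lean`
(`s29k_IsForm = s29e_IsTw`, `s29k_chi = s29e_chi`), and the construction of a root class from
root data (`s29k_isRoot_of_div`).
-/
import Mathlib
import Fermat.Agent.S29.KumDefs
import Fermat.Agent.S29.KumC
import Fermat.Agent.S29.EisCor
import Fermat.Agent.S29.Kan
import Fermat.Agent.S29.DescBcInst

set_option autoImplicit false
set_option linter.style.haveILetI false
set_option linter.unusedVariables false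

noncomputable section

namespace Fermat.Agent.S29

open UpperHalfPlane CongruenceSubgroup ModularCurve ModularCurve.Period AlgebraicCurve
open ModularForm ModularFormClass
open scoped MatrixGroups ModularForm Manifold
open Fermat.Agent.S22 (IsMF G0 IsNice)

/-! ### Dictionary -/

theorem s29k_isForm_iff_isTw {N : ℕ} {k : ℤ} {χ : ↥(Gamma0 N) →* ℂˣ} {f : ℍ → ℂ} :
    s29k_IsForm N k χ f ↔ s29e_IsTw N k χ f := Iff.rfl

theorem s29k_chi_eq (N : ℕ) (ζ : ℂˣ) (c : Additive ↥(Gamma0 N) →+ ℤ) :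
    s29k_chi ζ c = s29e_chi ζ c := by
  ext γ
  rfl

/-- A form of trivial character is a modular form. -/
theorem s29k_IsForm.isMF {N : ℕ} [NeZero N] {k : ℤ} {f : ℍ → ℂ}
    (hf : s29k_IsForm N k 1 f) : IsMF (G0 N) k f :=
  s29e_IsTw.isMF hf (fun _ => rfl)

theorem s29k_isForm_of_isMF {N : ℕ} [NeZero N] {k : ℤ} {f : ℍ → ℂ}
    (hf : IsMF (G0 N) k f) : s29k_IsForm N k 1 f :=
  s29e_isTw_of_isMF hf

/-- The `n`-th power of a form whose character is killed by `n` is a modular form. -/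
theorem s29k_IsForm.isMF_pow {N : ℕ} [NeZero N] {k : ℤ} {χ : ↥(Gamma0 N) →* ℂˣ} {f : ℍ → ℂ}
    (hf : s29k_IsForm N k χ f) (n : ℕ) (hχ : ∀ γ, χ γ ^ n = 1) :
    IsMF (G0 N) (n * k) (f ^ n) :=
  s29e_IsTw.isMF_pow hf n hχ

theorem s29k_exists_ne_zero {f : ℍ → ℂ} (hf : f ≠ 0) : ∃ z, f z ≠ 0 := by
  by_contra h
  exact hf (funext fun z => by_contra fun hz => h ⟨z, hz⟩)

theorem s29k_pow_ne_zero {f : ℍ → ℂ} (hf : f ≠ 0) (n : ℕ) : f ^ n ≠ 0 := by
  obtain ⟨z, hz⟩ := s29k_exists_ne_zero hf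
  intro h
  have := congrFun h z
  rw [Pi.pow_apply, Pi.zero_apply] at this
  exact pow_ne_zero n hz this

/-! ### Root classes from root data -/

/-- The `q`-series of the `n`-th power of a non-zero form whose character is killed by `n` is
non-zero. -/
theorem s29k_ser_pow_ne_zero {N : ℕ} [NeZero N] {k : ℤ} {χ : ↥(Gamma0 N) →* ℂˣ} {f : ℍ → ℂ}
    (hf : s29k_IsForm N k χ f) (hf0 : f ≠ 0) (n : ℕ) (hχ : ∀ γ, χ γ ^ n = 1) :
    s29k_ser (f ^ n) ≠ 0 :=
  s29kan_series_ne_zero (hf.isMF_pow n hχ).isNice_G0 (s29k_pow_ne_zero hf0 n)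

/-- The ratio `series (f^n) / series (g^n)` lies in `F_ℂ`. -/
theorem s29k_ratio_mem {N : ℕ} [NeZero N] {k : ℕ} {χ : ↥(Gamma0 N) →* ℂˣ} {f g : ℍ → ℂ}
    (hf : s29k_IsForm N k χ f) (hg : s29k_IsForm N k 1 g) (n : ℕ) (hχ : ∀ γ, χ γ ^ n = 1) :
    s29k_ser (f ^ n) / s29k_ser (g ^ n) ∈ laurentBaseChange ℂ (modularFunctionFieldFull N) := by
  have h1 : IsMF (G0 N) ((n * k : ℕ) : ℤ) (f ^ n) :=
    (hf.isMF_pow n hχ).cast (by push_cast; ring)
  have h2 : IsMF (G0 N) ((n * k : ℕ) : ℤ) (g ^ n) :=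
    (hg.isMF_pow n (fun γ => by rw [MonoidHom.one_apply, one_pow])).cast (by push_cast; ring)
  exact s29kan_ratio N (n * k) (f ^ n) (g ^ n) h1 h2

/-- **A root class from root data**: if the orders of `y = series (f^n) / series (g^n)` are all
divisible by `n`, the class of `(1/n) div y` is a root class of `χ`. -/
theorem s29k_isRoot_of_div {N : ℕ} [NeZero N] {n : ℕ} (hn : 0 < n) {k : ℕ}
    {χ : ↥(Gamma0 N) →* ℂˣ} (hχ : ∀ γ, χ γ ^ n = 1) {f g : ℍ → ℂ}
    (hf : s29k_IsForm N k χ f) (hg : s29k_IsForm N k 1 g) (hf0 : f ≠ 0) (hg0 : g ≠ 0)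
    (hdiv : ∀ y : ↥(laurentBaseChange ℂ (modularFunctionFieldFull N)),
      (y : LaurentSeries ℂ) = s29k_ser (f ^ n) / s29k_ser (g ^ n) →
      ∀ P : Place ℂ ↥(laurentBaseChange ℂ (modularFunctionFieldFull N)), (n : ℤ) ∣ P.ord y) :
    ∃ x, s29k_IsRoot N n χ x := by
  set y : ↥(laurentBaseChange ℂ (modularFunctionFieldFull N)) :=
    ⟨s29k_ser (f ^ n) / s29k_ser (g ^ n), s29k_ratio_mem hf hg n hχ⟩ with hy
  have hy0 : y ≠ 0 := by
    intro h
    have h1 : (y : LaurentSeries ℂ) = 0 := by rw [h]; rfl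
    have h2 : s29k_ser (f ^ n) / s29k_ser (g ^ n) = 0 := h1
    rcases div_eq_zero_iff.mp h2 with h3 | h3
    · exact s29k_ser_pow_ne_zero hf hf0 n hχ h3
    · exact s29k_ser_pow_ne_zero hg hg0 n (fun γ => by rw [MonoidHom.one_apply, one_pow]) h3
  haveI : HasPrincipalDivisors ℂ ↥(laurentBaseChange ℂ (modularFunctionFieldFull N)) :=
    s29bc_princ ℂ N
  obtain ⟨E, hE, hEdeg⟩ := HasPrincipalDivisors.exists_divisor (K := ℂ) y hy0
  have hdvd : ∀ P, (n : ℤ) ∣ E P := fun P => by rw [hE P]; exact hdiv y rfl P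
  have hn0 : (n : ℤ) ≠ 0 := by exact_mod_cast hn.ne'
  set D : Divisor ℂ ↥(laurentBaseChange ℂ (modularFunctionFieldFull N)) :=
    E.mapRange (fun m => m / (n : ℤ)) (Int.zero_ediv _) with hD
  have hDE : (n : ℤ) • D = E := by
    ext P
    rw [Finsupp.smul_apply, hD, Finsupp.mapRange_apply, smul_eq_mul]
    exact Int.mul_ediv_cancel' (hdvd P)
  have hDdeg : D ∈ Divisor.degZero (K := ℂ)
      (F := ↥(laurentBaseChange ℂ (modularFunctionFieldFull N))) := by
    rw [Divisor.mem_degZero]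
    have h1 : (n : ℤ) • Divisor.degree D = 0 := by
      rw [← map_zsmul, hDE, hEdeg]
    rcases smul_eq_zero.mp h1 with h2 | h2
    · exact absurd h2 hn0
    · exact h2
  refine ⟨Pic0.mk ⟨D, hDdeg⟩, k, f, g, hf, hg, hf0, hg0, ⟨D, hDdeg⟩, y, rfl, rfl, fun P => ?_⟩
  show (n : ℤ) * D P = P.ord y
  rw [← hE P, ← hDE, Finsupp.smul_apply, smul_eq_mul]

/-! ### [K-EX] -/

/-- **[K-EX]** from **[K-DIV]**. -/
theorem s29k_ex_of (hDiv : s29k_DivStatement) : s29k_ExStatement := by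
  intro N _ n hn ζ hζ c hc
  obtain ⟨k, f, g, hf0, hg0, hf1, -, hf2, hg, hf3, -⟩ := s29e_root_data N hn.ne' hζ hc
  have hχ : ∀ γ : ↥(Gamma0 N), s29k_chi ζ c γ ^ n = 1 := fun γ => s29k_chi_pow hζ c γ
  have hf : s29k_IsForm N k (s29k_chi ζ c) f := ⟨hf1, hf2, hf3⟩
  have hg' : s29k_IsForm N k 1 g := s29k_isForm_of_isMF hg
  exact s29k_isRoot_of_div hn hχ hf hg' hf0 hg0
    (hDiv N n hn _ hχ (s29k_chi_isPar ζ hc) k f g hf hg' hf0 hg0)

end Fermat.Agent.S29

end
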