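/-
S29, package [KUM] (sub-architect: helper26).  Prefix `s29k_`.

  `s29k_main_of : s29k_CStatement → s29k_BCStatement → s29k_Statement`

The Kummer map over `Q̄` from the Kummer map over `ℂ` and the base change map
`bc : J₀(N)(Q̄) → Pic⁰(F_ℂ)` (injective, onto the `n`-torsion, Hecke equivariant): `D c` is the
unique class with `bc (D c) = D_ℂ c`.
-/
import Mathlib
import Fermat.Agent.S29.KumDefs

set_option autoImplicit false
set_option linter.style.haveILetI false
set_option linter.unusedVariables false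

noncomputable section

namespace Fermat.Agent.S29

open UpperHalfPlane CongruenceSubgroup ModularCurve ModularCurve.Period AlgebraicCurve

/-- A primitive `n`-th root of unity in `ℂˣ`. -/
theorem s29k_exists_primitiveRoot (n : ℕ) (hn : 0 < n) : ∃ ζ : ℂˣ, IsPrimitiveRoot ζ n := by
  have h := Complex.isPrimitiveRoot_exp n hn.ne'
  have hu : IsUnit (Complex.exp (2 * Real.pi * Complex.I / n)) := h.isUnit hn.ne'
  obtain ⟨u, hu'⟩ := hu
  refine ⟨u, ?_⟩
  rw [← IsPrimitiveRoot.coe_units_iff, hu']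
  exact h

/-- **[KUM]** from **[K-C]** and **[K-BC]**. -/
theorem s29k_main_of (hC : s29k_CStatement) (hBC : s29k_BCStatement) : s29k_Statement := by
  intro N _ n hn
  obtain ⟨ζ, hζ⟩ := s29k_exists_primitiveRoot n hn
  obtain ⟨DC, -, hDC_tors, hDC_ker, hDC_hecke⟩ := hC N n hn ζ hζ
  obtain ⟨bc, hinj, hsurj, hbc_hecke⟩ := hBC N n hn
  have hex : ∀ c, ∃ y, bc y = DC c := fun c => hsurj (DC c) (hDC_tors c)
  choose D hD using hex
  have hadd : ∀ c c', D (c + c') = D c + D c' := by
    intro c c'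
    apply hinj
    rw [map_add, hD, hD, hD, map_add]
  refine ⟨AddMonoidHom.mk' D hadd, ?_, ?_, ?_⟩
  · intro c
    apply hinj
    rw [map_nsmul, map_zero]
    show n • bc (D c) = 0
    rw [hD]
    exact hDC_tors c
  · intro c hc
    apply hDC_ker
    have : D c = 0 := hc
    rw [← hD, this, map_zero]
  · intro ℓ _ hℓN hℓn c
    apply hinj
    show bc (D (s29lat_T N ℓ hℓN c)) = bc (heckeOperatorBar N ⟨ℓ, Fact.out⟩ (D c))
    rw [hD, hbc_hecke ℓ hℓN hℓn, hD]
    exact hDC_hecke ℓ hℓN hℓn c

end Fermat.Agent.S29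

end
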