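/-
S29, (K4) [KUM], leaf (K-TRIV), part C (owner: helper29).  Prefix `s29kt_`.

**A function without zeros and poles is constant** (function fields in one variable over an
algebraically closed field of characteristic `0`, in the vocabulary of the Prelude's `Place`):
if `F/K` has a coordinate and `ord_v y = 0` for all places `v`, then `y ∈ K`.
Pure algebra on top of the generic function-field package of S24 (exchange lemma + the
fundamental identity `∑_{v ∣ y} ord_v y = [F : K(y)]`).
-/
import Mathlib
import Fermat.Agent.S24.FFIdentity
import Fermat.Agent.S24.CoordDiv

set_option autoImplicit false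

noncomputable section

namespace Fermat.Agent.S29

open Fermat.Agent.S24 AlgebraicCurve IntermediateField

/-- A function all of whose orders vanish is a constant. -/
theorem s29kt_const {K F : Type} [Field K] [Field F] [Algebra K F] [IsAlgClosed K] [CharZero K]
    {u : F} (hu : IsCoordinate K u) {y : F} (hy : ∀ v : Place K F, v.ord y = 0) :
    ∃ c : K, algebraMap K F c = y := by
  classical
  by_cases halg : IsAlgebraic K y
  · exact coord_exists_const_of_isAlgebraic halg
  exfalso
  have hcy : IsCoordinate K y := coord_isCoordinate_of_transcendental hu halg
  obtain ⟨hfin, hsum⟩ := ff_fundamentalIdentity K F y hcy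
  have h0 : ∑ v ∈ hfin.toFinset, v.ord y = 0 :=
    Finset.sum_eq_zero fun v _ => hy v
  rw [h0] at hsum
  haveI := hcy.finite
  have hpos : 0 < Module.finrank K⟮y⟯ F := Module.finrank_pos
  have : (Module.finrank K⟮y⟯ F : ℤ) = 0 := hsum.symm
  omega

end Fermat.Agent.S29

end
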