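/-
S29, (K4) [KUM], leaf (K-TRIV), part A (owner: helper29).  Prefix `s29kt_`.

**Analytic realisation of the function field `F_ℂ`.**  Every element `u` of
`F_ℂ = laurentBaseChange ℂ (modularFunctionFieldFull N) ⊆ ℂ((q))` is a quotient `sa / sb` of the
Laurent expansions at `i∞` of two modular functions `a`, `b` of level `Γ₀(N)` (holomorphic on
`ℍ`, `Γ₀(N)`-invariant, all translates of moderate growth), `sb ≠ 0`.

* `s29kt_Real N u`     : the predicate;
* `s29kt_realField N`  : the subfield of `ℂ((q))` of all realised series;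
* `s29kt_real_of_mem`  : every `u ∈ F_ℂ` is realised.
-/
import Mathlib
import Fermat.Agent.S29.Kan

set_option autoImplicit false
set_option linter.style.haveILetI false

noncomputable section

namespace Fermat.Agent.S29

open UpperHalfPlane ModularFormClass CongruenceSubgroup Matrix.SpecialLinearGroup Function
open ModularForm Filter Asymptotics
open scoped MatrixGroups ModularForm Manifold Real Topology Polynomial

open Fermat.Agent.S20 Fermat.Agent.S22 Fermat.Agent.S24 Fermat.Agent.S28 ModularCurve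

/-- `u ∈ ℂ((q))` is the quotient of the Laurent expansions of two modular functions of level
`Γ₀(N)`. -/
def s29kt_Real (N : ℕ) (u : LaurentSeries ℂ) : Prop :=
  ∃ (a b : ℍ → ℂ) (sa sb : LaurentSeries ℂ), anB_IsModFun N a ∧ anB_IsModFun N b ∧
    anA_HasLaurent sa a ∧ anA_HasLaurent sb b ∧ sb ≠ 0 ∧ u * sb = sa

variable {N : ℕ}

theorem s29kt_real_of_hasLaurent {s : LaurentSeries ℂ} {f : ℍ → ℂ} (hf : anB_IsModFun N f)
    (hs : anA_HasLaurent s f) : s29kt_Real N s :=
  ⟨f, 1, s, 1, hf, anB_IsModFun.one, hs, anA_HasLaurent.one, one_ne_zero, mul_one s⟩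

theorem s29kt_real_C (c : ℂ) : s29kt_Real N (HahnSeries.C c) :=
  s29kt_real_of_hasLaurent (anB_IsModFun.const c) (anA_HasLaurent.const c)

theorem s29kt_real_zero : s29kt_Real N 0 :=
  s29kt_real_of_hasLaurent anB_IsModFun.zero anA_HasLaurent.zero

theorem s29kt_real_one : s29kt_Real N 1 :=
  s29kt_real_of_hasLaurent anB_IsModFun.one anA_HasLaurent.one

theorem s29kt_real_add {u v : LaurentSeries ℂ} (hu : s29kt_Real N u) (hv : s29kt_Real N v) :
    s29kt_Real N (u + v) := by
  obtain ⟨a, b, sa, sb, ha, hb, hsa, hsb, hb0, hab⟩ := hu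
  obtain ⟨a', b', sa', sb', ha', hb', hsa', hsb', hb0', hab'⟩ := hv
  refine ⟨a * b' + a' * b, b * b', sa * sb' + sa' * sb, sb * sb', (ha.mul hb').add (ha'.mul hb),
    hb.mul hb', (hsa.mul hsb').add (hsa'.mul hsb), hsb.mul hsb', mul_ne_zero hb0 hb0', ?_⟩
  rw [← hab, ← hab']
  ring

theorem s29kt_real_mul {u v : LaurentSeries ℂ} (hu : s29kt_Real N u) (hv : s29kt_Real N v) :
    s29kt_Real N (u * v) := by
  obtain ⟨a, b, sa, sb, ha, hb, hsa, hsb, hb0, hab⟩ := hu
  obtain ⟨a', b', sa', sb', ha', hb', hsa', hsb', hb0', hab'⟩ := hv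
  refine ⟨a * a', b * b', sa * sa', sb * sb', ha.mul ha', hb.mul hb', hsa.mul hsa',
    hsb.mul hsb', mul_ne_zero hb0 hb0', ?_⟩
  rw [← hab, ← hab']
  ring

theorem s29kt_real_neg {u : LaurentSeries ℂ} (hu : s29kt_Real N u) : s29kt_Real N (-u) := by
  obtain ⟨a, b, sa, sb, ha, hb, hsa, hsb, hb0, hab⟩ := hu
  refine ⟨-a, b, -sa, sb, ha.neg, hb, hsa.neg, hsb, hb0, ?_⟩
  rw [← hab]
  ring

theorem s29kt_real_inv {u : LaurentSeries ℂ} (hu : s29kt_Real N u) : s29kt_Real N u⁻¹ := by
  by_cases hu0 : u = 0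
  · rw [hu0, inv_zero]
    exact s29kt_real_zero
  obtain ⟨a, b, sa, sb, ha, hb, hsa, hsb, hb0, hab⟩ := hu
  have ha0 : sa ≠ 0 := by
    rw [← hab]
    exact mul_ne_zero hu0 hb0
  refine ⟨b, a, sb, sa, hb, ha, hsb, hsa, ha0, ?_⟩
  rw [← hab]
  field_simp

/-- The subfield of `ℂ((q))` of all realised series. -/
def s29kt_realField (N : ℕ) : Subfield (LaurentSeries ℂ) where
  carrier := {u | s29kt_Real N u}
  mul_mem' hu hv := s29kt_real_mul hu hv
  one_mem' := s29kt_real_one
  add_mem' hu hv := s29kt_real_add hu hv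
  zero_mem' := s29kt_real_zero
  neg_mem' hu := s29kt_real_neg hu
  inv_mem' _ hu := s29kt_real_inv hu

theorem s29kt_mem_realField {u : LaurentSeries ℂ} :
    u ∈ s29kt_realField N ↔ s29kt_Real N u := Iff.rfl

theorem s29kt_algebraMap_eq_C (c : ℂ) :
    algebraMap ℂ (LaurentSeries ℂ) c = HahnSeries.C c := by
  rw [algebraMap_laurentSeries_eq_single]
  rfl

theorem s29kt_coeffEmb_algebraMap (r : ℚ) :
    coeffEmb ℂ (algebraMap ℚ (LaurentSeries ℚ) r) = HahnSeries.C ((r : ℂ)) := by
  rw [algebraMap_laurentSeries_eq_single, coeffEmb, coeffMap_single]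
  simp
  rfl

/-- The generators `j(q^d)`, `d ∣ N`, are realised. -/
theorem s29kt_real_jd [NeZero N] {d : ℕ} [NeZero d] (hd : d ∣ N) :
    s29kt_Real N (coeffEmb ℂ (ModularCurve.qExpand ℚ d jq)) := by
  rw [umem_coeffEmb_jqd]
  exact s29kt_real_of_hasLaurent (anB_isModFun_jd hd) (umem_hasLaurent_jd d)

/-- The image of `ℚ(j(q^d) : d ∣ N)` is realised. -/
theorem s29kt_real_coeffEmb [NeZero N] {x : LaurentSeries ℚ}
    (hx : x ∈ modularFunctionFieldFull N) : s29kt_Real N (coeffEmb ℂ x) := by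
  have hx' : x ∈ Subfield.closure
      (Set.range (algebraMap ℚ (LaurentSeries ℚ)) ∪ divisorExpansions N) := hx
  have hle : Subfield.closure
      (Set.range (algebraMap ℚ (LaurentSeries ℚ)) ∪ divisorExpansions N) ≤
      (s29kt_realField N).comap (coeffEmb ℂ) := by
    rw [Subfield.closure_le]
    rintro y (⟨r, rfl⟩ | ⟨d, hd0, hd, rfl⟩)
    · show s29kt_Real N _
      rw [s29kt_coeffEmb_algebraMap]
      exact s29kt_real_C _
    · haveI := hd0
      exact s29kt_real_jd hd
  exact hle hx'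

/-- **Analytic realisation.** Every element of `F_ℂ` is the quotient of the Laurent expansions
of two modular functions of level `Γ₀(N)`. -/
theorem s29kt_real_of_mem [NeZero N] {u : LaurentSeries ℂ}
    (hu : u ∈ laurentBaseChange ℂ (modularFunctionFieldFull N)) : s29kt_Real N u := by
  rw [mem_laurentBaseChange_iff] at hu
  have hle : Subfield.closure (Set.range (algebraMap ℂ (LaurentSeries ℂ)) ∪
      (⇑(coeffEmb ℂ) '' ((modularFunctionFieldFull N : IntermediateField ℚ (LaurentSeries ℚ)) :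
        Set (LaurentSeries ℚ)))) ≤ s29kt_realField N := by
    rw [Subfield.closure_le]
    rintro y (⟨c, rfl⟩ | ⟨x, hx, rfl⟩)
    · show s29kt_Real N _
      rw [s29kt_algebraMap_eq_C]
      exact s29kt_real_C c
    · exact s29kt_real_coeffEmb hx
  exact hle hu

end Fermat.Agent.S29

end
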