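/-
S29, (K4) [KUM], leaf (K-TRIV), part B (owner: helper29).  Prefix `s29kt_`.

**The analytic core of the injectivity of the Kummer map.**  Let `f` be holomorphic on `ℍ` with
`f ∣[k] γ = χ(γ) f` for `γ ∈ Γ₀(N)`, `g` a modular form of weight `k` on `Γ₀(N)`, `f, g ≠ 0`,
`f ^ p` with a `q`-expansion.  If `qexp(f^p) / qexp(g^p) = c · u ^ p` with `c ∈ ℂˣ` and
`u ∈ F_ℂ`, then `χ = 1`.

* `s29kt_mul_eq_zero`  : the holomorphic functions on `ℍ` form a domain;
* `s29kt_pow_eq_pow`   : `F ^ p = G ^ p` ⟹ `F = ζ G` for ONE `p`-th root of unity `ζ`;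
* `s29kt_core`         : the statement above.
-/
import Mathlib
import Fermat.Agent.S29.KumTrivReal

set_option autoImplicit false
set_option linter.style.haveILetI false

noncomputable section

namespace Fermat.Agent.S29

open UpperHalfPlane ModularFormClass CongruenceSubgroup Matrix.SpecialLinearGroup Function
open ModularForm Filter Asymptotics
open scoped MatrixGroups ModularForm Manifold Real Topology Polynomial

open Fermat.Agent.S20 Fermat.Agent.S22 Fermat.Agent.S24 Fermat.Agent.S28 ModularCurve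

/-! ### Holomorphic functions on `ℍ` form a domain -/

theorem s29kt_mul_eq_zero {F G : ℍ → ℂ} (hF : MDiff F) (hG : MDiff G)
    (h : ∀ z, F z * G z = 0) : F = 0 ∨ G = 0 := by
  have hU : IsOpen {z : ℂ | 0 < z.im} := UpperHalfPlane.isOpen_upperHalfPlaneSet
  have hpc : IsPreconnected {z : ℂ | 0 < z.im} := (convex_halfSpace_im_gt 0).isPreconnected
  have hF' : AnalyticOnNhd ℂ (F ∘ ofComplex) {z : ℂ | 0 < z.im} :=
    (UpperHalfPlane.mdifferentiable_iff.mp hF).analyticOnNhd hU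
  have hG' : AnalyticOnNhd ℂ (G ∘ ofComplex) {z : ℂ | 0 < z.im} :=
    (UpperHalfPlane.mdifferentiable_iff.mp hG).analyticOnNhd hU
  have key := AnalyticOnNhd.eq_zero_or_eq_zero_of_mul_eq_zero hF' hG'
    (fun z _ => h (ofComplex z)) hpc
  rcases key with h1 | h1
  · left
    funext z
    have := h1 (z : ℂ) z.im_pos
    simpa [UpperHalfPlane.ofComplex_apply] using this
  · right
    funext z
    have := h1 (z : ℂ) z.im_pos
    simpa [UpperHalfPlane.ofComplex_apply] using this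

theorem s29kt_prod_eq_zero {ι : Type} (s : Finset ι) (Φ : ι → ℍ → ℂ)
    (hΦ : ∀ i ∈ s, MDiff (Φ i)) (h : ∀ z, ∏ i ∈ s, Φ i z = 0) : ∃ i ∈ s, Φ i = 0 := by
  classical
  induction s using Finset.induction_on with
  | empty =>
    exfalso
    have := h UpperHalfPlane.I
    simp at this
  | insert a s ha ih =>
    have hprod : MDiff (fun z => ∏ i ∈ s, Φ i z) := by
      have : (fun z => ∏ i ∈ s, Φ i z) = ∏ i ∈ s, Φ i := by
        funext z
        rw [Finset.prod_apply]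
      rw [this]
      exact MDifferentiable.prod (f := Φ) (t := s)
        (fun i hi => hΦ i (Finset.mem_insert_of_mem hi))
    have h' : ∀ z, Φ a z * (fun z => ∏ i ∈ s, Φ i z) z = 0 := by
      intro z
      have := h z
      rwa [Finset.prod_insert ha] at this
    rcases s29kt_mul_eq_zero (hΦ a (Finset.mem_insert_self _ _)) hprod h' with h1 | h1
    · exact ⟨a, Finset.mem_insert_self _ _, h1⟩
    · obtain ⟨i, hi, hi0⟩ := ih (fun i hi => hΦ i (Finset.mem_insert_of_mem hi))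
        (fun z => congrFun h1 z)
      exact ⟨i, Finset.mem_insert_of_mem hi, hi0⟩

/-- If `F ^ p = G ^ p` for holomorphic functions on `ℍ`, then `F = ζ G` for a `p`-th root of
unity `ζ`. -/
theorem s29kt_pow_eq_pow {p : ℕ} (hp : 0 < p) {F G : ℍ → ℂ} (hF : MDiff F) (hG : MDiff G)
    (h : ∀ z, F z ^ p = G z ^ p) : ∃ ζ : ℂ, ζ ^ p = 1 ∧ ∀ z, F z = ζ * G z := by
  have hprim : IsPrimitiveRoot (Complex.exp (2 * π * Complex.I / p)) p :=
    Complex.isPrimitiveRoot_exp p hp.ne'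
  have hprod : ∀ z, ∏ ζ ∈ Polynomial.nthRootsFinset p (1 : ℂ), (F z - ζ * G z) = 0 := by
    intro z
    rw [← hprim.pow_sub_pow_eq_prod_sub_mul (F z) (G z) hp, h z, sub_self]
  obtain ⟨ζ, hζ, hζ0⟩ := s29kt_prod_eq_zero (Polynomial.nthRootsFinset p (1 : ℂ))
    (fun ζ z => F z - ζ * G z)
    (fun ζ _ => hF.sub (mdifferentiable_const.mul hG)) hprod
  refine ⟨ζ, ((Polynomial.mem_nthRootsFinset hp (1 : ℂ)).mp hζ), fun z => ?_⟩
  have := congrFun hζ0 z
  simp only [Pi.zero_apply] at this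
  exact sub_eq_zero.mp this

/-! ### The core -/

/-- A non-zero nice function has a non-zero `q`-expansion; powers. -/
theorem s29kt_pow_ne_zero {f : ℍ → ℂ} (hf0 : f ≠ 0) (p : ℕ) : f ^ p ≠ 0 := by
  intro h
  obtain ⟨z, hz⟩ := Function.ne_iff.mp hf0
  have := congrFun h z
  simp only [Pi.pow_apply, Pi.zero_apply] at this
  exact pow_ne_zero p hz this

/-- **(K-TRIV), analytic core.** -/
theorem s29kt_core (N : ℕ) [NeZero N] (p : ℕ) (hp : 0 < p) (k : ℤ)
    (χ : ↥(Gamma0 N) →* ℂˣ) (f g : ℍ → ℂ) (hf0 : f ≠ 0) (hg0 : g ≠ 0) (hf : MDiff f)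
    (hχ : ∀ γ : ↥(Gamma0 N), f ∣[k] (γ : SL(2, ℤ)) = ((χ γ : ℂˣ) : ℂ) • f)
    (hg : IsNice g) (hgγ : ∀ γ : ↥(Gamma0 N), g ∣[k] (γ : SL(2, ℤ)) = g)
    (hfp : IsNice (f ^ p)) (c : ℂ) (u : LaurentSeries ℂ)
    (hu : u ∈ laurentBaseChange ℂ (modularFunctionFieldFull N))
    (hy : HahnSeries.ofPowerSeries ℤ ℂ (qExpansion 1 (f ^ p)) /
        HahnSeries.ofPowerSeries ℤ ℂ (qExpansion 1 (g ^ p)) = HahnSeries.C c * u ^ p) :
    χ = 1 := by
  obtain ⟨a, b, sa, sb, ha, hb, hsa, hsb, hb0, hab⟩ := s29kt_real_of_mem hu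
  set Sf := HahnSeries.ofPowerSeries ℤ ℂ (qExpansion 1 (f ^ p)) with hSf
  set Sg := HahnSeries.ofPowerSeries ℤ ℂ (qExpansion 1 (g ^ p)) with hSg
  have hgp : IsNice (g ^ p) := hg.pow p
  have hSg0 : Sg ≠ 0 := s29kan_series_ne_zero hgp (s29kt_pow_ne_zero hg0 p)
  have hLf : anA_HasLaurent Sf (f ^ p) := anA_HasLaurent.of_isNice hfp
  have hLg : anA_HasLaurent Sg (g ^ p) := anA_HasLaurent.of_isNice hgp
  -- the identity of series
  have hser : Sf * sb ^ p = HahnSeries.C c * sa ^ p * Sg := by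
    have h1 : Sf = HahnSeries.C c * u ^ p * Sg := by
      rw [← hy]
      field_simp
    rw [h1, ← hab]
    ring
  -- the identity of functions
  have hfun : f ^ p * b ^ p = (fun _ : ℍ => c) * a ^ p * g ^ p := by
    have h1 : anA_HasLaurent (Sf * sb ^ p) (f ^ p * b ^ p) := hLf.mul (umem_hasLaurent_pow hsb p)
    have h2 : anA_HasLaurent (HahnSeries.C c * sa ^ p * Sg) ((fun _ : ℍ => c) * a ^ p * g ^ p) :=
      ((anA_HasLaurent.const c).mul (umem_hasLaurent_pow hsa p)).mul hLg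
    rw [hser] at h1
    exact h1.unique_fun h2
  obtain ⟨c', hc'⟩ := IsAlgClosed.exists_pow_nat_eq c hp
  have hpw : ∀ z, (f z * b z) ^ p = (c' * (a z * g z)) ^ p := by
    intro z
    have := congrFun hfun z
    simp only [Pi.mul_apply, Pi.pow_apply] at this
    rw [mul_pow, this, mul_pow, mul_pow, hc']
    ring
  have hbm : MDiff b := hb.holo
  have ham : MDiff a := ha.holo
  obtain ⟨ζ, -, hζ⟩ := s29kt_pow_eq_pow hp (F := fun z => f z * b z)
    (G := fun z => c' * (a z * g z)) (hf.mul hbm)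
    (mdifferentiable_const.mul (ham.mul hg.holo)) hpw
  -- `f b ≢ 0`
  have hb0' : b ≠ 0 := by
    rintro rfl
    exact hb0 hsb.series_eq_zero
  obtain ⟨z₀, hz₀⟩ : ∃ z, f z * b z ≠ 0 := by
    by_contra hcon
    push Not at hcon
    rcases s29kt_mul_eq_zero hf hbm hcon with h1 | h1
    · exact hf0 h1
    · exact hb0' h1
  -- compare the transformation laws
  ext γ
  have hγ : (γ : SL(2, ℤ)) ∈ Gamma0 N := γ.2
  have e1 := congrFun (hχ γ) z₀
  have e2 := congrFun (hgγ γ) z₀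
  rw [ModularForm.SL_slash_apply] at e1 e2
  simp only [Pi.smul_apply, smul_eq_mul] at e1
  have hD : (denom (γ : SL(2, ℤ)) z₀) ^ (-k) ≠ 0 :=
    zpow_ne_zero _ (denom_ne_zero _ _)
  have e3 := hζ ((γ : SL(2, ℤ)) • z₀)
  have e4 := hζ z₀
  rw [hb.inv _ hγ, ha.inv _ hγ] at e3
  -- `f (γ z₀) = χ γ f z₀ D⁻¹`, `g (γ z₀) = g z₀ D⁻¹`
  have key : (((χ γ : ℂˣ) : ℂ) - 1) * (f z₀ * b z₀) = 0 := by
    have e5 : f ((γ : SL(2, ℤ)) • z₀) * b z₀ * (denom (γ : SL(2, ℤ)) z₀) ^ (-k) =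
        ζ * (c' * (a z₀ * g ((γ : SL(2, ℤ)) • z₀))) * (denom (γ : SL(2, ℤ)) z₀) ^ (-k) := by
      rw [e3]
    have e6 : ((χ γ : ℂˣ) : ℂ) * f z₀ * b z₀ = ζ * (c' * (a z₀ * g z₀)) := by
      rw [← e1, ← e2]
      linear_combination e5
    rw [← e4] at e6
    linear_combination e6
  rcases mul_eq_zero.mp key with h1 | h1
  · have : ((χ γ : ℂˣ) : ℂ) = 1 := sub_eq_zero.mp h1
    simpa using this
  · exact absurd h1 hz₀

end Fermat.Agent.S29

end
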