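/-
S29, (K4) [KUM], leaf (K-TRIV) (owner: helper29).  Prefix `s29kt_`.

**[K-TRIV]** `s29kt_main : s29k_TrivStatement` (VERBATIM `KumDefs.lean`): if `0` is a root class
of the character `χ` of `Γ₀(N)` then `χ = 1` - the injectivity of the Kummer map.

PROOF.  `0 = [D]`, `n D = div y`, `y = series (f^n) / series (g^n)`.  `D = div u₁` is principal,
so `y / u₁^n` has no zeros and no poles, hence is a constant `c` (`s29kt_const`; `j` is a
coordinate of `F_ℂ` by helper22's `DictC.dc_jCoordinate`).  The analytic core `s29kt_core`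
(`KumTrivCore.lean`) concludes from `series (f^n) / series (g^n) = c · u₁^n`.
-/
import Mathlib
import Fermat.Agent.S29.KumDefs
import Fermat.Agent.S29.EisCor
import Fermat.Agent.S29.KumTrivCore
import Fermat.Agent.S29.KumTrivConst
import Fermat.Agent.S29.DictC.Final

set_option autoImplicit false
set_option linter.style.haveILetI false

noncomputable section

namespace Fermat.Agent.S29

open UpperHalfPlane CongruenceSubgroup ModularCurve ModularCurve.Period AlgebraicCurve
open ModularForm ModularFormClass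
open scoped MatrixGroups ModularForm Manifold

open Fermat.Agent.S20 Fermat.Agent.S22 Fermat.Agent.S24 Fermat.Agent.S28

/-- **[K-TRIV]** from a coordinate of `F_ℂ`. -/
theorem s29kt_main_of
    (hcoord : ∀ (N : ℕ) [NeZero N],
      ∃ u : ↥(laurentBaseChange ℂ (modularFunctionFieldFull N)), IsCoordinate ℂ u) :
    s29k_TrivStatement := by
  intro N _ n hn χ hχn hroot
  obtain ⟨k, f, g, hf, hg, hf0, hg0, D, y, hx, hyser, hD⟩ := hroot
  obtain ⟨u, hu⟩ := hcoord N
  -- the two forms
  have hfT : s29e_IsTw N k χ f := hf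
  have hgT : s29e_IsTw N k 1 g := hg
  have hfp : IsMF (G0 N) (n * k) (f ^ n) := hfT.isMF_pow n hχn
  have hgM : IsMF (G0 N) k g := hgT.isMF (fun _ => rfl)
  have hgγ : ∀ γ : ↥(Gamma0 N), g ∣[(k : ℤ)] (γ : SL(2, ℤ)) = g := by
    intro γ
    have := hg.2.1 γ
    rwa [MonoidHom.one_apply, Units.val_one, one_smul] at this
  have hgN : IsNice g := hgM.isNice_G0
  have hfpN : IsNice (f ^ n) := hfp.isNice_G0
  -- `y ≠ 0`
  have hSf0 : s29k_ser (f ^ n) ≠ 0 := s29kan_series_ne_zero hfpN (s29kt_pow_ne_zero hf0 n)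
  have hSg0 : s29k_ser (g ^ n) ≠ 0 :=
    s29kan_series_ne_zero (hgN.pow n) (s29kt_pow_ne_zero hg0 n)
  have hy0 : y ≠ 0 := by
    rintro rfl
    have h0 : s29k_ser (f ^ n) / s29k_ser (g ^ n) = 0 := by
      rw [← hyser]
      rfl
    exact div_ne_zero hSf0 hSg0 h0
  -- `D` is principal
  have hDp : (D : Divisor ℂ ↥(laurentBaseChange ℂ (modularFunctionFieldFull N))) ∈
      Divisor.principal (K := ℂ) (F := ↥(laurentBaseChange ℂ (modularFunctionFieldFull N))) := by
    have h1 : (QuotientAddGroup.mk D :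
        Pic0 ℂ ↥(laurentBaseChange ℂ (modularFunctionFieldFull N))) = 0 := hx.symm
    have h2 := (QuotientAddGroup.eq_zero_iff D).mp h1
    exact AddSubgroup.mem_addSubgroupOf.mp h2
  obtain ⟨u₁, hu₁0, hu₁⟩ := hDp
  -- `y / u₁ ^ n` has no zeros and no poles
  have hord : ∀ P : Place ℂ ↥(laurentBaseChange ℂ (modularFunctionFieldFull N)),
      P.ord (y * (u₁ ^ n)⁻¹) = 0 := by
    intro P
    rw [P.ord_mul hy0 (inv_ne_zero (pow_ne_zero n hu₁0)), P.ord_inv, place_ord_pow, ← hD P,
      hu₁ P]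
    ring
  obtain ⟨c, hc⟩ := s29kt_const hu hord
  -- the identity of series
  have hyc : y = algebraMap ℂ _ c * u₁ ^ n := by
    rw [hc]
    field_simp
  have hser : s29k_ser (f ^ n) / s29k_ser (g ^ n) =
      HahnSeries.C c * (u₁ : LaurentSeries ℂ) ^ n := by
    rw [← hyser, hyc, ← s29kt_algebraMap_eq_C]
    rfl
  exact s29kt_core N n hn k χ f g hf0 hg0 hf.1 hf.2.1 hgN hgγ hfpN c
    (u₁ : LaurentSeries ℂ) u₁.2 hser

/-- **[K-TRIV]**, VERBATIM `KumDefs.lean`: if `0` is a root class of `χ` then `χ = 1`. -/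
theorem s29kt_main : s29k_TrivStatement :=
  s29kt_main_of fun N _ => ⟨DictC.jF N, DictC.dc_jCoordinate N⟩

end Fermat.Agent.S29

end
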