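/-
S29, (K4)[ROOT], leaf [ROOT-FIN] (helper23).  Prefix `s29rf_`.

ABSTRACT PART: Kummer calculus on `Pic⁰(F)[p]` in the Prelude's vocabulary, and the finiteness
criterion: if the "Kummer generators" `f` (`p ∣ ord_v f` for all places `v`) can be sorted into
finitely many classes such that two generators of the same class differ by a constant times a
`p`-th power, then `Pic⁰(F)[p]` is finite.
-/
import Mathlib
import Fermat.Prelude.Def_AlgebraicCurve_DivisorClassGroup

set_option autoImplicit false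

open AlgebraicCurve

namespace Fermat.Agent.S29

section Kummer

variable {K F : Type*} [Field K] [Field F] [Algebra K F]

/-- `f` is a Kummer generator of the class `y`: `y = [D]` with `p • D = div f`. -/
def s29rf_IsGen (p : ℕ) (f : F) (y : Pic0 K F) : Prop :=
  f ≠ 0 ∧ ∃ D : Divisor.degZero (K := K) (F := F), Pic0.mk D = y ∧
    ∀ v : Place K F, (p : ℤ) * (D : Divisor K F) v = v.ord f

theorem s29rf_isGen_ne_zero {p : ℕ} {f : F} {y : Pic0 K F} (h : s29rf_IsGen p f y) : f ≠ 0 :=
  h.1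

/-- The orders of a Kummer generator are divisible by `p`. -/
theorem s29rf_isGen_dvd {p : ℕ} {f : F} {y : Pic0 K F} (h : s29rf_IsGen p f y)
    (v : Place K F) : (p : ℤ) ∣ v.ord f := by
  obtain ⟨-, D, -, hD⟩ := h
  exact ⟨_, (hD v).symm⟩

/-- Every `p`-torsion class has a Kummer generator. -/
theorem s29rf_exists_gen (p : ℕ) (y : Pic0 K F) (hy : (p : ℤ) • y = 0) :
    ∃ f : F, s29rf_IsGen p f y := by
  obtain ⟨D, rfl⟩ := Pic0.mk_surjective y
  have h1 : Pic0.mk ((p : ℤ) • D) = 0 := hy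
  have h2 : (p : ℤ) • D ∈ (Divisor.principal (K := K) (F := F)).addSubgroupOf
      (Divisor.degZero (K := K) (F := F)) :=
    (QuotientAddGroup.eq_zero_iff _).mp h1
  rw [AddSubgroup.mem_addSubgroupOf] at h2
  obtain ⟨f, hf, hfD⟩ := h2
  refine ⟨f, hf, D, rfl, fun v => ?_⟩
  rw [← hfD v]
  simp
  
/-- Quotients of Kummer generators generate the difference. -/
theorem s29rf_isGen_div {p : ℕ} {f f' : F} {y y' : Pic0 K F} (h : s29rf_IsGen p f y)
    (h' : s29rf_IsGen p f' y') : s29rf_IsGen p (f / f') (y - y') := by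
  obtain ⟨hf, D, rfl, hD⟩ := h
  obtain ⟨hf', D', rfl, hD'⟩ := h'
  refine ⟨div_ne_zero hf hf', D - D', rfl, fun v => ?_⟩
  rw [div_eq_mul_inv, v.ord_mul hf (inv_ne_zero hf'), v.ord_inv, ← hD v, ← hD' v]
  simp only [AddSubgroup.coe_sub, Finsupp.coe_sub, Pi.sub_apply]
  ring

/-- The order of a non-zero constant vanishes. -/
theorem s29rf_ord_const (v : Place K F) (c : K) (hc : c ≠ 0) :
    v.ord (algebraMap K F c) = 0 := by
  have h1 : algebraMap K F c ∈ v.toValuationSubring := v.algebraMap_mem' c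
  have h2 : algebraMap K F c⁻¹ ∈ v.toValuationSubring := v.algebraMap_mem' c⁻¹
  let u : v.toValuationSubringˣ :=
    ⟨⟨_, h1⟩, ⟨_, h2⟩, by
      apply Subtype.ext
      show algebraMap K F c * algebraMap K F c⁻¹ = 1
      rw [← map_mul, mul_inv_cancel₀ hc, map_one], by
      apply Subtype.ext
      show algebraMap K F c⁻¹ * algebraMap K F c = 1
      rw [← map_mul, inv_mul_cancel₀ hc, map_one]⟩
  exact v.ord_coe_unit u

/-- A class generated by a constant times a `p`-th power is trivial. -/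
theorem s29rf_eq_zero_of_pow {p : ℕ} (hp : 0 < p) {f : F} {y : Pic0 K F}
    (h : s29rf_IsGen p f y) (u : F) (c : K) (hc : c ≠ 0)
    (hfu : f = algebraMap K F c * u ^ p) : y = 0 := by
  obtain ⟨hf, D, rfl, hD⟩ := h
  have hu : u ≠ 0 := by
    rintro rfl
    rw [zero_pow hp.ne', mul_zero] at hfu
    exact hf hfu
  have hc' : algebraMap K F c ≠ 0 := by
    rwa [Ne, map_eq_zero]
  have hp' : (p : ℤ) ≠ 0 := by exact_mod_cast hp.ne'
  have key : ∀ v : Place K F, (D : Divisor K F) v = v.ord u := by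
    intro v
    have h1 := hD v
    rw [hfu, v.ord_mul hc' (pow_ne_zero _ hu), s29rf_ord_const v c hc, zero_add,
      ← zpow_natCast, v.ord_zpow] at h1
    exact mul_left_cancel₀ hp' h1
  refine (QuotientAddGroup.eq_zero_iff _).mpr ?_
  rw [AddSubgroup.mem_addSubgroupOf]
  exact ⟨u, hu, key⟩

end Kummer

section Finiteness

variable (K F : Type*) [Field K] [Field F] [Algebra K F]

/-- **[ROOT-FIN], abstract form.**  If the elements `f ≠ 0` of `F` all of whose orders are
divisible by `p` can be sorted (by a relation `R f x`, `x` in a finite type `X`) such that two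
elements of the same sort differ by a constant times a `p`-th power, then `Pic⁰(F)[p]` is
finite. -/
theorem s29rf_finite_of_sort (p : ℕ) (hp : 0 < p) {X : Type*} [Finite X] (R : F → X → Prop)
    (hex : ∀ f : F, f ≠ 0 → (∀ v : Place K F, (p : ℤ) ∣ v.ord f) → ∃ x, R f x)
    (hinj : ∀ (f f' : F) (x : X), f ≠ 0 → f' ≠ 0 →
      (∀ v : Place K F, (p : ℤ) ∣ v.ord f) → (∀ v : Place K F, (p : ℤ) ∣ v.ord f') →
      R f x → R f' x → ∃ (u : F) (c : K), c ≠ 0 ∧ f = algebraMap K F c * u ^ p * f') :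
    {y : Pic0 K F | (p : ℤ) • y = 0}.Finite := by
  classical
  have hgen : ∀ y : {y : Pic0 K F | (p : ℤ) • y = 0}, ∃ f : F, s29rf_IsGen p f y.1 :=
    fun y => s29rf_exists_gen p y.1 y.2
  choose g hg using hgen
  have hx : ∀ y : {y : Pic0 K F | (p : ℤ) • y = 0}, ∃ x, R (g y) x :=
    fun y => hex (g y) (hg y).1 (s29rf_isGen_dvd (hg y))
  choose ψ hψ using hx
  have hinjψ : Function.Injective ψ := by
    intro y y' hyy
    obtain ⟨u, c, hc, hu⟩ := hinj (g y) (g y') (ψ y) (hg y).1 (hg y').1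
      (s29rf_isGen_dvd (hg y)) (s29rf_isGen_dvd (hg y')) (hψ y) (hyy ▸ hψ y')
    have h1 := s29rf_isGen_div (hg y) (hg y')
    have h2 : g y / g y' = algebraMap K F c * u ^ p := by
      rw [hu, mul_div_assoc, div_self (hg y').1, mul_one]
    have h3 := s29rf_eq_zero_of_pow hp h1 u c hc h2
    exact Subtype.ext (sub_eq_zero.mp h3)
  exact Set.finite_coe_iff.mp (Finite.of_injective ψ hinjψ)

end Finiteness

end Fermat.Agent.S29
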