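/-
S29, (K4)[ROOT], leaf [ROOT-FIN] (helper23).  Prefix `s29rf_`.

HOLOMORPHIC `p`-TH ROOTS ON `ℍ`: two holomorphic functions with the same `p`-th power differ by
a `p`-th root of unity; the character of a `p`-th root of an invariant function.
-/
import Mathlib
import Fermat.Agent.S24.PointOrd
import Fermat.Agent.S24.SymOrd

set_option autoImplicit false

open UpperHalfPlane hiding I
open Complex Filter Function
open scoped Topology Manifold MatrixGroups

namespace Fermat.Agent.S29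

open Fermat.Agent.S24

/-- The identity theorem on `ℍ` in terms of orders. -/
theorem s29rf_eq_zero_of_ordAt_top {f : ℍ → ℂ} (hf : MDiff f) (z : ℍ) (h : ordAt f z = ⊤) :
    f = 0 := by
  by_contra hne
  have : ∃ w, f w ≠ 0 := by
    by_contra h0
    exact hne (funext fun w => not_not.mp (not_exists.mp h0 w))
  exact anE_ordAt_ne_top hf this z h

theorem s29rf_mdiff_prod {ι : Type*} (s : Finset ι) (F : ι → ℍ → ℂ) (hF : ∀ i ∈ s, MDiff (F i)) :
    MDiff (∏ i ∈ s, F i) := by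
  classical
  induction s using Finset.induction_on with
  | empty =>
    simp only [Finset.prod_empty]
    exact mdifferentiable_const
  | insert a s ha ih =>
    rw [Finset.prod_insert ha]
    exact (hF a (Finset.mem_insert_self a s)).mul
      (ih fun i hi => hF i (Finset.mem_insert_of_mem hi))

/-- Two holomorphic functions on `ℍ` with the same `p`-th power differ by a `p`-th root of
unity. -/
theorem s29rf_root_unique {p : ℕ} (hp : 0 < p) {G₁ G : ℍ → ℂ} (h₁ : MDiff G₁) (h : MDiff G)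
    (hpow : ∀ z, G₁ z ^ p = G z ^ p) :
    ∃ ζ : ℂ, ζ ^ p = 1 ∧ ∀ z, G₁ z = ζ * G z := by
  classical
  by_cases hG : ∀ z, G z = 0
  · refine ⟨1, one_pow p, fun z => ?_⟩
    have := hpow z
    rw [hG z, zero_pow hp.ne'] at this
    rw [hG z, mul_zero]
    exact pow_eq_zero_iff hp.ne' |>.mp this
  obtain ⟨z₀, hz₀⟩ := not_forall.mp hG
  set ζ : ℂ := G₁ z₀ / G z₀ with hζ
  have hζp : ζ ^ p = 1 := by
    rw [hζ, div_pow, hpow z₀, div_self (pow_ne_zero p hz₀)]
  have hζmem : ζ ∈ Polynomial.nthRootsFinset p (1 : ℂ) := by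
    rw [Polynomial.mem_nthRootsFinset hp]
    exact hζp
  refine ⟨ζ, hζp, ?_⟩
  have hprim : IsPrimitiveRoot (Complex.exp (2 * Real.pi * Complex.I / p)) p :=
    Complex.isPrimitiveRoot_exp p hp.ne'
  -- the factorisation
  have hfac : ∀ z, ∏ ξ ∈ Polynomial.nthRootsFinset p (1 : ℂ), (G₁ z - ξ * G z) = 0 := by
    intro z
    rw [← hprim.pow_sub_pow_eq_prod_sub_mul (G₁ z) (G z) hp, hpow z, sub_self]
  set D : ℍ → ℂ := fun z => G₁ z - ζ * G z with hD
  set E : ℍ → ℂ := ∏ ξ ∈ (Polynomial.nthRootsFinset p (1 : ℂ)).erase ζ,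
    (fun z => G₁ z - ξ * G z) with hE
  have hDm : MDiff D := h₁.sub (mdifferentiable_const.mul h)
  have hEm : MDiff E := s29rf_mdiff_prod _ _ fun ξ _ => h₁.sub (mdifferentiable_const.mul h)
  have hDE : D * E = 0 := by
    funext z
    have := hfac z
    rw [← Finset.mul_prod_erase _ _ hζmem] at this
    simp only [Pi.mul_apply, Pi.zero_apply, hD, hE, Finset.prod_apply]
    exact this
  have hE0 : E z₀ ≠ 0 := by
    simp only [hE, Finset.prod_apply]
    rw [Finset.prod_ne_zero_iff]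
    intro ξ hξ
    have hne : ξ ≠ ζ := Finset.ne_of_mem_erase hξ
    have h1 : G₁ z₀ = ζ * G z₀ := by
      rw [hζ, div_mul_cancel₀ _ hz₀]
    rw [h1, ← sub_mul]
    exact mul_ne_zero (sub_ne_zero.mpr hne.symm) hz₀
  have hordE : ordAt E z₀ = 0 := (anD_ordAt_eq_zero_iff hEm z₀).mpr hE0
  have hord : ordAt (D * E) z₀ = ⊤ := by
    rw [hDE]
    exact anE_ordAt_zero z₀
  rw [anE_ordAt_mul hDm hEm, hordE, add_zero] at hord
  have hD0 := s29rf_eq_zero_of_ordAt_top hDm z₀ hord
  intro z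
  have := congrFun hD0 z
  simp only [hD, Pi.zero_apply] at this
  exact sub_eq_zero.mp this

/-- **The character of a `p`-th root.**  If `G` is holomorphic on `ℍ`, not identically zero, and
`G ^ p` is invariant under the subgroup `Γ`, then `G` transforms under `Γ` by a character with
values in the `p`-th roots of unity. -/
theorem s29rf_char {p : ℕ} (hp : 0 < p) (Γ : Subgroup SL(2, ℤ)) {G : ℍ → ℂ} (hG : MDiff G)
    (hne : ∃ z, G z ≠ 0) (hinv : ∀ γ ∈ Γ, ∀ z : ℍ, G (γ • z) ^ p = G z ^ p) :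
    ∃ χ : ↥Γ →* ℂˣ, (∀ γ, χ γ ^ p = 1) ∧ ∀ (γ : ↥Γ) (z : ℍ),
      G ((γ : SL(2, ℤ)) • z) = (χ γ : ℂ) * G z := by
  classical
  obtain ⟨z₀, hz₀⟩ := hne
  have hex : ∀ γ : ↥Γ, ∃ ζ : ℂ, ζ ^ p = 1 ∧ ∀ z, G ((γ : SL(2, ℤ)) • z) = ζ * G z := fun γ =>
    s29rf_root_unique hp (anE_mdiff_comp_smul hG (γ : SL(2, ℤ))) hG (hinv γ γ.2)
  choose c hc1 hc2 using hex
  have hc0 : ∀ γ, c γ ≠ 0 := by
    intro γ h0
    have := hc1 γ
    rw [h0, zero_pow hp.ne'] at this
    exact zero_ne_one this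
  have hmul : ∀ γ δ : ↥Γ, c (γ * δ) = c γ * c δ := by
    intro γ δ
    have h1 := hc2 (γ * δ) z₀
    have h2 : G (((γ * δ : ↥Γ) : SL(2, ℤ)) • z₀) = c γ * (c δ * G z₀) := by
      rw [Subgroup.coe_mul, mul_smul, hc2 γ, hc2 δ]
    rw [h1, ← mul_assoc] at h2
    exact mul_right_cancel₀ hz₀ h2
  have hone : c 1 = 1 := by
    have h1 := hc2 1 z₀
    rw [Subgroup.coe_one, one_smul] at h1
    have h2 : (1 : ℂ) * G z₀ = c 1 * G z₀ := by rw [one_mul]; exact h1
    exact (mul_right_cancel₀ hz₀ h2).symm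
  let χ : ↥Γ →* ℂˣ :=
    { toFun := fun γ => Units.mk0 (c γ) (hc0 γ)
      map_one' := by
        apply Units.ext
        simp [hone]
      map_mul' := fun γ δ => by
        apply Units.ext
        simp [hmul] }
  refine ⟨χ, fun γ => ?_, fun γ z => ?_⟩
  · apply Units.ext
    simp [χ, hc1]
  · show G ((γ : SL(2, ℤ)) • z) = c γ * G z
    exact hc2 γ z

/-- The characters of a finitely generated group with values in the `p`-th roots of unity form
a finite set. -/
theorem s29rf_finite_chars (Γ : Type*) [Group Γ] [Group.FG Γ] (p : ℕ) (hp : 0 < p) :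
    Finite {χ : Γ →* ℂˣ // ∀ γ, χ γ ^ p = 1} := by
  classical
  have : NeZero p := ⟨hp.ne'⟩
  obtain ⟨S, hS⟩ := Group.fg_def.mp (inferInstance : Group.FG Γ)
  let ev : {χ : Γ →* ℂˣ // ∀ γ, χ γ ^ p = 1} → (↥S → ↥(rootsOfUnity p ℂ)) :=
    fun χ s => ⟨χ.1 s, (_root_.mem_rootsOfUnity p _).mpr (χ.2 s)⟩
  have hev : Function.Injective ev := by
    intro χ χ' h
    apply Subtype.ext
    refine MonoidHom.eq_of_eqOn_dense hS fun s hs => ?_
    have := congrFun h ⟨s, hs⟩
    exact congrArg Subtype.val this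
  exact Finite.of_injective ev hev

end Fermat.Agent.S29
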