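/-
S29, (K4)[ROOT], leaf [ROOT-FIN] (helper23).  Prefix `s29rf_`.

THE FINITENESS OF `Pic⁰(F)[p]` FROM A BRIDGE.  `F` is any field over `ℂ` with a subalgebra `A`
of "holomorphic modular functions" realised by `Θ : A →+* (ℍ → ℂ)`:
every element of `F` is a quotient of elements of `A`, every holomorphic modular function for
`Γ₀(N)` is a quotient of functions in the image of `Θ` (Lagrange interpolation), the orders of
`Θ a` at the points of `ℍ` are divisible by `p` as soon as the orders of `a` at all places are, and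
holomorphic functions on `ℍ` with orders divisible by `p` have holomorphic `p`-th roots.
Then `Pic⁰(F)[p]` injects into the finite set `Hom(Γ₀(N), μ_p)`.
-/
import Mathlib
import Fermat.Agent.S24.Translate
import Fermat.Agent.S29.RootFinAbs
import Fermat.Agent.S29.RootFinChar

set_option autoImplicit false

open UpperHalfPlane hiding I
open Complex Filter Function AlgebraicCurve CongruenceSubgroup
open scoped Topology Manifold MatrixGroups

namespace Fermat.Agent.S29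

open Fermat.Agent.S24

/-- **The bridge package** consumed by [ROOT-FIN]. -/
structure s29rf_Bridge (N p : ℕ) {F : Type*} [Field F] [Algebra ℂ F] (A : Subalgebra ℂ F)
    (Θ : A →+* (ℍ → ℂ)) : Prop where
  holo : ∀ a : A, MDiff (Θ a)
  inv : ∀ (a : A) (γ : SL(2, ℤ)), γ ∈ Gamma0 N → ∀ z : ℍ, Θ a (γ • z) = Θ a z
  growth : ∀ (a : A) (γ : SL(2, ℤ)), anB_Growth (fun z => Θ a (γ • z))
  inj : ∀ a : A, Θ a = 0 → a = 0
  frac : ∀ y : F, ∃ a b : A, b ≠ 0 ∧ y = (a : F) / (b : F)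
  lagr : ∀ H : ℍ → ℂ, anB_IsModFun N H → ∃ a b : A, b ≠ 0 ∧ ∀ z, H z * Θ b z = Θ a z
  dvd : ∀ a : A, a ≠ 0 → (∀ v : Place ℂ F, (p : ℤ) ∣ v.ord (a : F)) →
    ∀ z : ℍ, ∃ m : ℕ, ordAt (Θ a) z = ((p * m : ℕ) : ℕ∞)

/-- **Holomorphic `p`-th roots** on `ℍ`. -/
def s29rf_RootStatement (p : ℕ) : Prop :=
  ∀ c : ℍ → ℂ, MDiff c → (∃ z, c z ≠ 0) → (∀ z : ℍ, ∃ m : ℕ, ordAt c z = ((p * m : ℕ) : ℕ∞)) →
    ∃ G : ℍ → ℂ, MDiff G ∧ ∀ z, G z ^ p = c z

/-- Growth of a `p`-th root. -/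
theorem s29rf_growth_of_pow {p : ℕ} (hp : 0 < p) {f : ℍ → ℂ} (h : anB_Growth (f ^ p)) :
    anB_Growth f := by
  obtain ⟨M, hM⟩ := h
  refine ⟨M, ?_⟩
  obtain ⟨C, hC⟩ := hM.bound
  refine Asymptotics.IsBigO.of_bound (1 + |C|) ?_
  filter_upwards [hC] with z hz
  have hexp : 1 ≤ Real.exp (2 * Real.pi * M * z.im) := by
    apply Real.one_le_exp
    have := z.im_pos
    positivity
  rw [Real.norm_of_nonneg (Real.exp_pos _).le] at hz ⊢
  have h1 : ‖f z‖ ≤ 1 + ‖f z‖ ^ p := by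
    by_cases h : ‖f z‖ ≤ 1
    · have := pow_nonneg (norm_nonneg (f z)) p
      linarith
    · push Not at h
      have := le_self_pow₀ h.le hp.ne'
      linarith
  have h2 : ‖f z‖ ^ p ≤ |C| * Real.exp (2 * Real.pi * M * z.im) := by
    have : ‖(f ^ p) z‖ = ‖f z‖ ^ p := by simp
    rw [← this]
    refine hz.trans ?_
    exact mul_le_mul_of_nonneg_right (le_abs_self C) (Real.exp_pos _).le
  calc ‖f z‖ ≤ 1 + ‖f z‖ ^ p := h1
    _ ≤ Real.exp (2 * Real.pi * M * z.im) + |C| * Real.exp (2 * Real.pi * M * z.im) := by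
        linarith
    _ = (1 + |C|) * Real.exp (2 * Real.pi * M * z.im) := by ring

section Main

variable {N p : ℕ} {F : Type*} [Field F] [Algebra ℂ F] {A : Subalgebra ℂ F}
  {Θ : A →+* (ℍ → ℂ)}

/-- The sorting relation: `χ` is the character of a holomorphic `p`-th root of
`Θ (a b^(p-1))`, `f = a / b`. -/
def s29rf_Sort (N p : ℕ) {F : Type*} [Field F] [Algebra ℂ F] {A : Subalgebra ℂ F}
    (Θ : A →+* (ℍ → ℂ)) (f : F) (χ : {χ : ↥(Gamma0 N) →* ℂˣ // ∀ γ, χ γ ^ p = 1}) : Prop :=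
  ∃ (a b : A) (G : ℍ → ℂ), b ≠ 0 ∧ f = (a : F) / (b : F) ∧ MDiff G ∧
    (∀ z, G z ^ p = Θ (a * b ^ (p - 1)) z) ∧
    ∀ (γ : ↥(Gamma0 N)) (z : ℍ), G ((γ : SL(2, ℤ)) • z) = (χ.1 γ : ℂ) * G z

theorem s29rf_sort_exists (hp : 0 < p) (hB : s29rf_Bridge N p A Θ) (hR : s29rf_RootStatement p)
    (f : F) (hf : f ≠ 0) (hdiv : ∀ v : Place ℂ F, (p : ℤ) ∣ v.ord f) :
    ∃ χ, s29rf_Sort N p Θ f χ := by
  obtain ⟨a, b, hb, hfab⟩ := hB.frac f
  have hbF : (b : F) ≠ 0 := by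
    intro h
    exact hb (Subtype.ext h)
  have haF : (a : F) ≠ 0 := by
    intro h
    rw [hfab, h, zero_div] at hf
    exact hf rfl
  have ha : a ≠ 0 := by
    rintro rfl
    exact haF rfl
  set c : A := a * b ^ (p - 1) with hc
  have hc0 : c ≠ 0 := mul_ne_zero ha (pow_ne_zero _ hb)
  have hcF : (c : F) = f * (b : F) ^ p := by
    rw [hc, hfab]
    push_cast
    have : (b : F) ^ p = (b : F) ^ (p - 1) * b := by
      rw [← pow_succ, Nat.sub_add_cancel hp]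
    rw [this]
    field_simp
  have hcdiv : ∀ v : Place ℂ F, (p : ℤ) ∣ v.ord (c : F) := by
    intro v
    rw [hcF, v.ord_mul hf (pow_ne_zero _ hbF), ← zpow_natCast, v.ord_zpow]
    exact dvd_add (hdiv v) (dvd_mul_right _ _)
  have hΘc : ∃ z, Θ c z ≠ 0 := by
    by_contra h0
    exact hc0 (hB.inj c (funext fun z => not_not.mp (not_exists.mp h0 z)))
  obtain ⟨G, hG, hGp⟩ := hR (Θ c) (hB.holo c) hΘc (hB.dvd c hc0 hcdiv)
  have hGne : ∃ z, G z ≠ 0 := by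
    obtain ⟨z, hz⟩ := hΘc
    refine ⟨z, fun h => hz ?_⟩
    rw [← hGp z, h, zero_pow hp.ne']
  obtain ⟨χ, hχ1, hχ2⟩ := s29rf_char hp (Gamma0 N) hG hGne (fun γ hγ z => by
    rw [hGp, hGp, hB.inv c γ hγ z])
  exact ⟨⟨χ, hχ1⟩, a, b, G, hb, hfab, hG, hGp, hχ2⟩

theorem s29rf_sort_inj (hp : 0 < p) (hB : s29rf_Bridge N p A Θ)
    (f f' : F) (χ : {χ : ↥(Gamma0 N) →* ℂˣ // ∀ γ, χ γ ^ p = 1}) (hf : f ≠ 0) (hf' : f' ≠ 0)
    (h : s29rf_Sort N p Θ f χ) (h' : s29rf_Sort N p Θ f' χ) :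
    ∃ (u : F) (c : ℂ), c ≠ 0 ∧ f = algebraMap ℂ F c * u ^ p * f' := by
  obtain ⟨a, b, G, hb, hfab, hG, hGp, hGχ⟩ := h
  obtain ⟨a', b', G', hb', hfab', hG', hGp', hGχ'⟩ := h'
  have hbF : (b : F) ≠ 0 := fun h => hb (Subtype.ext h)
  have hbF' : (b' : F) ≠ 0 := fun h => hb' (Subtype.ext h)
  have haF' : (a' : F) ≠ 0 := by
    intro h
    rw [hfab', h, zero_div] at hf'
    exact hf' rfl
  set c : A := a * b ^ (p - 1) with hc
  set c' : A := a' * b' ^ (p - 1) with hc'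
  -- the invariant root
  set H : ℍ → ℂ := G * G' ^ (p - 1) with hH
  have hHp : ∀ z, H z ^ p = Θ (c * c' ^ (p - 1)) z := by
    intro z
    simp only [hH, Pi.mul_apply, Pi.pow_apply, map_mul, map_pow]
    rw [mul_pow, ← pow_mul, mul_comm (p - 1) p, pow_mul, hGp z, hGp' z]
  have hHinv : ∀ γ ∈ Gamma0 N, ∀ z : ℍ, H (γ • z) = H z := by
    intro γ hγ z
    have h1 := hGχ ⟨γ, hγ⟩ z
    have h2 := hGχ' ⟨γ, hγ⟩ z
    simp only at h1 h2
    simp only [hH, Pi.mul_apply, Pi.pow_apply]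
    rw [h1, h2, mul_pow]
    have h3 : ((χ.1 ⟨γ, hγ⟩ : ℂˣ) : ℂ) * (χ.1 ⟨γ, hγ⟩ : ℂ) ^ (p - 1) = 1 := by
      rw [← pow_succ', Nat.sub_add_cancel hp]
      rw [← Units.val_pow_eq_pow_val, χ.2 ⟨γ, hγ⟩, Units.val_one]
    calc (χ.1 ⟨γ, hγ⟩ : ℂ) * G z * ((χ.1 ⟨γ, hγ⟩ : ℂ) ^ (p - 1) * G' z ^ (p - 1))
        = ((χ.1 ⟨γ, hγ⟩ : ℂ) * (χ.1 ⟨γ, hγ⟩ : ℂ) ^ (p - 1)) * (G z * G' z ^ (p - 1)) := by ring
      _ = G z * G' z ^ (p - 1) := by rw [h3, one_mul]
  have hHmod : anB_IsModFun N H :=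
    { holo := hG.mul (hG'.pow _)
      inv := hHinv
      growth := fun γ => by
        apply s29rf_growth_of_pow hp
        have : (fun z => H (γ • z)) ^ p = fun z => Θ (c * c' ^ (p - 1)) (γ • z) := by
          funext z
          simp only [Pi.pow_apply]
          exact hHp _
        rw [this]
        exact hB.growth _ γ }
  obtain ⟨a₁, b₁, hb₁, hab₁⟩ := hB.lagr H hHmod
  have hb₁F : (b₁ : F) ≠ 0 := fun h => hb₁ (Subtype.ext h)
  have hkey : a₁ ^ p = c * c' ^ (p - 1) * b₁ ^ p := by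
    have : Θ (a₁ ^ p - c * c' ^ (p - 1) * b₁ ^ p) = 0 := by
      funext z
      simp only [map_sub, map_pow, map_mul, Pi.sub_apply, Pi.pow_apply, Pi.mul_apply,
        Pi.zero_apply]
      rw [← hab₁ z, mul_pow, hHp z]
      simp only [map_mul, map_pow, Pi.mul_apply, Pi.pow_apply]
      ring
    exact sub_eq_zero.mp (hB.inj _ this)
  have hkeyF : (a₁ : F) ^ p = (c : F) * (c' : F) ^ (p - 1) * (b₁ : F) ^ p := by
    have := congrArg (Subtype.val : A → F) hkey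
    simpa using this
  have hcF : (c : F) = f * (b : F) ^ p := by
    rw [hc, hfab]
    push_cast
    have : (b : F) ^ p = (b : F) ^ (p - 1) * b := by
      rw [← pow_succ, Nat.sub_add_cancel hp]
    rw [this]
    field_simp
  have hcF' : (c' : F) = f' * (b' : F) ^ p := by
    rw [hc', hfab']
    push_cast
    have : (b' : F) ^ p = (b' : F) ^ (p - 1) * b' := by
      rw [← pow_succ, Nat.sub_add_cancel hp]
    rw [this]
    field_simp
  have hc'0 : (c' : F) ≠ 0 := by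
    rw [hcF']
    exact mul_ne_zero hf' (pow_ne_zero _ hbF')
  refine ⟨(a₁ : F) * b' / (b₁ * c' * b), 1, one_ne_zero, ?_⟩
  rw [map_one, one_mul, div_pow, mul_pow, mul_pow, mul_pow, hkeyF]
  have hcc : (c' : F) ^ p = (c' : F) ^ (p - 1) * c' := by
    rw [← pow_succ, Nat.sub_add_cancel hp]
  rw [hcc, hcF]
  have e1 : (c' : F) ^ (p - 1) ≠ 0 := pow_ne_zero _ hc'0
  have e2 : (b₁ : F) ^ p ≠ 0 := pow_ne_zero _ hb₁F
  have e3 : (b : F) ^ p ≠ 0 := pow_ne_zero _ hbF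
  have e4 : (b' : F) ^ p ≠ 0 := pow_ne_zero _ hbF'
  generalize (c' : F) ^ (p - 1) = X at e1 ⊢
  rw [hcF']
  field_simp

/-- **[ROOT-FIN] from a bridge and holomorphic `p`-th roots.** -/
theorem s29rf_main_of (hp : 0 < p) [Group.FG ↥(Gamma0 N)] (hB : s29rf_Bridge N p A Θ)
    (hR : s29rf_RootStatement p) : {y : Pic0 ℂ F | (p : ℤ) • y = 0}.Finite := by
  haveI : Finite {χ : ↥(Gamma0 N) →* ℂˣ // ∀ γ, χ γ ^ p = 1} :=
    s29rf_finite_chars ↥(Gamma0 N) p hp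
  exact s29rf_finite_of_sort ℂ F p hp (s29rf_Sort N p Θ)
    (fun f hf hdiv => s29rf_sort_exists hp hB hR f hf hdiv)
    (fun f f' x hf hf' _ _ h h' => s29rf_sort_inj hp hB f f' x hf hf' h h')

end Main

end Fermat.Agent.S29
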