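/-
S29 (K4) [ROOT-AN], part 1 (helper17).  Prefix `s29rt_`.  Pure Mathlib.

`p`-th roots of meromorphic functions on a disc: if `f` is meromorphic on a closed disc, nowhere
locally zero, and all its orders are divisible by `p`, then `f` is, outside a discrete set, the
`p`-th power of a function which is meromorphic in normal form on the open disc.
-/
import Mathlib

set_option autoImplicit false

open Complex Metric Set Filter Topology

noncomputable section

namespace Fermat.Agent.S29

/-- A holomorphic function without zeros on a disc has a holomorphic `p`-th root. -/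
theorem s29rt_root_nonvanishing (p : ℕ) (hp : 0 < p) (c : ℂ) (r : ℝ) (g : ℂ → ℂ)
    (hg : DifferentiableOn ℂ g (ball c r)) (hg0 : ∀ z ∈ ball c r, g z ≠ 0) :
    ∃ k : ℂ → ℂ, DifferentiableOn ℂ k (ball c r) ∧ (∀ z ∈ ball c r, k z ≠ 0) ∧
      ∀ z ∈ ball c r, k z ^ p = g z := by
  have hopen : IsOpen (ball c r) := isOpen_ball
  have hpre : IsPreconnected (ball c r) := (convex_ball c r).isPreconnected
  -- the logarithmic derivative has a primitive
  have hdg : DifferentiableOn ℂ (deriv g) (ball c r) := hg.deriv hopen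
  have hψ : DifferentiableOn ℂ (fun z => deriv g z / g z) (ball c r) := hdg.div hg hg0
  obtain ⟨G, hG⟩ := hψ.isExactOn_ball
  have hGd : DifferentiableOn ℂ G (ball c r) := fun z hz =>
    (hG z hz).differentiableAt.differentiableWithinAt
  have hE : DifferentiableOn ℂ (fun z => Complex.exp (G z)) (ball c r) := hGd.cexp
  have hE0 : ∀ z ∈ ball c r, (fun z => Complex.exp (G z)) z ≠ 0 := fun z _ => Complex.exp_ne_zero _
  have hlog : EqOn (logDeriv g) (logDeriv (fun z => Complex.exp (G z))) (ball c r) := by
    intro z hz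
    have h1 : HasDerivAt (fun z => Complex.exp (G z)) (Complex.exp (G z) * (deriv g z / g z)) z :=
      (hG z hz).cexp
    simp only [logDeriv_apply, h1.deriv]
    field_simp
  obtain ⟨C, hC0, hC⟩ := (logDeriv_eqOn_iff hg hE hopen hpre hE0 hg0).1 hlog
  obtain ⟨w, hw⟩ : ∃ w : ℂ, w ^ p = C := IsAlgClosed.exists_pow_nat_eq C hp
  have hw0 : w ≠ 0 := by
    rintro rfl
    rw [zero_pow hp.ne'] at hw
    exact hC0 hw.symm
  refine ⟨fun z => w * Complex.exp (G z / p), ?_, ?_, ?_⟩
  · exact (differentiableOn_const (c := w)).mul ((hGd.div_const _).cexp)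
  · intro z _
    exact mul_ne_zero hw0 (Complex.exp_ne_zero _)
  · intro z hz
    have h2 : g z = C * Complex.exp (G z) := by
      have := hC hz
      simpa [smul_eq_mul] using this
    have hp' : (p : ℂ) ≠ 0 := Nat.cast_ne_zero.2 hp.ne'
    rw [mul_pow, hw, ← Complex.exp_nat_mul, h2, mul_div_cancel₀ _ hp']

/-- The factorized rational function of `p * d` is the `p`-th power of that of `d`. -/
theorem s29rt_factorized_pow (p : ℕ) (d : ℂ → ℤ) (hd : d.support.Finite) :
    (∏ᶠ u, (fun z : ℂ => z - u) ^ ((p : ℤ) * d u)) = (∏ᶠ u, (fun z : ℂ => z - u) ^ d u) ^ p := by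
  have h1 : (fun u => (fun z : ℂ => z - u) ^ d u).mulSupport.Finite := by
    rw [Function.FactorizedRational.mulSupport d]
    exact hd
  rw [finprod_pow h1]
  refine finprod_congr fun u => ?_
  rw [mul_comm, zpow_mul, zpow_natCast]

/-- **Local roots.** A function which is meromorphic on a closed disc, nowhere locally zero, and
all of whose orders are divisible by `p`, is, outside a discrete set, the `p`-th power of a
function which is meromorphic in normal form on the open disc. -/
theorem s29rt_root_ball (p : ℕ) (hp : 0 < p) (c : ℂ) (r : ℝ) (f : ℂ → ℂ)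
    (hf : MeromorphicOn f (closedBall c r))
    (hne : ∀ z ∈ closedBall c r, meromorphicOrderAt f z ≠ ⊤)
    (hdiv : ∀ z ∈ closedBall c r, (p : ℤ) ∣ (meromorphicOrderAt f z).untop₀) :
    ∃ h : ℂ → ℂ, MeromorphicNFOn h (ball c r) ∧
      (fun z => h z ^ p) =ᶠ[codiscreteWithin (ball c r)] f := by
  set K := closedBall c r with hK
  have hfin : (MeromorphicOn.divisor f K).support.Finite :=
    (MeromorphicOn.divisor f K).finiteSupport (isCompact_closedBall c r)
  obtain ⟨g, hg, hg0, hfg⟩ := hf.extract_zeros_poles (fun u => hne u u.2) hfin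
  -- the divisor is divisible by `p`
  set D : ℂ → ℤ := fun u => MeromorphicOn.divisor f K u with hD
  set D' : ℂ → ℤ := fun u => D u / p with hD'
  have hDD' : ∀ u, D u = (p : ℤ) * D' u := by
    intro u
    have hdvd : (p : ℤ) ∣ D u := by
      by_cases hu : u ∈ K
      · simp only [hD, MeromorphicOn.divisor_apply hf hu]
        exact hdiv u hu
      · simp only [hD]
        rw [Function.locallyFinsuppWithin.apply_eq_zero_of_notMem _ hu]
        exact dvd_zero _
    rw [hD', Int.mul_ediv_cancel' hdvd]
  have hD'fin : D'.support.Finite := by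
    refine hfin.subset fun u hu => ?_
    simp only [Function.mem_support, ne_eq] at hu ⊢
    intro h0
    apply hu
    simp only [hD', hD]
    rw [h0]
    simp
  -- the root of the analytic factor
  have hgd : DifferentiableOn ℂ g (ball c r) := fun z hz =>
    (hg z (ball_subset_closedBall hz)).differentiableAt.differentiableWithinAt
  obtain ⟨k, hk, hk0, hkp⟩ := s29rt_root_nonvanishing p hp c r g hgd
    (fun z hz => hg0 ⟨z, ball_subset_closedBall hz⟩)
  have hkan : AnalyticOnNhd ℂ k (ball c r) := hk.analyticOnNhd isOpen_ball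
  refine ⟨(∏ᶠ u, (fun z : ℂ => z - u) ^ D' u) * k, ?_, ?_⟩
  · rw [meromorphicNFOn_mul_iff_left_of_analyticOnNhd hkan hk0]
    exact Function.FactorizedRational.meromorphicNFOn D' _
  · have h1 : f =ᶠ[codiscreteWithin (ball c r)]
        (∏ᶠ u, (fun z : ℂ => z - u) ^ MeromorphicOn.divisor f K u) • g :=
      hfg.filter_mono (Filter.codiscreteWithin_mono ball_subset_closedBall)
    filter_upwards [h1, self_mem_codiscreteWithin (ball c r)] with z hz hzb
    rw [hz]
    have h2 : (∏ᶠ u, (fun z : ℂ => z - u) ^ MeromorphicOn.divisor f K u) =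
        (∏ᶠ u, (fun z : ℂ => z - u) ^ D' u) ^ p := by
      rw [← s29rt_factorized_pow p D' hD'fin]
      refine finprod_congr fun u => ?_
      rw [← hDD' u]
    rw [h2]
    simp only [Pi.mul_apply, Pi.smul_apply', Pi.pow_apply, smul_eq_mul, mul_pow, hkp z hzb]

end Fermat.Agent.S29
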