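/-
S29 (K4) [ROOT-AN], part 2 (helper17).  Prefix `s29rt_`.  Pure Mathlib.

Uniqueness of `p`-th roots of meromorphic functions on a connected open set, up to a `p`-th root of
unity.
-/
import Mathlib

set_option autoImplicit false

open Complex Metric Set Filter Topology

noncomputable section

namespace Fermat.Agent.S29

/-- On an open set, "outside a discrete subset" is "in a punctured neighbourhood of every
point". -/
theorem s29rt_mem_codiscreteWithin_iff {V : Set ℂ} (hV : IsOpen V) {s : Set ℂ} :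
    s ∈ codiscreteWithin V ↔ ∀ x ∈ V, s ∈ 𝓝[≠] x := by
  rw [mem_codiscreteWithin_iff_forall_mem_nhdsNE]
  constructor
  · intro h x hx
    have h1 : V ∈ 𝓝[≠] x := mem_nhdsWithin_of_mem_nhds (hV.mem_nhds hx)
    filter_upwards [h x hx, h1] with y hy hyV
    rcases hy with hy | hy
    · exact hy
    · exact absurd hyV hy
  · intro h x hx
    exact mem_of_superset (h x hx) subset_union_left

/-- Eventual equality outside a discrete subset of an open set, pointwise form. -/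
theorem s29rt_eventuallyEq_codiscreteWithin_iff {V : Set ℂ} (hV : IsOpen V) {f g : ℂ → ℂ} :
    f =ᶠ[codiscreteWithin V] g ↔ ∀ x ∈ V, f =ᶠ[𝓝[≠] x] g :=
  s29rt_mem_codiscreteWithin_iff hV

/-- If two meromorphic functions have the same `p`-th power near `z` and one of them is not
locally zero, they have the same order. -/
theorem s29rt_order_eq_of_pow_eq {p : ℕ} (hp : 0 < p) {h₁ h₂ : ℂ → ℂ} {z : ℂ}
    (hh₁ : MeromorphicAt h₁ z) (hh₂ : MeromorphicAt h₂ z)
    (heq : (fun w => h₁ w ^ p) =ᶠ[𝓝[≠] z] fun w => h₂ w ^ p) :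
    meromorphicOrderAt h₁ z = meromorphicOrderAt h₂ z := by
  have h1 : meromorphicOrderAt (h₁ ^ p) z = meromorphicOrderAt (h₂ ^ p) z :=
    meromorphicOrderAt_congr heq
  rw [meromorphicOrderAt_pow hh₁, meromorphicOrderAt_pow hh₂] at h1
  have hp' : (p : ℤ) ≠ 0 := Int.natCast_ne_zero.2 hp.ne'
  cases ha : meromorphicOrderAt h₁ z with
  | top =>
    cases hb : meromorphicOrderAt h₂ z with
    | top => rfl
    | coe b =>
      rw [ha, hb] at h1
      exfalso
      have h2 : ((p : ℕ) : WithTop ℤ) * ((b : ℤ) : WithTop ℤ) = ((((p : ℤ) * b : ℤ)) : WithTop ℤ) := by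
        push_cast
        rfl
      rw [h2] at h1
      have h3 : ((p : ℕ) : WithTop ℤ) * (⊤ : WithTop ℤ) = ⊤ := by
        apply WithTop.mul_top
        exact_mod_cast hp.ne'
      rw [h3] at h1
      exact WithTop.top_ne_coe h1
  | coe a =>
    cases hb : meromorphicOrderAt h₂ z with
    | top =>
      rw [ha, hb] at h1
      exfalso
      have h2 : ((p : ℕ) : WithTop ℤ) * ((a : ℤ) : WithTop ℤ) = ((((p : ℤ) * a : ℤ)) : WithTop ℤ) := by
        push_cast
        rfl
      rw [h2] at h1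
      have h3 : ((p : ℕ) : WithTop ℤ) * (⊤ : WithTop ℤ) = ⊤ := by
        apply WithTop.mul_top
        exact_mod_cast hp.ne'
      rw [h3] at h1
      exact WithTop.coe_ne_top h1
    | coe b =>
      rw [ha, hb] at h1
      have h2 : ∀ c : ℤ, ((p : ℕ) : WithTop ℤ) * ((c : ℤ) : WithTop ℤ) =
          ((((p : ℤ) * c : ℤ)) : WithTop ℤ) := by
        intro c
        push_cast
        rfl
      rw [h2, h2] at h1
      have h3 : (p : ℤ) * a = (p : ℤ) * b := WithTop.coe_injective h1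
      rw [mul_left_cancel₀ hp' h3]

/-- The `p`-th roots of unity form a discrete subset of `ℂ`. -/
theorem s29rt_isDiscrete_roots (p : ℕ) (hp : 0 < p) : IsDiscrete {ζ : ℂ | ζ ^ p = 1} := by
  have hfin : {ζ : ℂ | ζ ^ p = 1}.Finite := by
    have h1 : {ζ : ℂ | ζ ^ p = 1} ⊆ ((Polynomial.nthRoots p (1 : ℂ)).toFinset : Set ℂ) := by
      intro ζ hζ
      simp only [Finset.mem_coe, Multiset.mem_toFinset]
      exact (Polynomial.mem_nthRoots hp).2 hζ
    exact (Finset.finite_toSet _).subset h1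
  exact hfin.isDiscrete

/-- **Uniqueness of roots.** Two functions in normal form on a connected open set whose `p`-th
powers agree outside a discrete set differ by a `p`-th root of unity. -/
theorem s29rt_unique_nf (p : ℕ) (hp : 0 < p) (V : Set ℂ) (hV : IsOpen V) (hVc : IsPreconnected V)
    (h₁ h₂ : ℂ → ℂ) (hh₁ : MeromorphicNFOn h₁ V) (hh₂ : MeromorphicNFOn h₂ V)
    (hne : ∀ z ∈ V, meromorphicOrderAt h₂ z ≠ ⊤)
    (heq : (fun z => h₁ z ^ p) =ᶠ[codiscreteWithin V] fun z => h₂ z ^ p) :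
    ∃ ζ : ℂ, ζ ^ p = 1 ∧ EqOn h₁ (fun z => ζ * h₂ z) V := by
  rcases V.eq_empty_or_nonempty with rfl | ⟨z₀, hz₀⟩
  · exact ⟨1, one_pow _, fun z hz => absurd hz (Set.notMem_empty z)⟩
  have heq' := (s29rt_eventuallyEq_codiscreteWithin_iff hV).1 heq
  have hm₁ : MeromorphicOn h₁ V := hh₁.meromorphicOn
  have hm₂ : MeromorphicOn h₂ V := hh₂.meromorphicOn
  have hq : MeromorphicOn (h₁ * h₂⁻¹) V := hm₁.mul hm₂.inv
  set Q := toMeromorphicNFOn (h₁ * h₂⁻¹) V with hQdef
  have hQnf : MeromorphicNFOn Q V := meromorphicNFOn_toMeromorphicNFOn _ _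
  have hQq : ∀ z ∈ V, Q =ᶠ[𝓝[≠] z] h₁ * h₂⁻¹ := fun z hz =>
    hq.toMeromorphicNFOn_eq_self_on_nhdsNE hz
  have hne0 : ∀ z ∈ V, ∀ᶠ w in 𝓝[≠] z, h₂ w ≠ 0 := fun z hz =>
    (meromorphicOrderAt_ne_top_iff_eventually_ne_zero (hm₂ z hz)).1 (hne z hz)
  -- `Q` has order zero everywhere
  have hQord : ∀ z ∈ V, meromorphicOrderAt Q z = 0 := by
    intro z hz
    rw [meromorphicOrderAt_congr (hQq z hz), meromorphicOrderAt_mul (hm₁ z hz) (hm₂ z hz).inv,
      meromorphicOrderAt_inv, s29rt_order_eq_of_pow_eq hp (hm₁ z hz) (hm₂ z hz) (heq' z hz)]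
    lift meromorphicOrderAt h₂ z to ℤ using hne z hz with n hn
    rw [← WithTop.LinearOrderedAddCommGroup.coe_neg, ← WithTop.coe_add]
    simp
  have hQan : ∀ z ∈ V, AnalyticAt ℂ Q z := fun z hz =>
    (hQnf hz).meromorphicOrderAt_nonneg_iff_analyticAt.1 (hQord z hz).ge
  -- `Q ^ p = 1` on `V`
  have hQp : ∀ z ∈ V, Q z ^ p = 1 := by
    intro z hz
    have h1 : (fun w => Q w ^ p) =ᶠ[𝓝[≠] z] fun _ => (1 : ℂ) := by
      filter_upwards [hQq z hz, hne0 z hz, heq' z hz] with w hw hw0 hweq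
      rw [hw]
      simp only [Pi.mul_apply, Pi.inv_apply, mul_pow, inv_pow]
      rw [hweq]
      exact mul_inv_cancel₀ (pow_ne_zero _ hw0)
    have h2 : ContinuousAt (fun w => Q w ^ p) z := ((hQan z hz).continuousAt).pow p
    have h3 : (fun w => Q w ^ p) =ᶠ[𝓝 z] fun _ => (1 : ℂ) :=
      (h2.eventuallyEq_nhds_iff_eventuallyEq_nhdsNE continuousAt_const).1 h1
    exact h3.eq_of_nhds
  -- `Q` is constant
  have hQc : ContinuousOn Q V := fun z hz => (hQan z hz).continuousAt.continuousWithinAt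
  have hQconst : ∀ z ∈ V, Q z = Q z₀ := fun z hz =>
    hVc.constant_of_mapsTo (s29rt_isDiscrete_roots p hp) hQc (fun w hw => hQp w hw) hz hz₀
  refine ⟨Q z₀, hQp z₀ hz₀, fun z hz => ?_⟩
  have hζ0 : Q z₀ ≠ 0 := by
    intro h0
    have := hQp z₀ hz₀
    rw [h0, zero_pow hp.ne'] at this
    exact zero_ne_one this
  have h1 : h₁ =ᶠ[𝓝[≠] z] fun w => Q z₀ * h₂ w := by
    have hVz : V ∈ 𝓝[≠] z := mem_nhdsWithin_of_mem_nhds (hV.mem_nhds hz)
    filter_upwards [hQq z hz, hne0 z hz, hVz] with w hw hw0 hwV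
    rw [← hQconst w hwV, hw]
    simp only [Pi.mul_apply, Pi.inv_apply]
    rw [mul_assoc, inv_mul_cancel₀ hw0, mul_one]
  have h2 : MeromorphicNFAt (fun w => Q z₀ * h₂ w) z := by
    have := (hh₂ hz).smul_analytic (g := fun _ => Q z₀) analyticAt_const hζ0
    exact this
  exact ((hh₁ hz).eventuallyEq_nhdsNE_iff_eventuallyEq_nhds h2).1 h1 |>.eq_of_nhds

end Fermat.Agent.S29
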