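/-
S29 (K4) [ROOT-AN], part 3 (helper17).  Prefix `s29rt_`.  Pure Mathlib.

`p`-th roots of meromorphic functions on the upper half plane `U = {z | 0 < im z}`: if `f` is
meromorphic on `U`, nowhere locally zero, and all its orders are divisible by `p`, then `f` is,
outside a discrete set, the `p`-th power of a function which is meromorphic in normal form on `U`.

The half plane is exhausted by the discs `B n = ball ((n + 1) i) (n + 1 - 1 / (n + 2))`; on each
of them `RootBall.lean` gives a root, `RootUniq.lean` makes the roots compatible.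
-/
import Mathlib
import Fermat.Agent.S29.RootBall
import Fermat.Agent.S29.RootUniq

set_option autoImplicit false

open Complex Metric Set Filter Topology

noncomputable section

namespace Fermat.Agent.S29

/-- The open upper half plane, as a subset of `ℂ`. -/
def s29rt_U : Set ℂ := {z : ℂ | 0 < z.im}

theorem s29rt_isOpen_U : IsOpen s29rt_U :=
  isOpen_lt continuous_const Complex.continuous_im

/-- The centre of the `n`-th disc. -/
def s29rt_ctr (n : ℕ) : ℂ := (((n : ℝ) + 1 : ℝ) : ℂ) * Complex.I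

/-- The radius of the `n`-th disc. -/
def s29rt_rad (n : ℕ) : ℝ := (n : ℝ) + 1 - 1 / ((n : ℝ) + 2)

/-- The `n`-th disc. -/
def s29rt_B (n : ℕ) : Set ℂ := ball (s29rt_ctr n) (s29rt_rad n)

theorem s29rt_isOpen_B (n : ℕ) : IsOpen (s29rt_B n) := isOpen_ball

theorem s29rt_isPreconnected_B (n : ℕ) : IsPreconnected (s29rt_B n) :=
  (convex_ball _ _).isPreconnected

theorem s29rt_ctr_im (n : ℕ) : (s29rt_ctr n).im = (n : ℝ) + 1 := by
  simp [s29rt_ctr]

theorem s29rt_ctr_re (n : ℕ) : (s29rt_ctr n).re = 0 := by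
  simp [s29rt_ctr]

theorem s29rt_rad_pos (n : ℕ) : 0 < s29rt_rad n := by
  unfold s29rt_rad
  have h1 : (0 : ℝ) ≤ n := Nat.cast_nonneg n
  have h2 : 1 / ((n : ℝ) + 2) < 1 := by
    rw [div_lt_one (by linarith)]
    linarith
  linarith

theorem s29rt_closedBall_subset_U (n : ℕ) :
    closedBall (s29rt_ctr n) (s29rt_rad n) ⊆ s29rt_U := by
  intro z hz
  rw [mem_closedBall, Complex.dist_eq] at hz
  have h1 : |(z - s29rt_ctr n).im| ≤ ‖z - s29rt_ctr n‖ := Complex.abs_im_le_norm _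
  rw [Complex.sub_im, s29rt_ctr_im] at h1
  have h2 := (abs_le.1 (h1.trans hz)).1
  have h3 : (0 : ℝ) ≤ n := Nat.cast_nonneg n
  have h4 : 0 < 1 / ((n : ℝ) + 2) := by positivity
  show 0 < z.im
  unfold s29rt_rad at h2
  linarith

theorem s29rt_B_subset_U (n : ℕ) : s29rt_B n ⊆ s29rt_U :=
  ball_subset_closedBall.trans (s29rt_closedBall_subset_U n)

theorem s29rt_B_subset_succ (n : ℕ) : s29rt_B n ⊆ s29rt_B (n + 1) := by
  apply ball_subset_ball'
  have h1 : dist (s29rt_ctr n) (s29rt_ctr (n + 1)) = 1 := by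
    rw [Complex.dist_eq]
    have : s29rt_ctr n - s29rt_ctr (n + 1) = -Complex.I := by
      simp only [s29rt_ctr]
      push_cast
      ring
    rw [this, norm_neg, Complex.norm_I]
  rw [h1]
  unfold s29rt_rad
  have h3 : (0 : ℝ) ≤ n := Nat.cast_nonneg n
  have h4 : 1 / ((n : ℝ) + 1 + 2) ≤ 1 / ((n : ℝ) + 2) := by
    apply one_div_le_one_div_of_le (by linarith) (by linarith)
  push_cast
  linarith

theorem s29rt_B_mono : Monotone s29rt_B :=
  monotone_nat_of_le_succ s29rt_B_subset_succ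

theorem s29rt_exists_mem_B {z : ℂ} (hz : z ∈ s29rt_U) : ∃ n : ℕ, z ∈ s29rt_B n := by
  have hz' : 0 < z.im := hz
  obtain ⟨n, hn⟩ := exists_nat_gt ((z.re ^ 2 + z.im ^ 2 + 2) / (2 * z.im))
  refine ⟨n, ?_⟩
  rw [s29rt_B, mem_ball, Complex.dist_eq]
  have h0 : (0 : ℝ) ≤ n := Nat.cast_nonneg n
  have hrad := s29rt_rad_pos n
  have h1 : z.re ^ 2 + z.im ^ 2 + 2 < 2 * z.im * n := by
    rw [div_lt_iff₀ (by linarith)] at hn
    linarith
  have h2 : ‖z - s29rt_ctr n‖ ^ 2 < s29rt_rad n ^ 2 := by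
    rw [Complex.sq_norm, Complex.normSq_apply, Complex.sub_re, Complex.sub_im, s29rt_ctr_im,
      s29rt_ctr_re]
    unfold s29rt_rad
    have h3 : 0 < 1 / ((n : ℝ) + 2) := by positivity
    have h4 : ((n : ℝ) + 1) * (1 / ((n : ℝ) + 2)) ≤ 1 := by
      rw [mul_one_div, div_le_one (by linarith)]
      linarith
    nlinarith [sq_nonneg (1 / ((n : ℝ) + 2))]
  exact lt_of_pow_lt_pow_left₀ 2 hrad.le h2

/-- If `h ^ p` agrees with `f` in a punctured neighbourhood of `z` and `f` is not locally zero at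
`z`, neither is `h`. -/
theorem s29rt_order_ne_top_of_pow {p : ℕ} (hp : 0 < p) {h f : ℂ → ℂ} {z : ℂ}
    (_hh : MeromorphicAt h z)
    (heq : (fun w => h w ^ p) =ᶠ[𝓝[≠] z] f) (hf : meromorphicOrderAt f z ≠ ⊤) :
    meromorphicOrderAt h z ≠ ⊤ := by
  intro htop
  apply hf
  rw [meromorphicOrderAt_eq_top_iff] at htop ⊢
  filter_upwards [htop, heq] with w hw hw2
  rw [← hw2, hw, zero_pow hp.ne']

/-- The order of a `p`-th root. -/
theorem s29rt_order_of_pow {p : ℕ} {h f : ℂ → ℂ} {z : ℂ} (hh : MeromorphicAt h z)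
    (heq : (fun w => h w ^ p) =ᶠ[𝓝[≠] z] f) :
    (p : WithTop ℤ) * meromorphicOrderAt h z = meromorphicOrderAt f z := by
  rw [← meromorphicOrderAt_congr heq, ← meromorphicOrderAt_pow hh]
  rfl

section Glue

variable (p : ℕ) (f : ℂ → ℂ)

/-- The local datum: a root of `f` on the `n`-th disc, in normal form. -/
def s29rt_IsRootOn (V : Set ℂ) (h : ℂ → ℂ) : Prop :=
  MeromorphicNFOn h V ∧ (fun z => h z ^ p) =ᶠ[codiscreteWithin V] f

variable {p f}

theorem s29rt_IsRootOn.mono {V W : Set ℂ} {h : ℂ → ℂ} (hh : s29rt_IsRootOn p f W h)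
    (hVW : V ⊆ W) : s29rt_IsRootOn p f V h :=
  ⟨fun _ hz => hh.1 (hVW hz), hh.2.filter_mono (Filter.codiscreteWithin_mono hVW)⟩

theorem s29rt_IsRootOn.const_mul {V : Set ℂ} {h : ℂ → ℂ} (hh : s29rt_IsRootOn p f V h)
    {ζ : ℂ} (hζ : ζ ^ p = 1) (hζ0 : ζ ≠ 0) : s29rt_IsRootOn p f V (fun z => ζ * h z) := by
  refine ⟨fun z hz => ?_, ?_⟩
  · exact (hh.1 hz).smul_analytic (g := fun _ => ζ) analyticAt_const hζ0
  · filter_upwards [hh.2] with z hz
    rw [mul_pow, hζ, one_mul, hz]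

theorem s29rt_IsRootOn.order_ne_top {V : Set ℂ} (hV : IsOpen V) {h : ℂ → ℂ}
    (hp : 0 < p) (hh : s29rt_IsRootOn p f V h)
    (hne : ∀ z ∈ V, meromorphicOrderAt f z ≠ ⊤) :
    ∀ z ∈ V, meromorphicOrderAt h z ≠ ⊤ := fun z hz =>
  s29rt_order_ne_top_of_pow hp (hh.1 hz).meromorphicAt
    ((s29rt_eventuallyEq_codiscreteWithin_iff hV).1 hh.2 z hz) (hne z hz)

/-- Two roots on a connected open set differ by a root of unity. -/
theorem s29rt_IsRootOn.unique {V : Set ℂ} (hV : IsOpen V) (hVc : IsPreconnected V)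
    {h₁ h₂ : ℂ → ℂ} (hp : 0 < p) (hh₁ : s29rt_IsRootOn p f V h₁) (hh₂ : s29rt_IsRootOn p f V h₂)
    (hne : ∀ z ∈ V, meromorphicOrderAt f z ≠ ⊤) :
    ∃ ζ : ℂ, ζ ^ p = 1 ∧ EqOn h₁ (fun z => ζ * h₂ z) V :=
  s29rt_unique_nf p hp V hV hVc h₁ h₂ hh₁.1 hh₂.1 (hh₂.order_ne_top hV hp hne)
    (hh₁.2.trans hh₂.2.symm)

end Glue

/-- **(R1) Roots on the upper half plane.** A function which is meromorphic on the upper half
plane, nowhere locally zero, and all of whose orders are divisible by `p`, is, outside a discrete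
set, the `p`-th power of a function which is meromorphic in normal form on the half plane. -/
theorem s29rt_root (p : ℕ) (hp : 0 < p) (f : ℂ → ℂ) (hf : MeromorphicOn f s29rt_U)
    (hne : ∀ z ∈ s29rt_U, meromorphicOrderAt f z ≠ ⊤)
    (hdiv : ∀ z ∈ s29rt_U, (p : ℤ) ∣ (meromorphicOrderAt f z).untop₀) :
    ∃ h : ℂ → ℂ, s29rt_IsRootOn p f s29rt_U h := by
  classical
  -- local roots
  have hloc : ∀ n, ∃ h, s29rt_IsRootOn p f (s29rt_B n) h := fun n =>
    s29rt_root_ball p hp _ _ f (fun z hz => hf z (s29rt_closedBall_subset_U n hz))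
      (fun z hz => hne z (s29rt_closedBall_subset_U n hz))
      (fun z hz => hdiv z (s29rt_closedBall_subset_U n hz))
  choose h0 hh0 using hloc
  have hneB : ∀ n, ∀ z ∈ s29rt_B n, meromorphicOrderAt f z ≠ ⊤ := fun n z hz =>
    hne z (s29rt_B_subset_U n hz)
  -- a point of the first disc where the first root does not vanish
  obtain ⟨z1, hz1B, hz1⟩ : ∃ z1 ∈ s29rt_B 0, h0 0 z1 ≠ 0 := by
    have hc : s29rt_ctr 0 ∈ s29rt_B 0 := mem_ball_self (s29rt_rad_pos 0)
    have h1 := (meromorphicOrderAt_ne_top_iff_eventually_ne_zero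
      ((hh0 0).1 hc).meromorphicAt).1 ((hh0 0).order_ne_top (s29rt_isOpen_B 0) hp (hneB 0) _ hc)
    have h2 : s29rt_B 0 ∈ 𝓝[≠] (s29rt_ctr 0) :=
      mem_nhdsWithin_of_mem_nhds ((s29rt_isOpen_B 0).mem_nhds hc)
    obtain ⟨w, hw1, hw2⟩ := (h1.and h2).exists
    exact ⟨w, hw2, hw1⟩
  -- normalise all roots on the first disc
  have hζ : ∀ n, ∃ ζ : ℂ, ζ ^ p = 1 ∧ EqOn (h0 n) (fun z => ζ * h0 0 z) (s29rt_B 0) := fun n =>
    ((hh0 n).mono (s29rt_B_mono (Nat.zero_le n))).unique (s29rt_isOpen_B 0)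
      (s29rt_isPreconnected_B 0) hp (hh0 0) (hneB 0)
  choose ζ hζp hζeq using hζ
  have hζ0 : ∀ n, ζ n ≠ 0 := fun n h0' => by
    have := hζp n
    rw [h0', zero_pow hp.ne'] at this
    exact zero_ne_one this
  set H : ℕ → ℂ → ℂ := fun n z => (ζ n)⁻¹ * h0 n z with hHdef
  have hH : ∀ n, s29rt_IsRootOn p f (s29rt_B n) (H n) := fun n =>
    (hh0 n).const_mul (by rw [inv_pow, hζp n, inv_one]) (inv_ne_zero (hζ0 n))
  have hH0 : ∀ n, EqOn (H n) (h0 0) (s29rt_B 0) := by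
    intro n z hz
    simp only [hHdef]
    rw [hζeq n hz, ← mul_assoc, inv_mul_cancel₀ (hζ0 n), one_mul]
  have hcompat : ∀ n m, n ≤ m → EqOn (H m) (H n) (s29rt_B n) := by
    intro n m hnm
    obtain ⟨ξ, -, hξ⟩ := ((hH m).mono (s29rt_B_mono hnm)).unique (s29rt_isOpen_B n)
      (s29rt_isPreconnected_B n) hp (hH n) (hneB n)
    have hz1n : z1 ∈ s29rt_B n := s29rt_B_mono (Nat.zero_le n) hz1B
    have h1 := hξ hz1n
    simp only [] at h1
    rw [hH0 m hz1B, hH0 n hz1B] at h1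
    have hξ1 : ξ = 1 := by
      have h2 : (ξ - 1) * h0 0 z1 = 0 := by
        rw [sub_mul, one_mul, ← h1, sub_self]
      rcases mul_eq_zero.1 h2 with h3 | h3
      · exact sub_eq_zero.1 h3
      · exact absurd h3 hz1
    intro z hz
    rw [hξ hz, hξ1]
    exact one_mul _
  -- glue
  set idx : ℂ → ℕ := fun z => if hz : z ∈ s29rt_U then Nat.find (s29rt_exists_mem_B hz) else 0
    with hidxdef
  have hidx : ∀ z (hz : z ∈ s29rt_U), z ∈ s29rt_B (idx z) := by
    intro z hz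
    simp only [hidxdef, hz, dif_pos]
    exact Nat.find_spec (s29rt_exists_mem_B hz)
  have hidx_le : ∀ n z, z ∈ s29rt_B n → idx z ≤ n := by
    intro n z hz
    have hzU := s29rt_B_subset_U n hz
    simp only [hidxdef, hzU, dif_pos]
    exact Nat.find_min' _ hz
  set h : ℂ → ℂ := fun z => H (idx z) z with hhdef
  have hhH : ∀ n, EqOn h (H n) (s29rt_B n) := by
    intro n z hz
    simp only [hhdef]
    exact (hcompat (idx z) n (hidx_le n z hz) (hidx z (s29rt_B_subset_U n hz))).symm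
  refine ⟨h, fun z hz => ?_, ?_⟩
  · obtain ⟨n, hn⟩ := s29rt_exists_mem_B hz
    have h1 : h =ᶠ[𝓝 z] H n :=
      Filter.eventuallyEq_of_mem ((s29rt_isOpen_B n).mem_nhds hn) (hhH n)
    rw [meromorphicNFAt_congr h1]
    exact (hH n).1 hn
  · rw [s29rt_eventuallyEq_codiscreteWithin_iff s29rt_isOpen_U]
    intro z hz
    obtain ⟨n, hn⟩ := s29rt_exists_mem_B hz
    have h1 := (s29rt_eventuallyEq_codiscreteWithin_iff (s29rt_isOpen_B n)).1 (hH n).2 z hn
    have h2 : s29rt_B n ∈ 𝓝[≠] z := mem_nhdsWithin_of_mem_nhds ((s29rt_isOpen_B n).mem_nhds hn)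
    filter_upwards [h1, h2] with w hw hwB
    rw [hhH n hwB]
    exact hw

end Fermat.Agent.S29
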