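/-
S29, (K4)[ROOT], leaf [ROOT-FIN] (helper23).  Prefix `s29rf_`.

HOLOMORPHIC `p`-TH ROOTS ON `ℍ`: `s29rf_RootStatement p`, from helper17's (R1) `s29rt_root`
(meromorphic roots in normal form on the open upper half plane).
-/
import Mathlib
import Fermat.Agent.S29.RootGlue
import Fermat.Agent.S29.RootFinMain

set_option autoImplicit false

open UpperHalfPlane hiding I
open Complex Filter Function
open scoped Topology Manifold MatrixGroups

namespace Fermat.Agent.S29

open Fermat.Agent.S24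

/-- **Holomorphic `p`-th roots.**  A holomorphic function on `ℍ`, not identically zero, all of
whose orders are divisible by `p`, is the `p`-th power of a holomorphic function. -/
theorem s29rf_root_main (p : ℕ) (hp : 0 < p) : s29rf_RootStatement p := by
  intro c hc hne hdiv
  have hUo : IsOpen s29rt_U := s29rt_isOpen_U
  set f : ℂ → ℂ := c ∘ ofComplex with hf
  have hfan : AnalyticOnNhd ℂ f s29rt_U :=
    (UpperHalfPlane.mdifferentiable_iff.mp hc).analyticOnNhd hUo
  have hord : ∀ z ∈ s29rt_U, ∃ m : ℕ, meromorphicOrderAt f z = ((p * m : ℕ) : ℤ) := by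
    intro z hz
    obtain ⟨m, hm⟩ := hdiv ⟨z, hz⟩
    refine ⟨m, ?_⟩
    rw [(hfan z hz).meromorphicOrderAt_eq]
    have : analyticOrderAt f z = ((p * m : ℕ) : ℕ∞) := hm
    rw [this]
    rfl
  have hfne : ∀ z ∈ s29rt_U, meromorphicOrderAt f z ≠ ⊤ := fun z hz => by
    obtain ⟨m, hm⟩ := hord z hz
    rw [hm]
    exact WithTop.coe_ne_top
  obtain ⟨h, hnf, hhp⟩ := s29rt_root p hp f (fun z hz => (hfan z hz).meromorphicAt) hfne
    (fun z hz => by
      obtain ⟨m, hm⟩ := hord z hz
      rw [hm]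
      exact ⟨m, by simp⟩)
  have hloc : ∀ z ∈ s29rt_U, (fun w => h w ^ p) =ᶠ[𝓝[≠] z] f :=
    (s29rt_eventuallyEq_codiscreteWithin_iff hUo).mp hhp
  have han : ∀ z ∈ s29rt_U, AnalyticAt ℂ h z := by
    intro z hz
    have hnfz : MeromorphicNFAt h z := hnf hz
    rw [← hnfz.meromorphicOrderAt_nonneg_iff_analyticAt]
    obtain ⟨m, hm⟩ := hord z hz
    have h1 : meromorphicOrderAt h z ≠ ⊤ :=
      s29rt_order_ne_top_of_pow hp hnfz.meromorphicAt (hloc z hz) (hfne z hz)
    have h2 := s29rt_order_of_pow hnfz.meromorphicAt (hloc z hz)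
    rw [hm] at h2
    have h3 : meromorphicOrderAt h z = ((meromorphicOrderAt h z).untop₀ : ℤ) :=
      (WithTop.coe_untop₀_of_ne_top h1).symm
    rw [h3] at h2 ⊢
    have h4 : (p : ℤ) * (meromorphicOrderAt h z).untop₀ = ((p * m : ℕ) : ℤ) := by
      exact_mod_cast h2
    have hp' : (0 : ℤ) < p := by exact_mod_cast hp
    have h5 : (0 : ℤ) ≤ (p : ℤ) * (meromorphicOrderAt h z).untop₀ := by
      rw [h4]
      positivity
    have h6 : (0 : ℤ) ≤ (meromorphicOrderAt h z).untop₀ := nonneg_of_mul_nonneg_right h5 hp'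
    exact_mod_cast h6
  have hpow : ∀ z ∈ s29rt_U, h z ^ p = f z := by
    intro z hz
    have hc1 : Tendsto (fun w => h w ^ p) (𝓝[≠] z) (𝓝 (h z ^ p)) :=
      (((han z hz).continuousAt).pow p).tendsto.mono_left nhdsWithin_le_nhds
    have hc2 : Tendsto f (𝓝[≠] z) (𝓝 (f z)) :=
      ((hfan z hz).continuousAt).tendsto.mono_left nhdsWithin_le_nhds
    exact tendsto_nhds_unique_of_eventuallyEq hc1 hc2 (hloc z hz)
  refine ⟨fun z : ℍ => h (z : ℂ), ?_, fun z => ?_⟩
  · rw [UpperHalfPlane.mdifferentiable_iff]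
    have : Set.EqOn ((fun z : ℍ => h (z : ℂ)) ∘ ofComplex) h {z : ℂ | 0 < z.im} := by
      intro w hw
      simp only [Function.comp_apply]
      rw [ofComplex_apply_of_im_pos hw]
    refine DifferentiableOn.congr ?_ this
    intro w hw
    exact (han w hw).differentiableAt.differentiableWithinAt
  · have := hpow (z : ℂ) z.im_pos
    rw [this, hf]
    simp

end Fermat.Agent.S29
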