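/-
S29, (K4)[ROOT], leaf [ROOT-FIN] (helper23).  Prefix `s29rf_`.

THE INSTANCE.  helper22's bridge `DictC.IsBridge N Θ₀ π` over `ℂ` (directory `S29/DictC`) gives
the bridge package `s29rf_Bridge N p (DictC.ringA N) Θ₀` of `RootFinMain.lean`:
* `growth`, `inj`, `frac` are `anB_isModFun_bridge`, `fracA_bridge_eq_zero`, `fracA_exists_div`;
* `dvd` is the place at a point of `ℍ` (`anE_exists_place`: `ord_z (Θ₀ a) = m · v.ord a`);
* `lagr` is the Lagrange interpolation of S28 (`umem_lagrange`): every modular function for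
  `Γ₀(N)` is a quotient of two polynomials in `j` and `j_N`, which are values of `Θ₀`.

Hence the export

  `s29rf_main N p hp : {y : Pic0 ℂ (DictC.FunField N) | (p : ℤ) • y = 0}.Finite`.
-/
import Mathlib
import Fermat.Agent.S28.UnitMemAN
import Fermat.Agent.S29.DictC.Bridge
import Fermat.Agent.S29.DictC.FracRingA
import Fermat.Agent.S29.DictC.TranslateAN
import Fermat.Agent.S29.DictC.PointPlace
import Fermat.Agent.S29.LatFree
import Fermat.Agent.S29.RootFinHolo

set_option autoImplicit false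

open UpperHalfPlane hiding I
open Complex Filter Function AlgebraicCurve CongruenceSubgroup
open scoped Topology Manifold MatrixGroups Polynomial

namespace Fermat.Agent.S29

open Fermat.Agent.S24

/-- An algebra homomorphism to the base ring commutes with the evaluation of bivariate
polynomials. -/
theorem s29rf_algHom_aevalAeval {R A : Type*} [CommRing R] [CommRing A] [Algebra R A]
    (φ : A →ₐ[R] R) (x y : A) (P : R[X][X]) :
    φ (Polynomial.aevalAeval x y P) = P.evalEval (φ x) (φ y) := by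
  induction P using Polynomial.induction_on' with
  | add P Q hP hQ =>
    rw [map_add, map_add, Polynomial.evalEval_add, hP, hQ]
  | monomial n Q =>
    induction Q using Polynomial.induction_on' with
    | add P Q hP hQ =>
      rw [map_add, map_add, map_add, Polynomial.evalEval_add, hP, hQ]
    | monomial m c =>
      simp [Polynomial.aevalAeval, Polynomial.evalEval, Polynomial.aeval_monomial,
        Polynomial.eval_monomial]

section Inst

variable {N : ℕ} {Θ₀ : DictC.ringA N →+* (ℍ → ℂ)} {π : ℂ →+ ℂ}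

/-- Evaluation at a point of `ℍ` after the bridge, as a `ℂ`-algebra homomorphism. -/
noncomputable def s29rf_evalAt (hΘ : DictC.IsBridge N Θ₀ π) (z : ℍ) : DictC.ringA N →ₐ[ℂ] ℂ :=
  { (Pi.evalRingHom (fun _ : ℍ => ℂ) z).comp Θ₀ with
    commutes' := fun c => by
      have h := hΘ.map_const c z
      simpa [DictC.iota] using h }

theorem s29rf_evalAt_apply (hΘ : DictC.IsBridge N Θ₀ π) (z : ℍ) (a : DictC.ringA N) :
    s29rf_evalAt hΘ z a = Θ₀ a z := rfl

/-- The bridge maps a polynomial in `j` and `j_N` to the polynomial in the functions. -/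
theorem s29rf_bridge_poly [NeZero N] (hΘ : DictC.IsBridge N Θ₀ π) (P : ℂ[X][X]) (z : ℍ) :
    Θ₀ (Polynomial.aevalAeval (DictC.jA N) (DictC.jDivA N N dvd_rfl) P) z =
      P.evalEval (jfun z) (anB_jd N z) := by
  rw [← s29rf_evalAt_apply hΘ z]
  have h1 : s29rf_evalAt hΘ z (DictC.jA N) = jfun z := DictC.anE_bridge_jA hΘ z
  have h2 : s29rf_evalAt hΘ z (DictC.jDivA N N dvd_rfl) = anB_jd N z := by
    rw [s29rf_evalAt_apply, hΘ.map_jDiv N dvd_rfl z, DictC.anB_jfunMul_eq]
  rw [← h1, ← h2]
  exact s29rf_algHom_aevalAeval _ _ _ P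

/-- **The instance of the bridge package.** -/
theorem s29rf_bridge [NeZero N] (p : ℕ) (hΘ : DictC.IsBridge N Θ₀ π) :
    s29rf_Bridge N p (DictC.ringA N) Θ₀ where
  holo := hΘ.holo
  inv := hΘ.inv
  growth := fun a γ => (DictC.anB_isModFun_bridge hΘ a).growth γ
  inj := fun a ha => DictC.fracA_bridge_eq_zero hΘ (fun z => by rw [ha]; rfl)
  frac := DictC.fracA_exists_div N
  lagr := by
    intro H hH
    obtain ⟨A, B, hAB, z₀, hz₀⟩ := Fermat.Agent.S28.umem_lagrange N hH
    refine ⟨Polynomial.aevalAeval (DictC.jA N) (DictC.jDivA N N dvd_rfl) A,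
      Polynomial.aevalAeval (DictC.jA N) (DictC.jDivA N N dvd_rfl) B, ?_, ?_⟩
    · intro hB0
      apply hz₀
      rw [← s29rf_bridge_poly hΘ B z₀, hB0, map_zero]
      rfl
    · intro z
      rw [s29rf_bridge_poly hΘ, s29rf_bridge_poly hΘ]
      exact hAB z
  dvd := by
    intro a ha hdiv z
    obtain ⟨v, m, -, -, -, hv⟩ := DictC.anE_exists_place hΘ z ⟨jfun z, rfl⟩
    have h1 := hv a ha
    obtain ⟨k, hk⟩ := hdiv v
    have h2 : DictC.anE_ord Θ₀ z a = (p : ℤ) * ((m : ℤ) * k) := by
      rw [h1, hk]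
      ring
    have h3 : (0 : ℤ) ≤ DictC.anE_ord Θ₀ z a := DictC.anE_ord_nonneg z a
    have h4 : DictC.anE_ord Θ₀ z a = (((ordAt (Θ₀ a) z).toNat : ℕ) : ℤ) := rfl
    rcases Nat.eq_zero_or_pos p with hp0 | hp0
    · refine ⟨0, ?_⟩
      rw [DictC.anE_ordAt_eq_coe hΘ ha z]
      subst hp0
      rw [h4] at h2
      simp only [Nat.cast_zero, zero_mul] at h2
      have : (ordAt (Θ₀ a) z).toNat = 0 := by exact_mod_cast h2
      rw [this]
    · have hmk : (0 : ℤ) ≤ (m : ℤ) * k := by
        by_contra hneg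
        push Not at hneg
        have : (p : ℤ) * ((m : ℤ) * k) < 0 :=
          mul_neg_of_pos_of_neg (by exact_mod_cast hp0) hneg
        omega
      refine ⟨((m : ℤ) * k).toNat, ?_⟩
      rw [DictC.anE_ordAt_eq_coe hΘ ha z]
      have : (ordAt (Θ₀ a) z).toNat = p * ((m : ℤ) * k).toNat := by
        have h5 : (((ordAt (Θ₀ a) z).toNat : ℕ) : ℤ) = ((p * ((m : ℤ) * k).toNat : ℕ) : ℤ) := by
          rw [← h4, h2]
          push_cast
          rw [Int.toNat_of_nonneg hmk]
        exact_mod_cast h5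
      rw [this]

end Inst

/-- **[ROOT-FIN].**  The `p`-torsion of `Pic⁰` of the function field of `X₀(N)` over `ℂ` is
finite, for every `p > 0`. -/
theorem s29rf_main (N : ℕ) [NeZero N] (p : ℕ) (hp : 0 < p) :
    {y : Pic0 ℂ (DictC.FunField N) | (p : ℤ) • y = 0}.Finite := by
  obtain ⟨Θ₀, π, hΘ⟩ := DictC.bridge N
  have : Group.FG ↥(Gamma0 N) := s29lf_fg (Gamma0 N) Subgroup.FiniteIndex.index_ne_zero
  exact s29rf_main_of hp (s29rf_bridge p hΘ) (s29rf_root_main p hp)

/-- The same statement with the function field written out. -/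
theorem s29rf_main' (N : ℕ) [NeZero N] (p : ℕ) (hp : 0 < p) :
    {y : Pic0 ℂ ↥(ModularCurve.laurentBaseChange ℂ (ModularCurve.modularFunctionFieldFull N)) |
      (p : ℤ) • y = 0}.Finite :=
  s29rf_main N p hp

end Fermat.Agent.S29
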