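/-
S29, (K4)[ROOT], leaf [ROOT-FIN] (helper23).  Prefix `s29rf_`.

THE ADAPTER: [ROOT-FIN] in the spelling `s29d_RootFinStatement` of helper28's `DescFinal.lean`
(the first input of `s29d_kbc_of`).
-/
import Mathlib
import Fermat.Agent.S29.RootFinInst
import Fermat.Agent.S29.DescFinal

set_option autoImplicit false

namespace Fermat.Agent.S29

/-- **[ROOT-FIN]**, verbatim `s29d_RootFinStatement`. -/
theorem s29rf_stmt : s29d_RootFinStatement := fun N _ n hn => s29rf_main N n hn

/-- [K-BC] with [ROOT-FIN] plugged in: the only remaining input is [DESC-HECKE]. -/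
theorem s29rf_kbc_of (hHecke : s29d_HeckeBCStatement) : s29k_BCStatement :=
  s29d_kbc_of s29rf_stmt hHecke

end Fermat.Agent.S29
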