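/-
S29, package [EIG], THE KUMMER SIDE, FINAL FILE (sub-architect: helper26).  Prefix `s29k_`.

  `s29k_main : s29k_Statement`        ([KUM], hypothesis-free, every `n > 0`)
  `s29k_c_main : s29k_CStatement`     ([K-C], the Kummer map over `ℂ`)

The wire (every leaf is stated VERBATIM against `KumDefs.lean`):

  [K-DIV]    `s29dk_main`           (helper22, `DictKDiv.lean`)
  [K-EX]     `s29k_ex_of`           (helper26, `KumEx.lean`; on helper15's [EIS], helper4's [KAN],
                                     helper12's principal divisors over `ℂ`)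
  [K-UNIQ]   `s29ku_main`           (helper7,  `KumUniq.lean`)
  [K-MUL]    `s29km_main`           (helper5,  `KumMul.lean`)
  [K-TRIV]   `s29kt_main`           (helper29, `KumTriv.lean`)
  [K-HECKE]  `s29hk_main`           (helper14, `HeckeKMain.lean`; on helper4's [HK-AN])
  [LAT-HOM]  `s29lat_hom_main`      (helper2,  `LatHom.lean`)
  [K-C]      `s29k_c_of`            (helper26, `KumC.lean`)
  [ROOT-FIN] `s29rf_stmt`           (helper23, `RootFinStmt.lean`)
  [DESC-HECKE] `s29bh_heckeBC_main` (helper21, `DescHeckeMain.lean`; on helper12's [DESC-BC])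
  [K-BC]     `s29d_kbc_of`          (helper28, `DescFinal.lean`)
  [KUM]      `s29k_main_of`         (helper26, `KumMain.lean`)
-/
import Mathlib
import Fermat.Agent.S29.KumEx
import Fermat.Agent.S29.KumMain
import Fermat.Agent.S29.KumUniq
import Fermat.Agent.S29.KumMul
import Fermat.Agent.S29.KumTriv
import Fermat.Agent.S29.LatHom
import Fermat.Agent.S29.DescFinal
import Fermat.Agent.S29.RootFinStmt
import Fermat.Agent.S29.DescHeckeMain
import Fermat.Agent.S29.DictKDiv
import Fermat.Agent.S29.HeckeKMain

set_option autoImplicit false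

noncomputable section

namespace Fermat.Agent.S29

/-- **[K-EX]**, hypothesis-free. -/
theorem s29k_ex_main : s29k_ExStatement :=
  s29k_ex_of s29dk_main

/-- **[K-C]**, hypothesis-free: the Kummer map over `ℂ`. -/
theorem s29k_c_main : s29k_CStatement :=
  s29k_c_of s29k_ex_main s29ku_main s29km_main s29kt_main s29hk_main s29lat_hom_main

/-- **[K-BC]**, hypothesis-free: the base change `J₀(N)(Q̄) → Pic⁰(F_ℂ)`. -/
theorem s29k_bc_main : s29k_BCStatement :=
  s29d_kbc_of s29rf_stmt s29bh_heckeBC_main

/-- **[KUM]**, hypothesis-free: for every `N` and every `n > 0` there is an additive map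
`D : Λ → J₀(N)(Q̄)` with values in the `n`-torsion, kernel `n Λ`, which commutes with the Hecke
operators `T_ℓ`, `ℓ ∤ N n`. -/
theorem s29k_main : s29k_Statement :=
  s29k_main_of s29k_c_main s29k_bc_main

end Fermat.Agent.S29

end
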