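/-
S29 / S42, leaf [FINLVL] (owner: helper16).  Prefix `s29fl_`.

"Every point of `J₀(N)(Q̄)` has an open stabiliser": for every place `P` of `F̄_N`, every divisor
and every divisor class `x` there is a number field `L ⊆ Q̄` such that every `σ ∈ Gal(Q̄/ℚ)`
fixing `L` pointwise fixes `P` resp. `x`.  Finitely many points at once, and `L` may be taken
Galois over `ℚ`.

* `s29fl_place`, `s29fl_divisor`, `s29fl_point`, `s29fl_finset` : the statements;
* `s29fl_finset_galois` : the same with `L / ℚ` Galois;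
* `s29fl_smul_eq_of_eq_on` : the action of `σ` on the points of `T` only depends on `σ|_L`.
-/
import Mathlib
import Fermat.Agent.S37.RatlQ

set_option autoImplicit false

open AlgebraicCurve ModularCurve IntermediateField

noncomputable section

namespace Fermat.Agent.S29

open Fermat.Agent.S24 Fermat.Agent.S18 Fermat.Agent.S37

variable (M : ℕ) [NeZero M]

/-- **[FINLVL], places.**  Every place of `F̄_M` is fixed by `Gal(Q̄ / L)` for a number field
`L`. -/
theorem s29fl_place (P : Place QBar (FunField M)) :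
    ∃ L : IntermediateField ℚ QBar, FiniteDimensional ℚ ↥L ∧
      ∀ σ : QBar ≃ₐ[ℚ] QBar, (∀ a ∈ L, σ a = a) →
        arithmeticGalois (modularFunctionFieldFull M) σ • P = P := by
  classical
  have hj : IsCoordinate QBar (jF M) := final_jCoordinate M
  have halg := diff_isAlgebraic_of_isCoordinate hj
  obtain ⟨u, hu, huP⟩ : ∃ u : FunField M, IsCoordinate QBar u ∧
      u ∈ P.toValuationSubring.nonunits := by
    rcases diff_centre halg P with ⟨c, hc⟩ | h
    · exact ⟨_, glue_isCoordinate_sub hj c, hc⟩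
    · exact ⟨_, glue_isCoordinate_inv hj, h⟩
  obtain ⟨hfin, -⟩ := ff_fundamentalIdentity QBar (FunField M) u hu
  obtain ⟨T, hT⟩ := s37rl_stab u hfin P
  obtain ⟨K0, hK0, hdesc⟩ := s37rl_descent_finset M (insert u T)
  refine ⟨K0, hK0, fun σ hσ => ?_⟩
  have hσ' : ∀ a : ↥K0, σ (a : QBar) = a := fun a => hσ a a.2
  obtain ⟨u1, hu1⟩ := hdesc K0 le_rfl u (Finset.mem_insert_self _ _)
  refine hT _ ?_ ?_ huP
  · rw [← hu1]
    exact s37rl_galois_fix M K0 σ hσ' u1
  · intro t ht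
    obtain ⟨t1, ht1⟩ := hdesc K0 le_rfl t (Finset.mem_insert_of_mem ht)
    rw [← ht1]
    exact s37rl_galois_fix M K0 σ hσ' t1

/-- Finitely many places at once. -/
theorem s29fl_places (S : Finset (Place QBar (FunField M))) :
    ∃ L : IntermediateField ℚ QBar, FiniteDimensional ℚ ↥L ∧
      ∀ σ : QBar ≃ₐ[ℚ] QBar, (∀ a ∈ L, σ a = a) → ∀ P ∈ S,
        arithmeticGalois (modularFunctionFieldFull M) σ • P = P := by
  classical
  induction S using Finset.induction_on with
  | empty => exact ⟨⊥, inferInstance, fun _ _ P hP => absurd hP (Finset.notMem_empty P)⟩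
  | insert a s _ ih =>
    obtain ⟨L0, hL0, h0⟩ := ih
    obtain ⟨La, hLa, ha⟩ := s29fl_place M a
    refine ⟨L0 ⊔ La, IntermediateField.finiteDimensional_sup L0 La, fun σ hσ P hP => ?_⟩
    rcases Finset.mem_insert.mp hP with rfl | hP
    · exact ha σ (fun x hx => hσ x ((le_sup_right : La ≤ L0 ⊔ La) hx))
    · exact h0 σ (fun x hx => hσ x ((le_sup_left : L0 ≤ L0 ⊔ La) hx)) P hP

/-- **[FINLVL], divisors.** -/
theorem s29fl_divisor (D : Divisor QBar (FunField M)) :
    ∃ L : IntermediateField ℚ QBar, FiniteDimensional ℚ ↥L ∧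
      ∀ σ : QBar ≃ₐ[ℚ] QBar, (∀ a ∈ L, σ a = a) →
        arithmeticGalois (modularFunctionFieldFull M) σ • D = D := by
  classical
  obtain ⟨L, hL, h⟩ := s29fl_places M D.support
  refine ⟨L, hL, fun σ hσ => ?_⟩
  rw [SemilinearAut.divisor_smul_def]
  have h1 : Finsupp.mapDomain (fun P : Place QBar (FunField M) =>
      arithmeticGalois (modularFunctionFieldFull M) σ • P) D = Finsupp.mapDomain id D :=
    Finsupp.mapDomain_congr (fun P hP => h σ hσ P hP)
  rw [h1, Finsupp.mapDomain_id]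

/-- **[FINLVL], points of `J₀(M)(Q̄)`.**  Every divisor class is fixed by `Gal(Q̄ / L)` for a
number field `L`. -/
theorem s29fl_point (x : JZero M) :
    ∃ L : IntermediateField ℚ QBar, FiniteDimensional ℚ ↥L ∧
      ∀ σ : QBar ≃ₐ[ℚ] QBar, (∀ a ∈ L, σ a = a) → σ • x = x := by
  obtain ⟨D, rfl⟩ := Pic0.mk_surjective x
  obtain ⟨L, hL, h⟩ := s29fl_divisor M (D : Divisor QBar (FunField M))
  refine ⟨L, hL, fun σ hσ => ?_⟩
  rw [galois_smul_pic0_def, SemilinearAut.pic0_smul_mk]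
  refine congrArg Pic0.mk (Subtype.ext ?_)
  rw [SemilinearAut.coe_degZeroSMulHom]
  exact h σ hσ

/-- **[FINLVL], finitely many points at once.** -/
theorem s29fl_finset (T : Finset (JZero M)) :
    ∃ L : IntermediateField ℚ QBar, FiniteDimensional ℚ ↥L ∧
      ∀ σ : QBar ≃ₐ[ℚ] QBar, (∀ a ∈ L, σ a = a) → ∀ x ∈ T, σ • x = x := by
  classical
  induction T using Finset.induction_on with
  | empty => exact ⟨⊥, inferInstance, fun _ _ x hx => absurd hx (Finset.notMem_empty x)⟩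
  | insert a s _ ih =>
    obtain ⟨L0, hL0, h0⟩ := ih
    obtain ⟨La, hLa, ha⟩ := s29fl_point M a
    refine ⟨L0 ⊔ La, IntermediateField.finiteDimensional_sup L0 La, fun σ hσ x hx => ?_⟩
    rcases Finset.mem_insert.mp hx with rfl | hx
    · exact ha σ (fun y hy => hσ y ((le_sup_right : La ≤ L0 ⊔ La) hy))
    · exact h0 σ (fun y hy => hσ y ((le_sup_left : L0 ≤ L0 ⊔ La) hy)) x hx

/-- The action of `σ` on the points of `T` only depends on the restriction of `σ` to `L`. -/
theorem s29fl_smul_eq_of_eq_on (T : Finset (JZero M)) :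
    ∃ L : IntermediateField ℚ QBar, FiniteDimensional ℚ ↥L ∧
      ∀ σ τ : QBar ≃ₐ[ℚ] QBar, (∀ a ∈ L, σ a = τ a) → ∀ x ∈ T, σ • x = τ • x := by
  obtain ⟨L, hL, h⟩ := s29fl_finset M T
  refine ⟨L, hL, fun σ τ hστ x hx => ?_⟩
  have h1 : (τ⁻¹ * σ) • x = x := by
    refine h (τ⁻¹ * σ) (fun a ha => ?_) x hx
    show τ⁻¹ (σ a) = a
    rw [hστ a ha]
    exact τ.symm_apply_apply a
  calc σ • x = τ • ((τ⁻¹ * σ) • x) := by rw [← mul_smul, mul_inv_cancel_left]
    _ = τ • x := by rw [h1]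

/-- **[FINLVL] with a Galois number field.** -/
theorem s29fl_finset_galois (T : Finset (JZero M)) :
    ∃ L : IntermediateField ℚ QBar, FiniteDimensional ℚ ↥L ∧ IsGalois ℚ ↥L ∧
      ∀ σ : QBar ≃ₐ[ℚ] QBar, (∀ a ∈ L, σ a = a) → ∀ x ∈ T, σ • x = x := by
  obtain ⟨L, hL, h⟩ := s29fl_finset M T
  have hclos : IsAlgClosure ℚ QBar := AlgebraicClosure.instIsAlgClosure ℚ
  have hn : Normal ℚ QBar := IsAlgClosure.normal ℚ QBar
  have h2 : Normal ℚ ↥(IntermediateField.normalClosure ℚ ↥L QBar) :=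
    normalClosure.normal ℚ ↥L QBar
  refine ⟨IntermediateField.normalClosure ℚ ↥L QBar, inferInstance,
    { to_isSeparable := inferInstance, to_normal := h2 }, fun σ hσ x hx => ?_⟩
  exact h σ (fun a ha => hσ a (IntermediateField.le_normalClosure L ha)) x hx

/-- The Galois orbit of a point of `J₀(M)(Q̄)` is finite. -/
theorem s29fl_orbit_finite (x : JZero M) :
    (Set.range fun σ : QBar ≃ₐ[ℚ] QBar => σ • x).Finite := by
  classical
  obtain ⟨L, hL, h⟩ := s29fl_smul_eq_of_eq_on M {x}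
  let r : (QBar ≃ₐ[ℚ] QBar) → (↥L →ₐ[ℚ] QBar) := fun σ => (σ : QBar →ₐ[ℚ] QBar).comp L.val
  let g : (↥L →ₐ[ℚ] QBar) → JZero M := fun φ =>
    if hφ : ∃ σ : QBar ≃ₐ[ℚ] QBar, r σ = φ then hφ.choose • x else 0
  refine (Set.finite_range g).subset ?_
  rintro _ ⟨σ, rfl⟩
  refine ⟨r σ, ?_⟩
  have hex : ∃ τ : QBar ≃ₐ[ℚ] QBar, r τ = r σ := ⟨σ, rfl⟩
  show g (r σ) = σ • x
  simp only [g, dif_pos hex]
  refine h _ _ (fun a ha => ?_) x (Finset.mem_singleton_self x)
  have := congrArg (fun φ : ↥L →ₐ[ℚ] QBar => φ ⟨a, ha⟩) hex.choose_spec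
  exact this

end Fermat.Agent.S29
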