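/-
S29 (K3) [QUAD] (helper18).  Prefix `s29q_`.

From the reduction map of S37 (`s37_RhoStatement`): on the torsion of order prime to `ℓ` of
`J₀(N)(Q̄)`, `ℓ ∤ N`, `A` a valuation ring of `Q̄` over `ℓ`,
* the inertia group of `A` acts trivially                                   (`s29q_inertia`),
* every Frobenius element `σ` at `A` satisfies `σ² - T_ℓ σ + ℓ = 0`         (`s29q_frob`).
-/
import Mathlib
import Fermat.Agent.S37.Defs

set_option autoImplicit false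

open ModularCurve AlgebraicCurve

namespace Fermat.Agent.S29

/-- The Galois action commutes with multiplication by natural numbers. -/
theorem s29q_smul_nsmul (N : ℕ) (σ : AlgebraicClosure ℚ ≃ₐ[ℚ] AlgebraicClosure ℚ) (m : ℕ)
    (x : JZero N) : σ • (m • x) = m • (σ • x) :=
  map_nsmul (DistribSMul.toAddMonoidHom (JZero N) σ) m x

/-- The Galois action preserves torsion. -/
theorem s29q_smul_torsion (N : ℕ) (σ : AlgebraicClosure ℚ ≃ₐ[ℚ] AlgebraicClosure ℚ) {m : ℕ}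
    {x : JZero N} (hx : m • x = 0) : m • (σ • x) = 0 := by
  rw [← s29q_smul_nsmul, hx]
  exact smul_zero (A := JZero N) σ

/-- The Hecke operators preserve torsion. -/
theorem s29q_hecke_torsion (N : ℕ) [NeZero N] (ℓ : Nat.Primes) {m : ℕ}
    {x : JZero N} (hx : m • x = 0) : m • (heckeOperatorBar N ℓ x) = 0 := by
  rw [← map_nsmul, hx, map_zero]

/-- **[QUAD], inertia**: the inertia group at `ℓ ∤ N` acts trivially on the torsion of order prime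
to `ℓ` of `J₀(N)(Q̄)`. -/
theorem s29q_inertia (h : S37.s37_RhoStatement) (N : ℕ) [NeZero N] {ℓ : ℕ} (hℓ : ℓ.Prime)
    (hℓN : ¬ ℓ ∣ N) (A : ValuationSubring (AlgebraicClosure ℚ)) (hA : A.LiesOverPrime ℓ)
    {m : ℕ} (hm : ¬ ℓ ∣ m) {τ : AlgebraicClosure ℚ ≃ₐ[ℚ] AlgebraicClosure ℚ}
    (hτ : τ ∈ A.inertiaSubgroupIn ℚ) (x : JZero N) (hx : m • x = 0) : τ • x = x := by
  obtain ⟨G, _, ρ, Φ, Ψ, h1, -, -, -, h5⟩ := h N ℓ hℓ hℓN A hA
  have h0 : τ • x - x = 0 := by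
    refine h5 m hm _ ?_ ?_
    · rw [nsmul_sub, s29q_smul_torsion N τ hx, hx, sub_zero]
    · rw [map_sub, h1 τ hτ x, sub_self]
  exact sub_eq_zero.mp h0

/-- **[QUAD], Frobenius**: every Frobenius element `σ` at `ℓ ∤ N` satisfies
`σ² - T_ℓ σ + ℓ = 0` on the torsion of order prime to `ℓ` of `J₀(N)(Q̄)`. -/
theorem s29q_frob (h : S37.s37_RhoStatement) (N : ℕ) [NeZero N] {ℓ : ℕ} (hℓ : ℓ.Prime)
    (hℓN : ¬ ℓ ∣ N) (A : ValuationSubring (AlgebraicClosure ℚ)) (hA : A.LiesOverPrime ℓ)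
    {m : ℕ} (hm : ¬ ℓ ∣ m) {σ : AlgebraicClosure ℚ ≃ₐ[ℚ] AlgebraicClosure ℚ}
    (hσ : A.IsFrobeniusAt σ ℓ) (x : JZero N) (hx : m • x = 0) :
    σ • σ • x - heckeOperatorBar N ⟨ℓ, hℓ⟩ (σ • x) + ℓ • x = 0 := by
  obtain ⟨G, _, ρ, Φ, Ψ, -, h2, h3, h4, h5⟩ := h N ℓ hℓ hℓN A hA
  have e1 : m • (σ • σ • x) = 0 := s29q_smul_torsion N σ (s29q_smul_torsion N σ hx)
  have e2 : m • (heckeOperatorBar N ⟨ℓ, hℓ⟩ (σ • x)) = 0 :=
    s29q_hecke_torsion N ⟨ℓ, hℓ⟩ (s29q_smul_torsion N σ hx)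
  have e3 : m • (ℓ • x) = 0 := by rw [← mul_nsmul', mul_nsmul, hx, nsmul_zero]
  have e4 : ρ (heckeOperatorBar N ⟨ℓ, hℓ⟩ (σ • x)) = Φ (Φ (ρ x)) + ℓ • ρ x := by
    rw [h3, h2 σ hσ, h4]
  generalize heckeOperatorBar N ⟨ℓ, hℓ⟩ (σ • x) = y at e2 e4 ⊢
  refine h5 m hm _ ?_ ?_
  · rw [nsmul_add, nsmul_sub, e1, e2, e3, sub_zero, add_zero]
  · rw [map_add, map_sub, h2 σ hσ, h2 σ hσ, e4, map_nsmul]
    abel

end Fermat.Agent.S29
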