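/-
S29 (K3) [QM-OF], ABSTRACT PART (helper18).  Prefix `s29qa_`.

`J` is ANY abelian group with an action of `G_ℚ = Gal(Q̄/ℚ)` (instance: `J₀(N)(Q̄)`), every
element of which has an open stabiliser; `T q` are endomorphisms of `J` commuting with the action.
For a field `K` and `n : ℕ` put `V := K ⊗[ℤ] J[n]`.  If on `J[n]` the inertia groups at the primes
`q ∈ S` act trivially and the Frobenius elements satisfy `σ² - T_q σ + q = 0`, then for every
non-zero common eigenvector `w ∈ V` of the `T_q`, `q ∈ S`, with eigenvalues `e q`, the `K`-span `W`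
of the Galois orbit of `w` is a non-zero finite-dimensional representation of `G_ℚ`, factoring
through a finite level, unramified at `S`, with `σ² - e_q σ + q = 0` for the Frobenius elements.

Everything is done for an abstract `J` so that no instance on `J₀(N)(Q̄)` is ever unfolded.
-/
import Mathlib
import Fermat.Prelude.Def_GaloisRep_Residual

set_option autoImplicit false
set_option linter.unusedSectionVars false
set_option linter.style.haveILetI false

open scoped TensorProduct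

noncomputable section

namespace Fermat.Agent.S29

local notation "GQ" => (AlgebraicClosure ℚ ≃ₐ[ℚ] AlgebraicClosure ℚ)

/-- The `n`-torsion of an abelian group, as a `ℤ`-submodule. -/
abbrev s29qa_tors (J : Type) [AddCommGroup J] (n : ℕ) : Submodule ℤ J :=
  Submodule.torsionBy ℤ J (n : ℤ)

section Abs

variable {J : Type} [AddCommGroup J] [DistribMulAction GQ J]

theorem s29qa_mem_tors {n : ℕ} {x : J} : x ∈ s29qa_tors J n ↔ n • x = 0 := by
  rw [Submodule.mem_torsionBy_iff, natCast_zsmul]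

theorem s29qa_smul_mem (n : ℕ) (σ : GQ) {x : J} (hx : x ∈ s29qa_tors J n) :
    σ • x ∈ s29qa_tors J n := by
  rw [s29qa_mem_tors] at hx ⊢
  have h : σ • (n • x) = n • (σ • x) := map_nsmul (DistribSMul.toAddMonoidHom J σ) n x
  rw [← h, hx, smul_zero]

/-- The action of `σ` as a `ℤ`-linear map. -/
def s29qa_lin (σ : GQ) : J →ₗ[ℤ] J :=
  (DistribSMul.toAddMonoidHom J σ).toIntLinearMap

theorem s29qa_lin_apply (σ : GQ) (x : J) : s29qa_lin σ x = σ • x := rfl

/-- The restriction of an endomorphism of `J` to the `n`-torsion. -/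
def s29qa_res (n : ℕ) (T : Module.End ℤ J) : Module.End ℤ (s29qa_tors J n) :=
  T.restrict (p := s29qa_tors J n) (q := s29qa_tors J n) (fun x hx => by
    rw [Submodule.mem_torsionBy_iff] at hx ⊢
    rw [← map_zsmul, hx, map_zero])

theorem s29qa_coe_res (n : ℕ) (T : Module.End ℤ J) (x : s29qa_tors J n) :
    ((s29qa_res n T x : s29qa_tors J n) : J) = T (x : J) := rfl

/-- The Galois action on the `n`-torsion. -/
def s29qa_gal (n : ℕ) : GQ →* Module.End ℤ (s29qa_tors J n) where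
  toFun σ := (s29qa_lin σ).restrict (p := s29qa_tors J n) (q := s29qa_tors J n)
    (fun _ hx => s29qa_smul_mem n σ hx)
  map_one' := by
    refine LinearMap.ext fun x => Subtype.ext ?_
    show (1 : GQ) • (x : J) = x
    exact one_smul _ _
  map_mul' σ τ := by
    refine LinearMap.ext fun x => Subtype.ext ?_
    show (σ * τ) • (x : J) = σ • τ • (x : J)
    exact mul_smul _ _ _

theorem s29qa_coe_gal (n : ℕ) (σ : GQ) (x : s29qa_tors J n) :
    ((s29qa_gal n σ x : s29qa_tors J n) : J) = σ • (x : J) := rfl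

variable (K : Type) [Field K]

/-- The Galois representation on `K ⊗[ℤ] J[n]`. -/
def s29qa_R (n : ℕ) : GQ →* Module.End K (K ⊗[ℤ] (s29qa_tors J n)) where
  toFun σ := LinearMap.baseChange K (s29qa_gal n σ)
  map_one' := by rw [map_one]; exact LinearMap.baseChange_one ℤ _
  map_mul' σ τ := by rw [map_mul]; exact LinearMap.baseChange_mul _ _

theorem s29qa_R_tmul (n : ℕ) (σ : GQ) (c : K) (x : s29qa_tors J n) :
    s29qa_R (J := J) K n σ (c ⊗ₜ[ℤ] x) = c ⊗ₜ[ℤ] (s29qa_gal n σ x) := rfl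

theorem s29qa_R_mul_apply (n : ℕ) (σ τ : GQ) (v : K ⊗[ℤ] (s29qa_tors J n)) :
    s29qa_R (J := J) K n (σ * τ) v = s29qa_R K n σ (s29qa_R K n τ v) := by
  rw [map_mul]; rfl

theorem s29qa_R_one_apply (n : ℕ) (v : K ⊗[ℤ] (s29qa_tors J n)) :
    s29qa_R (J := J) K n 1 v = v := by
  rw [map_one]; rfl

/-- The base change of the restriction of `T`. -/
def s29qa_T (n : ℕ) (T : Module.End ℤ J) : Module.End K (K ⊗[ℤ] (s29qa_tors J n)) :=
  LinearMap.baseChange K (s29qa_res n T)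

theorem s29qa_T_tmul (n : ℕ) (T : Module.End ℤ J) (c : K) (x : s29qa_tors J n) :
    s29qa_T K n T (c ⊗ₜ[ℤ] x) = c ⊗ₜ[ℤ] (s29qa_res n T x) := rfl

/-- `T` commutes with the Galois action on `K ⊗[ℤ] J[n]`. -/
theorem s29qa_T_R (n : ℕ) (T : Module.End ℤ J) (hT : ∀ (σ : GQ) (x : J), T (σ • x) = σ • T x)
    (σ : GQ) (v : K ⊗[ℤ] (s29qa_tors J n)) :
    s29qa_T K n T (s29qa_R K n σ v) = s29qa_R K n σ (s29qa_T K n T v) := by
  induction v using TensorProduct.induction_on with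
  | zero => simp only [map_zero]
  | tmul c x =>
    have h : s29qa_res n T (s29qa_gal n σ x) = s29qa_gal n σ (s29qa_res n T x) :=
      Subtype.ext (hT σ (x : J))
    simp only [s29qa_R_tmul]
    simp only [s29qa_T_tmul]
    simp only [s29qa_R_tmul]
    rw [h]
  | add v₁ v₂ h₁ h₂ => simp only [map_add, h₁, h₂]

/-- If `τ` acts trivially on `J[n]` then it acts trivially on `K ⊗[ℤ] J[n]`. -/
theorem s29qa_R_eq_one (n : ℕ) {τ : GQ} (h : ∀ x : J, n • x = 0 → τ • x = x) :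
    s29qa_R (J := J) K n τ = 1 := by
  have h1 : s29qa_gal (J := J) n τ = 1 := by
    refine LinearMap.ext fun x => Subtype.ext ?_
    show τ • (x : J) = x
    exact h _ (s29qa_mem_tors.mp x.2)
  show LinearMap.baseChange K (s29qa_gal n τ) = 1
  rw [h1]
  exact LinearMap.baseChange_one ℤ _

/-- The quadratic relation passes from `J[n]` to `K ⊗[ℤ] J[n]`. -/
theorem s29qa_R_quad (n : ℕ) (T : Module.End ℤ J) (m : ℕ) {σ : GQ}
    (h : ∀ x : J, n • x = 0 → σ • σ • x - T (σ • x) + m • x = 0) :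
    s29qa_R K n σ * s29qa_R K n σ - s29qa_T K n T * s29qa_R K n σ
      + (m : K) • (1 : Module.End K (K ⊗[ℤ] (s29qa_tors J n))) = 0 := by
  refine LinearMap.ext fun v => ?_
  rw [LinearMap.zero_apply]
  induction v using TensorProduct.induction_on with
  | zero => exact map_zero _
  | tmul c x =>
    have h1 : s29qa_gal n σ (s29qa_gal n σ x) - s29qa_res n T (s29qa_gal n σ x)
        + (m : ℤ) • x = 0 := by
      refine Subtype.ext ?_
      have := h _ (s29qa_mem_tors.mp x.2)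
      rw [← natCast_zsmul] at this
      exact this
    have h2 : ((m : K) • (c ⊗ₜ[ℤ] x) : K ⊗[ℤ] (s29qa_tors J n)) = c ⊗ₜ[ℤ] ((m : ℤ) • x) := by
      rw [TensorProduct.smul_tmul', ← TensorProduct.smul_tmul, smul_eq_mul, zsmul_eq_mul,
        Int.cast_natCast]
    simp only [LinearMap.add_apply, LinearMap.sub_apply, Module.End.mul_apply,
      LinearMap.smul_apply, Module.End.one_apply]
    simp only [s29qa_R_tmul]
    simp only [s29qa_T_tmul]
    rw [h2, ← TensorProduct.tmul_sub, ← TensorProduct.tmul_add, h1, TensorProduct.tmul_zero]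
  | add v₁ v₂ h₁ h₂ => rw [map_add, h₁, h₂, add_zero]

end Abs

/-! ### Finite level -/

section Level

variable {J : Type} [AddCommGroup J] [DistribMulAction GQ J] (K : Type) [Field K]

/-- Every vector of `K ⊗[ℤ] J[n]` is fixed by `Gal(Q̄/L)` for a number field `L`. -/
theorem s29qa_level (n : ℕ)
    (hlev : ∀ x : J, ∃ L : IntermediateField ℚ (AlgebraicClosure ℚ), FiniteDimensional ℚ L ∧
      ∀ σ : GQ, (∀ a ∈ L, σ a = a) → σ • x = x)
    (w : K ⊗[ℤ] (s29qa_tors J n)) :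
    ∃ L : IntermediateField ℚ (AlgebraicClosure ℚ), FiniteDimensional ℚ L ∧
      ∀ σ : GQ, (∀ a ∈ L, σ a = a) → s29qa_R K n σ w = w := by
  induction w using TensorProduct.induction_on with
  | zero => exact ⟨⊥, inferInstance, fun σ _ => map_zero _⟩
  | tmul c x =>
    obtain ⟨L, hL, h⟩ := hlev (x : J)
    refine ⟨L, hL, fun σ hσ => ?_⟩
    have hx : s29qa_gal n σ x = x := Subtype.ext (h σ hσ)
    simp only [s29qa_R_tmul]
    rw [hx]
  | add v₁ v₂ h₁ h₂ =>
    obtain ⟨L₁, hL₁, k₁⟩ := h₁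
    obtain ⟨L₂, hL₂, k₂⟩ := h₂
    refine ⟨L₁ ⊔ L₂, IntermediateField.finiteDimensional_sup L₁ L₂, fun σ hσ => ?_⟩
    rw [map_add, k₁ σ (fun a ha => hσ a ((le_sup_left : L₁ ≤ L₁ ⊔ L₂) ha)),
      k₂ σ (fun a ha => hσ a ((le_sup_right : L₂ ≤ L₁ ⊔ L₂) ha))]

/-- The same with `L` stable under `G_ℚ` (i.e. normal over `ℚ`). -/
theorem s29qa_level_galois (n : ℕ)
    (hlev : ∀ x : J, ∃ L : IntermediateField ℚ (AlgebraicClosure ℚ), FiniteDimensional ℚ L ∧
      ∀ σ : GQ, (∀ a ∈ L, σ a = a) → σ • x = x)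
    (w : K ⊗[ℤ] (s29qa_tors J n)) :
    ∃ L : IntermediateField ℚ (AlgebraicClosure ℚ), FiniteDimensional ℚ L ∧
      (∀ (τ : GQ) (a : AlgebraicClosure ℚ), a ∈ L → τ a ∈ L) ∧
      ∀ σ : GQ, (∀ a ∈ L, σ a = a) → s29qa_R K n σ w = w := by
  obtain ⟨L, hL, h⟩ := s29qa_level K n hlev w
  have hclos : IsAlgClosure ℚ (AlgebraicClosure ℚ) := AlgebraicClosure.instIsAlgClosure ℚ
  have hn : Normal ℚ (AlgebraicClosure ℚ) := IsAlgClosure.normal ℚ (AlgebraicClosure ℚ)
  haveI h2 : Normal ℚ ↥(IntermediateField.normalClosure ℚ ↥L (AlgebraicClosure ℚ)) :=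
    normalClosure.normal ℚ ↥L (AlgebraicClosure ℚ)
  refine ⟨IntermediateField.normalClosure ℚ ↥L (AlgebraicClosure ℚ), inferInstance, ?_,
    fun σ hσ => h σ (fun a ha => hσ a (IntermediateField.le_normalClosure L ha))⟩
  intro τ a ha
  have := AlgEquiv.restrictNormal_apply
    (IntermediateField.normalClosure ℚ ↥L (AlgebraicClosure ℚ)) τ ⟨a, ha⟩
  rw [← this]
  exact (AlgEquiv.restrictNormal τ
    (IntermediateField.normalClosure ℚ ↥L (AlgebraicClosure ℚ)) ⟨a, ha⟩).2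

/-- The action on `w` only depends on the restriction to `L`. -/
theorem s29qa_eq_of_eq_on (n : ℕ) {L : IntermediateField ℚ (AlgebraicClosure ℚ)}
    {w : K ⊗[ℤ] (s29qa_tors J n)}
    (h : ∀ σ : GQ, (∀ a ∈ L, σ a = a) → s29qa_R K n σ w = w)
    {σ τ : GQ} (hστ : ∀ a ∈ L, σ a = τ a) : s29qa_R K n σ w = s29qa_R K n τ w := by
  have h1 : s29qa_R K n (τ⁻¹ * σ) w = w := by
    refine h (τ⁻¹ * σ) (fun a ha => ?_)
    show τ⁻¹ (σ a) = a
    rw [hστ a ha]
    exact τ.symm_apply_apply a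
  calc s29qa_R K n σ w = s29qa_R K n (τ * (τ⁻¹ * σ)) w := by rw [mul_inv_cancel_left]
    _ = s29qa_R K n τ (s29qa_R K n (τ⁻¹ * σ) w) := s29qa_R_mul_apply K n _ _ _
    _ = s29qa_R K n τ w := by rw [h1]

/-- The Galois orbit of a vector of `K ⊗[ℤ] J[n]` is finite. -/
theorem s29qa_orbit_finite (n : ℕ) {L : IntermediateField ℚ (AlgebraicClosure ℚ)}
    [FiniteDimensional ℚ L] {w : K ⊗[ℤ] (s29qa_tors J n)}
    (h : ∀ σ : GQ, (∀ a ∈ L, σ a = a) → s29qa_R K n σ w = w) :
    (Set.range fun σ : GQ => s29qa_R K n σ w).Finite := by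
  classical
  let r : GQ → (↥L →ₐ[ℚ] AlgebraicClosure ℚ) :=
    fun σ => (σ : AlgebraicClosure ℚ →ₐ[ℚ] AlgebraicClosure ℚ).comp L.val
  let g : (↥L →ₐ[ℚ] AlgebraicClosure ℚ) → K ⊗[ℤ] (s29qa_tors J n) := fun φ =>
    if hφ : ∃ σ : GQ, r σ = φ then s29qa_R K n hφ.choose w else 0
  refine (Set.finite_range g).subset ?_
  rintro _ ⟨σ, rfl⟩
  refine ⟨r σ, ?_⟩
  have hex : ∃ τ : GQ, r τ = r σ := ⟨σ, rfl⟩
  show g (r σ) = s29qa_R K n σ w
  simp only [g, dif_pos hex]
  refine s29qa_eq_of_eq_on K n h (fun a ha => ?_)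
  have := congrArg (fun φ : ↥L →ₐ[ℚ] AlgebraicClosure ℚ => φ ⟨a, ha⟩) hex.choose_spec
  exact this

end Level

/-! ### The span of the Galois orbit of an eigenvector -/

section Main

variable {J : Type} [AddCommGroup J] [DistribMulAction GQ J] (K : Type) [Field K]

/-- The `K`-span of the Galois orbit of `w`. -/
def s29qa_W (n : ℕ) (w : K ⊗[ℤ] (s29qa_tors J n)) :
    Submodule K (K ⊗[ℤ] (s29qa_tors J n)) :=
  Submodule.span K (Set.range fun σ : GQ => s29qa_R K n σ w)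

theorem s29qa_mem_W (n : ℕ) (w : K ⊗[ℤ] (s29qa_tors J n)) : w ∈ s29qa_W K n w :=
  Submodule.subset_span ⟨1, s29qa_R_one_apply K n w⟩

theorem s29qa_R_mem_W (n : ℕ) (w : K ⊗[ℤ] (s29qa_tors J n)) (τ : GQ)
    {v : K ⊗[ℤ] (s29qa_tors J n)} (hv : v ∈ s29qa_W K n w) :
    s29qa_R K n τ v ∈ s29qa_W K n w := by
  induction hv using Submodule.span_induction with
  | mem x hx =>
    obtain ⟨σ, rfl⟩ := hx
    show s29qa_R K n τ (s29qa_R K n σ w) ∈ _
    rw [← s29qa_R_mul_apply]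
    exact Submodule.subset_span ⟨τ * σ, rfl⟩
  | zero => rw [map_zero]; exact zero_mem _
  | add x y _ _ hx hy => rw [map_add]; exact add_mem hx hy
  | smul c x _ hx => rw [map_smul]; exact Submodule.smul_mem _ c hx

/-- The Galois representation on the span of the orbit of `w`. -/
def s29qa_r (n : ℕ) (w : K ⊗[ℤ] (s29qa_tors J n)) : GQ →* Module.End K (s29qa_W K n w) where
  toFun σ := (s29qa_R K n σ).restrict (p := s29qa_W K n w) (q := s29qa_W K n w)
    (fun _ hv => s29qa_R_mem_W K n w σ hv)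
  map_one' := LinearMap.ext fun v => Subtype.ext (s29qa_R_one_apply K n v.1)
  map_mul' σ τ := LinearMap.ext fun v => Subtype.ext (s29qa_R_mul_apply K n σ τ v.1)

theorem s29qa_coe_r (n : ℕ) (w : K ⊗[ℤ] (s29qa_tors J n)) (σ : GQ) (v : s29qa_W K n w) :
    ((s29qa_r K n w σ v : s29qa_W K n w) : K ⊗[ℤ] (s29qa_tors J n)) = s29qa_R K n σ v := rfl

theorem s29qa_finiteDimensional (n : ℕ) {L : IntermediateField ℚ (AlgebraicClosure ℚ)}
    [FiniteDimensional ℚ L] {w : K ⊗[ℤ] (s29qa_tors J n)}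
    (h : ∀ σ : GQ, (∀ a ∈ L, σ a = a) → s29qa_R K n σ w = w) :
    FiniteDimensional K (s29qa_W K n w) :=
  FiniteDimensional.span_of_finite K (s29qa_orbit_finite K n h)

theorem s29qa_nontrivial (n : ℕ) {w : K ⊗[ℤ] (s29qa_tors J n)} (hw : w ≠ 0) :
    Nontrivial (s29qa_W K n w) :=
  ⟨⟨⟨w, s29qa_mem_W K n w⟩, 0, fun h => hw (congrArg Subtype.val h)⟩⟩

/-- `Gal(Q̄/L)` acts trivially on the span of the orbit of `w` if `L` is normal and
`Gal(Q̄/L)` fixes `w`. -/
theorem s29qa_r_eq_one (n : ℕ) {L : IntermediateField ℚ (AlgebraicClosure ℚ)}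
    (hmem : ∀ (τ : GQ) (a : AlgebraicClosure ℚ), a ∈ L → τ a ∈ L)
    {w : K ⊗[ℤ] (s29qa_tors J n)}
    (h : ∀ σ : GQ, (∀ a ∈ L, σ a = a) → s29qa_R K n σ w = w)
    {σ : GQ} (hσ : ∀ a ∈ L, σ a = a) : s29qa_r K n w σ = 1 := by
  refine LinearMap.ext fun v => Subtype.ext ?_
  show s29qa_R K n σ (v : K ⊗[ℤ] (s29qa_tors J n)) = v
  obtain ⟨v, hv⟩ := v
  show s29qa_R K n σ v = v
  induction hv using Submodule.span_induction with
  | mem x hx =>
    obtain ⟨τ, rfl⟩ := hx
    show s29qa_R K n σ (s29qa_R K n τ w) = s29qa_R K n τ w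
    have h1 : s29qa_R K n (τ⁻¹ * σ * τ) w = w := by
      refine h _ (fun a ha => ?_)
      show τ⁻¹ (σ (τ a)) = a
      rw [hσ _ (hmem τ a ha)]
      exact τ.symm_apply_apply a
    calc s29qa_R K n σ (s29qa_R K n τ w) = s29qa_R K n (σ * τ) w :=
          (s29qa_R_mul_apply K n σ τ w).symm
      _ = s29qa_R K n (τ * (τ⁻¹ * σ * τ)) w := by
          rw [mul_assoc, mul_inv_cancel_left]
      _ = s29qa_R K n τ (s29qa_R K n (τ⁻¹ * σ * τ) w) := s29qa_R_mul_apply K n _ _ _
      _ = s29qa_R K n τ w := by rw [h1]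
  | zero => exact map_zero _
  | add x y _ _ hx hy => rw [map_add, hx, hy]
  | smul c x _ hx => rw [map_smul, hx]

/-- The eigenvector property spreads over the span of the orbit. -/
theorem s29qa_T_eq_smul (n : ℕ) (T : Module.End ℤ J)
    (hT : ∀ (σ : GQ) (x : J), T (σ • x) = σ • T x) (e : K)
    {w : K ⊗[ℤ] (s29qa_tors J n)} (hw : s29qa_T K n T w = e • w)
    {v : K ⊗[ℤ] (s29qa_tors J n)} (hv : v ∈ s29qa_W K n w) :
    s29qa_T K n T v = e • v := by
  induction hv using Submodule.span_induction with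
  | mem x hx =>
    obtain ⟨σ, rfl⟩ := hx
    show s29qa_T K n T (s29qa_R K n σ w) = e • s29qa_R K n σ w
    rw [s29qa_T_R K n T hT, hw, map_smul]
  | zero => rw [map_zero, smul_zero]
  | add x y _ _ hx hy => rw [map_add, hx, hy, smul_add]
  | smul c x _ hx => rw [map_smul, hx, smul_comm]

/-- The quadratic relation on the span of the orbit of an eigenvector. -/
theorem s29qa_r_quad (n : ℕ) (T : Module.End ℤ J)
    (hT : ∀ (σ : GQ) (x : J), T (σ • x) = σ • T x) (e : K)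
    {w : K ⊗[ℤ] (s29qa_tors J n)} (hw : s29qa_T K n T w = e • w) (m : ℕ) {σ : GQ}
    (h : ∀ x : J, n • x = 0 → σ • σ • x - T (σ • x) + m • x = 0) :
    s29qa_r K n w σ * s29qa_r K n w σ - e • s29qa_r K n w σ
      + (m : K) • (1 : Module.End K (s29qa_W K n w)) = 0 := by
  refine LinearMap.ext fun v => Subtype.ext ?_
  have h1 := LinearMap.congr_fun (s29qa_R_quad K n T m h) (v : K ⊗[ℤ] (s29qa_tors J n))
  simp only [LinearMap.add_apply, LinearMap.sub_apply, Module.End.mul_apply,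
    LinearMap.smul_apply, Module.End.one_apply, LinearMap.zero_apply] at h1
  rw [s29qa_T_eq_smul K n T hT e hw (s29qa_R_mem_W K n w σ v.2)] at h1
  simp only [LinearMap.add_apply, LinearMap.sub_apply, Module.End.mul_apply,
    LinearMap.smul_apply, Module.End.one_apply, LinearMap.zero_apply, Submodule.coe_add,
    Submodule.coe_sub, Submodule.coe_smul, s29qa_coe_r, Submodule.coe_zero]
  exact h1

/-- **The abstract form of [QM-OF]**. -/
theorem s29qa_main {J : Type} [AddCommGroup J] [DistribMulAction GQ J] (K : Type) [Field K]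
    (n : ℕ)
    (hlev : ∀ x : J, ∃ L : IntermediateField ℚ (AlgebraicClosure ℚ), FiniteDimensional ℚ L ∧
      ∀ σ : GQ, (∀ a ∈ L, σ a = a) → σ • x = x)
    (T : Nat.Primes → Module.End ℤ J)
    (hT : ∀ (q : Nat.Primes) (σ : GQ) (x : J), T q (σ • x) = σ • T q x)
    (S : Nat.Primes → Prop)
    (hin : ∀ q : Nat.Primes, S q → ∀ A : ValuationSubring (AlgebraicClosure ℚ),
      A.LiesOverPrime (q : ℕ) → ∀ τ ∈ A.inertiaSubgroupIn ℚ, ∀ x : J, n • x = 0 → τ • x = x)
    (hfr : ∀ q : Nat.Primes, S q → ∀ A : ValuationSubring (AlgebraicClosure ℚ),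
      A.LiesOverPrime (q : ℕ) → ∀ σ : GQ, A.IsFrobeniusAt σ (q : ℕ) →
        ∀ x : J, n • x = 0 → σ • σ • x - T q (σ • x) + (q : ℕ) • x = 0)
    (e : Nat.Primes → K)
    (w : K ⊗[ℤ] (s29qa_tors J n)) (hw0 : w ≠ 0)
    (hw : ∀ q : Nat.Primes, S q → LinearMap.baseChange K (s29qa_res n (T q)) w = e q • w) :
    ∃ (W : Type) (_ : AddCommGroup W) (_ : Module K W) (_ : FiniteDimensional K W)
      (_ : Nontrivial W) (r : GQ →* Module.End K W),
      GaloisFactorsThroughFiniteLevel r ∧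
      (∀ q : Nat.Primes, S q → ∀ A : ValuationSubring (AlgebraicClosure ℚ),
        A.LiesOverPrime (q : ℕ) → ∀ σ ∈ A.inertiaSubgroupIn ℚ, r σ = 1) ∧
      (∀ q : Nat.Primes, S q → ∀ A : ValuationSubring (AlgebraicClosure ℚ),
        A.LiesOverPrime (q : ℕ) → ∀ σ : GQ, A.IsFrobeniusAt σ (q : ℕ) →
          r σ * r σ - e q • r σ + ((q : ℕ) : K) • (1 : Module.End K W) = 0) := by
  obtain ⟨L, hL, hmem, h⟩ := s29qa_level_galois K n hlev w
  refine ⟨↥(s29qa_W K n w), inferInstance, inferInstance, s29qa_finiteDimensional K n h,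
    s29qa_nontrivial K n hw0, s29qa_r K n w, ⟨L, hL, fun σ hσ => s29qa_r_eq_one K n hmem h hσ⟩,
    ?_, ?_⟩
  · intro q hq A hA σ hσ
    refine LinearMap.ext fun v => Subtype.ext ?_
    show s29qa_R K n σ (v : K ⊗[ℤ] (s29qa_tors J n)) = v
    rw [s29qa_R_eq_one K n (hin q hq A hA σ hσ)]
    rfl
  · intro q hq A hA σ hσ
    exact s29qa_r_quad K n (T q) (hT q) (e q) (hw q hq) (q : ℕ) (hfr q hq A hA σ hσ)

end Main

end Fermat.Agent.S29
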