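/-
S29 (K3) [HG] (helper18).  Prefix `s29q_`.

The Hecke operators `T_ℓ` on `J₀(N)(Q̄)` (Prelude: `heckeOperatorBar`, the correspondence
"pull back along `β : q ↦ q^ℓ`, push forward along the inclusion `α`") commute with the Galois
action: both degeneracy maps are intertwined by the coefficientwise actions.
Uses helper12's generic equivariance of pull-back and push-forward (S37/DescGal.lean).
-/
import Mathlib
import Fermat.Prelude.Def_ModularCurve_HeckeModule
import Fermat.Prelude.Thm_ModularCurve_coeffMap_qExpand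
import Fermat.Agent.S37.DescGalMod

set_option autoImplicit false

open ModularCurve AlgebraicCurve

namespace Fermat.Agent.S29

section Generic

variable {L : Type*} [Field L] [Algebra ℚ L] (N ℓ : ℕ) [NeZero N] [NeZero ℓ]

/-- `α` (the inclusion) is intertwined by the coefficientwise Galois actions. -/
theorem s29q_alpha_intertwines (σ : L ≃ₐ[ℚ] L) :
    SemilinearAut.IntertwinesAlong (heckeAlphaBar L N ℓ).toRingHom
      (arithmeticGalois (modularFunctionFieldFull N) σ)
      (arithmeticGalois (modularFunctionFieldFull (N * ℓ)) σ) :=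
  S37.s37dg_incl_intertwines (dvd_mul_right N ℓ) σ

/-- `β` (`q ↦ q^ℓ`) is intertwined by the coefficientwise Galois actions. -/
theorem s29q_beta_intertwines (σ : L ≃ₐ[ℚ] L) :
    SemilinearAut.IntertwinesAlong (heckeBetaBar L N ℓ).toRingHom
      (arithmeticGalois (modularFunctionFieldFull N) σ)
      (arithmeticGalois (modularFunctionFieldFull (N * ℓ)) σ) := by
  intro x
  apply Subtype.ext
  show ((arithmeticGalois (modularFunctionFieldFull (N * ℓ)) σ • (heckeBetaBar L N ℓ x) :
      laurentBaseChange L (modularFunctionFieldFull (N * ℓ))) : LaurentSeries L) =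
    ((heckeBetaBar L N ℓ (arithmeticGalois (modularFunctionFieldFull N) σ • x) :
      laurentBaseChange L (modularFunctionFieldFull (N * ℓ))) : LaurentSeries L)
  rw [coe_arithmeticGalois_smul, coe_heckeBetaBar, coe_heckeBetaBar, coe_arithmeticGalois_smul,
    coeffMap_qExpand]

/-- The Hecke correspondence on divisors commutes with the Galois action. -/
theorem s29q_heckeDiv_smul (hα : HeckeAlphaBarIntegral L N ℓ) (hβ : HeckeBetaBarIntegral L N ℓ)
    [HasPrincipalDivisors L (laurentBaseChange L (modularFunctionFieldFull (N * ℓ)))]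
    (σ : L ≃ₐ[ℚ] L) (D : Divisor L (laurentBaseChange L (modularFunctionFieldFull N))) :
    Divisor.correspondence (heckeBetaBar L N ℓ) (heckeAlphaBar L N ℓ) hβ hα
        (arithmeticGalois (modularFunctionFieldFull N) σ • D) =
      arithmeticGalois (modularFunctionFieldFull N) σ •
        Divisor.correspondence (heckeBetaBar L N ℓ) (heckeAlphaBar L N ℓ) hβ hα D := by
  rw [Divisor.correspondence_apply, Divisor.correspondence_apply,
    S37.s37dg_pullbackAlong_smul (heckeBetaBar L N ℓ) hβ (s29q_beta_intertwines N ℓ σ),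
    S37.s37dg_pushforwardAlong_smul (heckeAlphaBar L N ℓ) hα (s29q_alpha_intertwines N ℓ σ)]

/-- The Hecke correspondence on `Pic⁰` commutes with the Galois action. -/
theorem s29q_heckePic_smul (hα : HeckeAlphaBarIntegral L N ℓ) (hβ : HeckeBetaBarIntegral L N ℓ)
    [HasPrincipalDivisors L (laurentBaseChange L (modularFunctionFieldFull (N * ℓ)))]
    (hFI : FundamentalIdentityAlong L (heckeBetaBar L N ℓ) hβ)
    (hfin : FiniteAlong L (heckeAlphaBar L N ℓ))
    (hN : NormFormulaAlong L (heckeAlphaBar L N ℓ) hfin)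
    (σ : L ≃ₐ[ℚ] L) (x : Pic0 L (laurentBaseChange L (modularFunctionFieldFull N))) :
    Pic0.correspondence (heckeBetaBar L N ℓ) (heckeAlphaBar L N ℓ) hβ hα hFI hfin hN
        (arithmeticGalois (modularFunctionFieldFull N) σ • x) =
      arithmeticGalois (modularFunctionFieldFull N) σ •
        Pic0.correspondence (heckeBetaBar L N ℓ) (heckeAlphaBar L N ℓ) hβ hα hFI hfin hN x := by
  obtain ⟨D, rfl⟩ := Pic0.mk_surjective x
  rw [SemilinearAut.pic0_smul_mk, Pic0.correspondence_mk, Pic0.correspondence_mk,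
    SemilinearAut.pic0_smul_mk]
  refine congrArg Pic0.mk (Subtype.ext ?_)
  rw [Pic0.coe_degZeroCorrespondence, SemilinearAut.coe_degZeroSMulHom,
    SemilinearAut.coe_degZeroSMulHom, Pic0.coe_degZeroCorrespondence]
  exact s29q_heckeDiv_smul N ℓ hα hβ σ D.1

/-- The Hecke operator on `Pic⁰` commutes with the Galois action (any field `L ⊇ ℚ`). -/
theorem s29q_heckeAlong_smul (σ : L ≃ₐ[ℚ] L)
    (x : Pic0 L (laurentBaseChange L (modularFunctionFieldFull N))) :
    heckeOperatorAlong L N ℓ (σ • x) = σ • heckeOperatorAlong L N ℓ x := by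
  by_cases h : HeckeInputsAlong L N ℓ
  · obtain ⟨hα, hβ, hP, hfin, hFI, hN⟩ := h
    rw [heckeOperatorAlong_eq hα hβ hFI hfin hN]
    exact s29q_heckePic_smul N ℓ hα hβ hFI hfin hN σ x
  · rw [heckeOperatorAlong_of_not h, AddMonoidHom.zero_apply, AddMonoidHom.zero_apply]
    exact (smul_zero (A := Pic0 L (laurentBaseChange L (modularFunctionFieldFull N))) σ).symm

end Generic

/-- **[HG]** the Hecke operators on `J₀(N)(Q̄)` commute with the Galois action. -/
theorem s29q_hecke_smul (N : ℕ) [NeZero N] (ℓ : Nat.Primes)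
    (σ : AlgebraicClosure ℚ ≃ₐ[ℚ] AlgebraicClosure ℚ) (x : JZero N) :
    heckeOperatorBar N ℓ (σ • x) = σ • heckeOperatorBar N ℓ x := by
  haveI : NeZero (ℓ : ℕ) := ⟨ℓ.2.ne_zero⟩
  rw [heckeOperatorBar_apply, heckeOperatorBar_apply]
  exact s29q_heckeAlong_smul N (ℓ : ℕ) σ x

end Fermat.Agent.S29
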