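/-
S29 (K3) [QM-OF] (helper18).  Prefix `s29q_`.

  `s29q_qm_of : S37.s37_RhoStatement → s29_EigStatement → s29_QuadModuleStatement`

[QM] from [EIG] and the reduction map of S37: the abstract theorem `s29qa_main` (QuadAbs.lean) for
`J := J₀(N)(Q̄)`, `n := p`, `T := heckeOperatorBar N`, with
* the open stabilisers from helper16's `s29fl_point` (FinLevel.lean),
* Hecke/Galois commutation `s29q_hecke_smul` (QuadHG.lean),
* trivial inertia and the Eichler-Shimura relation on `J[p]`: `s29q_inertia`, `s29q_frob` (Quad.lean).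
-/
import Mathlib
import Fermat.Agent.S29.Defs
import Fermat.Agent.S29.QuadDefs
import Fermat.Agent.S29.Quad
import Fermat.Agent.S29.QuadHG
import Fermat.Agent.S29.QuadAbs
import Fermat.Agent.S29.FinLevel

set_option autoImplicit false

open ModularCurve AlgebraicCurve

open scoped TensorProduct

noncomputable section

namespace Fermat.Agent.S29

/-- The restricted Hecke operator of `QuadDefs.lean` is the abstract restriction. -/
theorem s29q_heckeTors_eq (N n : ℕ) [NeZero N] (q : Nat.Primes) :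
    s29q_heckeTors N n q = s29qa_res n (heckeOperatorBar N q) := rfl

/-- **[QM-OF]**: the quadratic Galois module from a Hecke eigenvector in `K ⊗ J₀(N)(Q̄)[p]`. -/
theorem s29q_qm_of (h : S37.s37_RhoStatement) (hE : s29_EigStatement) :
    s29_QuadModuleStatement := by
  intro N _ g hg p hp K _ _ _ φ
  classical
  obtain ⟨w, hw0, hw⟩ := hE N g hg p hp K φ
  have hex : ∀ q : Nat.Primes, ¬ (q : ℕ) ∣ N * p →
      ∃ a : integralClosure ℤ ℂ, (a : ℂ) = ModularFormClass.qCoeff g (q : ℕ) ∧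
        LinearMap.baseChange K (s29q_heckeTors N p q) w = φ a • w :=
    fun q hq => hw (q : ℕ) q.2 hq
  let a : Nat.Primes → integralClosure ℤ ℂ := fun q =>
    if hq : ¬ (q : ℕ) ∣ N * p then (hex q hq).choose else 0
  have ha : ∀ (q : Nat.Primes) (hq : ¬ (q : ℕ) ∣ N * p),
      ((a q : integralClosure ℤ ℂ) : ℂ) = ModularFormClass.qCoeff g (q : ℕ) ∧
        LinearMap.baseChange K (s29q_heckeTors N p q) w = φ (a q) • w := by
    intro q hq
    have := (hex q hq).choose_spec
    simp only [a, dif_pos hq]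
    exact this
  obtain ⟨W, i1, i2, i3, i4, r, h1, h2, h3⟩ :=
    s29qa_main (J := JZero N) K p (s29fl_point N) (heckeOperatorBar N) (s29q_hecke_smul N)
      (fun q => ¬ (q : ℕ) ∣ N * p)
      (fun q hq A hA τ hτ x hx =>
        s29q_inertia h N q.2 (fun hd => hq (Dvd.dvd.mul_right hd p)) A hA
          (fun hd => hq (Dvd.dvd.mul_left hd N)) hτ x hx)
      (fun q hq A hA σ hσ x hx =>
        s29q_frob h N q.2 (fun hd => hq (Dvd.dvd.mul_right hd p)) A hA
          (fun hd => hq (Dvd.dvd.mul_left hd N)) hσ x hx)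
      (fun q => φ (a q)) w hw0 (fun q hq => (ha q hq).2)
  exact ⟨W, i1, i2, i3, i4, r, h1,
    fun ℓ hℓ hℓNp A hA σ hσ => h2 ⟨ℓ, hℓ⟩ hℓNp A hA σ hσ,
    fun ℓ hℓ hℓNp A hA σ hσ =>
      ⟨a ⟨ℓ, hℓ⟩, (ha ⟨ℓ, hℓ⟩ hℓNp).1, h3 ⟨ℓ, hℓ⟩ hℓNp A hA σ hσ⟩⟩

example : S37.s37_RhoStatement → s29_EigStatement → s29_QuadModuleStatement := s29q_qm_of

end Fermat.Agent.S29
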