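/-
S29 / S42 (architect: helper9).  Prefix `s29_`.  THE FINAL PLUG.

  [QM]  `s29_qm_main : s29_QuadModuleStatement`
        := (Q3) `s29q_qm_of` (helper18)  applied to  `S37.s37_rho_main` (lead's S37) and
           [EIG] `s29eo_eig_of_kum` (helper2; [LAT] helper2/7/11/3) of [KUM] `s29k_main` (helper26;
           [K-DIV] helper22, [K-UNIQ] helper7, [K-MUL] helper5, [K-TRIV] helper29, [K-HECKE] helper14 +
           helper4, [ROOT-FIN] helper23 + helper17, [DESC] helper28 + helper12 + helper16 + helper27 +
           helper21, [EIS] helper15, [KAN] helper4).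
  S29 = `s29_goal_main`,  S42 = `s29_s42_main`   (composition `Asm.lean`: [FD] helper5's package,
        [CYC] helper10, [FIN] helper8, (W2) helper10, [BLR-ALG] helper9).
-/
import Fermat.Agent.S37
import Fermat.Agent.S29.Asm
import Fermat.Agent.S29.QuadMod
import Fermat.Agent.S29.EigOfMain
import Fermat.Agent.S29.KumFinal

set_option autoImplicit false

namespace Fermat.Agent.S29

/-- **[QM]** closed. -/
theorem s29_qm_main : s29_QuadModuleStatement :=
  s29q_qm_of S37.s37_rho_main (s29eo_eig_of_kum s29k_main)

/-- **[CORE]** closed. -/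
theorem s29_core_main : s29_CoreStatement := s29_core_of_qm s29_qm_main

/-- S29, as a `Prop`. -/
theorem s29_goal_main : s29_Goal := s29_goal_of_qm s29_qm_main

/-- S42. -/
theorem s29_s42_main (P : FreyPackage) (M : ℕ) (hM : 0 < M) :
    P.EigenformResidualAttachmentAt M :=
  s29_s42_of_qm s29_qm_main P M hM

end Fermat.Agent.S29
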