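/-
S29 [DESC-HECKE] (helper12), the INSTANCE: the base change `Pic⁰(F_K(N)) → Pic⁰(F_L(N))`
commutes with the Hecke operators, given the abstract compatibility of correspondences with the
extension of places (`s29bc_CorrStatement`, helper21's abstract part).  Prefix `s29bc_`.

* `s29bc_alpha_comm`, `s29bc_beta_comm`: the degeneracy maps commute with the coefficientwise
  embedding `ι`;
* `s29bc_hecke_eq`: `heckeOperatorAlong L N ℓ` is the correspondence `α_* ∘ β^*`;
* `s29bc_hecke_of`, `s29bc_heckeBar_of`: the Hecke compatibility of `s29bc_bc`.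
-/
import Mathlib
import Fermat.Prelude.Def_ModularCurve_HeckeModule
import Fermat.Prelude.Thm_ModularCurve_coeffMap_qExpand
import Fermat.Agent.S29.DescBcInst

set_option autoImplicit false
set_option linter.unusedSectionVars false
set_option linter.unusedVariables false
set_option linter.style.haveILetI false

noncomputable section

namespace Fermat.Agent.S29

open AlgebraicCurve ModularCurve Fermat.Agent.S18 Fermat.Agent.S24

/-- **[DESC-HECKE-ABS]** correspondences commute with the base change of divisor classes. -/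
def s29bc_CorrStatement : Prop :=
  ∀ (K F F₁ K' F' F₁' : Type) [Field K] [Field F] [Field F₁] [Algebra K F] [Algebra K F₁]
    [Field K'] [Field F'] [Field F₁'] [Algebra K' F'] [Algebra K' F₁']
    [HasPrincipalDivisors K F₁] [HasPrincipalDivisors K' F₁']
    (ι : F →+* F') (ι₁ : F₁ →+* F₁')
    (ext : Place K F → Place K' F') (ext₁ : Place K F₁ → Place K' F₁')
    (h : s29bc_IsExt ι ext) (_ : s29bc_IsExt ι₁ ext₁)
    (_ : ∀ P : Place K F, P.deg = 1) (_ : ∀ P : Place K F₁, P.deg = 1)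
    (_ : ∀ P : Place K' F', P.deg = 1) (_ : ∀ P : Place K' F₁', P.deg = 1)
    (φ ψ : F →ₐ[K] F₁) (φ' ψ' : F' →ₐ[K'] F₁')
    (_ : ∀ f, φ' (ι f) = ι₁ (φ f)) (_ : ∀ f, ψ' (ι f) = ι₁ (ψ f))
    (hφ : φ.toRingHom.IsIntegral) (hψ : ψ.toRingHom.IsIntegral)
    (hφ' : φ'.toRingHom.IsIntegral) (hψ' : ψ'.toRingHom.IsIntegral)
    (hFI : FundamentalIdentityAlong K φ hφ) (hfin : FiniteAlong K ψ)
    (hN : NormFormulaAlong K ψ hfin)
    (hFI' : FundamentalIdentityAlong K' φ' hφ') (hfin' : FiniteAlong K' ψ')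
    (hN' : NormFormulaAlong K' ψ' hfin') (x : Pic0 K F),
    s29bc_pic h (Pic0.correspondence φ ψ hφ hψ hFI hfin hN x) =
      Pic0.correspondence φ' ψ' hφ' hψ' hFI' hfin' hN' (s29bc_pic h x)

section Comm

variable (K L : Type) [Field K] [Algebra ℚ K] [Field L] [Algebra ℚ L] [Algebra K L]
  (N ℓ : ℕ) [NeZero N] [NeZero ℓ]

/-- `α` (the inclusion) commutes with the coefficientwise embedding. -/
theorem s29bc_alpha_comm (f : ↥(laurentBaseChange K (modularFunctionFieldFull N))) :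
    heckeAlphaBar L N ℓ (s18cfe_iota K L (modularFunctionFieldFull N) f) =
      s18cfe_iota K L (modularFunctionFieldFull (N * ℓ)) (heckeAlphaBar K N ℓ f) := by
  apply Subtype.ext
  rw [coe_heckeAlphaBar, s18cfe_iota_coe, s18cfe_iota_coe, coe_heckeAlphaBar]

/-- `β` (`q ↦ q^ℓ`) commutes with the coefficientwise embedding. -/
theorem s29bc_beta_comm (f : ↥(laurentBaseChange K (modularFunctionFieldFull N))) :
    heckeBetaBar L N ℓ (s18cfe_iota K L (modularFunctionFieldFull N) f) =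
      s18cfe_iota K L (modularFunctionFieldFull (N * ℓ)) (heckeBetaBar K N ℓ f) := by
  apply Subtype.ext
  rw [coe_heckeBetaBar, s18cfe_iota_coe, s18cfe_iota_coe, coe_heckeBetaBar, coeffMap_qExpand]

end Comm

section Hecke

variable (K L : Type) [Field K] [CharZero K] [IsAlgClosed K] [Field L] [CharZero L]
  [IsAlgClosed L] [Algebra K L] (N ℓ : ℕ) [NeZero N] [NeZero ℓ]

/-- **[DESC-HECKE]** the base change commutes with the Hecke operators (given the abstract
compatibility). -/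
theorem s29bc_hecke_of (habs : s29bc_CorrStatement) (x : Pic0 K ↥(s18_F K N)) :
    s29bc_bc K L N (heckeOperatorAlong K N ℓ x) =
      heckeOperatorAlong L N ℓ (s29bc_bc K L N x) := by
  obtain ⟨hα, hβ, hP, hfin, hFI, hN⟩ := s29bc_heckeInputs K N ℓ
  obtain ⟨hα', hβ', hP', hfin', hFI', hN'⟩ := s29bc_heckeInputs L N ℓ
  rw [heckeOperatorAlong_eq hα hβ hFI hfin hN, heckeOperatorAlong_eq hα' hβ' hFI' hfin' hN']
  exact habs K ↥(s18_F K N) ↥(s18_F K (N * ℓ)) L ↥(s18_F L N) ↥(s18_F L (N * ℓ))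
    (s18cfe_iota K L (modularFunctionFieldFull N))
    (s18cfe_iota K L (modularFunctionFieldFull (N * ℓ)))
    (s29bc_extN K L N) (s29bc_extN K L (N * ℓ)) (s29bc_isExt K L N) (s29bc_isExt K L (N * ℓ))
    (s29bc_deg_one K N) (s29bc_deg_one K (N * ℓ)) (s29bc_deg_one L N)
    (s29bc_deg_one L (N * ℓ))
    (heckeBetaBar K N ℓ) (heckeAlphaBar K N ℓ) (heckeBetaBar L N ℓ) (heckeAlphaBar L N ℓ)
    (s29bc_beta_comm K L N ℓ) (s29bc_alpha_comm K L N ℓ) hβ hα hβ' hα' hFI hfin hN hFI' hfin'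
    hN' x

end Hecke

section Bar

variable (L : Type) [Field L] [CharZero L] [IsAlgClosed L] [Algebra (AlgebraicClosure ℚ) L]
  (N : ℕ) [NeZero N]

/-- **[DESC-HECKE]** for `K = Q̄`, in the spelling of the Prelude's `heckeOperatorBar`. -/
theorem s29bc_heckeBar_of (habs : s29bc_CorrStatement) (ℓ : Nat.Primes) (y : JZero N) :
    s29bc_bc (AlgebraicClosure ℚ) L N (heckeOperatorBar N ℓ y) =
      (haveI : NeZero (ℓ : ℕ) := ⟨ℓ.2.ne_zero⟩;
        heckeOperatorAlong L N ℓ (s29bc_bc (AlgebraicClosure ℚ) L N y)) := by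
  haveI : NeZero (ℓ : ℕ) := ⟨ℓ.2.ne_zero⟩
  rw [heckeOperatorBar_apply]
  exact s29bc_hecke_of (AlgebraicClosure ℚ) L N (ℓ : ℕ) habs y

end Bar

end Fermat.Agent.S29
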