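/-
S29 [DESC-HECKE] (helper12): the adapter to helper28's input `s29d_HeckeBCStatement` of [K-BC]
(S29/DescFinal.lean), from the abstract compatibility `s29bc_CorrStatement`.  Prefix `s29bc_`.
-/
import Mathlib
import Fermat.Agent.S29.DescBcHecke
import Fermat.Agent.S29.DescFinal

set_option autoImplicit false
set_option linter.unusedSectionVars false
set_option linter.unusedVariables false
set_option linter.style.haveILetI false

noncomputable section

namespace Fermat.Agent.S29

open AlgebraicCurve ModularCurve Fermat.Agent.S18 Fermat.Agent.S24

/-- **[DESC-HECKE]** in the shape consumed by [K-BC]. -/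
theorem s29bc_heckeBC_of (habs : s29bc_CorrStatement) : s29d_HeckeBCStatement := by
  intro inst N _ hdeg hext ℓ _ _ _ y
  exact s29bc_hecke_of (AlgebraicClosure ℚ) ℂ N ℓ habs y

end Fermat.Agent.S29
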