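/-
S29 [DESC-HECKE-ABS] (helper21): helper12's Prop `s29bc_CorrStatement` VERBATIM
(S29/DescBcHecke.lean), from `s29bh_pic_correspondence`.  Prefix `s29bh_`.
-/
import Mathlib
import Fermat.Agent.S29.DescBcHecke
import Fermat.Agent.S29.DescHeckeAbs

set_option autoImplicit false
set_option linter.unusedVariables false

namespace Fermat.Agent.S29

open AlgebraicCurve

/-- **[DESC-HECKE-ABS]** correspondences commute with the base change of divisor classes. -/
theorem s29bh_corr_main : s29bc_CorrStatement := by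
  intro K F F₁ K' F' F₁' _ _ _ _ _ _ _ _ _ _ _ _ ι ι₁ ext ext₁ h h₁ hdeg _ _ _ φ ψ φ' ψ'
    hcφ hcψ hφ hψ hφ' hψ' hFI hfin hN hFI' hfin' hN' x
  exact s29bh_pic_correspondence φ ψ hφ hψ hFI hfin hN φ' ψ' hφ' hψ' hFI' hfin' hN' h h₁
    (fun f => (hcφ f).symm) (fun f => (hcψ f).symm)
    (fun P => by rw [hdeg P]; exact one_ne_zero) x

end Fermat.Agent.S29
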