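/-
S29, package [EIG], leaf [DESC] (owner: helper28), part (D3).  Prefix `s29d_`.

REDUCED DIVISORS.  `F / L` a function field with places of degree one, principal divisors of
degree `0`, and Riemann's inequality; `P∞` a place, `D` a divisor of degree `0`.

* `s29d_exists_min`: there is a least `m : ℕ` with `L(D + m P∞) ≠ 0`;
* `s29d_ord_unique`: for this `m`, two non-zero elements of `L(D + m P∞)` have the same
  divisor;
* `s29d_red_stable`: hence the effective divisor `E = div f + D + m P∞` is invariant under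
  every semilinear automorphism `g` with `g P∞ = P∞` and `g D ∼ D`.
-/
import Mathlib
import Fermat.Prelude.Def_AlgebraicCurve_BaseChangeGalois
import Fermat.Agent.S24.PlaceBasic

set_option autoImplicit false

open AlgebraicCurve

noncomputable section

namespace Fermat.Agent.S29

open Fermat.Agent.S24

variable {L F : Type*} [Field L] [Field F] [Algebra L F]

/-- The degree, as a sum. -/
theorem s29d_degree_sum (D : Divisor L F) :
    Divisor.degree D = D.sum fun v n => n * (v.deg : ℤ) := by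
  rw [Divisor.degree, Finsupp.liftAddHom_apply]
  rfl

theorem s29d_degree_nonneg {D : Divisor L F} (hD : ∀ v, 0 ≤ D v) : 0 ≤ Divisor.degree D := by
  rw [s29d_degree_sum]
  exact Finset.sum_nonneg fun v _ => mul_nonneg (hD v) (Int.natCast_nonneg _)

theorem s29d_eq_zero_of_degree (hdeg : ∀ P : Place L F, P.deg = 1) {D : Divisor L F}
    (hD : ∀ v, 0 ≤ D v) (h0 : Divisor.degree D = 0) : D = 0 := by
  rw [s29d_degree_sum, Finsupp.sum] at h0
  have h1 := (Finset.sum_eq_zero_iff_of_nonneg
    (fun v _ => mul_nonneg (hD v) (Int.natCast_nonneg _))).1 h0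
  ext v
  by_cases hv : v ∈ D.support
  · have h2 := h1 v hv
    rw [hdeg v] at h2
    simpa using h2
  · simpa using hv

/-- `f` is a non-zero element of `L(D)`. -/
def s29d_Eff (D : Divisor L F) (f : F) : Prop :=
  f ≠ 0 ∧ ∀ v : Place L F, 0 ≤ v.ord f + D v

theorem s29d_eff_degree [hP : HasPrincipalDivisors L F] {D : Divisor L F} {f : F}
    (hf : s29d_Eff D f) : 0 ≤ Divisor.degree D := by
  obtain ⟨Df, hDf, hDf0⟩ := hP.exists_divisor f hf.1
  have h1 : 0 ≤ Divisor.degree (Df + D) := by
    apply s29d_degree_nonneg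
    intro v
    rw [Finsupp.add_apply, hDf v]
    exact hf.2 v
  rwa [map_add, hDf0, zero_add] at h1

theorem s29d_eff_zero [hP : HasPrincipalDivisors L F] (hdeg : ∀ P : Place L F, P.deg = 1)
    {D : Divisor L F} {f : F} (hf : s29d_Eff D f) (hD : Divisor.degree D = 0)
    (v : Place L F) : v.ord f + D v = 0 := by
  obtain ⟨Df, hDf, hDf0⟩ := hP.exists_divisor f hf.1
  have h1 : Df + D = 0 := by
    apply s29d_eq_zero_of_degree hdeg
    · intro v
      rw [Finsupp.add_apply, hDf v]
      exact hf.2 v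
    · rw [map_add, hDf0, hD, zero_add]
  have h2 := DFunLike.congr_fun h1 v
  rwa [Finsupp.add_apply, hDf v] at h2

/-- The divisor `D + m P∞`. -/
def s29d_shift (D : Divisor L F) (Pinf : Place L F) (m : ℕ) : Divisor L F :=
  D + (m : ℤ) • Finsupp.single Pinf 1

theorem s29d_shift_apply_self (D : Divisor L F) (Pinf : Place L F) (m : ℕ) :
    s29d_shift D Pinf m Pinf = D Pinf + m := by
  simp [s29d_shift]

theorem s29d_shift_apply_ne (D : Divisor L F) (Pinf : Place L F) (m : ℕ) {v : Place L F}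
    (hv : v ≠ Pinf) : s29d_shift D Pinf m v = D v := by
  simp [s29d_shift, Ne.symm hv]

theorem s29d_shift_degree (hdeg : ∀ P : Place L F, P.deg = 1) (D : Divisor L F)
    (Pinf : Place L F) (m : ℕ) :
    Divisor.degree (s29d_shift D Pinf m) = Divisor.degree D + m := by
  rw [s29d_shift, map_add, map_zsmul, Divisor.degree_single, hdeg]
  simp

/-- **(D3a)** the least `m` with `L(D + m P∞) ≠ 0`. -/
theorem s29d_exists_min (hdeg : ∀ P : Place L F, P.deg = 1)
    (hR : ∃ c : ℤ, ∀ D : Divisor L F, c ≤ Divisor.degree D →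
      ∃ f : F, f ≠ 0 ∧ ∀ v : Place L F, 0 ≤ v.ord f + D v)
    (D : Divisor L F) (Pinf : Place L F) :
    ∃ m : ℕ, (∃ f, s29d_Eff (s29d_shift D Pinf m) f) ∧
      ∀ m' : ℕ, m' < m → ¬ ∃ f, s29d_Eff (s29d_shift D Pinf m') f := by
  classical
  obtain ⟨c, hc⟩ := hR
  have hex : ∃ m : ℕ, ∃ f, s29d_Eff (s29d_shift D Pinf m) f := by
    refine ⟨(c - Divisor.degree D).toNat, ?_⟩
    obtain ⟨f, hf, hfD⟩ := hc (s29d_shift D Pinf (c - Divisor.degree D).toNat) (by
      rw [s29d_shift_degree hdeg]
      have := Int.self_le_toNat (c - Divisor.degree D)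
      omega)
    exact ⟨f, hf, hfD⟩
  exact ⟨Nat.find hex, Nat.find_spec hex, fun m' hm' => Nat.find_min hex hm'⟩

/-- **(D3b)** for the least `m`, the divisor of a non-zero element of `L(D + m P∞)` is
unique. -/
theorem s29d_ord_unique [hP : HasPrincipalDivisors L F] (hdeg : ∀ P : Place L F, P.deg = 1)
    (hres : ∀ (P : Place L F) (f : F), f ∈ P.toValuationSubring →
      ∃ c : L, f - algebraMap L F c ∈ P.toValuationSubring.nonunits)
    (D : Divisor L F) (hD0 : Divisor.degree D = 0) (Pinf : Place L F) (m : ℕ)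
    (hmin : ∀ m' : ℕ, m' < m → ¬ ∃ f, s29d_Eff (s29d_shift D Pinf m') f)
    {f g : F} (hf : s29d_Eff (s29d_shift D Pinf m) f)
    (hg : s29d_Eff (s29d_shift D Pinf m) g) (v : Place L F) : v.ord f = v.ord g := by
  rcases Nat.eq_zero_or_pos m with rfl | hm
  · have hd : Divisor.degree (s29d_shift D Pinf 0) = 0 := by
      rw [s29d_shift_degree hdeg, hD0]
      simp
    have h1 := s29d_eff_zero hdeg hf hd v
    have h2 := s29d_eff_zero hdeg hg hd v
    omega
  obtain ⟨m₀, rfl⟩ : ∃ m₀, m = m₀ + 1 := ⟨m - 1, by omega⟩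
  -- the pole order at `P∞` is exact
  have hexact : ∀ {y : F}, s29d_Eff (s29d_shift D Pinf (m₀ + 1)) y →
      Pinf.ord y + D Pinf + (m₀ + 1) = 0 := by
    intro y hy
    by_contra hne
    have h1 := hy.2 Pinf
    rw [s29d_shift_apply_self] at h1
    push_cast at h1
    apply hmin m₀ (Nat.lt_succ_self m₀)
    refine ⟨y, hy.1, fun w => ?_⟩
    by_cases hw : w = Pinf
    · subst hw
      rw [s29d_shift_apply_self]
      omega
    · rw [s29d_shift_apply_ne D Pinf m₀ hw]
      have h2 := hy.2 w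
      rwa [s29d_shift_apply_ne D Pinf (m₀ + 1) hw] at h2
  have hf1 := hexact hf
  have hg1 := hexact hg
  have hg0 : g ≠ 0 := hg.1
  have hf0 : f ≠ 0 := hf.1
  set w : F := f * g⁻¹ with hw
  have hw0 : w ≠ 0 := mul_ne_zero hf0 (inv_ne_zero hg0)
  have hwo : Pinf.ord w = 0 := by
    rw [hw, Pinf.ord_mul hf0 (inv_ne_zero hg0), Pinf.ord_inv]
    omega
  obtain ⟨a, ha⟩ := hres Pinf w ((place_mem_iff Pinf).2 (le_of_eq hwo.symm))
  have hfg : f = w * g := by
    rw [hw, mul_assoc, inv_mul_cancel₀ hg0, mul_one]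
  by_cases hr : w - algebraMap L F a = 0
  · -- `f = a g`
    have hwa : w = algebraMap L F a := sub_eq_zero.1 hr
    have ha0 : algebraMap L F a ≠ 0 := hwa ▸ hw0
    rw [hfg, hwa, v.ord_mul ha0 hg0, place_ord_algebraMap, zero_add]
  · exfalso
    have hro : 0 < Pinf.ord (w - algebraMap L F a) := (place_mem_nonunits_iff Pinf hr).1 ha
    set r : F := (w - algebraMap L F a) * g with hrdef
    have hr0 : r ≠ 0 := mul_ne_zero hr hg0
    have hrfg : r = f + -(algebraMap L F a * g) := by
      rw [hrdef, sub_mul, ← hfg]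
      ring
    apply hmin m₀ (Nat.lt_succ_self m₀)
    refine ⟨r, hr0, fun u => ?_⟩
    by_cases hu : u = Pinf
    · subst hu
      rw [s29d_shift_apply_self, hrdef, u.ord_mul hr hg0]
      omega
    · rw [s29d_shift_apply_ne D Pinf m₀ hu]
      have h2 := hf.2 u
      rw [s29d_shift_apply_ne D Pinf (m₀ + 1) hu] at h2
      have h3 := hg.2 u
      rw [s29d_shift_apply_ne D Pinf (m₀ + 1) hu] at h3
      by_cases ha0 : a = 0
      · rw [hrfg, ha0, map_zero, zero_mul, neg_zero, add_zero]
        exact h2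
      have ha0' : algebraMap L F a ≠ 0 := by simpa using ha0
      have hag : algebraMap L F a * g ≠ 0 := mul_ne_zero ha0' hg0
      have h4 : u.ord (-(algebraMap L F a * g)) = u.ord g := by
        rw [place_ord_neg, u.ord_mul ha0' hg0, place_ord_algebraMap, zero_add]
      have h5 := place_ord_add_ge u hf0 (neg_ne_zero.2 hag) (by rw [← hrfg]; exact hr0)
      rw [← hrfg, h4] at h5
      have h6 := min_le_iff.1 h5
      rcases h6 with h6 | h6 <;> omega

/-- **(D3c)** the reduced divisor is invariant under every semilinear automorphism which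
fixes `P∞` and the class of `D`. -/
theorem s29d_red_stable [hP : HasPrincipalDivisors L F] (hdeg : ∀ P : Place L F, P.deg = 1)
    (hres : ∀ (P : Place L F) (f : F), f ∈ P.toValuationSubring →
      ∃ c : L, f - algebraMap L F c ∈ P.toValuationSubring.nonunits)
    (D : Divisor L F) (hD0 : Divisor.degree D = 0) (Pinf : Place L F) (m : ℕ)
    (hmin : ∀ m' : ℕ, m' < m → ¬ ∃ f, s29d_Eff (s29d_shift D Pinf m') f)
    {f : F} (hf : s29d_Eff (s29d_shift D Pinf m) f)
    (g : SemilinearAut L F) (hgP : g • Pinf = Pinf)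
    (hgD : g • D - D ∈ Divisor.principal (K := L) (F := F)) (v : Place L F) :
    (g⁻¹ • v).ord f + D (g⁻¹ • v) = v.ord f + D v := by
  obtain ⟨u, hu0, hu⟩ := hgD
  have hgf0 : g • f ≠ 0 := by
    rw [SemilinearAut.smul_def]
    exact (map_ne_zero _).2 hf.1
  have hord : ∀ w : Place L F, w.ord (g • f) = (g⁻¹ • w).ord f := by
    intro w
    have h := SemilinearAut.ord_smul g (g⁻¹ • w) f
    rwa [smul_inv_smul] at h
  have hDu : ∀ w : Place L F, D (g⁻¹ • w) - D w = w.ord u := by
    intro w
    have h := hu w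
    rwa [Finsupp.sub_apply, SemilinearAut.divisor_smul_apply] at h
  have hPinv : ∀ w : Place L F, g⁻¹ • w = Pinf ↔ w = Pinf := by
    intro w
    constructor
    · intro h
      have : g • (g⁻¹ • w) = g • Pinf := by rw [h]
      rwa [smul_inv_smul, hgP] at this
    · rintro rfl
      rw [inv_smul_eq_iff, hgP]
  have hf2 : s29d_Eff (s29d_shift D Pinf m) (g • f * u) := by
    refine ⟨mul_ne_zero hgf0 hu0, fun w => ?_⟩
    rw [w.ord_mul hgf0 hu0, hord w]
    have h1 := hf.2 (g⁻¹ • w)
    have h2 := hDu w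
    by_cases hw : w = Pinf
    · have hw' : g⁻¹ • w = Pinf := (hPinv w).2 hw
      rw [hw'] at h1 h2 ⊢
      rw [hw] at h2 ⊢
      rw [s29d_shift_apply_self] at h1 ⊢
      omega
    · have hw' : g⁻¹ • w ≠ Pinf := fun h => hw ((hPinv w).1 h)
      rw [s29d_shift_apply_ne D Pinf m hw'] at h1
      rw [s29d_shift_apply_ne D Pinf m hw]
      omega
  have h3 := s29d_ord_unique hdeg hres D hD0 Pinf m hmin hf2 hf v
  rw [v.ord_mul hgf0 hu0, hord v] at h3
  have h4 := hDu v
  omega

end Fermat.Agent.S29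

end
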