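import Mathlib

/-!
# S29, [DIV-LOC], part 1 (L-ELL): orders at elliptic points

Let `δ ∈ SL(2, ℤ)` fix `z ∈ ℍ`, `μ = c z + d` its automorphy factor at `z` (an eigenvalue of `δ`:
`μ² - tr(δ) μ + 1 = 0`), and let `A`, `B` be holomorphic on `ℍ`, not identically zero near `z`,
with `A(δ w) B(w) = A(w) B(δ w)`.  Then `(μ²)^(ord_z A) = (μ²)^(ord_z B)`.  In particular
`2 ∣ ord_z A - ord_z B` if `tr δ = 0` and `3 ∣ ord_z A - ord_z B` if `tr δ = ± 1`.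
-/

set_option autoImplicit false

open UpperHalfPlane Complex Filter Topology
open scoped MatrixGroups Manifold

noncomputable section

namespace Fermat.Agent.S29

theorem s29dl_analyticAt {F : ℍ → ℂ} (hF : MDiff F) (z : ℍ) :
    AnalyticAt ℂ (F ∘ ofComplex) (z : ℂ) :=
  (UpperHalfPlane.mdifferentiable_iff.mp hF).analyticAt
    (isOpen_upperHalfPlaneSet.mem_nhds z.im_pos)

/-- The Möbius map of `δ` as a function on `ℂ` (junk outside the upper half plane). -/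
def s29dl_mob (δ : SL(2, ℤ)) (w : ℂ) : ℂ := ((δ • ofComplex w : ℍ) : ℂ)

theorem s29dl_mob_coe (δ : SL(2, ℤ)) (z : ℍ) : s29dl_mob δ (z : ℂ) = ((δ • z : ℍ) : ℂ) := by
  simp [s29dl_mob]

theorem s29dl_mob_eq (δ : SL(2, ℤ)) {w : ℂ} (hw : 0 < w.im) :
    s29dl_mob δ w = ((δ 0 0 : ℂ) * w + (δ 0 1 : ℂ)) / ((δ 1 0 : ℂ) * w + (δ 1 1 : ℂ)) := by
  rw [s29dl_mob, coe_specialLinearGroup_apply, ofComplex_apply_of_im_pos hw]
  simp

theorem s29dl_den_ne (δ : SL(2, ℤ)) {w : ℂ} (hw : 0 < w.im) :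
    (δ 1 0 : ℂ) * w + (δ 1 1 : ℂ) ≠ 0 := by
  have h := denom_ne_zero δ (⟨w, hw⟩ : ℍ)
  rwa [ModularGroup.denom_apply] at h

theorem s29dl_det (δ : SL(2, ℤ)) :
    (δ 0 0 : ℂ) * (δ 1 1 : ℂ) - (δ 0 1 : ℂ) * (δ 1 0 : ℂ) = 1 := by
  have h := δ.det_coe
  rw [Matrix.det_fin_two] at h
  exact_mod_cast h

theorem s29dl_mob_analyticAt (δ : SL(2, ℤ)) (z : ℍ) : AnalyticAt ℂ (s29dl_mob δ) (z : ℂ) := by
  have h : 0 < ((δ : GL (Fin 2) ℝ)).det.val := by simp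
  exact s29dl_analyticAt (F := fun τ : ℍ => ((δ • τ : ℍ) : ℂ))
    (mdifferentiable_coe.comp (mdifferentiable_smul h)) z

/-- `δ w - z = (w - z) / ((c w + d) (c z + d))` if `δ z = z`. -/
theorem s29dl_mob_sub (δ : SL(2, ℤ)) (z : ℍ) (hδ : δ • z = z) {w : ℂ} (hw : 0 < w.im) :
    s29dl_mob δ w - z =
      (w - z) * (((δ 1 0 : ℂ) * w + (δ 1 1 : ℂ)) * ((δ 1 0 : ℂ) * z + (δ 1 1 : ℂ)))⁻¹ := by
  have e1 := s29dl_mob_eq δ hw
  have e2 : (z : ℂ) = ((δ 0 0 : ℂ) * z + (δ 0 1 : ℂ)) / ((δ 1 0 : ℂ) * z + (δ 1 1 : ℂ)) := by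
    rw [← s29dl_mob_eq δ z.im_pos, s29dl_mob_coe, hδ]
  have hw' := s29dl_den_ne δ hw
  have hz' := s29dl_den_ne δ z.im_pos
  have hdet := s29dl_det δ
  calc s29dl_mob δ w - z
      = ((δ 0 0 : ℂ) * w + (δ 0 1 : ℂ)) / ((δ 1 0 : ℂ) * w + (δ 1 1 : ℂ)) -
          ((δ 0 0 : ℂ) * z + (δ 0 1 : ℂ)) / ((δ 1 0 : ℂ) * z + (δ 1 1 : ℂ)) := by
        rw [e1, ← e2]
    _ = (((δ 0 0 : ℂ) * w + (δ 0 1 : ℂ)) * ((δ 1 0 : ℂ) * z + (δ 1 1 : ℂ)) -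
          ((δ 1 0 : ℂ) * w + (δ 1 1 : ℂ)) * ((δ 0 0 : ℂ) * z + (δ 0 1 : ℂ))) /
          (((δ 1 0 : ℂ) * w + (δ 1 1 : ℂ)) * ((δ 1 0 : ℂ) * z + (δ 1 1 : ℂ))) :=
        div_sub_div _ _ hw' hz'
    _ = (w - z) / (((δ 1 0 : ℂ) * w + (δ 1 1 : ℂ)) * ((δ 1 0 : ℂ) * z + (δ 1 1 : ℂ))) := by
        congr 1
        linear_combination (w - (z : ℂ)) * hdet
    _ = _ := div_eq_mul_inv _ _

/-- The automorphy factor at a fixed point is an eigenvalue: `μ² - tr(δ) μ + 1 = 0`. -/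
theorem s29dl_charpoly (δ : SL(2, ℤ)) (z : ℍ) (hδ : δ • z = z) :
    denom δ z ^ 2 - ((δ 0 0 : ℂ) + (δ 1 1 : ℂ)) * denom δ z + 1 = 0 := by
  have e2 : (z : ℂ) = ((δ 0 0 : ℂ) * z + (δ 0 1 : ℂ)) / ((δ 1 0 : ℂ) * z + (δ 1 1 : ℂ)) := by
    rw [← s29dl_mob_eq δ z.im_pos, s29dl_mob_coe, hδ]
  have hz' := s29dl_den_ne δ z.im_pos
  have hdet := s29dl_det δ
  rw [eq_div_iff hz'] at e2
  rw [ModularGroup.denom_apply]
  linear_combination (δ 1 0 : ℂ) * e2 - hdet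

/-- **(L-ELL), core.** -/
theorem s29dl_ell_core (δ : SL(2, ℤ)) (z : ℍ) (hδ : δ • z = z) (A B : ℍ → ℂ) (hA : MDiff A)
    (hB : MDiff B) (hA0 : analyticOrderAt (A ∘ ofComplex) (z : ℂ) ≠ ⊤)
    (hB0 : analyticOrderAt (B ∘ ofComplex) (z : ℂ) ≠ ⊤)
    (h : ∀ w : ℍ, A (δ • w) * B w = A w * B (δ • w)) :
    (denom δ z ^ 2) ^ analyticOrderNatAt (A ∘ ofComplex) (z : ℂ) =
      (denom δ z ^ 2) ^ analyticOrderNatAt (B ∘ ofComplex) (z : ℂ) := by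
  set a := analyticOrderNatAt (A ∘ ofComplex) (z : ℂ) with ha
  set b := analyticOrderNatAt (B ∘ ofComplex) (z : ℂ) with hb
  obtain ⟨uA, huA, huA0, hAe⟩ := (s29dl_analyticAt hA z).analyticOrderAt_ne_top.mp hA0
  obtain ⟨uB, huB, huB0, hBe⟩ := (s29dl_analyticAt hB z).analyticOrderAt_ne_top.mp hB0
  have hMz : s29dl_mob δ (z : ℂ) = z := by rw [s29dl_mob_coe, hδ]
  have hMa := s29dl_mob_analyticAt δ z
  have hMt : Tendsto (s29dl_mob δ) (𝓝 (z : ℂ)) (𝓝 (z : ℂ)) := by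
    have := hMa.continuousAt.tendsto
    rwa [hMz] at this
  have hAe' := hMt.eventually hAe
  have hBe' := hMt.eventually hBe
  have hμ : (δ 1 0 : ℂ) * z + (δ 1 1 : ℂ) ≠ 0 := s29dl_den_ne δ z.im_pos
  -- the function `φ`
  set φ : ℂ → ℂ := fun w =>
    (((δ 1 0 : ℂ) * w + (δ 1 1 : ℂ)) * ((δ 1 0 : ℂ) * z + (δ 1 1 : ℂ)))⁻¹ with hφ
  have hφc : ContinuousAt φ (z : ℂ) := by
    apply ContinuousAt.inv₀
    · fun_prop
    · exact mul_ne_zero hμ hμ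
  have huAM : ContinuousAt (fun w => uA (s29dl_mob δ w)) (z : ℂ) := by
    apply ContinuousAt.comp (g := uA)
    · rw [hMz]; exact huA.continuousAt
    · exact hMa.continuousAt
  have huBM : ContinuousAt (fun w => uB (s29dl_mob δ w)) (z : ℂ) := by
    apply ContinuousAt.comp (g := uB)
    · rw [hMz]; exact huB.continuousAt
    · exact hMa.continuousAt
  set G : ℂ → ℂ := fun w =>
    φ w ^ a * uA (s29dl_mob δ w) * uB w - φ w ^ b * uA w * uB (s29dl_mob δ w) with hG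
  have hGc : ContinuousAt G (z : ℂ) :=
    (((hφc.pow a).mul huAM).mul huB.continuousAt).sub
      (((hφc.pow b).mul huA.continuousAt).mul huBM)
  have hev : ∀ᶠ w in 𝓝[≠] (z : ℂ), G w = 0 := by
    have hopen : ∀ᶠ w in 𝓝 (z : ℂ), 0 < w.im := isOpen_upperHalfPlaneSet.mem_nhds z.im_pos
    have hall := (((hAe.and hBe).and (hAe'.and hBe')).and hopen).filter_mono
      (nhdsWithin_le_nhds (s := {(z : ℂ)}ᶜ))
    filter_upwards [hall, self_mem_nhdsWithin] with w hw hne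
    obtain ⟨⟨⟨h1, h2⟩, h3, h4⟩, h5⟩ := hw
    have hne' : w - (z : ℂ) ≠ 0 := sub_ne_zero.mpr hne
    have hid := h (ofComplex w)
    have e1 : A (δ • ofComplex w) = (A ∘ ofComplex) (s29dl_mob δ w) := by
      simp [s29dl_mob]
    have e2 : B (δ • ofComplex w) = (B ∘ ofComplex) (s29dl_mob δ w) := by
      simp [s29dl_mob]
    have e3 : A (ofComplex w) = (A ∘ ofComplex) w := rfl
    have e4 : B (ofComplex w) = (B ∘ ofComplex) w := rfl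
    rw [e1, e2, e3, e4, h1, h2, h3, h4, s29dl_mob_sub δ z hδ h5] at hid
    simp only [smul_eq_mul] at hid
    have hpow : (w - (z : ℂ)) ^ (a + b) ≠ 0 := pow_ne_zero _ hne'
    have key : (w - (z : ℂ)) ^ (a + b) * G w = 0 := by
      simp only [hG, hφ]
      rw [mul_pow, mul_pow] at hid
      rw [pow_add]
      linear_combination hid
    exact (mul_eq_zero.mp key).resolve_left hpow
  have hGz : G (z : ℂ) = 0 := by
    have t1 : Tendsto G (𝓝[≠] (z : ℂ)) (𝓝 (G z)) := hGc.tendsto.mono_left nhdsWithin_le_nhds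
    have t2 : Tendsto G (𝓝[≠] (z : ℂ)) (𝓝 0) :=
      tendsto_const_nhds.congr' (hev.mono fun w hw => hw.symm)
    exact tendsto_nhds_unique t1 t2
  simp only [hG, hφ, hMz] at hGz
  have hne : uA z * uB z ≠ 0 := mul_ne_zero huA0 huB0
  have hcancel : ((((δ 1 0 : ℂ) * z + (δ 1 1 : ℂ)) * ((δ 1 0 : ℂ) * z + (δ 1 1 : ℂ)))⁻¹) ^ a =
      ((((δ 1 0 : ℂ) * z + (δ 1 1 : ℂ)) * ((δ 1 0 : ℂ) * z + (δ 1 1 : ℂ)))⁻¹) ^ b := by
    apply mul_right_cancel₀ hne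
    linear_combination hGz
  rw [inv_pow, inv_pow, inv_inj] at hcancel
  rw [ModularGroup.denom_apply, pow_two]
  exact hcancel

theorem s29dl_dvd_of_pow_eq {ε : ℂ} {e : ℕ} (hε : IsPrimitiveRoot ε e) (he : 0 < e) {a b : ℕ}
    (h : ε ^ a = ε ^ b) : (e : ℤ) ∣ (a : ℤ) - (b : ℤ) := by
  have hne : ε ≠ 0 := hε.ne_zero he.ne'
  rw [← hε.zpow_eq_one_iff_dvd, zpow_sub₀ hne, zpow_natCast, zpow_natCast, h,
    div_self (pow_ne_zero _ hne)]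

/-- `tr δ = 0`: `μ² = -1`. -/
theorem s29dl_prim_two (δ : SL(2, ℤ)) (z : ℍ) (hδ : δ • z = z)
    (ht : (δ : Matrix (Fin 2) (Fin 2) ℤ).trace = 0) : IsPrimitiveRoot (denom δ z ^ 2) 2 := by
  have h := s29dl_charpoly δ z hδ
  have ht' : ((δ 0 0 : ℂ) + (δ 1 1 : ℂ)) = 0 := by
    rw [Matrix.trace_fin_two] at ht
    exact_mod_cast ht
  rw [ht', zero_mul, sub_zero] at h
  have h2 : denom δ z ^ 2 = -1 := by linear_combination h
  rw [h2]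
  exact IsPrimitiveRoot.neg_one 0 (by norm_num)

/-- `tr δ = ± 1`: `μ²` is a primitive cube root of unity. -/
theorem s29dl_prim_three (δ : SL(2, ℤ)) (z : ℍ) (hδ : δ • z = z)
    (ht : (δ : Matrix (Fin 2) (Fin 2) ℤ).trace ^ 2 = 1) : IsPrimitiveRoot (denom δ z ^ 2) 3 := by
  have h := s29dl_charpoly δ z hδ
  have ht' : ((δ 0 0 : ℂ) + (δ 1 1 : ℂ)) ^ 2 = 1 := by
    rw [Matrix.trace_fin_two] at ht
    exact_mod_cast ht
  set μ := denom δ z with hμ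
  set t := ((δ 0 0 : ℂ) + (δ 1 1 : ℂ)) with htd
  -- `μ² = t μ - 1`, `t² = 1`:  `(μ²)² + μ² + 1 = 0`
  have h1 : (μ ^ 2) ^ 2 + μ ^ 2 + 1 = 0 := by
    linear_combination (μ ^ 2 + t * μ + 1) * h + μ ^ 2 * ht'
  have h3 : (μ ^ 2) ^ 3 = 1 := by linear_combination (μ ^ 2 - 1) * h1
  have hne1 : μ ^ 2 ≠ 1 := by
    intro h0
    rw [h0] at h1
    norm_num at h1
  refine (IsPrimitiveRoot.iff_def _ _).mpr ⟨h3, fun l hl => ?_⟩
  -- order divides 3 and is not 1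
  have hdvd : orderOf (μ ^ 2) ∣ 3 := orderOf_dvd_of_pow_eq_one h3
  have hdl : orderOf (μ ^ 2) ∣ l := orderOf_dvd_of_pow_eq_one hl
  have h31 : orderOf (μ ^ 2) = 1 ∨ orderOf (μ ^ 2) = 3 :=
    (Nat.dvd_prime Nat.prime_three).mp hdvd
  rcases h31 with h31 | h31
  · exact absurd (orderOf_eq_one_iff.mp h31) hne1
  · rwa [h31] at hdl

/-- **(L-ELL)** for an elliptic element of order `2` in `PSL(2, ℤ)`. -/
theorem s29dl_ell_two (δ : SL(2, ℤ)) (z : ℍ) (hδ : δ • z = z)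
    (ht : (δ : Matrix (Fin 2) (Fin 2) ℤ).trace = 0) (A B : ℍ → ℂ) (hA : MDiff A)
    (hB : MDiff B) (hA0 : analyticOrderAt (A ∘ ofComplex) (z : ℂ) ≠ ⊤)
    (hB0 : analyticOrderAt (B ∘ ofComplex) (z : ℂ) ≠ ⊤)
    (h : ∀ w : ℍ, A (δ • w) * B w = A w * B (δ • w)) :
    (2 : ℤ) ∣ (analyticOrderNatAt (A ∘ ofComplex) (z : ℂ) : ℤ) -
      (analyticOrderNatAt (B ∘ ofComplex) (z : ℂ) : ℤ) := by
  have := s29dl_dvd_of_pow_eq (s29dl_prim_two δ z hδ ht) (by norm_num)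
    (s29dl_ell_core δ z hδ A B hA hB hA0 hB0 h)
  exact_mod_cast this

/-- **(L-ELL)** for an elliptic element of order `3` in `PSL(2, ℤ)`. -/
theorem s29dl_ell_three (δ : SL(2, ℤ)) (z : ℍ) (hδ : δ • z = z)
    (ht : (δ : Matrix (Fin 2) (Fin 2) ℤ).trace ^ 2 = 1) (A B : ℍ → ℂ) (hA : MDiff A)
    (hB : MDiff B) (hA0 : analyticOrderAt (A ∘ ofComplex) (z : ℂ) ≠ ⊤)
    (hB0 : analyticOrderAt (B ∘ ofComplex) (z : ℂ) ≠ ⊤)
    (h : ∀ w : ℍ, A (δ • w) * B w = A w * B (δ • w)) :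
    (3 : ℤ) ∣ (analyticOrderNatAt (A ∘ ofComplex) (z : ℂ) : ℤ) -
      (analyticOrderNatAt (B ∘ ofComplex) (z : ℂ) : ℤ) := by
  have := s29dl_dvd_of_pow_eq (s29dl_prim_three δ z hδ ht) (by norm_num)
    (s29dl_ell_core δ z hδ A B hA hB hA0 hB0 h)
  exact_mod_cast this

end Fermat.Agent.S29
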