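import Mathlib
import Fermat.Agent.S29.FdDefs

set_option autoImplicit false
set_option linter.unusedSectionVars false

/-!
# [FD-ALG] counting the primes of degree one of a fixed field

`s29fd_alg_main : s29fd_AlgStatement`: for a finite Galois extension `L/ℚ` with group `G`,
a subgroup `H ≤ G`, `K = L^H` and a prime `ℓ ∤ disc L`,
`|H| · #{ideals of 𝓞 K of norm ℓ} = ∑_{D ≤ H} |D| · #{𝔓 ∣ ℓ : D(𝔓) = D}`.
-/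

namespace Fermat.Agent.S29

open NumberField
open scoped Pointwise

section
variable (L : Type) [Field L] [NumberField L] [IsGalois ℚ L]

/-- a prime containing `ℓ` lies over `(ℓ)`. -/
theorem s29fdg_liesOver {ℓ : ℕ} (hℓ : ℓ.Prime) {R : Type} [CommRing R]
    (𝔓 : Ideal R) [h𝔓 : 𝔓.IsPrime] (hmem : ((ℓ : ℕ) : R) ∈ 𝔓) :
    𝔓.LiesOver (Ideal.span {(ℓ : ℤ)}) := by
  have hp : Prime (ℓ : ℤ) := Nat.prime_iff_prime_int.mp hℓ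
  refine (Ideal.liesOver_span_iff h𝔓.ne_top hp).mpr ?_
  simpa using hmem

theorem s29fdg_span_isPrime {ℓ : ℕ} (hℓ : ℓ.Prime) : (Ideal.span {(ℓ : ℤ)}).IsPrime := by
  have hp : Prime (ℓ : ℤ) := Nat.prime_iff_prime_int.mp hℓ
  exact (Ideal.span_singleton_prime hp.ne_zero).mpr hp

theorem s29fdg_ram {ℓ : ℕ} (hℓ : ℓ.Prime) (hd : ¬ ((ℓ : ℤ) ∣ NumberField.discr L))
    (𝔓 : Ideal (𝓞 L)) [h𝔓 : 𝔓.IsPrime] (hmem : ((ℓ : ℕ) : 𝓞 L) ∈ 𝔓) :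
    𝔓.ramificationIdx ℤ = 1 := by
  have hp : Prime (ℓ : ℤ) := Nat.prime_iff_prime_int.mp hℓ
  have hunr : Algebra.IsUnramifiedAt ℤ 𝔓 :=
    (NumberField.not_dvd_discr_iff_forall_mem L (𝓞 L) hp).mp hd 𝔓 h𝔓 (by simpa using hmem)
  exact Ideal.ramificationIdx_eq_one_of_isUnramifiedAt

theorem s29fdg_card_stab {ℓ : ℕ} (hℓ : ℓ.Prime) (hd : ¬ ((ℓ : ℤ) ∣ NumberField.discr L))
    (𝔓 : Ideal (𝓞 L)) [h𝔓 : 𝔓.IsPrime] (hmem : ((ℓ : ℕ) : 𝓞 L) ∈ 𝔓) :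
    Nat.card (MulAction.stabilizer (L ≃ₐ[ℚ] L) 𝔓) = 𝔓.inertiaDeg ℤ := by
  have hlo : 𝔓.LiesOver (Ideal.span {(ℓ : ℤ)}) := s29fdg_liesOver hℓ 𝔓 hmem
  have hpp : (Ideal.span {(ℓ : ℤ)}).IsPrime := s29fdg_span_isPrime hℓ
  have he : 𝔓.ramificationIdx ℤ = 1 := s29fdg_ram L hℓ hd 𝔓 hmem
  rw [Ideal.card_stabilizer_eq (G := L ≃ₐ[ℚ] L) (Ideal.span {(ℓ : ℤ)}) 𝔓,
    Ideal.ramificationIdxIn_eq_ramificationIdx (Ideal.span {(ℓ : ℤ)}) 𝔓 (L ≃ₐ[ℚ] L),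
    Ideal.inertiaDegIn_eq_inertiaDeg (Ideal.span {(ℓ : ℤ)}) 𝔓 (L ≃ₐ[ℚ] L), he, one_mul]

variable (H : Subgroup (L ≃ₐ[ℚ] L))

/-- `H` is the Galois group of `𝓞 L` over `𝓞 (L^H)`. -/
theorem s29fdg_gal :
    IsGaloisGroup H (𝓞 (IntermediateField.fixedField H)) (𝓞 L) :=
  have : IsGaloisGroup H (IntermediateField.fixedField H) L :=
    IsGaloisGroup.subgroup (L ≃ₐ[ℚ] L) ℚ L H
  IsGaloisGroup.of_isFractionRing H (𝓞 (IntermediateField.fixedField H)) (𝓞 L)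
    (IntermediateField.fixedField H) L

theorem s29fdg_stab_eq (𝔓 : Ideal (𝓞 L)) :
    MulAction.stabilizer H 𝔓 = (MulAction.stabilizer (L ≃ₐ[ℚ] L) 𝔓).subgroupOf H := by
  ext g
  rw [Subgroup.mem_subgroupOf, MulAction.mem_stabilizer_iff, MulAction.mem_stabilizer_iff]
  rfl

theorem s29fdg_card_stabH_aux (𝔓 : Ideal (𝓞 L)) [h𝔓 : 𝔓.IsPrime]
    (𝔮 : Ideal (𝓞 (IntermediateField.fixedField H))) [h𝔮 : 𝔮.IsPrime] [hlo : 𝔓.LiesOver 𝔮] :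
    Nat.card (MulAction.stabilizer H 𝔓) =
      𝔮.ramificationIdxIn (𝓞 L) * 𝔮.inertiaDegIn (𝓞 L) := by
  have hgal := s29fdg_gal L H
  have h1 := Ideal.card_stabilizer_eq (G := H) 𝔮 𝔓
  rw [← h1]
  apply Nat.card_congr
  refine Equiv.subtypeEquivRight ?_
  intro g
  rw [MulAction.mem_stabilizer_iff, MulAction.mem_stabilizer_iff]
  rfl

theorem s29fdg_ramH {ℓ : ℕ} (hℓ : ℓ.Prime) (hd : ¬ ((ℓ : ℤ) ∣ NumberField.discr L))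
    (𝔓 : Ideal (𝓞 L)) [h𝔓 : 𝔓.IsPrime] (hmem : ((ℓ : ℕ) : 𝓞 L) ∈ 𝔓) :
    𝔓.ramificationIdx (𝓞 (IntermediateField.fixedField H)) = 1 := by
  have he : 𝔓.ramificationIdx ℤ = 1 := s29fdg_ram L hℓ hd 𝔓 hmem
  have ht := Ideal.ramificationIdx_tower (R := ℤ)
    (𝔓.under (𝓞 (IntermediateField.fixedField H))) 𝔓
  rw [he] at ht
  exact Nat.eq_one_of_mul_eq_one_left ht.symm

theorem s29fdg_card_stabH {ℓ : ℕ} (hℓ : ℓ.Prime) (hd : ¬ ((ℓ : ℤ) ∣ NumberField.discr L))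
    (𝔓 : Ideal (𝓞 L)) [h𝔓 : 𝔓.IsPrime] (hmem : ((ℓ : ℕ) : 𝓞 L) ∈ 𝔓) :
    Nat.card (MulAction.stabilizer H 𝔓) =
      𝔓.inertiaDeg (𝓞 (IntermediateField.fixedField H)) := by
  have hgal := s29fdg_gal L H
  have he := s29fdg_ramH L H hℓ hd 𝔓 hmem
  rw [s29fdg_card_stabH_aux L H 𝔓 (𝔓.under (𝓞 (IntermediateField.fixedField H))),
    Ideal.ramificationIdxIn_eq_ramificationIdx
      (𝔓.under (𝓞 (IntermediateField.fixedField H))) 𝔓 H,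
    Ideal.inertiaDegIn_eq_inertiaDeg (𝔓.under (𝓞 (IntermediateField.fixedField H))) 𝔓 H,
    he, one_mul]

/-- the key equivalence: the decomposition group lies in `H` iff the prime below in `L^H`
has degree one. -/
theorem s29fdg_key {ℓ : ℕ} (hℓ : ℓ.Prime) (hd : ¬ ((ℓ : ℤ) ∣ NumberField.discr L))
    (𝔓 : Ideal (𝓞 L)) [h𝔓 : 𝔓.IsPrime] (hmem : ((ℓ : ℕ) : 𝓞 L) ∈ 𝔓) :
    MulAction.stabilizer (L ≃ₐ[ℚ] L) 𝔓 ≤ H ↔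
      (𝔓.under (𝓞 (IntermediateField.fixedField H))).inertiaDeg ℤ = 1 := by
  have hG := s29fdg_card_stab L hℓ hd 𝔓 hmem
  have hH := s29fdg_card_stabH L H hℓ hd 𝔓 hmem
  have ht := Ideal.inertiaDeg_tower (R := ℤ)
    (𝔓.under (𝓞 (IntermediateField.fixedField H))) 𝔓
  rw [s29fdg_stab_eq] at hH
  have hpos : 0 < 𝔓.inertiaDeg (𝓞 (IntermediateField.fixedField H)) :=
    Ideal.inertiaDeg_pos 𝔓 _
  constructor
  · intro hle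
    have h1 : Nat.card ((MulAction.stabilizer (L ≃ₐ[ℚ] L) 𝔓).subgroupOf H) =
        Nat.card (MulAction.stabilizer (L ≃ₐ[ℚ] L) 𝔓) :=
      Nat.card_congr (Subgroup.subgroupOfEquivOfLe hle).toEquiv
    rw [hH, hG, ht] at h1
    have h2 : 𝔓.inertiaDeg (𝓞 (IntermediateField.fixedField H)) * 1 =
        𝔓.inertiaDeg (𝓞 (IntermediateField.fixedField H)) *
          (𝔓.under (𝓞 (IntermediateField.fixedField H))).inertiaDeg ℤ := by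
      rw [mul_one, mul_comm]; exact h1
    exact (Nat.eq_of_mul_eq_mul_left hpos h2).symm
  · intro h1
    rw [h1, one_mul, ← hG, ← hH] at ht
    have h2 : Nat.card ((MulAction.stabilizer (L ≃ₐ[ℚ] L) 𝔓 ⊓ H : Subgroup (L ≃ₐ[ℚ] L))) =
        Nat.card ((MulAction.stabilizer (L ≃ₐ[ℚ] L) 𝔓).subgroupOf H) := by
      rw [← Subgroup.inf_subgroupOf_right]
      exact (Nat.card_congr (Subgroup.subgroupOfEquivOfLe inf_le_right).toEquiv).symm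
    have h3 : MulAction.stabilizer (L ≃ₐ[ℚ] L) 𝔓 ⊓ H = MulAction.stabilizer (L ≃ₐ[ℚ] L) 𝔓 :=
      Subgroup.eq_of_le_of_card_ge inf_le_left (by rw [h2, ← ht])
    exact inf_eq_left.mp h3

end


theorem s29fdg_ne_bot {ℓ : ℕ} (hℓ : ℓ.Prime) {K : Type} [Field K] [NumberField K]
    (𝔮 : Ideal (𝓞 K)) (hmem : ((ℓ : ℕ) : 𝓞 K) ∈ 𝔮) : 𝔮 ≠ ⊥ := by
  intro h
  rw [h, Ideal.mem_bot] at hmem
  exact hℓ.ne_zero (by exact_mod_cast hmem)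

theorem s29fdg_norm {ℓ : ℕ} (hℓ : ℓ.Prime) {K : Type} [Field K] [NumberField K]
    (𝔮 : Ideal (𝓞 K)) [h𝔮 : 𝔮.IsPrime] (hmem : ((ℓ : ℕ) : 𝓞 K) ∈ 𝔮) :
    Ideal.absNorm 𝔮 = ℓ ^ 𝔮.inertiaDeg ℤ := by
  have hlo : 𝔮.LiesOver (Ideal.span {(ℓ : ℤ)}) := s29fdg_liesOver hℓ 𝔮 hmem
  have hpp : (Ideal.span {(ℓ : ℤ)}).IsPrime := s29fdg_span_isPrime hℓ
  have hp : Prime (ℓ : ℤ) := Nat.prime_iff_prime_int.mp hℓ
  have hpm : (Ideal.span {(ℓ : ℤ)}).IsMaximal :=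
    hpp.isMaximal (by simpa using hℓ.ne_zero)
  have hqm : 𝔮.IsMaximal := h𝔮.isMaximal (s29fdg_ne_bot hℓ 𝔮 hmem)
  rw [Ideal.absNorm_eq_pow_inertiaDeg' 𝔮 hℓ, Ideal.inertiaDeg'_eq_inertiaDeg]

theorem s29fdg_norm_iff {ℓ : ℕ} (hℓ : ℓ.Prime) {K : Type} [Field K] [NumberField K]
    (𝔮 : Ideal (𝓞 K)) [h𝔮 : 𝔮.IsPrime] (hmem : ((ℓ : ℕ) : 𝓞 K) ∈ 𝔮) :
    Ideal.absNorm 𝔮 = ℓ ↔ 𝔮.inertiaDeg ℤ = 1 := by
  rw [s29fdg_norm hℓ 𝔮 hmem]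
  constructor
  · intro h
    have : ℓ ^ 𝔮.inertiaDeg ℤ = ℓ ^ 1 := by rw [h, pow_one]
    exact Nat.pow_right_injective hℓ.two_le this
  · intro h
    rw [h, pow_one]

theorem s29fdg_of_norm {ℓ : ℕ} (hℓ : ℓ.Prime) {K : Type} [Field K] [NumberField K]
    (I : Ideal (𝓞 K)) (hI : Ideal.absNorm I = ℓ) :
    I.IsPrime ∧ ((ℓ : ℕ) : 𝓞 K) ∈ I := by
  constructor
  · apply Ideal.isPrime_of_irreducible_absNorm
    rw [hI]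
    exact hℓ.prime.irreducible
  · rw [← hI]
    exact Ideal.absNorm_mem I

section
variable (L : Type) [Field L] [NumberField L] [IsGalois ℚ L] (H : Subgroup (L ≃ₐ[ℚ] L))

theorem s29fdg_mem_under {ℓ : ℕ} (𝔓 : Ideal (𝓞 L)) :
    ((ℓ : ℕ) : 𝓞 (IntermediateField.fixedField H)) ∈
      𝔓.under (𝓞 (IntermediateField.fixedField H)) ↔ ((ℓ : ℕ) : 𝓞 L) ∈ 𝔓 := by
  rw [Ideal.under_def, Ideal.mem_comap, map_natCast]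

/-- the fibre of `𝔓 ↦ 𝔓 ∩ 𝓞 (L^H)` over a prime of norm `ℓ`. -/
theorem s29fdg_fibre {ℓ : ℕ} (hℓ : ℓ.Prime) (hd : ¬ ((ℓ : ℤ) ∣ NumberField.discr L))
    (𝔮 : Ideal (𝓞 (IntermediateField.fixedField H))) (h𝔮 : Ideal.absNorm 𝔮 = ℓ)
    (𝔓 : Ideal (𝓞 L)) :
    (𝔓.IsPrime ∧ ((ℓ : ℕ) : 𝓞 L) ∈ 𝔓 ∧ MulAction.stabilizer (L ≃ₐ[ℚ] L) 𝔓 ≤ H ∧
      𝔓.under (𝓞 (IntermediateField.fixedField H)) = 𝔮) ↔
    𝔓 ∈ 𝔮.primesOver (𝓞 L) := by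
  obtain ⟨hq1, hq2⟩ := s29fdg_of_norm hℓ 𝔮 h𝔮
  constructor
  · rintro ⟨h1, -, -, h4⟩
    exact ⟨h1, ⟨h4.symm⟩⟩
  · rintro ⟨h1, ⟨h2⟩⟩
    have hmem : ((ℓ : ℕ) : 𝓞 L) ∈ 𝔓 := by
      rw [← s29fdg_mem_under L H 𝔓, ← h2]
      exact hq2
    refine ⟨h1, hmem, ?_, h2.symm⟩
    rw [s29fdg_key L H hℓ hd 𝔓 hmem, ← h2, ← s29fdg_norm_iff hℓ 𝔮 hq2]
    exact h𝔮


/-- the weight of the fibre over a prime of norm `ℓ` is `|H|`. -/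
theorem s29fdg_fibre_sum {ℓ : ℕ} (hℓ : ℓ.Prime) (hd : ¬ ((ℓ : ℤ) ∣ NumberField.discr L))
    (𝔮 : Ideal (𝓞 (IntermediateField.fixedField H))) (h𝔮 : Ideal.absNorm 𝔮 = ℓ)
    (F : Finset (Ideal (𝓞 L)))
    (hF : ∀ 𝔓, 𝔓 ∈ F ↔ (𝔓.IsPrime ∧ ((ℓ : ℕ) : 𝓞 L) ∈ 𝔓 ∧
      MulAction.stabilizer (L ≃ₐ[ℚ] L) 𝔓 ≤ H ∧
      𝔓.under (𝓞 (IntermediateField.fixedField H)) = 𝔮)) :
    ∑ 𝔓 ∈ F, Nat.card (MulAction.stabilizer (L ≃ₐ[ℚ] L) 𝔓) = Nat.card H := by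
  obtain ⟨hq1, hq2⟩ := s29fdg_of_norm hℓ 𝔮 h𝔮
  have hgal := s29fdg_gal L H
  have hconst : ∀ 𝔓 ∈ F, Nat.card (MulAction.stabilizer (L ≃ₐ[ℚ] L) 𝔓) =
      𝔮.ramificationIdxIn (𝓞 L) * 𝔮.inertiaDegIn (𝓞 L) := by
    intro 𝔓 h𝔓
    obtain ⟨h1, h2, h3, h4⟩ := (hF 𝔓).mp h𝔓
    have hlo : 𝔓.LiesOver 𝔮 := ⟨h4.symm⟩
    rw [← s29fdg_card_stabH_aux L H 𝔓 𝔮, s29fdg_stab_eq]
    exact (Nat.card_congr (Subgroup.subgroupOfEquivOfLe h3).toEquiv).symm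
  rw [Finset.sum_congr rfl hconst, Finset.sum_const, smul_eq_mul]
  have hcard : F.card = (𝔮.primesOver (𝓞 L)).ncard := by
    have : (F : Set (Ideal (𝓞 L))) = 𝔮.primesOver (𝓞 L) := by
      ext 𝔓
      rw [Finset.mem_coe, hF, s29fdg_fibre L H hℓ hd 𝔮 h𝔮]
    rw [← this, Set.ncard_coe_finset]
  rw [hcard]
  exact Ideal.ncard_primesOver_mul_ramificationIdxIn_mul_inertiaDegIn 𝔮 (𝓞 L) H

/-- **[FD-ALG]** -/
theorem s29fd_alg_main : s29fd_AlgStatement := by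
  classical
  intro L _ _ _ H ℓ hℓ hd
  -- the primes over `ℓ` with decomposition group in `H`
  have hfin : {𝔓 : Ideal (𝓞 L) | 𝔓.IsPrime ∧ ((ℓ : ℕ) : 𝓞 L) ∈ 𝔓}.Finite := by
    have hpp := s29fdg_span_isPrime hℓ
    have hpm : (Ideal.span {(ℓ : ℤ)}).IsMaximal :=
      hpp.isMaximal (by simpa using hℓ.ne_zero)
    refine (IsDedekindDomain.primesOver_finite (Ideal.span {(ℓ : ℤ)}) (𝓞 L)).subset ?_
    rintro 𝔓 ⟨h1, h2⟩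
    exact ⟨h1, s29fdg_liesOver hℓ 𝔓 h2⟩
  let TF : Finset (Ideal (𝓞 L)) :=
    hfin.toFinset.filter (fun 𝔓 => MulAction.stabilizer (L ≃ₐ[ℚ] L) 𝔓 ≤ H)
  have hTF : ∀ 𝔓, 𝔓 ∈ TF ↔ (𝔓.IsPrime ∧ ((ℓ : ℕ) : 𝓞 L) ∈ 𝔓 ∧
      MulAction.stabilizer (L ≃ₐ[ℚ] L) 𝔓 ≤ H) := by
    intro 𝔓
    simp only [TF, Finset.mem_filter, Set.Finite.mem_toFinset, Set.mem_ofPred_eq, and_assoc]
  -- (A) the right hand side
  have hA : ∑ᶠ D : {D : Subgroup (L ≃ₐ[ℚ] L) // D ≤ H}, Nat.card D.1 * s29fd_v L D.1 ℓ =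
      ∑ 𝔓 ∈ TF, Nat.card (MulAction.stabilizer (L ≃ₐ[ℚ] L) 𝔓) := by
    rw [finsum_eq_sum_of_fintype,
      ← Finset.sum_fiberwise TF (fun 𝔓 => MulAction.stabilizer (L ≃ₐ[ℚ] L) 𝔓)]
    rw [← Finset.sum_subtype (Finset.univ.filter (fun D : Subgroup (L ≃ₐ[ℚ] L) => D ≤ H))
      (fun D => by simp) (fun D => Nat.card D * s29fd_v L D ℓ)]
    rw [Finset.sum_filter]
    refine Finset.sum_congr rfl fun D _ => ?_
    split_ifs with hD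
    · have h1 : ∀ 𝔓 ∈ TF.filter (fun 𝔓 => MulAction.stabilizer (L ≃ₐ[ℚ] L) 𝔓 = D),
          Nat.card (MulAction.stabilizer (L ≃ₐ[ℚ] L) 𝔓) = Nat.card D := by
        intro 𝔓 h𝔓
        rw [(Finset.mem_filter.mp h𝔓).2]
      rw [Finset.sum_congr rfl h1, Finset.sum_const, smul_eq_mul, mul_comm]
      congr 1
      unfold s29fd_v
      refine Nat.subtype_card _ fun 𝔓 => ?_
      rw [Finset.mem_filter, hTF]
      constructor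
      · rintro ⟨⟨h1, h2, -⟩, h4⟩
        exact ⟨h1, h2, h4⟩
      · rintro ⟨h1, h2, h4⟩
        exact ⟨⟨h1, h2, h4 ▸ hD⟩, h4⟩
    · symm
      apply Finset.sum_eq_zero
      intro 𝔓 h𝔓
      exfalso
      obtain ⟨h1, h2⟩ := Finset.mem_filter.mp h𝔓
      exact hD (h2 ▸ ((hTF 𝔓).mp h1).2.2)
  -- (B) the left hand side
  have hYfin := Ideal.finite_setOfPred_absNorm_eq (S := 𝓞 (IntermediateField.fixedField H)) ℓ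
  have hc : s29fd_c (IntermediateField.fixedField H) ℓ = hYfin.toFinset.card := by
    unfold s29fd_c
    refine Nat.subtype_card _ fun I => ?_
    rw [Set.Finite.mem_toFinset, Set.mem_ofPred_eq]
  have hmaps : ∀ 𝔓 ∈ TF, 𝔓.under (𝓞 (IntermediateField.fixedField H)) ∈ hYfin.toFinset := by
    intro 𝔓 h𝔓
    obtain ⟨h1, h2, h3⟩ := (hTF 𝔓).mp h𝔓
    rw [Set.Finite.mem_toFinset, Set.mem_ofPred_eq]
    have hu : (𝔓.under (𝓞 (IntermediateField.fixedField H))).IsPrime := inferInstance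
    rw [s29fdg_norm_iff hℓ _ ((s29fdg_mem_under L H 𝔓).mpr h2)]
    exact (s29fdg_key L H hℓ hd 𝔓 h2).mp h3
  rw [hA, ← Finset.sum_fiberwise_of_maps_to hmaps, hc]
  rw [Finset.sum_congr rfl (fun 𝔮 h𝔮 => s29fdg_fibre_sum L H hℓ hd 𝔮
    (by simpa using h𝔮) _ (fun 𝔓 => by rw [Finset.mem_filter, hTF, and_assoc, and_assoc]))]
  rw [Finset.sum_const, smul_eq_mul, mul_comm]

end
end Fermat.Agent.S29
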