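import Fermat.Agent.S29.FdDefs
import Fermat.Agent.S29.FdAn
import Fermat.Agent.S29.FdAlg
import Fermat.Agent.S29.FdMob
import Fermat.Agent.S29.FdCore
import Fermat.Agent.S29.FdCyc
import Fermat.Agent.S29.FdBridge

set_option autoImplicit false

/-!
# [FD] Frobenius' density theorem: the assembly

`s29fd_main : s29_FDStatement` (the Prop of `S29/Defs.lean`), from the six leaves of the cut
`S29/FdDefs.lean`:
[FD-AN] helper2, [FD-ALG] helper5, [FD-MOB] helper25, [FD-CORE-OF] helper8, [FD-CYC] helper3,
[FD-BR] helper6.
-/

namespace Fermat.Agent.S29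

/-- **[FD-CORE]** every cyclic subgroup of the Galois group of a finite Galois extension of
`ℚ` is the decomposition group of a prime over some `ℓ ∉ S`, `ℓ ∤ disc`. -/
theorem s29fd_core_main : s29fd_CoreStatement :=
  s29fd_core_of s29fd_an_main s29fd_alg_main s29fd_mob_main

/-- **[FD]** Frobenius' density theorem, in the form of `S29/Defs.lean`. -/
theorem s29fd_main : s29_FDStatement :=
  s29fd_main_of s29fd_an_main s29fd_alg_main s29fd_mob_main s29fd_core_of s29fd_cyc_main
    s29fd_bridge_main

end Fermat.Agent.S29
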