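/-
S29 / S42, adapter [S42-FREY] (owner: helper13).  Prefix `s29fy_`.

The statement S42 asks for a number field `F ⊆ Q̄`, Galois over `ℚ`, such that `Gal(Q̄ / F)` acts
trivially on BOTH the residual representation `ρ` and the `p`-torsion of the Frey curve.  This
file provides that field:

* `s29fy_point`  : every point of `E(Q̄)` is fixed by `Gal(Q̄ / L)` for a number field `L`;
* `s29fy_torsion` : `GaloisFactorsThroughFiniteLevel` for the `n`-torsion of `E`, when it is finite;
* `s29fy_frey`   : the Frey representation factors through a finite level;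
* `s29fy_field`  : two finite levels are contained in one Galois number field `F`, in the spelling
                   of the statement S42 (`(AlgEquiv.restrictNormalHom F).ker ≤ ρ₁.ker ⊓ ρ₂.ker`);
* `s29fy_main`   : the clause of S42, for every `ρ` with `GaloisFactorsThroughFiniteLevel ρ`;
* `s29fy_attach_of` : `P.EigenformResidualAttachmentAt M` from the data WITHOUT the field `F`.
-/
import Mathlib
import Fermat.Prelude.Def_FreyPackage_EigenformResidualAttachment
import Fermat.Prelude.Def_GaloisRep_Residual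
import Fermat.Agent.S13.CardGen

set_option autoImplicit false

open WeierstrassCurve WeierstrassCurve.Affine WeierstrassCurve.Affine.Point

noncomputable section

namespace Fermat.Agent.S29

local notation "Qbar" => AlgebraicClosure ℚ
local notation "GQ" => (AlgebraicClosure ℚ ≃ₐ[ℚ] AlgebraicClosure ℚ)

/-- **(FY-1)** every point of `E(Q̄)` is fixed by `Gal(Q̄ / L)` for a number field `L`. -/
theorem s29fy_point (W : WeierstrassCurve ℚ) (x : (W⁄Qbar).Point) :
    ∃ L : IntermediateField ℚ Qbar, FiniteDimensional ℚ ↥L ∧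
      ∀ σ : GQ, (∀ a ∈ L, σ a = a) → σ • x = x := by
  rcases x with _ | ⟨a, b, h⟩
  · exact ⟨⊥, inferInstance, fun σ _ => smul_zero (A := (W⁄Qbar).Point) σ⟩
  · refine ⟨IntermediateField.adjoin ℚ {a, b}, ?_, fun σ hσ => ?_⟩
    · refine IntermediateField.finiteDimensional_adjoin (fun x _ => ?_)
      exact ((AlgebraicClosure.isAlgebraic ℚ).isAlgebraic x).isIntegral
    · have ha : σ a = a := hσ a (IntermediateField.subset_adjoin ℚ _ (by simp))
      have hb : σ b = b := hσ b (IntermediateField.subset_adjoin ℚ _ (by simp))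
      have h1 : σ • (Point.some a b h : (W⁄Qbar).Point) = Point.some (σ a) (σ b) _ :=
        Point.map_some (W' := W) σ.toAlgHom h
      rw [h1]
      simp only [ha, hb]

/-- Finitely many points at once. -/
theorem s29fy_finset (W : WeierstrassCurve ℚ) (T : Finset (W⁄Qbar).Point) :
    ∃ L : IntermediateField ℚ Qbar, FiniteDimensional ℚ ↥L ∧
      ∀ σ : GQ, (∀ a ∈ L, σ a = a) → ∀ x ∈ T, σ • x = x := by
  classical
  induction T using Finset.induction_on with
  | empty => exact ⟨⊥, inferInstance, fun _ _ x hx => absurd hx (Finset.notMem_empty x)⟩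
  | insert a s _ ih =>
    obtain ⟨L0, hL0, h0⟩ := ih
    obtain ⟨La, hLa, ha⟩ := s29fy_point W a
    refine ⟨L0 ⊔ La, IntermediateField.finiteDimensional_sup L0 La, fun σ hσ x hx => ?_⟩
    rcases Finset.mem_insert.mp hx with rfl | hx
    · exact ha σ (fun y hy => hσ y ((le_sup_right : La ≤ L0 ⊔ La) hy))
    · exact h0 σ (fun y hy => hσ y ((le_sup_left : L0 ≤ L0 ⊔ La) hy)) x hx

/-- **(FY-2), generic.**  If the `n`-torsion of `E(Q̄)` is finite, the Galois representation on it
factors through a finite level. -/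
theorem s29fy_torsion (W : WeierstrassCurve ℚ) (n : ℕ)
    (hfin : Finite (Submodule.torsionBy ℤ (W⁄Qbar).Point n)) :
    GaloisFactorsThroughFiniteLevel (galoisRepModuleEnd (K := Qbar) ℚ W n) := by
  classical
  have : Fintype (Submodule.torsionBy ℤ (W⁄Qbar).Point n) := Fintype.ofFinite _
  obtain ⟨L, hL, h⟩ := s29fy_finset W
    ((Finset.univ : Finset (Submodule.torsionBy ℤ (W⁄Qbar).Point n)).image Subtype.val)
  refine ⟨L, hL, fun σ hσ => ?_⟩
  refine LinearMap.ext fun x => Subtype.ext ?_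
  rw [galoisRepModuleEnd_apply]
  exact h σ hσ (x : (W⁄Qbar).Point) (Finset.mem_image_of_mem _ (Finset.mem_univ x))

/-- **(FY-2)** the mod `p` representation of the Frey curve factors through a finite level. -/
theorem s29fy_frey (P : FreyPackage) :
    GaloisFactorsThroughFiniteLevel
      (galoisRepModuleEnd (K := Qbar) ℚ P.freyCurve P.p) :=
  s29fy_torsion P.freyCurve P.p (Fermat.Agent.S13.cardG_card P).1

/-- Two finite levels are contained in one Galois number field, in the spelling of the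
statement S42. -/
theorem s29fy_field {M₁ M₂ : Type} [MulOneClass M₁] [MulOneClass M₂]
    (ρ₁ : GQ →* M₁) (ρ₂ : GQ →* M₂)
    (h₁ : GaloisFactorsThroughFiniteLevel ρ₁) (h₂ : GaloisFactorsThroughFiniteLevel ρ₂) :
    ∃ (F : Type) (_ : Field F) (_ : NumberField F) (_ : IsGalois ℚ F)
      (_ : Algebra F Qbar) (_ : IsScalarTower ℚ F Qbar),
      (AlgEquiv.restrictNormalHom (F := ℚ) (K₁ := Qbar) F).ker ≤ ρ₁.ker ⊓ ρ₂.ker := by
  obtain ⟨L₁, hL₁, k₁⟩ := h₁
  obtain ⟨L₂, hL₂, k₂⟩ := h₂
  have hsup : FiniteDimensional ℚ ↥(L₁ ⊔ L₂) := IntermediateField.finiteDimensional_sup L₁ L₂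
  have hclos : IsAlgClosure ℚ Qbar := AlgebraicClosure.instIsAlgClosure ℚ
  have hn : Normal ℚ Qbar := IsAlgClosure.normal ℚ Qbar
  have h2 : Normal ℚ ↥(IntermediateField.normalClosure ℚ ↥(L₁ ⊔ L₂) Qbar) :=
    normalClosure.normal ℚ ↥(L₁ ⊔ L₂) Qbar
  set E : IntermediateField ℚ Qbar := IntermediateField.normalClosure ℚ ↥(L₁ ⊔ L₂) Qbar with hE
  have hfd : FiniteDimensional ℚ ↥E := normalClosure.is_finiteDimensional ℚ ↥(L₁ ⊔ L₂) Qbar
  have hgal : IsGalois ℚ ↥E := { to_isSeparable := inferInstance, to_normal := h2 }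
  have hnf : NumberField ↥E := { to_charZero := inferInstance, to_finiteDimensional := hfd }
  refine ⟨↥E, inferInstance, hnf, hgal, inferInstance, inferInstance, ?_⟩
  intro σ hσ
  have hfix : ∀ a ∈ E, σ a = a := by
    intro a ha
    have h3 := AlgEquiv.restrictNormal_commutes σ ↥E ⟨a, ha⟩
    have h4 : σ.restrictNormal ↥E = 1 := hσ
    rw [h4] at h3
    exact h3.symm
  have hle : L₁ ⊔ L₂ ≤ E := IntermediateField.le_normalClosure (L₁ ⊔ L₂)
  refine ⟨?_, ?_⟩
  · exact k₁ σ fun a ha => hfix a (hle ((le_sup_left : L₁ ≤ L₁ ⊔ L₂) ha))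
  · exact k₂ σ fun a ha => hfix a (hle ((le_sup_right : L₂ ≤ L₁ ⊔ L₂) ha))

/-- **(FY-3)** the field clause of the statement S42, for every representation `ρ` which factors
through a finite level. -/
theorem s29fy_main (P : FreyPackage) {K V : Type} [Field K] [AddCommGroup V] [Module K V]
    (ρ : Representation K GQ V) (hρ : GaloisFactorsThroughFiniteLevel ρ) :
    ∃ (F : Type) (_ : Field F) (_ : NumberField F) (_ : IsGalois ℚ F)
      (_ : Algebra F Qbar) (_ : IsScalarTower ℚ F Qbar),
      (AlgEquiv.restrictNormalHom (F := ℚ) (K₁ := Qbar) F).ker ≤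
        (galoisRepModuleEnd (S := ℚ) (K := Qbar) P.freyCurve P.p).ker ⊓ ρ.ker :=
  s29fy_field _ ρ (s29fy_frey P) hρ

/-- **The adapter**: `P.EigenformResidualAttachmentAt M` from the same data with the clause on the
number field `F` replaced by `GaloisFactorsThroughFiniteLevel ρ`. -/
theorem s29fy_attach_of (P : FreyPackage) (M : ℕ)
    (h : ∀ (g : CuspForm (CongruenceSubgroup.Gamma0 M) 2), g.IsNormalizedEigenform →
      ∀ (𝔪 : Ideal (integralClosure ℤ ℂ)), 𝔪.IsMaximal → (P.p : integralClosure ℤ ℂ) ∈ 𝔪 →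
        ∃ (K : Type) (_ : Field K) (_ : Algebra (ZMod P.p) K)
          (V : Type) (_ : AddCommGroup V) (_ : Module K V)
          (ρ : Representation K GQ V) (ψ : integralClosure ℤ ℂ →+* K),
          𝔪 ≤ RingHom.ker ψ ∧
          Module.finrank K V = 2 ∧
          GaloisFactorsThroughFiniteLevel ρ ∧
          (∀ ℓ : ℕ, ℓ.Prime → ¬ ℓ ∣ M → ℓ ≠ P.p →
            ∀ A : ValuationSubring Qbar, A.LiesOverPrime ℓ →
              ∀ τ : GQ, A.IsFrobeniusAt τ ℓ →
                ∃ a : integralClosure ℤ ℂ, (a : ℂ) = ModularFormClass.qCoeff g ℓ ∧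
                  LinearMap.trace K V (ρ τ) = ψ a) ∧
          (∀ ℓ : ℕ, ℓ.Prime → ¬ ℓ ∣ M → ℓ ≠ P.p →
            ∀ A : ValuationSubring Qbar, A.LiesOverPrime ℓ →
              ∀ τ : GQ, A.IsFrobeniusAt τ ℓ →
                LinearMap.det (ρ τ) = (ℓ : K))) :
    P.EigenformResidualAttachmentAt M := by
  intro g hg 𝔪 h𝔪 hp
  obtain ⟨K, iK, iA, V, iV, iM, ρ, ψ, h1, h2, h3, h4, h5⟩ := h g hg 𝔪 h𝔪 hp
  obtain ⟨F, iF, iNF, iG, iAF, iST, hF⟩ := s29fy_main P ρ h3
  exact ⟨K, iK, iA, V, iV, iM, ρ, ψ, F, iF, iNF, iG, iAF, iST, h1, h2, hF, h4, h5⟩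

end Fermat.Agent.S29
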