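/-
S29, leaf [HK-AN] (owner: helper4), part 6: [K-HECKE] FROM THE NORM FORMULA OVER `ℂ`.
Prefix `s29hka_`.

`s29hka_hecke_of_norm : s29hka_NormStatement → s29k_HeckeStatement`, where
`s29hka_NormStatement` is helper14's (HK-1): for `y ∈ F_ℂ(N)`,
`N_α(β y)(t^ℓ) = y(t^(ℓ²)) · ∏_{i<ℓ} y(ζ^i t)`.

Root data `(k, f, g, D, y)` of `χ` are mapped to
`((ℓ + 1) k, s29hka_prod ℓ f, s29hka_prod ℓ g, T_ℓ D, N_α(β y))`.
-/
import Mathlib
import Fermat.Agent.S29.DescBcInst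
import Fermat.Agent.S29.HkAnKum

set_option autoImplicit false
set_option linter.style.haveILetI false

noncomputable section

namespace Fermat.Agent.S29

open UpperHalfPlane CongruenceSubgroup ModularCurve AlgebraicCurve
open ModularForm ModularFormClass
open scoped MatrixGroups ModularForm Manifold

open Fermat.Agent.S22 Fermat.Agent.S24 Fermat.Agent.S28 Fermat.Agent.S37

/-- **(HK-1)** (helper14) the norm formula over `ℂ` on `q`-expansions:
`N_α(β y)(t^ℓ) = y(t^(ℓ²)) · ∏_{i<ℓ} y(ζ^i t)`. -/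
def s29hka_NormStatement : Prop :=
  ∀ (N ℓ : ℕ) [NeZero N] [NeZero ℓ], ℓ.Prime → ¬ ℓ ∣ N → ∀ ζ : ℂˣ, IsPrimitiveRoot ζ ℓ →
    ∀ y : ↥(laurentBaseChange ℂ (modularFunctionFieldFull N)),
      qExpand ℂ ℓ
          (((letI := algebraAlong (heckeAlphaBar ℂ N ℓ);
            Algebra.norm ↥(laurentBaseChange ℂ (modularFunctionFieldFull N))
              (heckeBetaBar ℂ N ℓ y) :
            ↥(laurentBaseChange ℂ (modularFunctionFieldFull N))) : LaurentSeries ℂ)) =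
        qExpand ℂ (ℓ * ℓ) (y : LaurentSeries ℂ) *
          ∏ i ∈ Finset.range ℓ, s37es_tw (ζ ^ i) (y : LaurentSeries ℂ)

section Abs

variable {K F F' : Type*} [Field K] [Field F] [Field F'] [Algebra K F] [Algebra K F']
  [HasPrincipalDivisors K F']

/-- The divisor bookkeeping: if `n D = div y` then `n (ψ_* φ^* D) = div N_ψ(φ y)`. -/
theorem s29hka_corr_ord (φ ψ : F →ₐ[K] F') (hφ : φ.toRingHom.IsIntegral)
    (hψ : ψ.toRingHom.IsIntegral) (hfin : FiniteAlong K ψ) (hN : NormFormulaAlong K ψ hfin)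
    (n : ℤ) (D : Divisor K F) (y : F) (hy : y ≠ 0) (hD : ∀ v : Place K F, n * D v = v.ord y)
    (v : Place K F) :
    n * Divisor.correspondence φ ψ hφ hψ D v =
      v.ord (letI := algebraAlong ψ; Algebra.norm F (φ y)) := by
  have h1 : n * Divisor.correspondence φ ψ hφ hψ D v =
      Divisor.correspondence φ ψ hφ hψ (n • D) v := by
    rw [map_zsmul, Finsupp.smul_apply, smul_eq_mul]
  rw [h1, Divisor.correspondence_apply]
  have hE : ∀ w : Place K F, (n • D) w = w.ord y := fun w => by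
    rw [Finsupp.smul_apply, smul_eq_mul, hD w]
  have h2 : ∀ w : Place K F', Divisor.pullbackAlong φ hφ (n • D) w = w.ord (φ y) := by
    intro w
    letI := algebraAlong φ
    haveI := isScalarTower_along φ
    haveI := isIntegral_along φ hφ
    exact Divisor.pullback_apply_eq_ord hE w
  have hφy : φ y ≠ 0 := (map_ne_zero φ).mpr hy
  exact hN (φ y) hφy (Divisor.pullbackAlong φ hφ (n • D)) h2 v

end Abs

/-- **(HK-1)**, weak form: the norm formula for SOME primitive `ℓ`-th root of unity. -/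
def s29hka_NormStatementWeak : Prop :=
  ∀ (N ℓ : ℕ) [NeZero N] [NeZero ℓ], ℓ.Prime → ¬ ℓ ∣ N → ∃ ζ : ℂˣ, IsPrimitiveRoot ζ ℓ ∧
    ∀ y : ↥(laurentBaseChange ℂ (modularFunctionFieldFull N)),
      qExpand ℂ ℓ
          (((letI := algebraAlong (heckeAlphaBar ℂ N ℓ);
            Algebra.norm ↥(laurentBaseChange ℂ (modularFunctionFieldFull N))
              (heckeBetaBar ℂ N ℓ y) :
            ↥(laurentBaseChange ℂ (modularFunctionFieldFull N))) : LaurentSeries ℂ)) =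
        qExpand ℂ (ℓ * ℓ) (y : LaurentSeries ℂ) *
          ∏ i ∈ Finset.range ℓ, s37es_tw (ζ ^ i) (y : LaurentSeries ℂ)

theorem s29hka_norm_weak (h : s29hka_NormStatement) : s29hka_NormStatementWeak :=
  fun N ℓ _ _ hℓ hℓN => ⟨s29hka_zeta ℓ, s29hka_zeta_isPrimitiveRoot hℓ.ne_zero,
    fun y => h N ℓ hℓ hℓN (s29hka_zeta ℓ) (s29hka_zeta_isPrimitiveRoot hℓ.ne_zero) y⟩

/-- **[K-HECKE] from (HK-1)** (for some primitive root). -/
theorem s29hka_hecke_of_norm_weak (hNorm : s29hka_NormStatementWeak) : s29k_HeckeStatement := by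
  intro N _ n hn ℓ _ hℓN hℓn χ χ' hχ hPar hχ' x hx
  obtain ⟨k, f, g, hf, hg, hf0, hg0, D, y, rfl, hy, hD⟩ := hx
  have hℓ : ℓ.Prime := Fact.out
  have hone : ∀ γ : ↥(Gamma0 N), (1 : ↥(Gamma0 N) →* ℂˣ) γ ^ n = 1 := fun γ => by simp
  -- the series of `f ^ n`, `g ^ n` are non-zero
  have nf := s29ku_isNice_pow hf n hχ
  have ng := s29ku_isNice_pow hg n hone
  have sf : s29k_ser (f ^ n) ≠ 0 := s29ku_ser_ne_zero nf (s29ku_pow_ne_zero hf0 n)
  have sg : s29k_ser (g ^ n) ≠ 0 := s29ku_ser_ne_zero ng (s29ku_pow_ne_zero hg0 n)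
  have hy0 : y ≠ 0 := by
    intro h
    have h1 : (y : LaurentSeries ℂ) = 0 := by rw [h]; rfl
    rw [hy] at h1
    exact div_ne_zero sf sg h1
  -- the inputs of the Hecke correspondence over `ℂ`
  obtain ⟨hα, hβ, hP, hfin, hFI, hN⟩ := s29bc_heckeInputs ℂ N ℓ
  haveI := hP
  have hT : heckeOperatorAlong ℂ N ℓ = heckePic0Bar hα hβ hFI hfin hN :=
    heckeOperatorAlong_eq hα hβ hFI hfin hN
  refine ⟨(ℓ + 1) * k, s29hka_prod ℓ f, s29hka_prod ℓ g,
    s29hka_isForm_nat N ℓ hℓN k χ χ' hχ' hf, s29hka_isForm_one N ℓ hℓN k hg,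
    s29hka_prod_ne_zero_kum N ℓ n hn hχ hf hf0, s29hka_prod_ne_zero_kum N ℓ n hn hone hg hg0,
    Pic0.degZeroCorrespondence (heckeBetaBar ℂ N ℓ) (heckeAlphaBar ℂ N ℓ) hβ hα hFI D,
    (letI := algebraAlong (heckeAlphaBar ℂ N ℓ);
      Algebra.norm ↥(laurentBaseChange ℂ (modularFunctionFieldFull N)) (heckeBetaBar ℂ N ℓ y)),
    ?_, ?_, ?_⟩
  · rw [hT]
    rfl
  · obtain ⟨ζ, hζ, hform⟩ := hNorm N ℓ hℓ hℓN
    exact s29hka_root_series N ℓ n hζ hχ hone hf hg hy (hform y)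
  · intro P
    exact s29hka_corr_ord (heckeBetaBar ℂ N ℓ) (heckeAlphaBar ℂ N ℓ) hβ hα hfin hN (n : ℤ)
      (D : Divisor ℂ ↥(laurentBaseChange ℂ (modularFunctionFieldFull N))) y hy0 hD P

/-- **[K-HECKE] from (HK-1).** -/
theorem s29hka_hecke_of_norm (hNorm : s29hka_NormStatement) : s29k_HeckeStatement :=
  s29hka_hecke_of_norm_weak (s29hka_norm_weak hNorm)

end Fermat.Agent.S29

end
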