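/-
S29, leaf [HK-AN] (owner: helper4), part 3.  Prefix `s29hka_`.

The Hecke product `F = ∏ₓ f ∘ heckeRep ℓ x` of a form `f` of weight `k` with character `χ` on
`Γ₀(N)` (`ℓ ∤ N` prime) is a form of weight `(ℓ + 1) k` with character
`T_ℓ χ = γ ↦ ∏ₓ χ (s29lat_gam γ x)`, and all its `SL(2, ℤ)`-translates are bounded at `i∞`.
-/
import Mathlib
import Fermat.Agent.S20.Conj
import Fermat.Agent.S29.LatDefs
import Fermat.Agent.S29.HkAnProd

set_option autoImplicit false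

noncomputable section

namespace Fermat.Agent.S29

open UpperHalfPlane ModularFormClass CongruenceSubgroup Matrix.SpecialLinearGroup Function
open ModularForm Filter Asymptotics
open scoped MatrixGroups ModularForm Manifold Real Topology

open Fermat.Agent.S20 Fermat.Agent.S22 Fermat.Agent.S24 Fermat.Agent.S28
open P2MW.S_ModularForm_heckeT_slash_eq_self_of_mem_Gamma0.ModularForm.HeckeSlashInvariance

/-! ### Slash of a finite product -/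

theorem s29hka_finprod_slash {ι : Type*} (S : Finset ι) (F : ι → ℍ → ℂ) (k : ℤ)
    (γ : SL(2, ℤ)) :
    (∏ i ∈ S, F i) ∣[(S.card : ℤ) * k] γ = ∏ i ∈ S, (F i ∣[k] γ) := by
  classical
  induction S using Finset.induction_on with
  | empty =>
    simp only [Finset.prod_empty, Finset.card_empty, Nat.cast_zero, zero_mul]
    exact ModularForm.is_invariant_one γ
  | insert a S ha ih =>
    have hw : (((insert a S).card : ℕ) : ℤ) * k = k + (S.card : ℤ) * k := by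
      rw [Finset.card_insert_of_notMem ha]
      push_cast
      ring
    rw [Finset.prod_insert ha, Finset.prod_insert ha, hw, ModularForm.mul_slash_SL2, ih]

/-! ### The slash product and the composition product -/

/-- The automorphy constants of the representatives: `(f ∣[k] α_x)(z) = c_x f (α_x z)`. -/
def s29hka_c (ℓ : ℕ) (k : ℤ) (x : OnePoint (ZMod ℓ)) : ℂ :=
  x.elim ((ℓ : ℂ) ^ (k - 1)) (fun _ => (ℓ : ℂ)⁻¹)

theorem s29hka_c_ne_zero {ℓ : ℕ} (hℓ : ℓ ≠ 0) (k : ℤ) (x : OnePoint (ZMod ℓ)) :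
    s29hka_c ℓ k x ≠ 0 := by
  have hℓ' : (ℓ : ℂ) ≠ 0 := by exact_mod_cast hℓ
  induction x using OnePoint.rec with
  | infty => exact zpow_ne_zero _ hℓ'
  | coe j => exact inv_ne_zero hℓ'

theorem s29hka_slash_heckeRep {ℓ : ℕ} (hℓ : ℓ ≠ 0) (k : ℤ) (x : OnePoint (ZMod ℓ))
    (f : ℍ → ℂ) (z : ℍ) :
    (f ∣[k] heckeRep ℓ x) z = s29hka_c ℓ k x * f (heckeRep ℓ x • z) := by
  induction x using OnePoint.rec with
  | infty => exact slash_heckeDiagMatrix_apply k hℓ f z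
  | coe j => exact slash_heckeMatrix_apply k hℓ j.val f z

/-- The product of the automorphy constants. -/
def s29hka_C (ℓ : ℕ) [NeZero ℓ] (k : ℤ) : ℂ := ∏ x : OnePoint (ZMod ℓ), s29hka_c ℓ k x

theorem s29hka_C_ne_zero (ℓ : ℕ) [NeZero ℓ] (k : ℤ) : s29hka_C ℓ k ≠ 0 :=
  Finset.prod_ne_zero_iff.mpr fun x _ => s29hka_c_ne_zero (NeZero.ne ℓ) k x

/-- The slash product `∏ₓ f ∣[k] heckeRep ℓ x`. -/
def s29hka_sprod (ℓ : ℕ) [NeZero ℓ] (k : ℤ) (f : ℍ → ℂ) : ℍ → ℂ :=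
  ∏ x : OnePoint (ZMod ℓ), f ∣[k] heckeRep ℓ x

theorem s29hka_sprod_eq (ℓ : ℕ) [NeZero ℓ] (k : ℤ) (f : ℍ → ℂ) :
    s29hka_sprod ℓ k f = s29hka_C ℓ k • s29hka_prod ℓ f := by
  funext z
  rw [s29hka_sprod, Finset.prod_apply, Pi.smul_apply, s29hka_prod_apply, s29hka_C, smul_eq_mul,
    ← Finset.prod_mul_distrib]
  exact Finset.prod_congr rfl fun x _ => s29hka_slash_heckeRep (NeZero.ne ℓ) k x f z

theorem s29hka_prod_eq_smul_sprod (ℓ : ℕ) [NeZero ℓ] (k : ℤ) (f : ℍ → ℂ) :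
    s29hka_prod ℓ f = (s29hka_C ℓ k)⁻¹ • s29hka_sprod ℓ k f := by
  rw [s29hka_sprod_eq, smul_smul, inv_mul_cancel₀ (s29hka_C_ne_zero ℓ k), one_smul]

theorem s29hka_card_onePoint (ℓ : ℕ) [NeZero ℓ] :
    ((Finset.univ : Finset (OnePoint (ZMod ℓ))).card : ℤ) = (ℓ : ℤ) + 1 := by
  rw [Finset.card_univ]
  have h : Fintype.card (OnePoint (ZMod ℓ)) = Fintype.card (ZMod ℓ) + 1 :=
    Fintype.card_option
  rw [h, ZMod.card]
  push_cast
  rfl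

/-- The translates of the slash product. -/
theorem s29hka_sprod_slash (ℓ : ℕ) [NeZero ℓ] (k : ℤ) (f : ℍ → ℂ) (γ : SL(2, ℤ)) :
    s29hka_sprod ℓ k f ∣[((ℓ : ℤ) + 1) * k] γ =
      ∏ x : OnePoint (ZMod ℓ), (f ∣[k] (heckeRep ℓ x * mapGL ℝ γ)) := by
  rw [← s29hka_card_onePoint ℓ, s29hka_sprod, s29hka_finprod_slash]
  refine Finset.prod_congr rfl fun x _ => ?_
  rw [SlashAction.slash_mul]
  rfl

/-! ### (A2) the coset character -/

section Char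

variable {N ℓ : ℕ} [Fact ℓ.Prime]

/-- The slash product of a form with character `χ` has character `γ ↦ ∏ₓ χ (s29lat_gam γ x)`. -/
theorem s29hka_sprod_char (hℓN : ¬ ℓ ∣ N) (k : ℤ) (χ : ↥(Gamma0 N) →* ℂˣ) (f : ℍ → ℂ)
    (hχ : ∀ γ : ↥(Gamma0 N), f ∣[k] (γ : SL(2, ℤ)) = ((χ γ : ℂˣ) : ℂ) • f)
    (γ : ↥(Gamma0 N)) :
    s29hka_sprod ℓ k f ∣[((ℓ : ℤ) + 1) * k] (γ : SL(2, ℤ)) =
      (∏ x : OnePoint (ZMod ℓ), ((χ (s29lat_gam N ℓ hℓN γ x) : ℂˣ) : ℂ)) •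
        s29hka_sprod ℓ k f := by
  rw [s29hka_sprod_slash]
  have h1 : ∀ x : OnePoint (ZMod ℓ), f ∣[k] (heckeRep ℓ x * mapGL ℝ (γ : SL(2, ℤ))) =
      ((χ (s29lat_gam N ℓ hℓN γ x) : ℂˣ) : ℂ) •
        (f ∣[k] heckeRep ℓ (redMatrix ℓ (γ : SL(2, ℤ)) • x)) := by
    intro x
    rw [s29lat_gam_spec N ℓ hℓN γ x, SlashAction.slash_mul]
    have h2 : f ∣[k] mapGL ℝ ((s29lat_gam N ℓ hℓN γ x : ↥(Gamma0 N)) : SL(2, ℤ)) =
        ((χ (s29lat_gam N ℓ hℓN γ x) : ℂˣ) : ℂ) • f := hχ _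
    rw [h2, ModularForm.smul_slash, UpperHalfPlane.σ,
      if_pos (s29hka_heckeRep_det_pos ℓ _)]
    rfl
  simp only [h1]
  rw [Finset.prod_smul, s29hka_sprod]
  congr 1
  exact Equiv.prod_comp (MulAction.toPerm (redMatrix ℓ (γ : SL(2, ℤ))))
    (fun x ↦ f ∣[k] heckeRep ℓ x)

/-- **(A2)** The Hecke product of a form of weight `k` with character `χ` has weight `(ℓ + 1) k`
and character `γ ↦ ∏ₓ χ (s29lat_gam γ x)`. -/
theorem s29hka_prod_char (hℓN : ¬ ℓ ∣ N) (k : ℤ) (χ : ↥(Gamma0 N) →* ℂˣ) (f : ℍ → ℂ)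
    (hχ : ∀ γ : ↥(Gamma0 N), f ∣[k] (γ : SL(2, ℤ)) = ((χ γ : ℂˣ) : ℂ) • f)
    (γ : ↥(Gamma0 N)) :
    s29hka_prod ℓ f ∣[((ℓ : ℤ) + 1) * k] (γ : SL(2, ℤ)) =
      (∏ x : OnePoint (ZMod ℓ), ((χ (s29lat_gam N ℓ hℓN γ x) : ℂˣ) : ℂ)) •
        s29hka_prod ℓ f := by
  rw [s29hka_prod_eq_smul_sprod ℓ k f, ModularForm.SL_smul_slash,
    s29hka_sprod_char hℓN k χ f hχ γ, smul_comm]

/-! ### (A3) the translates -/

/-- All `SL(2, ℤ)`-translates of the slash product are bounded at `i∞`. -/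
theorem s29hka_sprod_bdd (k : ℤ) (f : ℍ → ℂ)
    (hb : ∀ δ : SL(2, ℤ), IsBoundedAtImInfty (f ∣[k] δ)) (δ : SL(2, ℤ)) :
    IsBoundedAtImInfty (s29hka_sprod ℓ k f ∣[((ℓ : ℤ) + 1) * k] δ) := by
  rw [s29hka_sprod_slash]
  have e : (∏ x : OnePoint (ZMod ℓ), (f ∣[k] (heckeRep ℓ x * mapGL ℝ δ))) =
      fun z => ∏ x : OnePoint (ZMod ℓ), (f ∣[k] (heckeRep ℓ x * mapGL ℝ δ)) z := by
    funext z
    rw [Finset.prod_apply]
  rw [e]
  refine s29hka_bdd_finprod Finset.univ _ fun x _ => ?_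
  have h1 : ¬ ℓ ∣ 1 := fun h => (Fact.out : ℓ.Prime).one_lt.ne' (Nat.dvd_one.mp h)
  obtain ⟨δ', -, hmul⟩ := heckeRep_mul (p := ℓ) (N := 1) h1 δ (by simp) x
  rw [hmul, SlashAction.slash_mul]
  exact (hb δ').slash k (s29hka_heckeRep_one_zero ℓ _)

/-- **(A3)** All `SL(2, ℤ)`-translates of the Hecke product are bounded at `i∞`. -/
theorem s29hka_prod_bdd_slash (k : ℤ) (f : ℍ → ℂ)
    (hb : ∀ δ : SL(2, ℤ), IsBoundedAtImInfty (f ∣[k] δ)) (δ : SL(2, ℤ)) :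
    IsBoundedAtImInfty (s29hka_prod ℓ f ∣[((ℓ : ℤ) + 1) * k] δ) := by
  rw [s29hka_prod_eq_smul_sprod ℓ k f, ModularForm.SL_smul_slash]
  exact (s29hka_sprod_bdd k f hb δ).const_smul_left _

/-- **(A3')** The Hecke product of a modular form of weight `k` on `Γ₀(N)` is a modular form of
weight `(ℓ + 1) k` on `Γ₀(N)`. -/
theorem s29hka_prod_isMF [NeZero N] (hℓN : ¬ ℓ ∣ N) (k : ℤ) {g : ℍ → ℂ}
    (hg : IsMF (G0 N) k g) : IsMF (G0 N) (((ℓ : ℤ) + 1) * k) (s29hka_prod ℓ g) := by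
  refine isMF_criterion N _ _ (s29hka_prod_mdiff ℓ (conj_mdiff_of_isMF hg)) ?_ ?_
  · intro γ hγ
    have h := s29hka_prod_char (ℓ := ℓ) hℓN k (1 : ↥(Gamma0 N) →* ℂˣ) g
      (fun γ' => by
        rw [conj_slash_Gamma0 hg _ γ'.2]
        simp) ⟨γ, hγ⟩
    simpa using h
  · exact s29hka_prod_bdd_slash k g fun δ => isBoundedAtImInfty_slash_of_isMF hg δ

end Char

end Fermat.Agent.S29

end
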