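/-
S29 (K4) [ROOT-AN], part 4 (helper17).  Prefix `s29rt_`.  Pure Mathlib.

The character of a `p`-th root: if `f` is invariant under a group `G` of holomorphic
self-maps of a connected open set `V` and `h` is a `p`-th root of `f` on `V` (in normal form),
then `h ∘ m g = χ g • h` on `V` for a character `χ : G →* ℂˣ` with `χ ^ p = 1`.
-/
import Mathlib
import Fermat.Agent.S29.RootGlue

set_option autoImplicit false

open Complex Metric Set Filter Topology

noncomputable section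

namespace Fermat.Agent.S29

/-- Two functions in normal form on an open set which agree outside a discrete subset agree
everywhere. -/
theorem s29rt_eqOn_of_nf {V : Set ℂ} (hV : IsOpen V) {h₁ h₂ : ℂ → ℂ}
    (hh₁ : MeromorphicNFOn h₁ V) (hh₂ : MeromorphicNFOn h₂ V)
    (heq : h₁ =ᶠ[codiscreteWithin V] h₂) : EqOn h₁ h₂ V := fun z hz =>
  (((hh₁ hz).eventuallyEq_nhdsNE_iff_eventuallyEq_nhds (hh₂ hz)).1
    ((s29rt_eventuallyEq_codiscreteWithin_iff hV).1 heq z hz)).eq_of_nhds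

/-- Pull-back of "outside a discrete subset" along a holomorphic self-map with non-vanishing
derivative. -/
theorem s29rt_comp_eventuallyEq {V : Set ℂ} (hV : IsOpen V) {m : ℂ → ℂ}
    (hm_an : ∀ z ∈ V, AnalyticAt ℂ m z) (hm_maps : MapsTo m V V)
    (hm_deriv : ∀ z ∈ V, deriv m z ≠ 0) {a b : ℂ → ℂ} (hab : a =ᶠ[codiscreteWithin V] b) :
    (a ∘ m) =ᶠ[codiscreteWithin V] (b ∘ m) := by
  rw [s29rt_eventuallyEq_codiscreteWithin_iff hV] at hab ⊢
  intro z hz
  have h1 : Tendsto m (𝓝[≠] z) (𝓝[≠] (m z)) :=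
    (hm_an z hz).differentiableAt.hasDerivAt.tendsto_nhdsNE (hm_deriv z hz)
  exact h1.eventually (hab (m z) (hm_maps hz))

section

variable {p : ℕ} {f : ℂ → ℂ}

/-- Roots can be pulled back along holomorphic self-maps with non-vanishing derivative. -/
theorem s29rt_IsRootOn.comp {V : Set ℂ} (hV : IsOpen V) {h : ℂ → ℂ}
    (hh : s29rt_IsRootOn p f V h) {m : ℂ → ℂ}
    (hm_an : ∀ z ∈ V, AnalyticAt ℂ m z) (hm_maps : MapsTo m V V)
    (hm_deriv : ∀ z ∈ V, deriv m z ≠ 0) : s29rt_IsRootOn p (f ∘ m) V (h ∘ m) :=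
  ⟨fun z hz => (hh.1 (hm_maps hz)).comp_analyticAt (hm_an z hz),
    s29rt_comp_eventuallyEq hV hm_an hm_maps hm_deriv hh.2⟩

theorem s29rt_IsRootOn.congr_right {V : Set ℂ} {h f' : ℂ → ℂ}
    (hh : s29rt_IsRootOn p f V h) (hff' : f =ᶠ[codiscreteWithin V] f') :
    s29rt_IsRootOn p f' V h :=
  ⟨hh.1, hh.2.trans hff'⟩

/-- A root of a function which is nowhere locally zero does not vanish identically. -/
theorem s29rt_IsRootOn.exists_ne_zero {V : Set ℂ} (hV : IsOpen V) (hVne : V.Nonempty)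
    {h : ℂ → ℂ} (hp : 0 < p) (hh : s29rt_IsRootOn p f V h)
    (hne : ∀ z ∈ V, meromorphicOrderAt f z ≠ ⊤) : ∃ z ∈ V, h z ≠ 0 := by
  obtain ⟨z₀, hz₀⟩ := hVne
  have h1 := (meromorphicOrderAt_ne_top_iff_eventually_ne_zero
    (hh.1 hz₀).meromorphicAt).1 (hh.order_ne_top hV hp hne _ hz₀)
  have h2 : V ∈ 𝓝[≠] z₀ := mem_nhdsWithin_of_mem_nhds (hV.mem_nhds hz₀)
  obtain ⟨w, hw1, hw2⟩ := (h1.and h2).exists
  exact ⟨w, hw2, hw1⟩

end

/-- **(R3) The character of a root.** Let `G` act on the connected open set `V` by holomorphic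
maps `m g` with non-vanishing derivative, let `f` be meromorphic on `V`, nowhere locally zero,
and invariant under `G` outside a discrete set, and let `h` be a `p`-th root of `f` on `V` in
normal form.  Then `h (m g z) = χ g * h z` for all `z ∈ V`, with a character `χ` of `G` whose
values are `p`-th roots of unity. -/
theorem s29rt_char {G : Type*} [Group G] (p : ℕ) (hp : 0 < p) (V : Set ℂ) (hV : IsOpen V)
    (hVc : IsPreconnected V) (m : G → ℂ → ℂ)
    (hm_an : ∀ g, ∀ z ∈ V, AnalyticAt ℂ (m g) z) (hm_maps : ∀ g, MapsTo (m g) V V)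
    (hm_deriv : ∀ g, ∀ z ∈ V, deriv (m g) z ≠ 0) (hm_one : ∀ z ∈ V, m 1 z = z)
    (hm_mul : ∀ g g', ∀ z ∈ V, m (g * g') z = m g (m g' z))
    (f h : ℂ → ℂ) (hne : ∀ z ∈ V, meromorphicOrderAt f z ≠ ⊤)
    (hh : s29rt_IsRootOn p f V h)
    (hinv : ∀ g, (f ∘ m g) =ᶠ[codiscreteWithin V] f) :
    ∃ χ : G →* ℂˣ, (∀ g, χ g ^ p = 1) ∧ ∀ g, ∀ z ∈ V, h (m g z) = (χ g : ℂ) * h z := by
  rcases V.eq_empty_or_nonempty with rfl | hVne
  · exact ⟨1, fun g => by simp, fun g z hz => absurd hz (Set.notMem_empty z)⟩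
  obtain ⟨z₁, hz₁V, hz₁⟩ := hh.exists_ne_zero hV hVne hp hne
  have hζ : ∀ g, ∃ ζ : ℂ, ζ ^ p = 1 ∧ EqOn (h ∘ m g) (fun z => ζ * h z) V := fun g =>
    ((hh.comp hV (hm_an g) (hm_maps g) (hm_deriv g)).congr_right (hinv g)).unique hV hVc hp hh hne
  choose ζ hζp hζeq using hζ
  have hζ0 : ∀ g, ζ g ≠ 0 := fun g h0 => by
    have := hζp g
    rw [h0, zero_pow hp.ne'] at this
    exact zero_ne_one this
  have hcancel : ∀ a b : ℂ, a * h z₁ = b * h z₁ → a = b := fun a b hab =>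
    mul_right_cancel₀ hz₁ hab
  have hone : ζ 1 = 1 := by
    apply hcancel
    have h1 := hζeq 1 hz₁V
    simp only [Function.comp_apply, hm_one z₁ hz₁V] at h1
    rw [← h1, one_mul]
  have hmul : ∀ g g', ζ (g * g') = ζ g * ζ g' := by
    intro g g'
    apply hcancel
    have h1 := hζeq (g * g') hz₁V
    have h2 := hζeq g (hm_maps g' hz₁V)
    have h3 := hζeq g' hz₁V
    simp only [Function.comp_apply] at h1 h2 h3
    rw [← h1, hm_mul g g' z₁ hz₁V, h2, h3, mul_assoc]
  refine ⟨{ toFun := fun g => Units.mk0 (ζ g) (hζ0 g)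
            map_one' := Units.ext (by simpa using hone)
            map_mul' := fun g g' => Units.ext (by simpa using hmul g g') }, ?_, ?_⟩
  · intro g
    apply Units.ext
    simpa using hζp g
  · intro g z hz
    simpa using hζeq g hz

end Fermat.Agent.S29
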