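/-
S29, (K4)[ROOT], leaf [ROOT-FIN] (helper23).  Prefix `s29rf_`.

COROLLARIES over `Q̄`.
* `s29rf_kbc_main : s29k_BCStatement` — [K-BC] of `KumDefs.lean`, closed
  ([ROOT-FIN] `s29rf_stmt` + helper28's `s29d_kbc_of` + helper21's `s29bh_heckeBC_main`);
* `s29rf_jzero_finite` — the `n`-torsion of `J₀(N)(Q̄)` is finite, for every `n > 0`
  (base change to `ℂ` is injective, and `Pic⁰(F_ℂ)[n]` is finite);
* the same for helper18's torsion submodule `s29q_tors N n`.
-/
import Mathlib
import Fermat.Agent.S29.RootFinStmt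
import Fermat.Agent.S29.DescHeckeMain
import Fermat.Agent.S29.QuadDefs

set_option autoImplicit false

open AlgebraicCurve ModularCurve

namespace Fermat.Agent.S29

/-- **[K-BC]**, closed. -/
theorem s29rf_kbc_main : s29k_BCStatement := s29rf_kbc_of s29bh_heckeBC_main

/-- **The `n`-torsion of `J₀(N)(Q̄)` is finite** (`ℕ`-scalar form). -/
theorem s29rf_jzero_finite (N : ℕ) [NeZero N] (n : ℕ) (hn : 0 < n) :
    {x : JZero N | n • x = 0}.Finite := by
  obtain ⟨bc, hinj, -, -⟩ := s29rf_kbc_main N n hn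
  have h := s29rf_main' N n hn
  refine Set.Finite.of_injOn (f := bc) ?_ hinj.injOn h
  intro x hx
  have hx' : n • x = 0 := hx
  show (n : ℤ) • bc x = 0
  rw [natCast_zsmul, ← map_nsmul, hx', map_zero]

/-- The `n`-torsion of `J₀(N)(Q̄)` is finite (`ℤ`-scalar form). -/
theorem s29rf_jzero_finite' (N : ℕ) [NeZero N] (n : ℕ) (hn : 0 < n) :
    {x : JZero N | (n : ℤ) • x = 0}.Finite := by
  refine (s29rf_jzero_finite N n hn).subset ?_
  intro x hx
  have hx' : (n : ℤ) • x = 0 := hx
  show n • x = 0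
  rw [← natCast_zsmul]
  exact hx'

/-- helper18's torsion submodule `J₀(N)(Q̄)[n]` is a finite set. -/
theorem s29rf_tors_finite (N : ℕ) [NeZero N] (n : ℕ) (hn : 0 < n) :
    Finite ↥(s29q_tors N n) := by
  have h := s29rf_jzero_finite N n hn
  have : (↑(s29q_tors N n) : Set (JZero N)) = {x : JZero N | n • x = 0} := by
    ext x
    exact s29q_mem_tors
  exact Set.finite_coe_iff.mpr (this ▸ h)

/-- helper18's torsion submodule `J₀(N)(Q̄)[n]` is a finitely generated `ℤ`-module. -/
theorem s29rf_tors_module_finite (N : ℕ) [NeZero N] (n : ℕ) (hn : 0 < n) :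
    Module.Finite ℤ ↥(s29q_tors N n) := by
  haveI := s29rf_tors_finite N n hn
  exact Module.Finite.of_finite

end Fermat.Agent.S29
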