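/-
S29 (K4) [ROOT-AN], part 5 (helper17).  Prefix `s29rt_`.  Pure Mathlib.

The instance of `RootChar.lean` for a subgroup `Γ` of `SL(2, ℤ)` acting on the upper half
plane: a `Γ`-invariant meromorphic function on `ℍ` all of whose orders are divisible by `p` has a
meromorphic `p`-th root `h` with `h (γ • τ) = χ γ * h τ` for a character `χ : Γ →* ℂˣ`,
`χ ^ p = 1`.
-/
import Mathlib
import Fermat.Agent.S29.RootChar

set_option autoImplicit false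

open Complex Metric Set Filter Topology UpperHalfPlane
open scoped MatrixGroups

noncomputable section

namespace Fermat.Agent.S29

/-- The Möbius map of `γ ∈ SL(2, ℤ)`, as a function `ℂ → ℂ`. -/
def s29rt_mob (γ : SL(2, ℤ)) (z : ℂ) : ℂ :=
  (((γ 0 0 : ℤ) : ℂ) * z + ((γ 0 1 : ℤ) : ℂ)) / (((γ 1 0 : ℤ) : ℂ) * z + ((γ 1 1 : ℤ) : ℂ))

theorem s29rt_mob_eq_smul (γ : SL(2, ℤ)) (τ : ℍ) : s29rt_mob γ (τ : ℂ) = ((γ • τ : ℍ) : ℂ) := by
  rw [UpperHalfPlane.coe_specialLinearGroup_apply]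
  simp [s29rt_mob]

theorem s29rt_mob_eq_smul' (γ : SL(2, ℤ)) {z : ℂ} (hz : z ∈ s29rt_U) :
    s29rt_mob γ z = ((γ • (⟨z, hz⟩ : ℍ) : ℍ) : ℂ) :=
  s29rt_mob_eq_smul γ ⟨z, hz⟩

theorem s29rt_mob_mapsTo (γ : SL(2, ℤ)) : MapsTo (s29rt_mob γ) s29rt_U s29rt_U := by
  intro z hz
  rw [s29rt_mob_eq_smul' γ hz]
  exact (γ • (⟨z, hz⟩ : ℍ)).im_pos

theorem s29rt_mob_one {z : ℂ} (hz : z ∈ s29rt_U) : s29rt_mob 1 z = z := by
  rw [s29rt_mob_eq_smul' 1 hz, one_smul]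

theorem s29rt_mob_mul (γ γ' : SL(2, ℤ)) {z : ℂ} (hz : z ∈ s29rt_U) :
    s29rt_mob (γ * γ') z = s29rt_mob γ (s29rt_mob γ' z) := by
  rw [s29rt_mob_eq_smul' (γ * γ') hz, s29rt_mob_eq_smul' γ' hz, s29rt_mob_eq_smul γ, mul_smul]

theorem s29rt_denom_ne_zero (γ : SL(2, ℤ)) {z : ℂ} (hz : z ∈ s29rt_U) :
    ((γ 1 0 : ℤ) : ℂ) * z + ((γ 1 1 : ℤ) : ℂ) ≠ 0 := by
  intro h0
  have hz' : 0 < z.im := hz
  have him : ((γ 1 0 : ℤ) : ℝ) * z.im = 0 := by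
    have := congrArg Complex.im h0
    simpa using this
  have hc : (γ 1 0 : ℤ) = 0 := by
    rcases mul_eq_zero.1 him with h | h
    · exact_mod_cast h
    · exact absurd h hz'.ne'
  have hd : (γ 1 1 : ℤ) = 0 := by
    rw [hc] at h0
    simpa using h0
  have hdet := Matrix.SpecialLinearGroup.det_coe γ
  rw [Matrix.det_fin_two, hc, hd] at hdet
  simp at hdet

theorem s29rt_mob_hasDerivAt (γ : SL(2, ℤ)) {z : ℂ} (hz : z ∈ s29rt_U) :
    HasDerivAt (s29rt_mob γ) (1 / (((γ 1 0 : ℤ) : ℂ) * z + ((γ 1 1 : ℤ) : ℂ)) ^ 2) z := by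
  have hd := s29rt_denom_ne_zero γ hz
  have h1 : HasDerivAt (fun w : ℂ => ((γ 0 0 : ℤ) : ℂ) * w + ((γ 0 1 : ℤ) : ℂ))
      ((γ 0 0 : ℤ) : ℂ) z := by
    simpa using ((hasDerivAt_id z).const_mul ((γ 0 0 : ℤ) : ℂ)).add_const ((γ 0 1 : ℤ) : ℂ)
  have h2 : HasDerivAt (fun w : ℂ => ((γ 1 0 : ℤ) : ℂ) * w + ((γ 1 1 : ℤ) : ℂ))
      ((γ 1 0 : ℤ) : ℂ) z := by
    simpa using ((hasDerivAt_id z).const_mul ((γ 1 0 : ℤ) : ℂ)).add_const ((γ 1 1 : ℤ) : ℂ)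
  have h3 := h1.div h2 hd
  have hdet : ((γ 0 0 : ℤ) : ℂ) * ((γ 1 1 : ℤ) : ℂ) - ((γ 0 1 : ℤ) : ℂ) * ((γ 1 0 : ℤ) : ℂ) = 1 := by
    have := Matrix.SpecialLinearGroup.det_coe γ
    rw [Matrix.det_fin_two] at this
    exact_mod_cast this
  have h4 : (((γ 0 0 : ℤ) : ℂ) * (((γ 1 0 : ℤ) : ℂ) * z + ((γ 1 1 : ℤ) : ℂ)) -
      (((γ 0 0 : ℤ) : ℂ) * z + ((γ 0 1 : ℤ) : ℂ)) * ((γ 1 0 : ℤ) : ℂ)) /
      (((γ 1 0 : ℤ) : ℂ) * z + ((γ 1 1 : ℤ) : ℂ)) ^ 2 =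
      1 / (((γ 1 0 : ℤ) : ℂ) * z + ((γ 1 1 : ℤ) : ℂ)) ^ 2 := by
    congr 1
    linear_combination hdet
  have h5 : s29rt_mob γ = (fun w : ℂ => ((γ 0 0 : ℤ) : ℂ) * w + ((γ 0 1 : ℤ) : ℂ)) /
      (fun w : ℂ => ((γ 1 0 : ℤ) : ℂ) * w + ((γ 1 1 : ℤ) : ℂ)) := rfl
  rw [h5]
  exact h3.congr_deriv h4

theorem s29rt_mob_analyticAt (γ : SL(2, ℤ)) {z : ℂ} (hz : z ∈ s29rt_U) :
    AnalyticAt ℂ (s29rt_mob γ) z := by
  have hd := s29rt_denom_ne_zero γ hz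
  unfold s29rt_mob
  exact ((analyticAt_const.mul analyticAt_id).add analyticAt_const).div
    ((analyticAt_const.mul analyticAt_id).add analyticAt_const) hd

theorem s29rt_mob_deriv_ne_zero (γ : SL(2, ℤ)) {z : ℂ} (hz : z ∈ s29rt_U) :
    deriv (s29rt_mob γ) z ≠ 0 := by
  rw [(s29rt_mob_hasDerivAt γ hz).deriv]
  exact one_div_ne_zero (pow_ne_zero _ (s29rt_denom_ne_zero γ hz))

theorem s29rt_isPreconnected_U : IsPreconnected s29rt_U := by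
  apply Convex.isPreconnected
  intro x hx y hy a b ha hb hab
  show 0 < (a • x + b • y).im
  have hx' : 0 < x.im := hx
  have hy' : 0 < y.im := hy
  simp only [Complex.add_im, Complex.real_smul, Complex.mul_im, Complex.ofReal_re,
    Complex.ofReal_im, zero_mul, add_zero]
  rcases ha.eq_or_lt with h | h
  · have hb1 : b = 1 := by rw [← h] at hab; simpa using hab
    rw [← h, hb1]
    simpa using hy'
  · have := mul_pos h hx'
    have := mul_nonneg hb hy'.le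
    linarith

theorem s29rt_comp_ofComplex_eqOn (h : ℍ → ℂ) :
    EqOn (h ∘ ofComplex) (fun z => h (ofComplex z)) s29rt_U := fun _ _ => rfl

/-- For a function on `ℍ`, invariance under `γ` is invariance of `F ∘ ofComplex` under the
Möbius map on the half plane. -/
theorem s29rt_comp_mob (F : ℍ → ℂ) (γ : SL(2, ℤ)) {z : ℂ} (hz : z ∈ s29rt_U) :
    (F ∘ ofComplex) (s29rt_mob γ z) = F (γ • (⟨z, hz⟩ : ℍ)) := by
  rw [s29rt_mob_eq_smul' γ hz, Function.comp_apply, ofComplex_apply]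

theorem s29rt_comp_ofComplex_apply (F : ℍ → ℂ) {z : ℂ} (hz : z ∈ s29rt_U) :
    (F ∘ ofComplex) z = F ⟨z, hz⟩ := by
  rw [Function.comp_apply, ofComplex_apply_of_im_pos hz]

/-- **Root data**: `h` is a `p`-th root of `F` on the upper half plane (in normal form) and
transforms under `Γ` by the character `χ`. -/
def s29rt_IsRootData (Γ : Subgroup SL(2, ℤ)) (p : ℕ) (F h : ℍ → ℂ) (χ : Γ →* ℂˣ) : Prop :=
  s29rt_IsRootOn p (F ∘ ofComplex) s29rt_U (h ∘ ofComplex) ∧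
    ∀ (γ : Γ) (τ : ℍ), h ((γ : SL(2, ℤ)) • τ) = (χ γ : ℂ) * h τ

/-- A function `h₀ : ℂ → ℂ` and its restriction to `ℍ` agree on the half plane. -/
theorem s29rt_restrict_eqOn (h₀ : ℂ → ℂ) :
    EqOn ((fun τ : ℍ => h₀ (τ : ℂ)) ∘ ofComplex) h₀ s29rt_U := by
  intro z hz
  rw [Function.comp_apply, ofComplex_apply_of_im_pos hz]

theorem s29rt_IsRootOn.congr_left {p : ℕ} {f : ℂ → ℂ} {V : Set ℂ} (hV : IsOpen V)
    {h h' : ℂ → ℂ} (hh : s29rt_IsRootOn p f V h) (heq : EqOn h' h V) :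
    s29rt_IsRootOn p f V h' := by
  refine ⟨fun z hz => ?_, ?_⟩
  · rw [meromorphicNFAt_congr (Filter.eventuallyEq_of_mem (hV.mem_nhds hz) heq)]
    exact hh.1 hz
  · filter_upwards [hh.2, self_mem_codiscreteWithin V] with z hz hzV
    rw [heq hzV]
    exact hz

/-- **(R1) + (R3) on `ℍ`.** A `Γ`-invariant function on `ℍ` which is meromorphic, nowhere locally
zero, and all of whose orders are divisible by `p`, has a `p`-th root `h` with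
`h (γ • τ) = χ γ * h τ`, `χ` a character of `Γ` with values in the `p`-th roots of unity. -/
theorem s29rt_main (Γ : Subgroup SL(2, ℤ)) (p : ℕ) (hp : 0 < p) (F : ℍ → ℂ)
    (hF : MeromorphicOn (F ∘ ofComplex) s29rt_U)
    (hne : ∀ z ∈ s29rt_U, meromorphicOrderAt (F ∘ ofComplex) z ≠ ⊤)
    (hdiv : ∀ z ∈ s29rt_U, (p : ℤ) ∣ (meromorphicOrderAt (F ∘ ofComplex) z).untop₀)
    (hinv : ∀ γ ∈ Γ, ∀ τ : ℍ, F (γ • τ) = F τ) :
    ∃ (h : ℍ → ℂ) (χ : Γ →* ℂˣ), s29rt_IsRootData Γ p F h χ ∧ ∀ γ, χ γ ^ p = 1 := by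
  obtain ⟨h₀, hh₀⟩ := s29rt_root p hp (F ∘ ofComplex) hF hne hdiv
  have hinv' : ∀ g : Γ, ((F ∘ ofComplex) ∘ s29rt_mob (g : SL(2, ℤ)))
      =ᶠ[codiscreteWithin s29rt_U] (F ∘ ofComplex) := by
    intro g
    filter_upwards [self_mem_codiscreteWithin s29rt_U] with z hz
    rw [Function.comp_apply, s29rt_comp_mob F _ hz, hinv _ g.2, s29rt_comp_ofComplex_apply F hz]
  obtain ⟨χ, hχp, hχ⟩ := s29rt_char p hp s29rt_U s29rt_isOpen_U s29rt_isPreconnected_U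
    (fun g : Γ => s29rt_mob (g : SL(2, ℤ)))
    (fun g z hz => s29rt_mob_analyticAt _ hz) (fun g => s29rt_mob_mapsTo _)
    (fun g z hz => s29rt_mob_deriv_ne_zero _ hz) (fun z hz => s29rt_mob_one hz)
    (fun g g' z hz => s29rt_mob_mul _ _ hz) (F ∘ ofComplex) h₀ hne hh₀ hinv'
  refine ⟨fun τ => h₀ (τ : ℂ), χ, ⟨hh₀.congr_left s29rt_isOpen_U (s29rt_restrict_eqOn h₀), ?_⟩,
    hχp⟩
  intro γ τ
  have := hχ γ (τ : ℂ) τ.im_pos
  rw [s29rt_mob_eq_smul] at this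
  exact this

section Calculus

variable {Γ : Subgroup SL(2, ℤ)} {p : ℕ}

/-- The transformation law of root data, on `ℂ`. -/
theorem s29rt_IsRootData.comp_mob {F h : ℍ → ℂ} {χ : Γ →* ℂˣ}
    (hd : s29rt_IsRootData Γ p F h χ) (γ : Γ) :
    EqOn ((h ∘ ofComplex) ∘ s29rt_mob (γ : SL(2, ℤ)))
      (fun z => (χ γ : ℂ) * (h ∘ ofComplex) z) s29rt_U := by
  intro z hz
  simp only [Function.comp_apply]
  rw [s29rt_mob_eq_smul' _ hz, ofComplex_apply, hd.2 γ, ofComplex_apply_of_im_pos hz]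

/-- **The character depends only on `F`.** -/
theorem s29rt_IsRootData.char_unique (hp : 0 < p) {F h h' : ℍ → ℂ} {χ χ' : Γ →* ℂˣ}
    (hne : ∀ z ∈ s29rt_U, meromorphicOrderAt (F ∘ ofComplex) z ≠ ⊤)
    (hd : s29rt_IsRootData Γ p F h χ) (hd' : s29rt_IsRootData Γ p F h' χ') : χ = χ' := by
  obtain ⟨ζ, hζp, hζ⟩ := hd'.1.unique s29rt_isOpen_U s29rt_isPreconnected_U hp hd.1 hne
  obtain ⟨z₁, hz₁U, hz₁⟩ := hd'.1.exists_ne_zero s29rt_isOpen_U ⟨Complex.I, by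
    show 0 < Complex.I.im
    simp⟩ hp hne
  have hζ0 : ζ ≠ 0 := fun h0 => by
    rw [h0, zero_pow hp.ne'] at hζp
    exact zero_ne_one hζp
  ext γ
  have h1 := hd'.comp_mob γ hz₁U
  have h2 := hd.comp_mob γ hz₁U
  have h3 := hζ (s29rt_mob_mapsTo (γ : SL(2, ℤ)) hz₁U)
  have h4 := hζ hz₁U
  simp only [Function.comp_apply] at h1 h2 h3 h4
  have h5 : ((χ' γ : ℂˣ) : ℂ) * h' (ofComplex z₁) = ((χ γ : ℂˣ) : ℂ) * h' (ofComplex z₁) := by
    rw [← h1, h3, h2, h4]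
    ring
  have hz₁' : h' (ofComplex z₁) ≠ 0 := hz₁
  exact (mul_right_cancel₀ hz₁' h5).symm

/-- **Multiplicativity.** Root data for `F₁` and `F₂` give root data for any `F₃` which agrees
with `F₁ / F₂` outside a discrete set, with character `χ₁ / χ₂`. -/
theorem s29rt_IsRootData.div {F₁ F₂ F₃ h₁ h₂ : ℍ → ℂ} {χ₁ χ₂ : Γ →* ℂˣ}
    (hd₁ : s29rt_IsRootData Γ p F₁ h₁ χ₁) (hd₂ : s29rt_IsRootData Γ p F₂ h₂ χ₂)
    (h3 : (F₃ ∘ ofComplex) =ᶠ[codiscreteWithin s29rt_U]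
      fun z => (F₁ ∘ ofComplex) z / (F₂ ∘ ofComplex) z) :
    ∃ h₃ : ℍ → ℂ, s29rt_IsRootData Γ p F₃ h₃ (χ₁ / χ₂) := by
  have hq : MeromorphicOn ((h₁ ∘ ofComplex) * (h₂ ∘ ofComplex)⁻¹) s29rt_U :=
    hd₁.1.1.meromorphicOn.mul hd₂.1.1.meromorphicOn.inv
  set q := (h₁ ∘ ofComplex) * (h₂ ∘ ofComplex)⁻¹ with hqdef
  set Q := toMeromorphicNFOn q s29rt_U with hQdef
  have hQnf : MeromorphicNFOn Q s29rt_U := meromorphicNFOn_toMeromorphicNFOn _ _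
  have hQq : Q =ᶠ[codiscreteWithin s29rt_U] q :=
    (s29rt_eventuallyEq_codiscreteWithin_iff s29rt_isOpen_U).2 fun z hz =>
      hq.toMeromorphicNFOn_eq_self_on_nhdsNE hz
  have hroot : s29rt_IsRootOn p (F₃ ∘ ofComplex) s29rt_U Q := by
    refine ⟨hQnf, ?_⟩
    filter_upwards [hQq, hd₁.1.2, hd₂.1.2, h3] with z hz1 hz2 hz3 hz4
    rw [hz1, hz4, ← hz2, ← hz3]
    simp only [hqdef, Pi.mul_apply, Pi.inv_apply, mul_pow, inv_pow, div_eq_mul_inv]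
  have hlaw : ∀ γ : Γ, EqOn (Q ∘ s29rt_mob (γ : SL(2, ℤ)))
      (fun z => (((χ₁ / χ₂) γ : ℂˣ) : ℂ) * Q z) s29rt_U := by
    intro γ
    apply s29rt_eqOn_of_nf s29rt_isOpen_U
    · exact fun z hz => (hQnf (s29rt_mob_mapsTo _ hz)).comp_analyticAt (s29rt_mob_analyticAt _ hz)
    · exact fun z hz => (hQnf hz).smul_analytic (g := fun _ => (((χ₁ / χ₂) γ : ℂˣ) : ℂ))
        analyticAt_const (Units.ne_zero _)
    · have h4 := s29rt_comp_eventuallyEq s29rt_isOpen_U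
        (fun z hz => s29rt_mob_analyticAt (γ : SL(2, ℤ)) hz) (s29rt_mob_mapsTo _)
        (fun z hz => s29rt_mob_deriv_ne_zero (γ : SL(2, ℤ)) hz) hQq
      filter_upwards [h4, hQq, self_mem_codiscreteWithin s29rt_U] with z hz1 hz2 hz3
      rw [hz1, hz2]
      have e1 := hd₁.comp_mob γ hz3
      have e2 := hd₂.comp_mob γ hz3
      simp only [Function.comp_apply] at e1 e2
      simp only [hqdef, Function.comp_apply, Pi.mul_apply, Pi.inv_apply, e1, e2,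
        MonoidHom.div_apply, Units.val_div_eq_div_val]
      field_simp
  refine ⟨fun τ => Q (τ : ℂ), hroot.congr_left s29rt_isOpen_U (s29rt_restrict_eqOn Q), ?_⟩
  intro γ τ
  have := hlaw γ τ.im_pos
  simp only [Function.comp_apply] at this
  rw [s29rt_mob_eq_smul] at this
  exact this

/-- **`p`-th powers of invariant functions have trivial character.** -/
theorem s29rt_rootData_of_pow (Γ : Subgroup SL(2, ℤ)) (p : ℕ) {F u : ℍ → ℂ}
    (hu : MeromorphicOn (u ∘ ofComplex) s29rt_U)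
    (hinv : ∀ γ ∈ Γ, ∀ τ : ℍ, u (γ • τ) = u τ)
    (hFu : (F ∘ ofComplex) =ᶠ[codiscreteWithin s29rt_U] fun z => (u ∘ ofComplex) z ^ p) :
    ∃ h : ℍ → ℂ, s29rt_IsRootData Γ p F h 1 ∧
      (h ∘ ofComplex) =ᶠ[codiscreteWithin s29rt_U] (u ∘ ofComplex) := by
  set Q := toMeromorphicNFOn (u ∘ ofComplex) s29rt_U with hQdef
  have hQnf : MeromorphicNFOn Q s29rt_U := meromorphicNFOn_toMeromorphicNFOn _ _
  have hQq : Q =ᶠ[codiscreteWithin s29rt_U] (u ∘ ofComplex) :=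
    (s29rt_eventuallyEq_codiscreteWithin_iff s29rt_isOpen_U).2 fun z hz =>
      hu.toMeromorphicNFOn_eq_self_on_nhdsNE hz
  have hroot : s29rt_IsRootOn p (F ∘ ofComplex) s29rt_U Q := by
    refine ⟨hQnf, ?_⟩
    filter_upwards [hQq, hFu] with z hz1 hz2
    rw [hz1, hz2]
  have hlaw : ∀ γ : Γ, EqOn (Q ∘ s29rt_mob (γ : SL(2, ℤ))) Q s29rt_U := by
    intro γ
    apply s29rt_eqOn_of_nf s29rt_isOpen_U
    · exact fun z hz => (hQnf (s29rt_mob_mapsTo _ hz)).comp_analyticAt (s29rt_mob_analyticAt _ hz)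
    · exact hQnf
    · have h4 := s29rt_comp_eventuallyEq s29rt_isOpen_U
        (fun z hz => s29rt_mob_analyticAt (γ : SL(2, ℤ)) hz) (s29rt_mob_mapsTo _)
        (fun z hz => s29rt_mob_deriv_ne_zero (γ : SL(2, ℤ)) hz) hQq
      filter_upwards [h4, hQq, self_mem_codiscreteWithin s29rt_U] with z hz1 hz2 hz3
      rw [hz1, hz2, Function.comp_apply, s29rt_comp_mob u _ hz3, hinv _ γ.2,
        s29rt_comp_ofComplex_apply u hz3]
  refine ⟨fun τ => Q (τ : ℂ), ⟨hroot.congr_left s29rt_isOpen_U (s29rt_restrict_eqOn Q), ?_⟩, ?_⟩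
  · intro γ τ
    have := hlaw γ τ.im_pos
    simp only [Function.comp_apply] at this
    rw [s29rt_mob_eq_smul] at this
    simpa using this
  · filter_upwards [hQq, self_mem_codiscreteWithin s29rt_U] with z hz1 hz2
    rw [s29rt_restrict_eqOn Q hz2, hz1]

/-- Root data with trivial character are invariant. -/
theorem s29rt_IsRootData.invariant {F h : ℍ → ℂ} (hd : s29rt_IsRootData Γ p F h 1)
    (γ : SL(2, ℤ)) (hγ : γ ∈ Γ) (τ : ℍ) : h (γ • τ) = h τ := by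
  have := hd.2 ⟨γ, hγ⟩ τ
  simpa using this

end Calculus

end Fermat.Agent.S29
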