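/-
S29 (K4) [ROOT-KAN], analytic half (helper17).  Prefix `s29rt_`.

An invariant meromorphic `p`-th root `h` of a quotient `Φa / Φb` of two holomorphic modular
functions of level `Γ₀(N)` is itself a quotient of holomorphic modular functions: the function
`G = Φb · h` (in normal form) is holomorphic on `ℍ`, `Γ₀(N)`-invariant, and of moderate growth in
all translates, with `G ^ p = Φa · Φb ^ (p - 1)`.

* `s29rt_growth_of_pow`   : moderate growth of a `p`-th root
* `s29rt_isModFun_of_pow` : a holomorphic invariant `p`-th root of a modular function is one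
* `s29rt_kan`             : the statement above
-/
import Mathlib
import Fermat.Agent.S24.Translate
import Fermat.Agent.S29.RootSL2

set_option autoImplicit false

open Complex Metric Set Filter Topology UpperHalfPlane Asymptotics CongruenceSubgroup
open scoped MatrixGroups Manifold Real

noncomputable section

namespace Fermat.Agent.S29

open Fermat.Agent.S24

/-- A `p`-th root of a function of moderate growth has moderate growth. -/
theorem s29rt_growth_of_pow {p : ℕ} (hp : 0 < p) {G Ψ : ℍ → ℂ} (hΨ : anB_Growth Ψ)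
    (h : ∀ z, G z ^ p = Ψ z) : anB_Growth G := by
  obtain ⟨M, hM⟩ := hΨ
  obtain ⟨C, hC⟩ := hM.bound
  refine ⟨M, IsBigO.of_bound (1 + |C|) ?_⟩
  filter_upwards [hC] with z hz
  have hexp : (1 : ℝ) ≤ Real.exp (2 * π * M * z.im) := by
    apply Real.one_le_exp
    have := z.im_pos
    positivity
  rw [Real.norm_of_nonneg (Real.exp_pos _).le] at hz ⊢
  have h1 : ‖G z‖ ≤ 1 + ‖G z‖ ^ p := by
    rcases le_or_gt ‖G z‖ 1 with h1 | h1
    · have := pow_nonneg (norm_nonneg (G z)) p
      linarith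
    · have := le_self_pow₀ h1.le hp.ne'
      linarith
  have h2 : ‖G z‖ ^ p = ‖Ψ z‖ := by rw [← norm_pow, h z]
  have h3 : ‖Ψ z‖ ≤ |C| * Real.exp (2 * π * M * z.im) :=
    hz.trans (mul_le_mul_of_nonneg_right (le_abs_self C) (Real.exp_pos _).le)
  calc ‖G z‖ ≤ 1 + ‖Ψ z‖ := by rw [← h2]; exact h1
    _ ≤ Real.exp (2 * π * M * z.im) + |C| * Real.exp (2 * π * M * z.im) := add_le_add hexp h3
    _ = (1 + |C|) * Real.exp (2 * π * M * z.im) := by ring

/-- A holomorphic `Γ₀(N)`-invariant `p`-th root of a modular function is a modular function. -/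
theorem s29rt_isModFun_of_pow (N p : ℕ) (hp : 0 < p) (G Ψ : ℍ → ℂ) (hΨ : anB_IsModFun N Ψ)
    (hG : MDiff G) (hinv : ∀ γ ∈ Gamma0 N, ∀ z : ℍ, G (γ • z) = G z)
    (hpow : ∀ z, G z ^ p = Ψ z) : anB_IsModFun N G where
  holo := hG
  inv := hinv
  growth γ := s29rt_growth_of_pow hp (hΨ.growth γ) (fun z => hpow (γ • z))

/-- A holomorphic function on `ℍ` is analytic on the half plane. -/
theorem s29rt_analyticOnNhd_of_mdiff {f : ℍ → ℂ} (hf : MDiff f) :
    AnalyticOnNhd ℂ (f ∘ ofComplex) s29rt_U :=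
  (UpperHalfPlane.mdifferentiable_iff.1 hf).analyticOnNhd s29rt_isOpen_U

/-- A function on `ℍ` whose extension to the half plane is analytic is holomorphic. -/
theorem s29rt_mdiff_of_analyticOnNhd {Q : ℂ → ℂ} (hQ : AnalyticOnNhd ℂ Q s29rt_U) :
    MDiff (fun τ : ℍ => Q (τ : ℂ)) := by
  rw [UpperHalfPlane.mdifferentiable_iff]
  intro z hz
  have h1 : DifferentiableWithinAt ℂ Q s29rt_U z := (hQ z hz).differentiableAt.differentiableWithinAt
  exact h1.congr (fun w hw => s29rt_restrict_eqOn Q hw) (s29rt_restrict_eqOn Q hz)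

/-- **[ROOT-KAN], analytic half.** Let `Φa`, `Φb` be holomorphic modular functions of level
`Γ₀(N)`, `Φb ≠ 0`, and let `h` be an invariant `p`-th root (root data with trivial character) of
a function `F` with `F · Φb = Φa` where `Φb ≠ 0`.  Then `h = G / Φb` for a holomorphic modular
function `G` of level `Γ₀(N)`, and `G ^ p = Φa · Φb ^ (p - 1)`. -/
theorem s29rt_kan (N p : ℕ) (hp : 0 < p) (Φa Φb F h : ℍ → ℂ)
    (hΦa : anB_IsModFun N Φa) (hΦb : anB_IsModFun N Φb) (hb0 : ∃ z, Φb z ≠ 0)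
    (hF : ∀ z, Φb z ≠ 0 → F z * Φb z = Φa z)
    (hroot : s29rt_IsRootData (Gamma0 N) p F h 1) :
    ∃ G : ℍ → ℂ, anB_IsModFun N G ∧ (∀ z, G z ^ p = Φa z * Φb z ^ (p - 1)) ∧
      ∀ z, Φb z ≠ 0 → G z = Φb z * h z := by
  have hbA : AnalyticOnNhd ℂ (Φb ∘ ofComplex) s29rt_U := s29rt_analyticOnNhd_of_mdiff hΦb.holo
  have haA : AnalyticOnNhd ℂ (Φa ∘ ofComplex) s29rt_U := s29rt_analyticOnNhd_of_mdiff hΦa.holo
  have hh₀ : MeromorphicNFOn (h ∘ ofComplex) s29rt_U := hroot.1.1
  have hq : MeromorphicOn ((Φb ∘ ofComplex) * (h ∘ ofComplex)) s29rt_U :=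
    hbA.meromorphicOn.mul hh₀.meromorphicOn
  set q := (Φb ∘ ofComplex) * (h ∘ ofComplex) with hqdef
  set Q := toMeromorphicNFOn q s29rt_U with hQdef
  have hQnf : MeromorphicNFOn Q s29rt_U := meromorphicNFOn_toMeromorphicNFOn _ _
  have hQq : Q =ᶠ[codiscreteWithin s29rt_U] q :=
    (s29rt_eventuallyEq_codiscreteWithin_iff s29rt_isOpen_U).2 fun z hz =>
      hq.toMeromorphicNFOn_eq_self_on_nhdsNE hz
  obtain ⟨z₀, hz₀⟩ := hb0
  have hbne : (Φb ∘ ofComplex) ⁻¹' {0}ᶜ ∈ codiscreteWithin s29rt_U := by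
    refine hbA.preimage_zero_mem_codiscreteWithin (x := (z₀ : ℂ)) ?_ z₀.im_pos
      ⟨⟨_, z₀.im_pos⟩, s29rt_isPreconnected_U⟩
    rw [Function.comp_apply, ofComplex_apply]
    exact hz₀
  set A := (Φa ∘ ofComplex) * (Φb ∘ ofComplex) ^ (p - 1) with hAdef
  have hAan : AnalyticOnNhd ℂ A s29rt_U := haA.mul (hbA.pow _)
  have hQA : (fun z => Q z ^ p) =ᶠ[codiscreteWithin s29rt_U] A := by
    filter_upwards [hQq, hroot.1.2, hbne, self_mem_codiscreteWithin s29rt_U] with z h1 h2 h3 h4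
    have hbz : Φb ⟨z, h4⟩ ≠ 0 := by
      have : (Φb ∘ ofComplex) z ≠ 0 := h3
      rwa [s29rt_comp_ofComplex_apply Φb h4] at this
    have hFz := hF ⟨z, h4⟩ hbz
    rw [h1]
    simp only [hqdef, hAdef, Pi.mul_apply, Pi.pow_apply, mul_pow]
    rw [h2, s29rt_comp_ofComplex_apply Φb h4, s29rt_comp_ofComplex_apply Φa h4,
      s29rt_comp_ofComplex_apply F h4, ← hFz]
    obtain ⟨k, rfl⟩ : ∃ k, p = k + 1 := ⟨p - 1, by omega⟩
    rw [Nat.add_sub_cancel, pow_succ]
    ring
  have hQan : AnalyticOnNhd ℂ Q s29rt_U := by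
    intro z hz
    rw [← (hQnf hz).meromorphicOrderAt_nonneg_iff_analyticAt]
    have e1 := s29rt_order_of_pow (p := p) (hQnf hz).meromorphicAt
      ((s29rt_eventuallyEq_codiscreteWithin_iff s29rt_isOpen_U).1 hQA z hz)
    have e3 : 0 ≤ meromorphicOrderAt A z := (hAan z hz).meromorphicOrderAt_nonneg
    rw [← e1] at e3
    by_contra hneg
    rw [not_le] at hneg
    have hlt : meromorphicOrderAt Q z ≠ ⊤ := hneg.ne_top
    lift meromorphicOrderAt Q z to ℤ using hlt with m hm
    have hm0 : m < 0 := by exact_mod_cast hneg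
    have e4 : (0 : WithTop ℤ) ≤ ((p * m : ℤ) : WithTop ℤ) := by
      have : ((p * m : ℤ) : WithTop ℤ) = (p : WithTop ℤ) * (m : WithTop ℤ) := by
        push_cast
        rfl
      rw [this]
      exact e3
    have e5 : (0 : ℤ) ≤ p * m := by exact_mod_cast e4
    have hp' : (0 : ℤ) < p := by exact_mod_cast hp
    nlinarith
  have hpowEq : EqOn (fun z => Q z ^ p) A s29rt_U := by
    apply s29rt_eqOn_of_nf s29rt_isOpen_U
    · exact fun z hz => ((hQan z hz).pow p).meromorphicNFAt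
    · exact fun z hz => (hAan z hz).meromorphicNFAt
    · exact hQA
  have hlaw : ∀ γ ∈ Gamma0 N, EqOn (Q ∘ s29rt_mob γ) Q s29rt_U := by
    intro γ hγ
    apply s29rt_eqOn_of_nf s29rt_isOpen_U
    · exact fun z hz => (hQnf (s29rt_mob_mapsTo _ hz)).comp_analyticAt (s29rt_mob_analyticAt _ hz)
    · exact hQnf
    · have h4 := s29rt_comp_eventuallyEq s29rt_isOpen_U
        (fun z hz => s29rt_mob_analyticAt γ hz) (s29rt_mob_mapsTo _)
        (fun z hz => s29rt_mob_deriv_ne_zero γ hz) hQq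
      filter_upwards [h4, hQq, self_mem_codiscreteWithin s29rt_U] with z hz1 hz2 hz3
      rw [hz1, hz2]
      simp only [hqdef, Function.comp_apply, Pi.mul_apply]
      have e1 := s29rt_comp_mob Φb γ hz3
      have e2 := s29rt_comp_mob h γ hz3
      simp only [Function.comp_apply] at e1 e2
      rw [e1, e2, hΦb.inv γ hγ, hroot.invariant γ hγ, ofComplex_apply_of_im_pos hz3]
  refine ⟨fun τ => Q (τ : ℂ), ?_, ?_, ?_⟩
  · refine s29rt_isModFun_of_pow N p hp _ (Φa * Φb ^ (p - 1)) (hΦa.mul (hΦb.pow _))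
      (s29rt_mdiff_of_analyticOnNhd hQan) ?_ ?_
    · intro γ hγ τ
      have := hlaw γ hγ τ.im_pos
      simp only [Function.comp_apply] at this
      rw [s29rt_mob_eq_smul] at this
      exact this
    · intro τ
      have := hpowEq τ.im_pos
      simp only [hAdef, Pi.mul_apply, Pi.pow_apply, Function.comp_apply, ofComplex_apply] at this
      simpa using this
  · intro τ
    have := hpowEq τ.im_pos
    simp only [hAdef, Pi.mul_apply, Pi.pow_apply, Function.comp_apply, ofComplex_apply] at this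
    exact this
  · intro τ hτ
    have hbz : (Φb ∘ ofComplex) (τ : ℂ) ≠ 0 := by
      rw [Function.comp_apply, ofComplex_apply]
      exact hτ
    have hqnf : MeromorphicNFAt q (τ : ℂ) := by
      have := (hh₀ τ.im_pos).smul_analytic (hbA _ τ.im_pos) hbz
      exact this
    have h1 : Q =ᶠ[𝓝[≠] (τ : ℂ)] q := hq.toMeromorphicNFOn_eq_self_on_nhdsNE τ.im_pos
    have h2 := (((hQnf τ.im_pos).eventuallyEq_nhdsNE_iff_eventuallyEq_nhds hqnf).1 h1).eq_of_nhds
    show Q (τ : ℂ) = Φb τ * h τ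
    rw [h2]
    simp only [hqdef, Pi.mul_apply, Function.comp_apply, ofComplex_apply]

end Fermat.Agent.S29
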