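/-
S29 (K4) [ROOT-KAN], algebraic half (helper17).  Prefix `s29rt_`.

For the bridge `Θ₀ : ringA N →+* (ℍ → ℂ)` of the dictionary over `ℂ` (`S29/DictC`): an invariant
meromorphic `p`-th root `h` of `Θ₀ a / Θ₀ b` is `Θ₀ c / Θ₀ d` for `c, d ∈ ringA N`, and
`(c / d) ^ p = a / b` in the function field.

* `s29rt_bridge_injective` : the bridge is injective
* `s29rt_polyA`            : the element `A(j, j_N)` of `ringA N`
* `s29rt_kan_bridge`       : the statement above
-/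
import Mathlib
import Fermat.Agent.S28.UnitMemAN
import Fermat.Agent.S29.DictC.TranslateAN
import Fermat.Agent.S29.RootKan

set_option autoImplicit false

open Complex Set Filter Topology UpperHalfPlane CongruenceSubgroup Polynomial
open scoped MatrixGroups Manifold

noncomputable section

namespace Fermat.Agent.S29

open Fermat.Agent.S24 Fermat.Agent.S28

section Bridge

variable {N : ℕ} {Θ₀ : DictC.ringA N →+* (ℍ → ℂ)} {π : ℂ →+ DictC.QBar}

/-- The bridge is injective. -/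
theorem s29rt_bridge_eq_zero (hB : DictC.IsBridge N Θ₀ π) {x : DictC.ringA N}
    (hx : ∀ z : ℍ, Θ₀ x z = 0) : x = 0 := by
  have h := hB.descent 1 (fun _ => 1) (fun _ => x) (fun z => by simp [hx z])
  simpa [hB.retract_one] using h

theorem s29rt_bridge_injective (hB : DictC.IsBridge N Θ₀ π) : Function.Injective Θ₀ := by
  rw [injective_iff_map_eq_zero]
  intro x hx
  exact s29rt_bridge_eq_zero hB fun z => by rw [hx]; rfl

theorem s29rt_bridge_exists_ne_zero (hB : DictC.IsBridge N Θ₀ π) {x : DictC.ringA N}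
    (hx : x ≠ 0) : ∃ z : ℍ, Θ₀ x z ≠ 0 := by
  by_contra hcon
  exact hx (s29rt_bridge_eq_zero hB fun z => by_contra fun hz => hcon ⟨z, hz⟩)

/-- The element `A(j, j_N)` of `ringA N`. -/
def s29rt_polyA (N : ℕ) [NeZero N] (A : ℂ[X][X]) : DictC.ringA N :=
  (A.map (mapRingHom (algebraMap ℂ (DictC.ringA N)))).evalEval (DictC.jA N)
    (DictC.jDivA N N dvd_rfl)

theorem s29rt_bridge_jA (hB : DictC.IsBridge N Θ₀ π) (z : ℍ) : Θ₀ (DictC.jA N) z = jfun z := by
  have h := hB.map_jDiv 1 (one_dvd N) z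
  have h1 : jfunMul 1 z = jfun z := by
    simp [jfunMul]
  rw [← h1, ← h]
  rfl

theorem s29rt_bridge_polyA [NeZero N] (hB : DictC.IsBridge N Θ₀ π) (A : ℂ[X][X]) (z : ℍ) :
    Θ₀ (s29rt_polyA N A) z = A.evalEval (jfun z) (anB_jd N z) := by
  obtain ⟨ψ, hψa⟩ : ∃ ψ : DictC.ringA N →+* ℂ, ∀ x, ψ x = Θ₀ x z :=
    ⟨(Pi.evalRingHom (fun _ : ℍ => ℂ) z).comp Θ₀, fun x => rfl⟩
  have hcomp : ψ.comp (algebraMap ℂ (DictC.ringA N)) = RingHom.id ℂ := by
    ext c
    rw [RingHom.comp_apply, hψa, hB.map_const c z]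
    rfl
  rw [← hψa, s29rt_polyA, ← map_mapRingHom_evalEval ψ, Polynomial.map_map,
    Polynomial.mapRingHom_comp, hcomp, Polynomial.mapRingHom_id, Polynomial.map_id, hψa, hψa,
    s29rt_bridge_jA hB, hB.map_jDiv N dvd_rfl z, DictC.anB_jfunMul_eq]

end Bridge

/-- **[ROOT-KAN].** An invariant meromorphic `p`-th root of `Θ₀ a / Θ₀ b` comes from the function
field: it is `Θ₀ c / Θ₀ d` with `(c / d) ^ p = a / b`. -/
theorem s29rt_kan_bridge (N : ℕ) [NeZero N] (p : ℕ) (hp : 0 < p)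
    (Θ₀ : DictC.ringA N →+* (ℍ → ℂ)) (π : ℂ →+ DictC.QBar) (hB : DictC.IsBridge N Θ₀ π)
    (a b : DictC.ringA N) (hb : b ≠ 0) (F h : ℍ → ℂ)
    (hF : ∀ z, Θ₀ b z ≠ 0 → F z * Θ₀ b z = Θ₀ a z)
    (hroot : s29rt_IsRootData (Gamma0 N) p F h 1) :
    ∃ c d : DictC.ringA N, d ≠ 0 ∧
      ((c : DictC.FunField N) / (d : DictC.FunField N)) ^ p =
        (a : DictC.FunField N) / (b : DictC.FunField N) ∧
      ∀ z, Θ₀ d z ≠ 0 → h z = Θ₀ c z / Θ₀ d z := by
  obtain ⟨G, hG, hGpow, hGh⟩ := s29rt_kan N p hp (Θ₀ a) (Θ₀ b) F h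
    (DictC.anB_isModFun_bridge hB a) (DictC.anB_isModFun_bridge hB b)
    (s29rt_bridge_exists_ne_zero hB hb) hF hroot
  obtain ⟨A, B, hAB, z₁, hz₁⟩ := umem_lagrange N hG
  set c := s29rt_polyA N A with hc
  set b' := s29rt_polyA N B with hb'
  have hΘc : ∀ z, Θ₀ c z = G z * Θ₀ b' z := fun z => by
    rw [hc, hb', s29rt_bridge_polyA hB, s29rt_bridge_polyA hB, hAB]
  have hb'0 : b' ≠ 0 := by
    intro h0
    apply hz₁
    rw [← s29rt_bridge_polyA hB B z₁, ← hb', h0, map_zero]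
    rfl
  have hd0 : b * b' ≠ 0 := mul_ne_zero hb hb'0
  refine ⟨c, b * b', hd0, ?_, ?_⟩
  · have hkey : c ^ p * b = a * (b * b') ^ p := by
      apply s29rt_bridge_injective hB
      funext z
      simp only [map_mul, map_pow, Pi.mul_apply, Pi.pow_apply]
      rw [hΘc, mul_pow, hGpow]
      obtain ⟨k, rfl⟩ : ∃ k, p = k + 1 := ⟨p - 1, by omega⟩
      rw [Nat.add_sub_cancel]
      ring
    have hkey' : (c : DictC.FunField N) ^ p * (b : DictC.FunField N) =
        (a : DictC.FunField N) * ((b : DictC.FunField N) * (b' : DictC.FunField N)) ^ p := by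
      have := congrArg (fun x : DictC.ringA N => (x : DictC.FunField N)) hkey
      simpa using this
    have hbF : (b : DictC.FunField N) ≠ 0 := fun h0 => hb (Subtype.ext h0)
    have hdF : ((b * b' : DictC.ringA N) : DictC.FunField N) ≠ 0 := fun h0 =>
      hd0 (Subtype.ext h0)
    rw [div_pow, div_eq_div_iff (pow_ne_zero _ hdF) hbF]
    rw [hkey']
    push_cast
    ring
  · intro z hz
    rw [map_mul, Pi.mul_apply] at hz
    have hbz : Θ₀ b z ≠ 0 := left_ne_zero_of_mul hz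
    rw [eq_div_iff (by rw [map_mul, Pi.mul_apply]; exact hz), hΘc, hGh z hbz, map_mul,
      Pi.mul_apply]
    ring

end Fermat.Agent.S29
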